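import Mathlib
import Fermat.Prelude.Def_AlgebraicCurve_CanonicalDivisor

set_option autoImplicit false

namespace Fermat.Agent.S24.helper82

open AlgebraicCurve KaehlerDifferential IntermediateField

variable {K F : Type*} [Field K] [Field F] [Algebra K F]

/-- Over an algebraically closed field, an algebraic element is a constant. -/
theorem mem_range_of_isAlgebraic [IsAlgClosed K] {u : F} (hu : IsAlgebraic K u) :
    u ∈ Set.range (algebraMap K F) := by
  have : Algebra.IsAlgebraic K K⟮u⟯ := IntermediateField.isAlgebraic_adjoin_simple hu.isIntegral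
  have h := IntermediateField.eq_bot_of_isAlgClosed_of_isAlgebraic K⟮u⟯
  have hu' : u ∈ K⟮u⟯ := mem_adjoin_simple_self K u
  rw [h] at hu'
  exact IntermediateField.mem_bot.mp hu'

theorem transcendental_of_not_mem_range [IsAlgClosed K] {u : F}
    (hu : u ∉ Set.range (algebraMap K F)) : Transcendental K u :=
  fun h => hu (mem_range_of_isAlgebraic h)

open scoped IntermediateField.algebraAdjoinAdjoin in
/-- `F` is algebraic over the subalgebra `K[x]`. -/
theorem isAlgebraic_algebraAdjoin (x : F) [FiniteDimensional K⟮x⟯ F] :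
    Algebra.IsAlgebraic (Algebra.adjoin K {x}) F := by
  have h : Algebra.IsAlgebraic K⟮x⟯ F := Algebra.IsAlgebraic.of_finite _ _
  exact (IsFractionRing.comap_isAlgebraic_iff (A := Algebra.adjoin K {x}) (K := K⟮x⟯) (C := F)).mpr h

theorem trdeg_le_one (x : F) [FiniteDimensional K⟮x⟯ F] : Algebra.trdeg K F ≤ 1 := by
  have := isAlgebraic_algebraAdjoin (K := K) x
  have h := Algebra.IsAlgebraic.trdeg_le_cardinalMk K ({x} : Set F)
  simpa using h

/-- If `F / K(x)` is finite and `u` is transcendental then `F / K(u)` is algebraic. -/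
theorem isAlgebraic_adjoin_of_transcendental (x : F) [FiniteDimensional K⟮x⟯ F]
    (u : F) (hu : Transcendental K u) : Algebra.IsAlgebraic K⟮u⟯ F := by
  have hind : AlgebraicIndependent K (fun _ : PUnit.{1} => u) :=
    algebraicIndependent_unique_type_iff.mpr hu
  have hle : Cardinal.lift.{0} (Algebra.trdeg K F) ≤ Cardinal.lift (Cardinal.mk PUnit.{1}) := by
    have := trdeg_le_one (K := K) x
    simpa using this
  have hb : IsTranscendenceBasis K (fun _ : PUnit.{1} => u) :=
    hind.isTranscendenceBasis_of_lift_trdeg_le_of_finite hle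
  have h := hb.isAlgebraic_field
  have hr : Set.range (fun _ : PUnit.{1} => u) = {u} := by
    ext y; simp [eq_comm]
  rwa [hr] at h

theorem essFiniteType_of_finite_adjoin (x : F) [FiniteDimensional K⟮x⟯ F] :
    Algebra.EssFiniteType K F := by
  have h1 : Algebra.EssFiniteType K K⟮x⟯ :=
    IntermediateField.essFiniteType_iff.mpr
      (IntermediateField.fg_def.mpr ⟨{x}, Set.finite_singleton x, rfl⟩)
  have h2 : Algebra.EssFiniteType K⟮x⟯ F := inferInstance
  exact Algebra.EssFiniteType.comp K K⟮x⟯ F

/-- FF0 -/
theorem ff_transcendental [IsAlgClosed K] (x : F) (_hx : Transcendental K x)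
    [FiniteDimensional K⟮x⟯ F]
    (u : F) (hu : u ∉ Set.range (algebraMap K F)) :
    Transcendental K u ∧ FiniteDimensional K⟮u⟯ F := by
  have hu' := transcendental_of_not_mem_range hu
  refine ⟨hu', ?_⟩
  have := isAlgebraic_adjoin_of_transcendental (K := K) x u hu'
  have := essFiniteType_of_finite_adjoin (K := K) x
  have : Algebra.EssFiniteType K⟮u⟯ F := Algebra.EssFiniteType.of_comp K K⟮u⟯ F
  exact Algebra.finite_of_essFiniteType_of_isAlgebraic

section Place

variable (v : Place K F)

theorem ord_nonneg_of_mem {f : F} (hf : f ∈ v.toValuationSubring) : 0 ≤ v.ord f := by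
  rcases eq_or_ne f 0 with rfl | hf0
  · simp
  obtain ⟨π, hπ⟩ := IsDiscreteValuationRing.exists_irreducible v.toValuationSubring
  obtain ⟨n, u, hu⟩ :=
    IsDiscreteValuationRing.eq_unit_mul_pow_irreducible
      (x := (⟨f, hf⟩ : v.toValuationSubring)) (by simpa [Subtype.ext_iff] using hf0) hπ
  have hcoe : f = ((u : v.toValuationSubring) : F) * ((π : F) ^ (n : ℤ)) := by
    have h := congrArg (Subtype.val) hu
    push_cast at h
    rw [zpow_natCast]
    exact h
  rw [hcoe, v.ord_unit_smul_zpow u hπ (n : ℤ)]
  exact Int.natCast_nonneg n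

theorem mem_of_ord_nonneg {f : F} (h : 0 ≤ v.ord f) :
    f ∈ v.toValuationSubring := by
  rcases eq_or_ne f 0 with rfl | hf
  · exact zero_mem _
  obtain ⟨π, hπ⟩ := IsDiscreteValuationRing.exists_irreducible v.toValuationSubring
  obtain ⟨u, hu⟩ := v.exists_unit_mul_zpow hf hπ
  rw [hu, show v.ord f = (((v.ord f).toNat : ℕ) : ℤ) from (Int.toNat_of_nonneg h).symm,
    zpow_natCast]
  exact mul_mem (u : v.toValuationSubring).2 (pow_mem (π : v.toValuationSubring).2 _)

theorem mem_iff_ord_nonneg {f : F} :
    f ∈ v.toValuationSubring ↔ 0 ≤ v.ord f :=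
  ⟨ord_nonneg_of_mem v, mem_of_ord_nonneg v⟩

/-- A nonzero element of the maximal ideal has positive order. -/
theorem ord_pos_of_mem_maximalIdeal {y : v.toValuationSubring}
    (hy : y ∈ IsLocalRing.maximalIdeal v.toValuationSubring) (hy0 : y ≠ 0) :
    0 < v.ord (y : F) := by
  obtain ⟨π, hπ⟩ := IsDiscreteValuationRing.exists_irreducible v.toValuationSubring
  obtain ⟨n, u, hu⟩ :=
    IsDiscreteValuationRing.eq_unit_mul_pow_irreducible (x := y) hy0 hπ
  have hcoe : (y : F) = ((u : v.toValuationSubring) : F) * ((π : F) ^ (n : ℤ)) := by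
    have h := congrArg (Subtype.val) hu
    push_cast at h
    rw [zpow_natCast]
    exact h
  rw [hcoe, v.ord_unit_smul_zpow u hπ (n : ℤ)]
  rcases Nat.eq_zero_or_pos n with hn | hn
  · exfalso
    rw [hn, pow_zero, mul_one] at hu
    rw [IsLocalRing.mem_maximalIdeal, mem_nonunits_iff] at hy
    exact hy (hu ▸ u.isUnit)
  · exact_mod_cast hn

/-- An element of positive order lies in the maximal ideal. -/
theorem mem_maximalIdeal_of_ord_pos {f : F} (h : 0 < v.ord f) :
    ∃ y : v.toValuationSubring, (y : F) = f ∧
      y ∈ IsLocalRing.maximalIdeal v.toValuationSubring := by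
  have hmem := mem_of_ord_nonneg v h.le
  refine ⟨⟨f, hmem⟩, rfl, ?_⟩
  rw [IsLocalRing.mem_maximalIdeal, mem_nonunits_iff]
  intro hu
  have := v.ord_coe_unit hu.unit
  rw [IsUnit.unit_spec] at this
  change v.ord f = 0 at this
  omega

theorem ord_algebraMap (a : K) : v.ord (algebraMap K F a) = 0 := by
  rcases eq_or_ne a 0 with rfl | ha
  · simp
  have hu : IsUnit (algebraMap K v.toValuationSubring a) :=
    (isUnit_iff_ne_zero.mpr ha).map _
  have := v.ord_coe_unit hu.unit
  rw [IsUnit.unit_spec] at this
  exact this

end Place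

section Residue

/-- `aeval` of a polynomial at an element of the valuation ring, viewed in `F`. -/
theorem coe_aeval (v : Place K F) (y : v.toValuationSubring) (p : Polynomial K) :
    ((Polynomial.aeval y p : v.toValuationSubring) : F) = Polynomial.aeval (y : F) p :=
  (Polynomial.aeval_algebraMap_apply F y p).symm

theorem residue_aeval (v : Place K F) (y : v.toValuationSubring) (p : Polynomial K) :
    IsLocalRing.residue v.toValuationSubring (Polynomial.aeval y p) =
      Polynomial.aeval (IsLocalRing.residue v.toValuationSubring y) p := by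
  rw [Polynomial.aeval_def, Polynomial.aeval_def, Polynomial.hom_eval₂]
  rfl

/-- The residue field of a place of a function field of one variable over an algebraically
closed field is the field of constants. -/
theorem exists_sub_mem_maximalIdeal [IsAlgClosed K] (x : F) [FiniteDimensional K⟮x⟯ F] (v : Place K F)
    (y : v.toValuationSubring) :
    ∃ a : K, y - algebraMap K v.toValuationSubring a ∈
      IsLocalRing.maximalIdeal v.toValuationSubring := by
  by_contra hcon
  simp only [not_exists] at hcon
  have hy1 : IsLocalRing.residue v.toValuationSubring y ∉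
      Set.range (algebraMap K (IsLocalRing.ResidueField v.toValuationSubring)) := by
    rintro ⟨a, ha⟩
    apply hcon a
    rw [← IsLocalRing.residue_eq_zero_iff, map_sub, ← ha, sub_eq_zero]
    rfl
  have hyt : Transcendental K (IsLocalRing.residue v.toValuationSubring y) :=
    transcendental_of_not_mem_range hy1
  have hyF : (y : F) ∉ Set.range (algebraMap K F) := by
    rintro ⟨a, ha⟩
    apply hy1
    refine ⟨a, ?_⟩
    have : y = algebraMap K v.toValuationSubring a := Subtype.ext ha.symm
    rw [this]
    rfl
  have hyT := transcendental_of_not_mem_range hyF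
  have halg := isAlgebraic_adjoin_of_transcendental (K := K) x (y : F) hyT
  -- `K(y) ⊆ O_v`
  have hle : ∀ z ∈ K⟮(y : F)⟯, z ∈ v.toValuationSubring := by
    intro z hz
    obtain ⟨r, s, rfl⟩ := (IntermediateField.mem_adjoin_simple_iff K z).mp hz
    rcases eq_or_ne s 0 with rfl | hs
    · simp
    have hunit : IsUnit (Polynomial.aeval y s : v.toValuationSubring) := by
      rw [← IsLocalRing.residue_ne_zero_iff_isUnit, residue_aeval]
      intro h0
      exact hs ((transcendental_iff.mp hyt) s h0)
    rw [← coe_aeval v y r, ← coe_aeval v y s, div_eq_mul_inv]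
    refine mul_mem (Subtype.mem _) ?_
    obtain ⟨w, hw⟩ := hunit.exists_left_inv
    have h2 := congrArg Subtype.val hw
    push_cast at h2
    rw [← eq_inv_of_mul_eq_one_left h2]
    exact Subtype.mem _
  -- hence `O_v = F`
  apply v.ne_top'
  refine SetLike.ext fun f => ⟨fun _ => ValuationSubring.mem_top f, fun _ => ?_⟩
  let _ : Algebra K⟮(y : F)⟯ v.toValuationSubring :=
    (RingHom.codRestrict (algebraMap K⟮(y : F)⟯ F) v.toValuationSubring.toSubring
      (fun z => hle z.1 z.2)).toAlgebra
  have : IsScalarTower K⟮(y : F)⟯ v.toValuationSubring F :=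
    IsScalarTower.of_algebraMap_eq (fun _ => rfl)
  have hint : IsIntegral K⟮(y : F)⟯ f := (halg.isAlgebraic f).isIntegral
  have hint' : IsIntegral v.toValuationSubring f := hint.tower_top
  obtain ⟨g, hg⟩ := (IsIntegrallyClosed.isIntegral_iff (R := v.toValuationSubring) (K := F)).mp hint'
  rw [← hg]
  exact g.2

theorem algebraMap_residueField_surjective [IsAlgClosed K] (x : F) [FiniteDimensional K⟮x⟯ F]
    (v : Place K F) :
    Function.Surjective (algebraMap K (IsLocalRing.ResidueField v.toValuationSubring)) := by
  intro z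
  obtain ⟨y, rfl⟩ := IsLocalRing.residue_surjective z
  obtain ⟨a, ha⟩ := exists_sub_mem_maximalIdeal x v y
  refine ⟨a, ?_⟩
  rw [← IsLocalRing.residue_eq_zero_iff, map_sub, sub_eq_zero] at ha
  rw [ha]
  rfl

/-- FF-a -/
theorem ff_deg_eq_one [IsAlgClosed K] (x : F) (_hx : Transcendental K x)
    [FiniteDimensional K⟮x⟯ F] (v : Place K F) : v.deg = 1 := by
  have hbij : Function.Bijective (Algebra.linearMap K (IsLocalRing.ResidueField v.toValuationSubring)) :=
    ⟨(algebraMap K (IsLocalRing.ResidueField v.toValuationSubring)).injective,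
      algebraMap_residueField_surjective x v⟩
  have e := LinearEquiv.ofBijective _ hbij
  unfold Place.deg
  rw [← e.finrank_eq, Module.finrank_self]

/-- FF-a' : residue of an integral element. -/
theorem ff_exists_residue [IsAlgClosed K] (x : F) (_hx : Transcendental K x)
    [FiniteDimensional K⟮x⟯ F]
    (v : Place K F) (f : F) (hf : 0 ≤ v.ord f) :
    ∃ a : K, f = algebraMap K F a ∨ 0 < v.ord (f - algebraMap K F a) := by
  have hmem := mem_of_ord_nonneg v hf
  obtain ⟨a, ha⟩ := exists_sub_mem_maximalIdeal x v ⟨f, hmem⟩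
  refine ⟨a, ?_⟩
  by_cases h : f = algebraMap K F a
  · exact Or.inl h
  · right
    have h0 : (⟨f, hmem⟩ - algebraMap K v.toValuationSubring a : v.toValuationSubring) ≠ 0 := by
      intro h0
      apply h
      have := congrArg Subtype.val h0
      push_cast at this
      rw [sub_eq_zero] at this
      exact this
    have := ord_pos_of_mem_maximalIdeal v ha h0
    push_cast at this
    exact this

end Residue

section Kaehler

/-- The differential of an element of `K(t)` is a multiple of `dt`. -/
theorem D_mem_span_of_mem_adjoin (t : F) {l : F} (hl : l ∈ K⟮t⟯) :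
    D K F l ∈ Submodule.span F {D K F t} := by
  obtain ⟨r, s, rfl⟩ := (IntermediateField.mem_adjoin_simple_iff K l).mp hl
  have h1 : ∀ p : Polynomial K, D K F (Polynomial.aeval t p) ∈ Submodule.span F {D K F t} := by
    intro p
    rw [Derivation.map_aeval]
    exact Submodule.smul_mem _ _ (Submodule.mem_span_singleton_self _)
  rw [div_eq_mul_inv, Derivation.leibniz, Derivation.leibniz_inv]
  refine Submodule.add_mem _ (Submodule.smul_mem _ _ ?_) (Submodule.smul_mem _ _ ?_)
  · exact Submodule.smul_mem _ _ (h1 s)
  · exact h1 r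

variable [CharZero K]

/-- FF-b -/
theorem span_D_eq_top_of_isAlgebraic (t : F) (halg : Algebra.IsAlgebraic K⟮t⟯ F) :
    Submodule.span F {D K F t} = ⊤ := by
  have : CharZero K⟮t⟯ := charZero_of_injective_algebraMap (algebraMap K K⟮t⟯).injective
  have : Algebra.IsSeparable K⟮t⟯ F := Algebra.IsAlgebraic.isSeparable_of_perfectField
  have : Algebra.FormallyUnramified K⟮t⟯ F := Algebra.FormallyUnramified.of_isSeparable K⟮t⟯ F
  have hrange : LinearMap.range (mapBaseChange K K⟮t⟯ F) = ⊤ := by
    rw [KaehlerDifferential.range_mapBaseChange, LinearMap.ker_eq_top]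
    exact Subsingleton.elim _ _
  rw [eq_top_iff, ← hrange]
  rintro _ ⟨z, rfl⟩
  induction z using TensorProduct.induction_on with
  | zero => simp
  | tmul x y =>
    rw [mapBaseChange_tmul]
    refine Submodule.smul_mem _ _ ?_
    have hy : y ∈ Submodule.span K⟮t⟯ (Set.range (D K K⟮t⟯)) := by
      rw [span_range_derivation]; trivial
    induction hy using Submodule.span_induction with
    | mem y hy =>
      obtain ⟨l, rfl⟩ := hy
      rw [map_D]
      exact D_mem_span_of_mem_adjoin t l.2
    | zero => simp
    | add y z _ _ hy hz => rw [map_add]; exact Submodule.add_mem _ hy hz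
    | smul a y _ hy =>
      rw [map_smul, ← algebraMap_smul F a]
      exact Submodule.smul_mem _ _ hy
  | add x y hx hy => rw [map_add]; exact Submodule.add_mem _ hx hy

variable [IsAlgClosed K]

theorem ff_span_D_eq_top (x : F) (_hx : Transcendental K x) [FiniteDimensional K⟮x⟯ F]
    (t : F) (ht : t ∉ Set.range (algebraMap K F)) :
    Submodule.span F {D K F t} = ⊤ :=
  span_D_eq_top_of_isAlgebraic t
    (isAlgebraic_adjoin_of_transcendental x t (transcendental_of_not_mem_range ht))

theorem ff_D_ne_zero (x : F) (hx : Transcendental K x) [FiniteDimensional K⟮x⟯ F]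
    (t : F) (ht : t ∉ Set.range (algebraMap K F)) :
    D K F t ≠ 0 := by
  intro h0
  have hspan := ff_span_D_eq_top x hx t ht
  rw [h0, Submodule.span_zero_singleton] at hspan
  have hsub : Subsingleton Ω[F⁄K] := by
    refine ⟨fun a b => ?_⟩
    have ha : a ∈ (⊥ : Submodule F Ω[F⁄K]) := hspan ▸ Submodule.mem_top
    have hb : b ∈ (⊥ : Submodule F Ω[F⁄K]) := hspan ▸ Submodule.mem_top
    rw [Submodule.mem_bot] at ha hb
    rw [ha, hb]
  have hun : Algebra.FormallyUnramified K F := ⟨hsub⟩
  have := essFiniteType_of_finite_adjoin (K := K) x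
  have hsep : Algebra.IsSeparable K F := (Algebra.FormallyUnramified.iff_isSeparable K F).mp hun
  have halg : IsAlgebraic K t := (Algebra.IsSeparable.isIntegral K t).isAlgebraic
  exact ht (mem_range_of_isAlgebraic halg)

/-- The chosen local coordinate at any place has a generating differential. -/
theorem ff_dCoordGenerates (x : F) (hx : Transcendental K x) [FiniteDimensional K⟮x⟯ F]
    (v : Place K F) : v.DCoordGenerates := by
  have hirr := (IsDiscreteValuationRing.exists_irreducible v.toValuationSubring).choose_spec
  have hord := v.ord_coe_irreducible hirr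
  have hnot : (((IsDiscreteValuationRing.exists_irreducible v.toValuationSubring).choose :
      v.toValuationSubring) : F) ∉ Set.range (algebraMap K F) := by
    rintro ⟨a, ha⟩
    rw [← ha, ord_algebraMap] at hord
    exact zero_ne_one hord
  refine ⟨?_⟩
  show Submodule.span F {D K F
    (((IsDiscreteValuationRing.exists_irreducible v.toValuationSubring).choose :
      v.toValuationSubring) : F)} = ⊤
  exact ff_span_D_eq_top x hx _ hnot

end Kaehler

end Fermat.Agent.S24.helper82
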