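import Mathlib
import Fermat.Prelude.Def_AlgebraicCurve_CanonicalDivisor

/-!
# S24-RH: abstract Riemann–Hurwitz (helper55)

`riemann_hurwitz_core`: the bookkeeping, with all function-field inputs as explicit hypotheses
about the fixed element `x`.

`riemann_hurwitz_of_ff`: the same with the inputs in the shape of the S24 interface lemmas
(`ff_*` of `helper75_Interface`), universally quantified.
-/

set_option autoImplicit false

namespace Fermat.Agent.S24.helper55

open AlgebraicCurve KaehlerDifferential IntermediateField WithZero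

variable {K F : Type*} [Field K] [Field F] [Algebra K F]

section OrdBasics

variable (v : Place K F)

theorem ord_pos_iff {f : F} (hf : f ≠ 0) : 0 < v.ord f ↔ v.adicValuation f < 1 := by
  have h0 := v.adicValuation_ne_zero hf
  rw [Place.ord, neg_pos, WithZero.log_lt_iff_lt_exp h0, WithZero.exp_zero]

theorem ord_neg_iff {f : F} (hf : f ≠ 0) : v.ord f < 0 ↔ 1 < v.adicValuation f := by
  have h0 := v.adicValuation_ne_zero hf
  rw [Place.ord, neg_lt_zero, WithZero.lt_log_iff_exp_lt h0, WithZero.exp_zero]

theorem ne_zero_of_ord_pos {f : F} (h : 0 < v.ord f) : f ≠ 0 := by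
  rintro rfl
  simp at h

theorem ne_zero_of_ord_neg {f : F} (h : v.ord f < 0) : f ≠ 0 := by
  rintro rfl
  simp at h

theorem adicValuation_algebraMap_le (c : K) : v.adicValuation (algebraMap K F c) ≤ 1 := by
  have h := v.adicValuation_coe (algebraMap K v.toValuationSubring c)
  rw [Place.coe_algebraMap] at h
  rw [h]
  exact IsDedekindDomain.HeightOneSpectrum.intValuation_le_one _ _

theorem adicValuation_algebraMap {c : K} (hc : c ≠ 0) :
    v.adicValuation (algebraMap K F c) = 1 := by
  refine le_antisymm (adicValuation_algebraMap_le v c) ?_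
  have h1 := adicValuation_algebraMap_le v c⁻¹
  have hmul : v.adicValuation (algebraMap K F c) * v.adicValuation (algebraMap K F c⁻¹) = 1 := by
    rw [← map_mul, ← map_mul, mul_inv_cancel₀ hc, map_one, map_one]
  have hne : v.adicValuation (algebraMap K F c) ≠ 0 :=
    v.adicValuation_ne_zero (by simpa using hc)
  calc (1 : ℤᵐ⁰) = v.adicValuation (algebraMap K F c) * v.adicValuation (algebraMap K F c⁻¹) :=
        hmul.symm
    _ ≤ v.adicValuation (algebraMap K F c) * 1 := by gcongr
    _ = v.adicValuation (algebraMap K F c) := mul_one _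

theorem ord_algebraMap (c : K) : v.ord (algebraMap K F c) = 0 := by
  rcases eq_or_ne c 0 with rfl | hc
  · simp
  · simp [Place.ord, adicValuation_algebraMap v hc]

/-- A pole of `x` is not a zero of `x - a`. -/
theorem not_ord_sub_pos_of_ord_neg {x : F} (a : K) (h : v.ord x < 0) :
    ¬ 0 < v.ord (x - algebraMap K F a) := by
  intro hpos
  have hx := ne_zero_of_ord_neg v h
  have hxa := ne_zero_of_ord_pos v hpos
  rw [ord_neg_iff v hx] at h
  rw [ord_pos_iff v hxa] at hpos
  have hle : v.adicValuation x ≤ 1 := by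
    have : x = (x - algebraMap K F a) + algebraMap K F a := by ring
    rw [this]
    exact (Valuation.map_add_le_max' _ _ _).trans
      (max_le hpos.le (adicValuation_algebraMap_le v a))
  exact absurd h (not_lt.2 hle)

/-- A place is a zero of `x - a` for at most one `a`. -/
theorem eq_of_ord_sub_pos {x : F} {a b : K} (ha : 0 < v.ord (x - algebraMap K F a))
    (hb : 0 < v.ord (x - algebraMap K F b)) : a = b := by
  by_contra hab
  have hxa := ne_zero_of_ord_pos v ha
  have hxb := ne_zero_of_ord_pos v hb
  rw [ord_pos_iff v hxa] at ha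
  rw [ord_pos_iff v hxb] at hb
  have h1 : v.adicValuation (algebraMap K F (b - a)) = 1 :=
    adicValuation_algebraMap v (sub_ne_zero.2 (Ne.symm hab))
  have h2 : v.adicValuation (algebraMap K F (b - a)) < 1 := by
    have : algebraMap K F (b - a) = (x - algebraMap K F a) - (x - algebraMap K F b) := by
      rw [map_sub]; ring
    rw [this]
    exact (Valuation.map_sub _ _ _).trans_lt (max_lt ha hb)
  exact absurd h1 h2.ne

end OrdBasics

section Core

/-- Abstract Riemann–Hurwitz, core bookkeeping. All inputs are hypotheses about `x`. -/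
theorem riemann_hurwitz_core (x : F) (n : ℤ)
    (hconst : ∀ a : K, x ≠ algebraMap K F a)
    (h_deg : ∀ v : Place K F, v.deg = 1)
    (h_res : ∀ v : Place K F, 0 ≤ v.ord x →
      ∃ a : K, x = algebraMap K F a ∨ 0 < v.ord (x - algebraMap K F a))
    (h_span : Submodule.span F {D K F x} = ⊤)
    (h_Dne : D K F x ≠ 0)
    (h_gen : ∀ v : Place K F, v.DCoordGenerates)
    (h_pd : HasPrincipalDivisors K F)
    (hZ : ∀ a : K, {w : Place K F | 0 < w.ord (x - algebraMap K F a)}.Finite)
    (hP : {w : Place K F | w.ord x < 0}.Finite)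
    (hsumZ : ∀ a : K, ∑ w ∈ (hZ a).toFinset, w.ord (x - algebraMap K F a) = n)
    (hsumP : ∑ w ∈ hP.toFinset, w.ord x = -n)
    (h_zero : ∀ (a : K) (w : Place K F), 0 < w.ord (x - algebraMap K F a) →
      w.ordDifferential (D K F x) = w.ord (x - algebraMap K F a) - 1)
    (h_pole : ∀ w : Place K F, w.ord x < 0 → w.ordDifferential (D K F x) = w.ord x - 1)
    (B : Finset K)
    (hunr : ∀ (w : Place K F) (a : K), a ∉ B → 0 < w.ord (x - algebraMap K F a) →
      w.ord (x - algebraMap K F a) = 1)
    (ω : Ω[F⁄K]) (hω : ω ≠ 0) (Dv : Divisor K F) (hD : ∀ v, Dv v = v.ordDifferential ω) :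
    Divisor.degree Dv + 2 * n
      = ∑ a ∈ B, (n - (Nat.card {w : Place K F // 0 < w.ord (x - algebraMap K F a)} : ℤ))
        + (n - (Nat.card {w : Place K F // w.ord x < 0} : ℤ)) := by
  classical
  have : Nontrivial Ω[F⁄K] := ⟨⟨D K F x, 0, h_Dne⟩⟩
  -- Step A: ω = g • D x
  obtain ⟨g, hg⟩ : ∃ g : F, g • D K F x = ω := by
    have : ω ∈ Submodule.span F {D K F x} := h_span ▸ Submodule.mem_top
    exact Submodule.mem_span_singleton.1 this
  have hg0 : g ≠ 0 := by
    rintro rfl
    exact hω (by rw [← hg, zero_smul])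
  -- Step B: pointwise formula
  have hpt : ∀ v : Place K F, Dv v = v.ord g + v.ordDifferential (D K F x) := by
    intro v
    have := h_gen v
    have hc : v.differentialCoeff (D K F x) ≠ 0 := by
      intro h0
      apply h_Dne
      rw [← v.differentialCoeff_smul_dCoord (D K F x), h0, zero_smul]
    rw [hD v, ← hg, v.ordDifferential_smul hg0 hc]
  -- Step C: divisor of g
  obtain ⟨Dg, hDg, hDg0⟩ := h_pd.exists_divisor g hg0
  -- Step D
  set E : Divisor K F := Dv - Dg with hE
  have hEv : ∀ v : Place K F, E v = v.ordDifferential (D K F x) := by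
    intro v
    rw [hE, Finsupp.sub_apply, hpt v, hDg v]
    ring
  have hdegE : Divisor.degree E = Divisor.degree Dv := by
    rw [hE, map_sub, hDg0, sub_zero]
  -- Step E: degree as a sum
  have hdeg_sum : Divisor.degree E = ∑ v ∈ E.support, E v := by
    have : Divisor.degree E = E.sum fun v m => m * (v.deg : ℤ) := by
      simp [Divisor.degree, Finsupp.liftAddHom_apply]
    rw [this, Finsupp.sum]
    refine Finset.sum_congr rfl fun v _ => ?_
    rw [h_deg v]
    simp
  -- Step F: the finite set T
  set P : Finset (Place K F) := hP.toFinset with hPdef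
  set Z : K → Finset (Place K F) := fun a => (hZ a).toFinset with hZdef
  have hmemP : ∀ v, v ∈ P ↔ v.ord x < 0 := fun v => by simp [hPdef]
  have hmemZ : ∀ a v, v ∈ Z a ↔ 0 < v.ord (x - algebraMap K F a) := fun a v => by simp [hZdef]
  set T : Finset (Place K F) := P ∪ B.biUnion Z with hT
  have hsupp : E.support ⊆ T := by
    intro v hv
    rw [Finsupp.mem_support_iff, hEv v] at hv
    rw [hT, Finset.mem_union]
    by_cases hneg : v.ord x < 0
    · exact Or.inl ((hmemP v).2 hneg)
    · right
      obtain ⟨a, ha | ha⟩ := h_res v (not_lt.1 hneg)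
      · exact absurd ha (hconst a)
      · rw [Finset.mem_biUnion]
        refine ⟨a, ?_, (hmemZ a v).2 ha⟩
        by_contra haB
        have h1 := hunr v a haB ha
        rw [h_zero a v ha, h1] at hv
        exact hv (by norm_num)
  have hsumT : ∑ v ∈ E.support, E v = ∑ v ∈ T, E v := by
    refine Finset.sum_subset hsupp fun v _ hv => ?_
    simpa [Finsupp.mem_support_iff] using hv
  -- Step G: split the sum
  have hdisj1 : Disjoint P (B.biUnion Z) := by
    rw [Finset.disjoint_left]
    intro v hvP hvZ
    rw [Finset.mem_biUnion] at hvZ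
    obtain ⟨a, _, hva⟩ := hvZ
    exact not_ord_sub_pos_of_ord_neg v a ((hmemP v).1 hvP) ((hmemZ a v).1 hva)
  have hdisj2 : (B : Set K).PairwiseDisjoint Z := by
    intro a _ b _ hab
    rw [Function.onFun, Finset.disjoint_left]
    intro v hva hvb
    exact hab (eq_of_ord_sub_pos v ((hmemZ a v).1 hva) ((hmemZ b v).1 hvb))
  have hsplit : ∑ v ∈ T, E v = ∑ v ∈ P, E v + ∑ a ∈ B, ∑ v ∈ Z a, E v := by
    rw [hT, Finset.sum_union hdisj1, Finset.sum_biUnion hdisj2]
  -- Step H: evaluate the pieces
  have hcardP : (Nat.card {w : Place K F // w.ord x < 0} : ℤ) = (P.card : ℤ) := by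
    have : Nat.card {w : Place K F // w.ord x < 0} = P.card := by
      rw [hPdef, ← Set.ncard_eq_toFinset_card _ hP]
      exact Nat.card_coe_set_eq {w : Place K F | w.ord x < 0}
    rw [this]
  have hcardZ : ∀ a : K,
      (Nat.card {w : Place K F // 0 < w.ord (x - algebraMap K F a)} : ℤ) = ((Z a).card : ℤ) := by
    intro a
    have : Nat.card {w : Place K F // 0 < w.ord (x - algebraMap K F a)} = (Z a).card := by
      rw [hZdef, ← Set.ncard_eq_toFinset_card _ (hZ a)]
      exact Nat.card_coe_set_eq {w : Place K F | 0 < w.ord (x - algebraMap K F a)}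
    rw [this]
  have hsP : ∑ v ∈ P, E v = -n - (P.card : ℤ) := by
    have : ∑ v ∈ P, E v = ∑ v ∈ P, (v.ord x - 1) :=
      Finset.sum_congr rfl fun v hv => by rw [hEv v, h_pole v ((hmemP v).1 hv)]
    rw [this, Finset.sum_sub_distrib, hsumP]
    simp
  have hsZ : ∀ a : K, ∑ v ∈ Z a, E v = n - ((Z a).card : ℤ) := by
    intro a
    have : ∑ v ∈ Z a, E v = ∑ v ∈ Z a, (v.ord (x - algebraMap K F a) - 1) :=
      Finset.sum_congr rfl fun v hv => by rw [hEv v, h_zero a v ((hmemZ a v).1 hv)]
    rw [this, Finset.sum_sub_distrib, hsumZ a]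
    simp
  -- Step I: combine
  rw [← hdegE, hdeg_sum, hsumT, hsplit, hsP, hcardP]
  simp only [hsZ, hcardZ]
  ring

end Core

section Wrapper

theorem adjoin_sub_algebraMap_eq (x : F) (a : K) : K⟮x - algebraMap K F a⟯ = K⟮x⟯ := by
  apply le_antisymm
  · rw [adjoin_simple_le_iff]
    exact sub_mem (mem_adjoin_simple_self K x) (IntermediateField.algebraMap_mem _ a)
  · rw [adjoin_simple_le_iff]
    have h := add_mem (mem_adjoin_simple_self K (x - algebraMap K F a))
      (IntermediateField.algebraMap_mem K⟮x - algebraMap K F a⟯ a)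
    simpa using h

theorem adjoin_inv_eq (x : F) : K⟮x⁻¹⟯ = K⟮x⟯ := by
  apply le_antisymm
  · rw [adjoin_simple_le_iff]
    exact inv_mem (mem_adjoin_simple_self K x)
  · rw [adjoin_simple_le_iff]
    have h := inv_mem (mem_adjoin_simple_self K x⁻¹)
    simpa using h

theorem transcendental_sub_algebraMap {x : F} (hx : Transcendental K x) (a : K) :
    Transcendental K (x - algebraMap K F a) := by
  intro h
  apply hx
  have : x = (x - algebraMap K F a) + algebraMap K F a := by ring
  rw [this]
  exact h.add (isAlgebraic_algebraMap a)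

theorem transcendental_inv {x : F} (hx : Transcendental K x) : Transcendental K x⁻¹ := by
  intro h
  apply hx
  have : x = (x⁻¹)⁻¹ := (inv_inv x).symm
  rw [this]
  exact h.inv

theorem not_mem_range_of_transcendental {x : F} (hx : Transcendental K x) :
    x ∉ Set.range (algebraMap K F) := by
  rintro ⟨a, rfl⟩
  exact hx (isAlgebraic_algebraMap a)

/-- Abstract Riemann–Hurwitz with the function-field inputs in the shape of the S24 interface
lemmas `ff_*` (instantiated at the ambient transcendental element). -/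
theorem riemann_hurwitz_of_ff (x : F) (hx : Transcendental K x) [FiniteDimensional K⟮x⟯ F]
    (h_deg : ∀ v : Place K F, v.deg = 1)
    (h_res : ∀ (v : Place K F) (f : F), 0 ≤ v.ord f →
      ∃ a : K, f = algebraMap K F a ∨ 0 < v.ord (f - algebraMap K F a))
    (h_span : ∀ t : F, t ∉ Set.range (algebraMap K F) → Submodule.span F {D K F t} = ⊤)
    (h_Dne : ∀ t : F, t ∉ Set.range (algebraMap K F) → D K F t ≠ 0)
    (h_gen : ∀ v : Place K F, v.DCoordGenerates)
    (h_pd : HasPrincipalDivisors K F)
    (h_fin : ∀ (y : F) (_ : Transcendental K y) [FiniteDimensional K⟮y⟯ F],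
      {w : Place K F | 0 < w.ord y}.Finite)
    (h_sum : ∀ (y : F) (hy : Transcendental K y) [FiniteDimensional K⟮y⟯ F],
      ∑ w ∈ (h_fin y hy).toFinset, w.ord y = (Module.finrank K⟮y⟯ F : ℤ))
    (h_zero : ∀ (y : F) (a : K) (w : Place K F), 0 < w.ord (y - algebraMap K F a) →
      w.ordDifferential (D K F y) = w.ord (y - algebraMap K F a) - 1)
    (h_pole : ∀ (y : F) (w : Place K F), w.ord y < 0 →
      w.ordDifferential (D K F y) = w.ord y - 1)
    (B : Finset K)
    (hunr : ∀ (w : Place K F) (a : K), a ∉ B → 0 < w.ord (x - algebraMap K F a) →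
      w.ord (x - algebraMap K F a) = 1)
    (ω : Ω[F⁄K]) (hω : ω ≠ 0) (Dv : Divisor K F) (hD : ∀ v, Dv v = v.ordDifferential ω) :
    Divisor.degree Dv + 2 * (Module.finrank K⟮x⟯ F : ℤ)
      = ∑ a ∈ B, ((Module.finrank K⟮x⟯ F : ℤ)
            - (Nat.card {w : Place K F // 0 < w.ord (x - algebraMap K F a)} : ℤ))
        + ((Module.finrank K⟮x⟯ F : ℤ) - (Nat.card {w : Place K F // w.ord x < 0} : ℤ)) := by
  classical
  have hxr := not_mem_range_of_transcendental hx
  -- zeros of x - a
  have hfdZ : ∀ a : K, FiniteDimensional K⟮x - algebraMap K F a⟯ F := fun a => by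
    rw [adjoin_sub_algebraMap_eq]; infer_instance
  have hZ : ∀ a : K, {w : Place K F | 0 < w.ord (x - algebraMap K F a)}.Finite := fun a =>
    haveI := hfdZ a
    h_fin _ (transcendental_sub_algebraMap hx a)
  have hsumZ : ∀ a : K, ∑ w ∈ (hZ a).toFinset, w.ord (x - algebraMap K F a)
      = (Module.finrank K⟮x⟯ F : ℤ) := fun a => by
    have := hfdZ a
    have h := h_sum _ (transcendental_sub_algebraMap hx a)
    rw [adjoin_sub_algebraMap_eq] at h
    exact h
  -- poles of x = zeros of x⁻¹
  have hfdP : FiniteDimensional K⟮x⁻¹⟯ F := by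
    rw [adjoin_inv_eq]; infer_instance
  have hset : {w : Place K F | w.ord x < 0} = {w : Place K F | 0 < w.ord x⁻¹} := by
    ext w
    show w.ord x < 0 ↔ 0 < w.ord x⁻¹
    rw [Place.ord_inv]
    omega
  have hP' : {w : Place K F | 0 < w.ord x⁻¹}.Finite := h_fin _ (transcendental_inv hx)
  have hP : {w : Place K F | w.ord x < 0}.Finite := hset ▸ hP'
  have hsumP : ∑ w ∈ hP.toFinset, w.ord x = -(Module.finrank K⟮x⟯ F : ℤ) := by
    have h := h_sum _ (transcendental_inv hx)
    rw [adjoin_inv_eq] at h
    have hfs : hP.toFinset = (h_fin _ (transcendental_inv hx)).toFinset := by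
      ext w
      simp only [Set.Finite.mem_toFinset]
      rw [hset]
    rw [hfs, ← h, ← Finset.sum_neg_distrib]
    exact Finset.sum_congr rfl fun w _ => by rw [Place.ord_inv, neg_neg]
  exact riemann_hurwitz_core x (Module.finrank K⟮x⟯ F : ℤ)
    (fun a h => hxr ⟨a, h.symm⟩) h_deg (fun v hv => h_res v x hv) (h_span x hxr) (h_Dne x hxr)
    h_gen h_pd hZ hP hsumZ hsumP (fun a w h => h_zero x a w h) (fun w h => h_pole x w h)
    B hunr ω hω Dv hD

end Wrapper

end Fermat.Agent.S24.helper55
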