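import Mathlib
import Fermat.Agent.S24.helper82_FFBasic

/-!
# S24 FF: principal divisors have degree zero, from the zero count (helper82)

`hasPrincipalDivisors_of_zeros`: if for every transcendental `y` (with `F` finite over `K(y)`)
the set of zeros of `y` is finite and the orders of vanishing sum up to `[F : K(y)]`, then
`HasPrincipalDivisors K F`.
-/

set_option autoImplicit false

namespace Fermat.Agent.S24.helper82

open AlgebraicCurve IntermediateField

variable {K F : Type*} [Field K] [Field F] [Algebra K F]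

theorem adjoin_inv_eq_adjoin (f : F) : K⟮f⁻¹⟯ = K⟮f⟯ := by
  apply le_antisymm
  · rw [adjoin_simple_le_iff]
    exact inv_mem (mem_adjoin_simple_self K f)
  · rw [adjoin_simple_le_iff]
    have h := inv_mem (mem_adjoin_simple_self K f⁻¹)
    simpa using h

theorem inv_not_mem_range {f : F} (hf : f ∉ Set.range (algebraMap K F)) :
    f⁻¹ ∉ Set.range (algebraMap K F) := by
  rintro ⟨a, ha⟩
  apply hf
  refine ⟨a⁻¹, ?_⟩
  rw [map_inv₀, ha, inv_inv]

variable [IsAlgClosed K]

/-- Principal divisors exist and have degree zero, given the zero count for all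
transcendental elements. -/
theorem hasPrincipalDivisors_of_zeros (x : F) (hx : Transcendental K x) [FiniteDimensional K⟮x⟯ F]
    (h_fin : ∀ (y : F) (_ : Transcendental K y) [FiniteDimensional K⟮y⟯ F],
      {w : Place K F | 0 < w.ord y}.Finite)
    (h_sum : ∀ (y : F) (hy : Transcendental K y) [FiniteDimensional K⟮y⟯ F],
      ∑ w ∈ (h_fin y hy).toFinset, w.ord y = (Module.finrank K⟮y⟯ F : ℤ)) :
    HasPrincipalDivisors K F := by
  classical
  refine ⟨fun f hf0 => ?_⟩
  by_cases hf : f ∈ Set.range (algebraMap K F)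
  · obtain ⟨a, rfl⟩ := hf
    refine ⟨0, fun v => ?_, map_zero _⟩
    rw [ord_algebraMap]
    rfl
  · obtain ⟨htr, hfd⟩ := ff_transcendental x hx f hf
    obtain ⟨htr', hfd'⟩ := ff_transcendental x hx f⁻¹ (inv_not_mem_range hf)
    have hZ := h_fin f htr
    have hP := h_fin f⁻¹ htr'
    have hsZ := h_sum f htr
    have hsP := h_sum f⁻¹ htr'
    have hrank : Module.finrank K⟮f⁻¹⟯ F = Module.finrank K⟮f⟯ F := by
      rw [adjoin_inv_eq_adjoin]
    rw [hrank] at hsP
    have hdisj : Disjoint hZ.toFinset hP.toFinset := by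
      rw [Finset.disjoint_left]
      intro w hw1 hw2
      rw [Set.Finite.mem_toFinset, Set.mem_ofPred_eq] at hw1 hw2
      rw [Place.ord_inv] at hw2
      omega
    let Dv : Divisor K F := Finsupp.onFinset (hZ.toFinset ∪ hP.toFinset) (fun w => w.ord f)
      (fun w hw => by
        rw [Finset.mem_union, Set.Finite.mem_toFinset, Set.Finite.mem_toFinset,
          Set.mem_ofPred_eq, Set.mem_ofPred_eq, Place.ord_inv]
        rcases lt_trichotomy (w.ord f) 0 with h | h | h
        · right; omega
        · exact absurd h hw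
        · left; exact h)
    refine ⟨Dv, fun v => rfl, ?_⟩
    have hdeg : Divisor.degree Dv = ∑ w ∈ hZ.toFinset ∪ hP.toFinset, w.ord f := by
      have h1 : Divisor.degree Dv = Dv.sum fun v n => n * (v.deg : ℤ) := by
        simp [Divisor.degree, Finsupp.liftAddHom_apply]
      rw [h1, Finsupp.onFinset_sum _ (fun v => by simp)]
      refine Finset.sum_congr rfl fun w _ => ?_
      rw [ff_deg_eq_one x hx w]
      simp
    rw [hdeg, Finset.sum_union hdisj, hsZ]
    have : ∑ w ∈ hP.toFinset, w.ord f = -∑ w ∈ hP.toFinset, w.ord f⁻¹ := by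
      rw [← Finset.sum_neg_distrib]
      exact Finset.sum_congr rfl fun w _ => by rw [Place.ord_inv, neg_neg]
    rw [this, hsP]
    ring

end Fermat.Agent.S24.helper82
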