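import Mathlib
import Fermat.Prelude.Def_AlgebraicCurve_DivisorClassGroup
import Fermat.Prelude.Def_AlgebraicCurve_Repartitions

set_option autoImplicit false
set_option linter.unusedSectionVars false
set_option linter.style.haveILetI false
set_option linter.deprecated false

namespace Fermat.Agent.S24.helper75

open AlgebraicCurve IntermediateField IsDedekindDomain
open scoped IntermediateField.algebraAdjoinAdjoin

noncomputable section

variable {K F : Type*} [Field K] [Field F] [Algebra K F]

/-- The polynomial subalgebra `K[x] ⊆ F`. -/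
abbrev polyRing (x : F) : Subalgebra K F := Algebra.adjoin K {x}

section Setup

variable (x : F)

example : IsFractionRing (polyRing (K := K) x) K⟮x⟯ := inferInstance

example : IsDomain (polyRing (K := K) x) := inferInstance

instance polyRing_isPrincipalIdealRing : IsPrincipalIdealRing (polyRing (K := K) x) := by
  have hsurj : Function.Surjective
      ((Polynomial.aeval (R := K) x).rangeRestrict) := AlgHom.rangeRestrict_surjective _
  have h1 : IsPrincipalIdealRing (Polynomial.aeval (R := K) x).range :=
    IsPrincipalIdealRing.of_surjective _ hsurj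
  have h2 : (Polynomial.aeval (R := K) x).range = polyRing (K := K) x := by
    rw [polyRing, Algebra.adjoin_singleton_eq_range_aeval]
  exact h2 ▸ h1

example : IsDedekindDomain (polyRing (K := K) x) := inferInstance

example : Algebra (polyRing (K := K) x) F := inferInstance
example : IsScalarTower (polyRing (K := K) x) K⟮x⟯ F := inferInstance

variable [CharZero K] [FiniteDimensional K⟮x⟯ F]

example : Algebra.IsSeparable K⟮x⟯ F := inferInstance

/-- The integral closure of `K[x]` in `F`. -/
abbrev intClosure : Subalgebra (polyRing (K := K) x) F := integralClosure (polyRing (K := K) x) F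

instance : IsDedekindDomain (intClosure (K := K) x) :=
  integralClosure.isDedekindDomain (polyRing (K := K) x) K⟮x⟯ F

instance : IsFractionRing (intClosure (K := K) x) F :=
  integralClosure.isFractionRing_of_finite_extension K⟮x⟯ F

instance : Module.Finite (polyRing (K := K) x) (intClosure (K := K) x) :=
  IsIntegralClosure.finite (polyRing (K := K) x) K⟮x⟯ F (intClosure (K := K) x)

example : Algebra K (intClosure (K := K) x) := inferInstance
example : IsScalarTower K (intClosure (K := K) x) F := inferInstance

end Setup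


section Bridge

open WithZero

variable {R : Type*} [CommRing R] [IsDedekindDomain R] [Algebra R F] [IsFractionRing R F]
  [Algebra K R] [IsScalarTower K R F]

/-- Units of a valuation subring have valuation one. -/
theorem valuation_unit_eq_one' {Γ : Type*} [LinearOrderedCommGroupWithZero Γ]
    (v : Valuation F Γ) (u : (v.valuationSubring)ˣ) :
    v ((u : v.valuationSubring) : F) = 1 := by
  have h1 : v ((u : v.valuationSubring) : F) ≤ 1 :=
    (Valuation.mem_valuationSubring_iff _ _).mp (u : v.valuationSubring).2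
  have h2 : v (((u⁻¹ : (v.valuationSubring)ˣ) : v.valuationSubring) : F) ≤ 1 :=
    (Valuation.mem_valuationSubring_iff _ _).mp
      ((u⁻¹ : (v.valuationSubring)ˣ) : v.valuationSubring).2
  have h3 : ((u : v.valuationSubring) : F) *
      (((u⁻¹ : (v.valuationSubring)ˣ) : v.valuationSubring) : F) = 1 :=
    congrArg Subtype.val u.mul_inv
  have h4 := congrArg v h3
  rw [map_mul, map_one] at h4
  have hne : v ((u : v.valuationSubring) : F) ≠ 0 := left_ne_zero_of_mul_eq_one h4
  have h5 : v (((u⁻¹ : (v.valuationSubring)ˣ) : v.valuationSubring) : F)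
      = (v ((u : v.valuationSubring) : F))⁻¹ := eq_inv_of_mul_eq_one_right h4
  rw [h5] at h2
  exact le_antisymm h1 ((inv_le_one₀ (zero_lt_iff.mpr hne)).mp h2)

theorem ofHeightOneSpectrum_valuation (P : HeightOneSpectrum R) (f : F) (hf : f ≠ 0) :
    P.valuation F f = exp (-(Place.ofHeightOneSpectrum (K := K) P).ord f) := by
  set w := Place.ofHeightOneSpectrum (K := K) (F := F) P with hw
  obtain ⟨ϖ, hϖ⟩ := IsDiscreteValuationRing.exists_irreducible w.toValuationSubring
  -- valuation of an irreducible is exp (-1)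
  obtain ⟨π, hπ⟩ := P.valuation_exists_uniformizer F
  have hπ0 : π ≠ 0 := by
    rintro rfl
    rw [map_zero] at hπ
    exact exp_ne_zero hπ.symm
  obtain ⟨u, hu⟩ := w.exists_unit_mul_zpow hπ0 hϖ
  have hϖ0 : (ϖ : F) ≠ 0 := by
    simpa [ne_eq, ZeroMemClass.coe_eq_zero] using hϖ.ne_zero
  have hϖle : P.valuation F (ϖ : F) < 1 := by
    have hmem : P.valuation F (ϖ : F) ≤ 1 := (Valuation.mem_valuationSubring_iff _ _).mp ϖ.2
    refine lt_of_le_of_ne hmem ?_
    intro h1
    apply hϖ.not_isUnit
    have hinv : (ϖ : F)⁻¹ ∈ w.toValuationSubring := by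
      show (ϖ : F)⁻¹ ∈ (P.valuation F).valuationSubring
      rw [Valuation.mem_valuationSubring_iff, map_inv₀, h1, inv_one]
    exact ⟨⟨ϖ, ⟨(ϖ : F)⁻¹, hinv⟩, Subtype.ext (mul_inv_cancel₀ hϖ0),
      Subtype.ext (inv_mul_cancel₀ hϖ0)⟩, rfl⟩
  have hvu : ∀ u : w.toValuationSubringˣ, P.valuation F ((u : w.toValuationSubring) : F) = 1 :=
    fun u => valuation_unit_eq_one' (P.valuation F) u
  -- write valuation of ϖ as exp (-k)
  have hϖne : P.valuation F (ϖ : F) ≠ 0 := (Valuation.ne_zero_iff _).mpr hϖ0
  set k : ℤ := -(log (P.valuation F (ϖ : F))) with hk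
  have hvϖ : P.valuation F (ϖ : F) = exp (-k) := by
    rw [hk, neg_neg, exp_log hϖne]
  have hkpos : 0 < k := by
    have : exp (-k) < exp (0 : ℤ) := by rw [← hvϖ]; exact hϖle
    have := exp_lt_exp.mp this
    omega
  have key := congrArg (P.valuation F) hu
  rw [map_mul, hvu u, one_mul, map_zpow₀, hvϖ, hπ, ← exp_zsmul, exp_inj] at key
  have hk1 : k = 1 := by
    have h : (w.ord π) * k = 1 := by
      have : w.ord π • (-k) = -1 := key.symm
      simp only [smul_eq_mul] at this
      linarith
    rcases Int.eq_one_or_neg_one_of_mul_eq_one' h with ⟨_, h2⟩ | ⟨_, h2⟩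
    · exact h2
    · omega
  obtain ⟨u', hu'⟩ := w.exists_unit_mul_zpow hf hϖ
  have key' := congrArg (P.valuation F) hu'
  rw [map_mul, hvu u', one_mul, map_zpow₀, hvϖ, hk1, ← exp_zsmul] at key'
  rw [key', smul_eq_mul, mul_neg, mul_one]

theorem ofHeightOneSpectrum_ord (P : HeightOneSpectrum R) (f : F) :
    (Place.ofHeightOneSpectrum (K := K) P).ord f = -(log (P.valuation F f)) := by
  rcases eq_or_ne f 0 with rfl | hf
  · simp
  · rw [ofHeightOneSpectrum_valuation (K := K) P f hf, log_exp, neg_neg]

end Bridge

section PlaceBasics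

open WithZero

variable (w : Place K F)

theorem place_ord_nonneg_of_mem {f : F} (hf : f ∈ w.toValuationSubring) : 0 ≤ w.ord f := by
  rcases eq_or_ne f 0 with rfl | hf0
  · simp
  have h := w.adicValuation_le_one_of_mem hf
  rcases w.adicValuation_le_one_iff.mp h with h0 | h0
  · exact absurd h0 hf0
  · exact h0

theorem place_mem_of_ord_nonneg {f : F} (h : 0 ≤ w.ord f) : f ∈ w.toValuationSubring := by
  have h1 : w.adicValuation f ≤ 1 := w.adicValuation_le_one_iff.mpr (Or.inr h)
  obtain ⟨a, ha⟩ := IsDiscreteValuationRing.exists_lift_of_le_one (A := w.toValuationSubring)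
    (K := F) h1
  rw [← ha]
  exact a.2

theorem place_mem_iff_ord_nonneg {f : F} : f ∈ w.toValuationSubring ↔ 0 ≤ w.ord f :=
  ⟨place_ord_nonneg_of_mem w, place_mem_of_ord_nonneg w⟩

theorem place_isUnit_iff (a : w.toValuationSubring) (ha : a ≠ 0) :
    IsUnit a ↔ w.ord (a : F) = 0 := by
  rw [← w.adicValuation_coe_eq_one_iff]
  have haF : (a : F) ≠ 0 := by simpa [ne_eq, ZeroMemClass.coe_eq_zero] using ha
  rw [w.adicValuation_eq_exp_neg_ord haF, ← exp_zero, exp_inj]
  omega

theorem place_mem_maximalIdeal_iff (a : w.toValuationSubring) :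
    a ∈ IsLocalRing.maximalIdeal w.toValuationSubring ↔ a = 0 ∨ 0 < w.ord (a : F) := by
  rcases eq_or_ne a 0 with rfl | ha
  · simp
  rw [IsLocalRing.mem_maximalIdeal, mem_nonunits_iff, place_isUnit_iff w a ha]
  have h0 := place_ord_nonneg_of_mem w a.2
  constructor
  · intro h
    exact Or.inr (lt_of_le_of_ne h0 (Ne.symm h))
  · rintro (h | h)
    · exact absurd h ha
    · omega

theorem place_ord_algebraMap (c : K) : w.ord (algebraMap K F c) = 0 := by
  rcases eq_or_ne c 0 with rfl | hc
  · simp
  have h1 := place_ord_nonneg_of_mem w (w.algebraMap_mem' c)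
  have h2 := place_ord_nonneg_of_mem w (w.algebraMap_mem' c⁻¹)
  rw [map_inv₀, w.ord_inv] at h2
  omega

theorem place_ord_add_ge {f g : F} (hfg : f + g ≠ 0) :
    min (w.ord f) (w.ord g) ≤ w.ord (f + g) := by
  rcases eq_or_ne f 0 with rfl | hf
  · simp
  rcases eq_or_ne g 0 with rfl | hg
  · simp
  have h := Valuation.map_add w.adicValuation f g
  rw [w.adicValuation_eq_exp_neg_ord hfg, w.adicValuation_eq_exp_neg_ord hf,
    w.adicValuation_eq_exp_neg_ord hg, le_max_iff, exp_le_exp, exp_le_exp] at h
  rcases h with h | h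
  · exact le_trans (min_le_left _ _) (by omega)
  · exact le_trans (min_le_right _ _) (by omega)

end PlaceBasics

section PlacesPrimes

open WithZero

variable (x : F) [CharZero K] [FiniteDimensional K⟮x⟯ F]

theorem polyRing_mem (w : Place K F) (hx : x ∈ w.toValuationSubring) (r : polyRing (K := K) x) :
    (r : F) ∈ w.toValuationSubring := by
  let Ow : Subalgebra K F :=
    { w.toValuationSubring.toSubring with
      algebraMap_mem' := w.algebraMap_mem' }
  have h : polyRing (K := K) x ≤ Ow := Algebra.adjoin_le (by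
    rintro y (rfl : y = x)
    exact hx)
  exact h r.2

theorem intClosure_mem (w : Place K F) (hx : x ∈ w.toValuationSubring)
    (s : intClosure (K := K) x) : (s : F) ∈ w.toValuationSubring := by
  have hR : ∀ r : polyRing (K := K) x, algebraMap (polyRing (K := K) x) F r
      ∈ w.toValuationSubring.toSubring := fun r => polyRing_mem x w hx r
  let _ : Algebra (polyRing (K := K) x) w.toValuationSubring :=
    ((algebraMap (polyRing (K := K) x) F).codRestrict w.toValuationSubring.toSubring hR).toAlgebra
  have : IsScalarTower (polyRing (K := K) x) w.toValuationSubring F :=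
    IsScalarTower.of_algebraMap_eq fun f => rfl
  have hs : IsIntegral w.toValuationSubring (s : F) := (s.2 : IsIntegral _ (s : F)).tower_top
  obtain ⟨y, hy⟩ := IsIntegrallyClosed.isIntegral_iff.mp hs
  exact hy ▸ y.2

/-- The inclusion of the integral closure of `K[x]` into the valuation ring of a place at which
`x` is integral. -/
def inclPlace (w : Place K F) (hx : x ∈ w.toValuationSubring) :
    intClosure (K := K) x →+* w.toValuationSubring where
  toFun s := ⟨(s : F), intClosure_mem x w hx s⟩
  map_one' := rfl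
  map_mul' _ _ := rfl
  map_zero' := rfl
  map_add' _ _ := rfl

@[simp]
theorem coe_inclPlace (w : Place K F) (hx : x ∈ w.toValuationSubring)
    (s : intClosure (K := K) x) : ((inclPlace x w hx s : w.toValuationSubring) : F) = (s : F) :=
  rfl

/-- The prime of the integral closure cut out by a place. -/
def primeOfPlace (w : Place K F) (hx : x ∈ w.toValuationSubring) :
    Ideal (intClosure (K := K) x) :=
  Ideal.comap (inclPlace x w hx) (IsLocalRing.maximalIdeal w.toValuationSubring)

instance primeOfPlace_isPrime (w : Place K F) (hx : x ∈ w.toValuationSubring) :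
    (primeOfPlace x w hx).IsPrime :=
  Ideal.comap_isPrime _ _

theorem mem_primeOfPlace (w : Place K F) (hx : x ∈ w.toValuationSubring)
    (s : intClosure (K := K) x) :
    s ∈ primeOfPlace x w hx ↔ s = 0 ∨ 0 < w.ord (s : F) := by
  rw [primeOfPlace, Ideal.mem_comap, place_mem_maximalIdeal_iff]
  constructor
  · rintro (h | h)
    · left
      have := congrArg Subtype.val h
      exact Subtype.ext this
    · exact Or.inr h
  · rintro (h | h)
    · left
      rw [h, map_zero]
    · exact Or.inr h

theorem primeOfPlace_ne_bot (w : Place K F) (hx : x ∈ w.toValuationSubring) :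
    primeOfPlace x w hx ≠ ⊥ := by
  -- some nonzero element of `F` has positive order; its minimal polynomial over `K(x)` gives
  -- a nonzero element of the prime
  obtain ⟨ϖ, hϖ⟩ := IsDiscreteValuationRing.exists_irreducible w.toValuationSubring
  have hϖ0 : (ϖ : F) ≠ 0 := by
    simpa [ne_eq, ZeroMemClass.coe_eq_zero] using hϖ.ne_zero
  have hord : w.ord (ϖ : F) = 1 := w.ord_coe_irreducible hϖ
  -- write ϖ = a / b with a, b in the integral closure
  obtain ⟨a, b, hb, hab⟩ := IsFractionRing.div_surjective (A := intClosure (K := K) x) (ϖ : F)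
  have hb0 : (b : F) ≠ 0 := by
    have := nonZeroDivisors.ne_zero hb
    simpa [ne_eq, ZeroMemClass.coe_eq_zero] using this
  have ha0 : (a : F) ≠ 0 := by
    rintro h
    apply hϖ0
    rw [← hab]
    show (a : F) / (b : F) = 0
    rw [h, zero_div]
  have hab' : (a : F) = (ϖ : F) * (b : F) := by
    rw [← hab]
    show (a : F) = (a : F) / (b : F) * (b : F)
    field_simp
  have hb_ord : 0 ≤ w.ord (b : F) := place_ord_nonneg_of_mem w (intClosure_mem x w hx b)
  have ha_ord : 0 < w.ord (a : F) := by
    rw [hab', w.ord_mul hϖ0 hb0, hord]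
    omega
  intro hbot
  have hmem : a ∈ primeOfPlace x w hx := (mem_primeOfPlace x w hx a).mpr (Or.inr ha_ord)
  rw [hbot, Ideal.mem_bot] at hmem
  exact ha0 (by rw [hmem]; rfl)

/-- The height one prime of the integral closure cut out by a place. -/
def heightOneOfPlace (w : Place K F) (hx : x ∈ w.toValuationSubring) :
    HeightOneSpectrum (intClosure (K := K) x) :=
  ⟨primeOfPlace x w hx, primeOfPlace_isPrime x w hx, primeOfPlace_ne_bot x w hx⟩

theorem ofHeightOneSpectrum_heightOneOfPlace (w : Place K F) (hx : x ∈ w.toValuationSubring) :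
    Place.ofHeightOneSpectrum (K := K) (heightOneOfPlace x w hx) = w := by
  apply Place.ext
  rw [Place.ofHeightOneSpectrum_toValuationSubring,
    ← HeightOneSpectrum.valuationSubringAtPrime_eq_valuationSubring]
  refine ValuationSubring.eq_of_le_of_ne_top _ ?_ w.ne_top'
  intro f hf
  rw [HeightOneSpectrum.valuationSubringAtPrime_eq_valuationSubring,
    Valuation.mem_valuationSubring_iff] at hf
  obtain ⟨n, d, hnd⟩ := (heightOneOfPlace x w hx).exists_primeCompl_mul_eq_of_integer f hf
  have hd : (d : intClosure (K := K) x) ∉ primeOfPlace x w hx := d.2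
  rw [mem_primeOfPlace, not_or, not_lt] at hd
  have hd0 : ((d : intClosure (K := K) x) : F) ≠ 0 := by
    intro h
    exact hd.1 (Subtype.ext h)
  have hdord : w.ord ((d : intClosure (K := K) x) : F) = 0 :=
    le_antisymm hd.2 (place_ord_nonneg_of_mem w (intClosure_mem x w hx d))
  have hn : 0 ≤ w.ord ((n : intClosure (K := K) x) : F) :=
    place_ord_nonneg_of_mem w (intClosure_mem x w hx n)
  have hf' : f = ((n : intClosure (K := K) x) : F) * ((d : intClosure (K := K) x) : F)⁻¹ := by
    have : f * ((d : intClosure (K := K) x) : F) = ((n : intClosure (K := K) x) : F) := hnd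
    rw [← this]
    field_simp
  rcases eq_or_ne ((n : intClosure (K := K) x) : F) 0 with hn0 | hn0
  · rw [hf', hn0, zero_mul]
    exact zero_mem _
  apply place_mem_of_ord_nonneg w
  rw [hf', w.ord_mul hn0 (inv_ne_zero hd0), w.ord_inv, hdord]
  omega

theorem primeOfPlace_ofHeightOneSpectrum (P : HeightOneSpectrum (intClosure (K := K) x))
    (hx : x ∈ (Place.ofHeightOneSpectrum (K := K) (F := F) P).toValuationSubring) :
    primeOfPlace x (Place.ofHeightOneSpectrum (K := K) P) hx = P.asIdeal := by
  ext s
  rw [mem_primeOfPlace]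
  rcases eq_or_ne s 0 with rfl | hs
  · simp
  have hsF : (s : F) ≠ 0 := fun h => hs (Subtype.ext h)
  have hiff : P.valuation F (s : F) < 1 ↔ s ∈ P.asIdeal :=
    HeightOneSpectrum.valuation_lt_one_iff_mem (K := F) P s
  rw [ofHeightOneSpectrum_ord, ← hiff]
  have hne : P.valuation F (s : F) ≠ 0 := (Valuation.ne_zero_iff _).mpr hsF
  have h1 : P.valuation F (s : F) < 1 ↔ log (P.valuation F (s : F)) < 0 := by
    conv_lhs => rw [← exp_log hne, ← exp_zero (M := ℤ)]
    exact exp_lt_exp
  rw [h1]
  constructor
  · rintro (h | h)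
    · exact absurd h hs
    · omega
  · intro h
    right
    omega

end PlacesPrimes

section ZeroCount

open WithZero Ideal

variable (x : F) [CharZero K] [FiniteDimensional K⟮x⟯ F]

/-- `x` as an element of `K[x]`. -/
def xR : polyRing (K := K) x := ⟨x, Algebra.self_mem_adjoin_singleton K x⟩

/-- `x` as an element of the integral closure of `K[x]`. -/
def xS : intClosure (K := K) x := algebraMap (polyRing (K := K) x) (intClosure (K := K) x) (xR x)

@[simp] theorem coe_xR : ((xR (K := K) x : polyRing (K := K) x) : F) = x := rfl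

@[simp] theorem coe_xS : ((xS (K := K) x : intClosure (K := K) x) : F) = x := rfl

/-- The ideal `(x)` of `K[x]`. -/
def pX : Ideal (polyRing (K := K) x) := Ideal.span {xR x}

variable {x}

theorem irreducible_xR (hx : Transcendental K x) : Irreducible (xR (K := K) x) := by
  let e := Polynomial.algEquivOfTranscendental K x hx
  have h : e Polynomial.X = xR x := by
    apply Subtype.ext
    simp [e, Polynomial.algEquivOfTranscendental]
  rw [← h]
  exact (MulEquiv.irreducible_iff e.toMulEquiv).mpr Polynomial.irreducible_X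

theorem pX_isMaximal (hx : Transcendental K x) : (pX (K := K) x).IsMaximal :=
  PrincipalIdealRing.isMaximal_of_irreducible (irreducible_xR hx)

theorem pX_ne_bot (hx : Transcendental K x) : pX (K := K) x ≠ ⊥ := by
  rw [pX, Ne, Ideal.span_singleton_eq_bot]
  exact (irreducible_xR hx).ne_zero

theorem map_pX : Ideal.map (algebraMap (polyRing (K := K) x) (intClosure (K := K) x)) (pX x)
    = Ideal.span {xS x} := by
  rw [pX, Ideal.map_span, Set.image_singleton]
  rfl

theorem aeval_mem_polyRing (q : Polynomial K) : Polynomial.aeval x q ∈ polyRing (K := K) x := by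
  show _ ∈ Algebra.adjoin K {x}
  rw [Algebra.adjoin_singleton_eq_range_aeval]
  exact ⟨q, rfl⟩

theorem exists_aeval_eq (r : polyRing (K := K) x) :
    ∃ p : Polynomial K, Polynomial.aeval x p = (r : F) := by
  have h : (r : F) ∈ Algebra.adjoin K {x} := r.2
  rw [Algebra.adjoin_singleton_eq_range_aeval] at h
  exact h

theorem algebraMap_polyRing_surjective_quot :
    Function.Surjective (algebraMap K (polyRing (K := K) x ⧸ pX (K := K) x)) := by
  intro y
  obtain ⟨r, rfl⟩ := Ideal.Quotient.mk_surjective y
  obtain ⟨p, hp⟩ := exists_aeval_eq r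
  refine ⟨p.coeff 0, ?_⟩
  rw [IsScalarTower.algebraMap_apply K (polyRing (K := K) x) _, Ideal.Quotient.algebraMap_eq,
    Ideal.Quotient.eq, pX, Ideal.mem_span_singleton]
  obtain ⟨q, hq⟩ := Polynomial.X_dvd_sub_C (p := p)
  refine ⟨-⟨Polynomial.aeval x q, aeval_mem_polyRing q⟩, ?_⟩
  apply Subtype.ext
  have h2 := congrArg (Polynomial.aeval x) hq
  simp only [map_sub, Polynomial.aeval_C, map_mul, Polynomial.aeval_X] at h2
  push_cast
  simp only [coe_xR]
  rw [← hp]
  linear_combination -h2

end ZeroCount

section Inertia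

open WithZero Ideal

variable {x : F} [CharZero K] [FiniteDimensional K⟮x⟯ F] [IsAlgClosed K]

theorem inertiaDeg_eq_one (hx : Transcendental K x) (P : Ideal (intClosure (K := K) x))
    [P.IsPrime] [P.LiesOver (pX (K := K) x)] : (pX (K := K) x).inertiaDeg' P = 1 := by
  have := pX_isMaximal hx
  rw [inertiaDeg'_algebraMap]
  let _ : Field (polyRing (K := K) x ⧸ pX (K := K) x) := Ideal.Quotient.field _
  have hsurj : Function.Surjective (algebraMap K (polyRing (K := K) x ⧸ pX (K := K) x)) :=
    algebraMap_polyRing_surjective_quot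
  have h1 : Algebra.IsIntegral K (polyRing (K := K) x ⧸ pX (K := K) x) :=
    Algebra.isIntegral_of_surjective hsurj
  have h2 : Algebra.IsIntegral (polyRing (K := K) x ⧸ pX (K := K) x)
      (intClosure (K := K) x ⧸ P) := inferInstance
  have h3 : Algebra.IsIntegral K (intClosure (K := K) x ⧸ P) :=
    Algebra.IsIntegral.trans (polyRing (K := K) x ⧸ pX (K := K) x)
  have hb : Function.Bijective (algebraMap K (intClosure (K := K) x ⧸ P)) :=
    IsAlgClosed.algebraMap_bijective_of_isIntegral
  have hb' : Function.Bijective (algebraMap (polyRing (K := K) x ⧸ pX (K := K) x)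
      (intClosure (K := K) x ⧸ P)) := by
    refine ⟨(algebraMap (polyRing (K := K) x ⧸ pX (K := K) x)
      (intClosure (K := K) x ⧸ P)).injective, fun y => ?_⟩
    obtain ⟨c, hc⟩ := hb.2 y
    refine ⟨algebraMap K _ c, ?_⟩
    rw [← hc, ← IsScalarTower.algebraMap_apply]
  rw [← Module.finrank_self (polyRing (K := K) x ⧸ pX (K := K) x)]
  exact ((AlgEquiv.ofBijective (Algebra.ofId _ _) hb').toLinearEquiv.finrank_eq).symm

end Inertia

section ZeroCountMain

open WithZero Ideal

variable {x : F} [CharZero K] [FiniteDimensional K⟮x⟯ F]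

theorem mem_of_ord_pos (w : Place K F) (hw : 0 < w.ord x) : x ∈ w.toValuationSubring :=
  place_mem_of_ord_nonneg w hw.le

theorem xS_mem_primeOfPlace (w : Place K F) (hw : 0 < w.ord x) :
    xS x ∈ primeOfPlace x w (mem_of_ord_pos w hw) :=
  (mem_primeOfPlace x w _ _).mpr (Or.inr hw)

theorem primeOfPlace_under (hx : Transcendental K x) (w : Place K F) (hw : 0 < w.ord x) :
    (primeOfPlace x w (mem_of_ord_pos w hw)).under (polyRing (K := K) x) = pX x := by
  have hmax := pX_isMaximal hx
  symm
  apply hmax.eq_of_le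
  · exact (Ideal.IsPrime.under _ _).ne_top
  · rw [pX, Ideal.span_le, Set.singleton_subset_iff]
    exact xS_mem_primeOfPlace w hw

theorem primeOfPlace_mem_primesOver (hx : Transcendental K x) (w : Place K F)
    (hw : 0 < w.ord x) :
    primeOfPlace x w (mem_of_ord_pos w hw) ∈ Ideal.primesOver (pX (K := K) x)
      (intClosure (K := K) x) :=
  ⟨primeOfPlace_isPrime x w _, ⟨(primeOfPlace_under hx w hw).symm⟩⟩

/-- The place attached to a prime over `(x)`. -/
def placeOfPrimeOver (hx : Transcendental K x)
    (P : Ideal (intClosure (K := K) x))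
    (hP : P ∈ Ideal.primesOver (pX (K := K) x) (intClosure (K := K) x)) : Place K F :=
  Place.ofHeightOneSpectrum (K := K) (F := F)
    (⟨P, hP.1, Ideal.ne_bot_of_mem_primesOver (pX_ne_bot hx) hP⟩ :
      HeightOneSpectrum (intClosure (K := K) x))

theorem xS_mem_of_mem_primesOver (P : Ideal (intClosure (K := K) x))
    (hP : P ∈ Ideal.primesOver (pX (K := K) x) (intClosure (K := K) x)) : xS x ∈ P := by
  have h1 : xR x ∈ pX (K := K) x := Ideal.subset_span rfl
  have h2 := hP.2.over
  rw [h2] at h1
  exact h1

theorem placeOfPrimeOver_ord_pos (hx : Transcendental K x) (P : Ideal (intClosure (K := K) x))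
    (hP : P ∈ Ideal.primesOver (pX (K := K) x) (intClosure (K := K) x)) :
    0 < (placeOfPrimeOver hx P hP).ord x := by
  set Q : HeightOneSpectrum (intClosure (K := K) x) :=
    ⟨P, hP.1, Ideal.ne_bot_of_mem_primesOver (pX_ne_bot hx) hP⟩ with hQ
  have hmem : xS x ∈ Q.asIdeal := xS_mem_of_mem_primesOver P hP
  have hlt : Q.valuation F ((xS x : intClosure (K := K) x) : F) < 1 :=
    (HeightOneSpectrum.valuation_lt_one_iff_mem (K := F) Q (xS x)).mpr hmem
  have hx0 : x ≠ 0 := fun h => hx (h ▸ isAlgebraic_zero)
  have hval := ofHeightOneSpectrum_valuation (K := K) Q x hx0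
  rw [coe_xS, hval, ← exp_zero (M := ℤ), exp_lt_exp] at hlt
  show 0 < (Place.ofHeightOneSpectrum (K := K) Q).ord x
  omega

theorem primeOfPlace_placeOfPrimeOver (hx : Transcendental K x)
    (P : Ideal (intClosure (K := K) x))
    (hP : P ∈ Ideal.primesOver (pX (K := K) x) (intClosure (K := K) x)) :
    primeOfPlace x (placeOfPrimeOver hx P hP)
      (mem_of_ord_pos _ (placeOfPrimeOver_ord_pos hx P hP)) = P :=
  primeOfPlace_ofHeightOneSpectrum x _ _

theorem placeOfPrimeOver_primeOfPlace (hx : Transcendental K x) (w : Place K F)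
    (hw : 0 < w.ord x) :
    placeOfPrimeOver hx (primeOfPlace x w (mem_of_ord_pos w hw))
      (primeOfPlace_mem_primesOver hx w hw) = w :=
  ofHeightOneSpectrum_heightOneOfPlace x w (mem_of_ord_pos w hw)

theorem placeOfPrimeOver_injective (hx : Transcendental K x)
    (P Q : Ideal (intClosure (K := K) x))
    (hP : P ∈ Ideal.primesOver (pX (K := K) x) (intClosure (K := K) x))
    (hQ : Q ∈ Ideal.primesOver (pX (K := K) x) (intClosure (K := K) x))
    (h : placeOfPrimeOver hx P hP = placeOfPrimeOver hx Q hQ) : P = Q := by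
  rw [← primeOfPlace_placeOfPrimeOver hx P hP, ← primeOfPlace_placeOfPrimeOver hx Q hQ]
  congr 1

theorem ramificationIdx_eq_ord (hx : Transcendental K x) (P : Ideal (intClosure (K := K) x))
    (hP : P ∈ Ideal.primesOver (pX (K := K) x) (intClosure (K := K) x)) :
    ((pX (K := K) x).ramificationIdx' P : ℤ) = (placeOfPrimeOver hx P hP).ord x := by
  set Q : HeightOneSpectrum (intClosure (K := K) x) :=
    ⟨P, hP.1, Ideal.ne_bot_of_mem_primesOver (pX_ne_bot hx) hP⟩ with hQ
  have hpos := placeOfPrimeOver_ord_pos hx P hP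
  set e : ℤ := (placeOfPrimeOver hx P hP).ord x with he
  have hx0 : x ≠ 0 := fun h => hx (h ▸ isAlgebraic_zero)
  have hval : Q.valuation F x = exp (-e) := ofHeightOneSpectrum_valuation (K := K) Q x hx0
  have key : ∀ n : ℕ, Ideal.map (algebraMap (polyRing (K := K) x) (intClosure (K := K) x))
      (pX x) ≤ P ^ n ↔ (n : ℤ) ≤ e := by
    intro n
    rw [map_pX, Ideal.span_le, Set.singleton_subset_iff, SetLike.mem_coe]
    have h1 := Q.intValuation_le_pow_iff_mem (xS x) n
    have h2 : Q.intValuation (xS x) = Q.valuation F x :=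
      (Q.valuation_of_algebraMap (K := F) (xS x)).symm
    rw [h2, hval, exp_le_exp] at h1
    rw [show P ^ n = Q.asIdeal ^ n from rfl, ← h1]
    omega
  have hspec : (pX (K := K) x).ramificationIdx' P = e.toNat := by
    apply Ideal.ramificationIdx'_spec
    · rw [key]; omega
    · rw [key]; push_cast; omega
  rw [hspec]
  omega

end ZeroCountMain

section ZeroCountSum

open WithZero Ideal Classical

variable {x : F} [CharZero K] [FiniteDimensional K⟮x⟯ F]

/-- The finite set of zeros of `x`. -/
def zerosFinset (hx : Transcendental K x) : Finset (Place K F) :=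
  (IsDedekindDomain.primesOverFinset (pX (K := K) x) (intClosure (K := K) x)).attach.image fun P =>
    placeOfPrimeOver hx P.1
      (haveI := pX_isMaximal hx
       (IsDedekindDomain.mem_primesOverFinset_iff (pX_ne_bot hx) _).mp P.2)

theorem mem_zerosFinset (hx : Transcendental K x) (w : Place K F) :
    w ∈ zerosFinset hx ↔ 0 < w.ord x := by
  haveI := pX_isMaximal hx
  rw [zerosFinset, Finset.mem_image]
  constructor
  · rintro ⟨P, -, rfl⟩
    exact placeOfPrimeOver_ord_pos hx _ _
  · intro hw
    refine ⟨⟨primeOfPlace x w (mem_of_ord_pos w hw),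
      (IsDedekindDomain.mem_primesOverFinset_iff (pX_ne_bot hx) _).mpr (primeOfPlace_mem_primesOver hx w hw)⟩,
      Finset.mem_attach _ _, ?_⟩
    exact placeOfPrimeOver_primeOfPlace hx w hw

theorem finite_zeros (hx : Transcendental K x) : {w : Place K F | 0 < w.ord x}.Finite := by
  refine (zerosFinset hx).finite_toSet.subset ?_
  intro w hw
  exact (mem_zerosFinset hx w).mpr hw

theorem sum_ord_zerosFinset [IsAlgClosed K] (hx : Transcendental K x) :
    ∑ w ∈ zerosFinset hx, w.ord x = (Module.finrank K⟮x⟯ F : ℤ) := by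
  haveI := pX_isMaximal hx
  have hsum := Ideal.sum_ramification_inertia (R := polyRing (K := K) x)
    (intClosure (K := K) x) K⟮x⟯ F (p := pX x) (pX_ne_bot hx)
  rw [zerosFinset, Finset.sum_image]
  · rw [← hsum, Nat.cast_sum,
      ← Finset.sum_attach (IsDedekindDomain.primesOverFinset (pX (K := K) x) (intClosure (K := K) x))]
    push_cast
    refine Finset.sum_congr rfl fun P _ => ?_
    have hP := (IsDedekindDomain.mem_primesOverFinset_iff (pX_ne_bot hx) _).mp P.2
    haveI : P.1.IsPrime := hP.1
    haveI : P.1.LiesOver (pX (K := K) x) := hP.2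
    rw [inertiaDeg_eq_one hx P.1, Nat.cast_one, mul_one, ramificationIdx_eq_ord hx P.1 hP]
  · intro P _ Q _ h
    exact Subtype.ext (placeOfPrimeOver_injective hx _ _ _ _ h)

theorem sum_ord_zeros [IsAlgClosed K] (hx : Transcendental K x) :
    ∑ w ∈ (finite_zeros hx).toFinset, w.ord x = (Module.finrank K⟮x⟯ F : ℤ) := by
  rw [← sum_ord_zerosFinset hx]
  refine Finset.sum_congr ?_ fun _ _ => rfl
  ext w
  rw [Set.Finite.mem_toFinset, Set.mem_ofPred_eq, mem_zerosFinset]

end ZeroCountSum

section Interface

variable [IsAlgClosed K] [CharZero K]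

/-- Interface form: a transcendental element of a function field has finitely many zeros. -/
theorem ff_finite_zeros (x : F) (hx : Transcendental K x) [FiniteDimensional K⟮x⟯ F] :
    {w : Place K F | 0 < w.ord x}.Finite :=
  finite_zeros hx

/-- Interface form: the zeros of `x`, counted with multiplicity, number `[F : K(x)]`. -/
theorem ff_sum_ord_zeros (x : F) (hx : Transcendental K x) [FiniteDimensional K⟮x⟯ F] :
    ∑ w ∈ (ff_finite_zeros x hx).toFinset, w.ord x = (Module.finrank K⟮x⟯ F : ℤ) :=
  sum_ord_zeros hx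

end Interface

end

end Fermat.Agent.S24.helper75
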