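import Mathlib
import Fermat.Agent.S24.helper75_FFCore
import Fermat.Agent.S24.helper82_FFBasic
import Fermat.Agent.S24.helper55_RH

/-!
# S24 cluster, task FF-core, part 2 (helper75)

* `ff_finite_poles`, `ff_sum_ord_poles`: the poles of a transcendental element, counted with
  multiplicity;
* `ff_hasPrincipalDivisors`: every nonzero function has a divisor, of degree zero;
* `ff_exists_separating`: a function vanishing at a given place and a unit at finitely many
  other given places.
-/

set_option autoImplicit false
set_option linter.unusedSectionVars false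
set_option linter.style.haveILetI false
set_option linter.deprecated false

namespace Fermat.Agent.S24.helper75

open AlgebraicCurve IntermediateField IsDedekindDomain
open scoped IntermediateField.algebraAdjoinAdjoin

noncomputable section

variable {K F : Type*} [Field K] [Field F] [Algebra K F] [IsAlgClosed K] [CharZero K]

section Poles

theorem finrank_congr_intermediateField {E₁ E₂ : IntermediateField K F} (h : E₁ = E₂) :
    Module.finrank E₁ F = Module.finrank E₂ F := by
  subst h
  rfl

theorem finiteDimensional_adjoin_inv (x : F) [FiniteDimensional K⟮x⟯ F] :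
    FiniteDimensional K⟮x⁻¹⟯ F := by
  rw [helper55.adjoin_inv_eq]
  infer_instance

theorem poles_eq_zeros_inv (x : F) :
    {w : Place K F | w.ord x < 0} = {w : Place K F | 0 < w.ord x⁻¹} := by
  ext w
  show w.ord x < 0 ↔ 0 < w.ord x⁻¹
  rw [Place.ord_inv]
  omega

/-- A transcendental element of a function field has finitely many poles. -/
theorem ff_finite_poles (x : F) (hx : Transcendental K x) [FiniteDimensional K⟮x⟯ F] :
    {w : Place K F | w.ord x < 0}.Finite := by
  haveI := finiteDimensional_adjoin_inv (K := K) x
  rw [poles_eq_zeros_inv]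
  exact ff_finite_zeros x⁻¹ (helper55.transcendental_inv hx)

/-- The poles of `x`, counted with multiplicity, number `[F : K(x)]`. -/
theorem ff_sum_ord_poles (x : F) (hx : Transcendental K x) [FiniteDimensional K⟮x⟯ F] :
    ∑ w ∈ (ff_finite_poles x hx).toFinset, w.ord x = -(Module.finrank K⟮x⟯ F : ℤ) := by
  haveI := finiteDimensional_adjoin_inv (K := K) x
  have h := ff_sum_ord_zeros x⁻¹ (helper55.transcendental_inv hx)
  rw [finrank_congr_intermediateField (helper55.adjoin_inv_eq (K := K) x)] at h
  have hfs : (ff_finite_poles x hx).toFinset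
      = (ff_finite_zeros x⁻¹ (helper55.transcendental_inv hx)).toFinset := by
    ext w
    simp only [Set.Finite.mem_toFinset]
    rw [poles_eq_zeros_inv]
  rw [hfs, ← h, ← Finset.sum_neg_distrib]
  exact Finset.sum_congr rfl fun w _ => by rw [Place.ord_inv, neg_neg]

end Poles

section PrincipalDivisors

/-- **Principal divisors.** In a function field of one variable over an algebraically closed
field of characteristic zero, every nonzero function has a divisor, and it has degree zero. -/
theorem ff_hasPrincipalDivisors (x : F) (hx : Transcendental K x) [FiniteDimensional K⟮x⟯ F] :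
    HasPrincipalDivisors K F := by
  classical
  refine ⟨fun f hf => ?_⟩
  by_cases hfr : f ∈ Set.range (algebraMap K F)
  · obtain ⟨c, rfl⟩ := hfr
    exact ⟨0, fun v => by rw [Finsupp.zero_apply, place_ord_algebraMap], map_zero _⟩
  · obtain ⟨hft, hfd⟩ := helper82.ff_transcendental x hx f hfr
    haveI := hfd
    have hsupp : ∀ v : Place K F, v.ord f ≠ 0 →
        v ∈ (ff_finite_zeros f hft).toFinset ∪ (ff_finite_poles f hft).toFinset := by
      intro v hv
      rw [Finset.mem_union, Set.Finite.mem_toFinset, Set.Finite.mem_toFinset]
      rcases lt_or_gt_of_ne hv with h | h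
      · exact Or.inr h
      · exact Or.inl h
    refine ⟨Finsupp.onFinset _ (fun v => v.ord f) hsupp, fun v => rfl, ?_⟩
    have hdisj : Disjoint (ff_finite_zeros f hft).toFinset (ff_finite_poles f hft).toFinset := by
      rw [Finset.disjoint_left]
      intro v hz hp
      rw [Set.Finite.mem_toFinset] at hz hp
      have hz' : 0 < v.ord f := hz
      have hp' : v.ord f < 0 := hp
      omega
    have hdeg : Divisor.degree (Finsupp.onFinset _ (fun v : Place K F => v.ord f) hsupp)
        = ∑ v ∈ (ff_finite_zeros f hft).toFinset ∪ (ff_finite_poles f hft).toFinset,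
            v.ord f := by
      show (Finsupp.liftAddHom fun v : Place K F => AddMonoidHom.mulRight (v.deg : ℤ))
        (Finsupp.onFinset _ (fun v : Place K F => v.ord f) hsupp) = _
      rw [Finsupp.liftAddHom_apply, Finsupp.onFinset_sum hsupp (fun a => by simp)]
      refine Finset.sum_congr rfl fun v _ => ?_
      rw [AddMonoidHom.mulRight_apply, helper82.ff_deg_eq_one x hx v, Nat.cast_one, mul_one]
    rw [hdeg, Finset.sum_union hdisj, ff_sum_ord_zeros f hft, ff_sum_ord_poles f hft]
    ring

end PrincipalDivisors

section Separation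

/-- For finitely many places there is a generator `y` of `K(x)` over `K` that is integral at all
of them. -/
theorem exists_integral_at (x : F) (hx : Transcendental K x) (T : Finset (Place K F)) :
    ∃ y : F, Transcendental K y ∧ K⟮y⟯ = K⟮x⟯ ∧ ∀ v ∈ T, y ∈ v.toValuationSubring := by
  classical
  have hfin : (⋃ v ∈ (T : Set (Place K F)), {c : K | 0 < v.ord (x - algebraMap K F c)}).Finite := by
    refine Set.Finite.biUnion T.finite_toSet fun v _ => Set.Subsingleton.finite ?_
    intro a ha b hb
    exact helper55.eq_of_ord_sub_pos v ha hb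
  obtain ⟨c, hc⟩ := hfin.exists_notMem
  have hxc : Transcendental K (x - algebraMap K F c) :=
    helper55.transcendental_sub_algebraMap hx c
  refine ⟨(x - algebraMap K F c)⁻¹, helper55.transcendental_inv hxc, ?_, ?_⟩
  · rw [helper55.adjoin_inv_eq, helper55.adjoin_sub_algebraMap_eq]
  · intro v hv
    apply place_mem_of_ord_nonneg
    rw [Place.ord_inv]
    have h1 : ¬ 0 < v.ord (x - algebraMap K F c) := fun h =>
      hc (Set.mem_biUnion (Finset.mem_coe.mpr hv) h)
    omega

/-- **Separation of places.** Given a place `w` and finitely many places different from `w`,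
there is a function vanishing at `w` which is a unit at all the other given places. -/
theorem ff_exists_separating (x : F) (hx : Transcendental K x) [FiniteDimensional K⟮x⟯ F]
    (w : Place K F) (s : Finset (Place K F)) (hw : w ∉ s) :
    ∃ f : F, 0 < w.ord f ∧ ∀ v ∈ s, v.ord f = 0 := by
  classical
  obtain ⟨y, hy, hyx, hmem⟩ := exists_integral_at x hx (insert w s)
  haveI : FiniteDimensional K⟮y⟯ F := by
    rw [hyx]
    infer_instance
  have hyw : y ∈ w.toValuationSubring := hmem w (Finset.mem_insert_self w s)
  have hys : ∀ v ∈ s, y ∈ v.toValuationSubring := fun v hv =>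
    hmem v (Finset.mem_insert_of_mem hv)
  rcases s.eq_empty_or_nonempty with hs | ⟨v₀, hv₀⟩
  · subst hs
    obtain ⟨ϖ, hϖ⟩ := IsDiscreteValuationRing.exists_irreducible w.toValuationSubring
    refine ⟨(ϖ : F), ?_, by simp⟩
    rw [w.ord_coe_irreducible hϖ]
    exact one_pos
  · -- prime avoidance in the integral closure of `K[y]`
    have hnot : ¬ ((primeOfPlace y w hyw : Set (intClosure (K := K) y))
        ⊆ ⋃ v ∈ ((Finset.univ : Finset s) : Set s),
            ((primeOfPlace y v.1 (hys v.1 v.2) : Ideal (intClosure (K := K) y)) :
              Set (intClosure (K := K) y))) := by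
      rw [Ideal.subset_union_prime (⟨v₀, hv₀⟩ : s) ⟨v₀, hv₀⟩
        (fun v _ _ _ => primeOfPlace_isPrime y v.1 (hys v.1 v.2))]
      rintro ⟨v, -, hle⟩
      have hmax : (primeOfPlace y w hyw).IsMaximal :=
        (primeOfPlace_isPrime y w hyw).isMaximal (primeOfPlace_ne_bot y w hyw)
      have heq : primeOfPlace y w hyw = primeOfPlace y v.1 (hys v.1 v.2) :=
        hmax.eq_of_le (primeOfPlace_isPrime y v.1 (hys v.1 v.2)).ne_top hle
      have h1 : heightOneOfPlace y w hyw = heightOneOfPlace y v.1 (hys v.1 v.2) :=
        HeightOneSpectrum.ext heq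
      have h2 : w = v.1 := by
        rw [← ofHeightOneSpectrum_heightOneOfPlace y w hyw, h1,
          ofHeightOneSpectrum_heightOneOfPlace]
      exact hw (h2 ▸ v.2)
    rw [Set.not_subset] at hnot
    obtain ⟨f, hfw, hfs⟩ := hnot
    have hfs' : ∀ v (hv : v ∈ s), f ∉ primeOfPlace y v (hys v hv) := by
      intro v hv hfv
      apply hfs
      exact Set.mem_biUnion (x := (⟨v, hv⟩ : s)) (Finset.mem_coe.mpr (Finset.mem_univ _)) hfv
    have hf0 : f ≠ 0 := by
      intro h
      exact hfs' v₀ hv₀ ((mem_primeOfPlace y v₀ (hys v₀ hv₀) f).mpr (Or.inl h))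
    refine ⟨(f : F), ?_, fun v hv => ?_⟩
    · rcases (mem_primeOfPlace y w hyw f).mp hfw with h | h
      · exact absurd h hf0
      · exact h
    · have h1 : ¬ 0 < v.ord (f : F) := fun h =>
        hfs' v hv ((mem_primeOfPlace y v (hys v hv) f).mpr (Or.inr h))
      have h2 : 0 ≤ v.ord (f : F) :=
        place_ord_nonneg_of_mem v (intClosure_mem y v (hys v hv) f)
      omega

end Separation

end

end Fermat.Agent.S24.helper75
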