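import Mathlib
import Fermat.Prelude.Def_ModularCurve_GenusNumerics

set_option autoImplicit false

open scoped MatrixGroups
open CongruenceSubgroup

namespace Fermat.Agent.S24.helper83

lemma inv_apply_one_zero (A : SL(2, ℤ)) : (A⁻¹) 1 0 = - A 1 0 := by
  rw [Matrix.SpecialLinearGroup.SL2_inv_expl]; rfl

lemma inv_apply_one_one (A : SL(2, ℤ)) : (A⁻¹) 1 1 = A 0 0 := by
  rw [Matrix.SpecialLinearGroup.SL2_inv_expl]; rfl

lemma T_zpow_mul_apply_zero_zero (k : ℤ) (g : SL(2, ℤ)) :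
    (ModularGroup.T ^ k * g) 0 0 = g 0 0 + k * g 1 0 := by
  rw [Matrix.SpecialLinearGroup.coe_mul, ModularGroup.coe_T_zpow]
  simp [Matrix.mul_apply, Fin.sum_univ_two]

lemma T_zpow_mul_apply_one_zero (k : ℤ) (g : SL(2, ℤ)) :
    (ModularGroup.T ^ k * g) 1 0 = g 1 0 := by
  rw [Matrix.SpecialLinearGroup.coe_mul, ModularGroup.coe_T_zpow]
  simp [Matrix.mul_apply, Fin.sum_univ_two]

/-- Lower-left entry of `(T^k * g₁)⁻¹ * g₂`. -/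
lemma lowerLeft_inv_mul (k : ℤ) (g₁ g₂ : SL(2, ℤ)) :
    ((ModularGroup.T ^ k * g₁)⁻¹ * g₂) 1 0 =
      g₁ 0 0 * g₂ 1 0 - g₂ 0 0 * g₁ 1 0 + k * (g₁ 1 0 * g₂ 1 0) := by
  rw [Matrix.SpecialLinearGroup.coe_mul, Matrix.mul_apply, Fin.sum_univ_two,
    inv_apply_one_zero, inv_apply_one_one, T_zpow_mul_apply_zero_zero, T_zpow_mul_apply_one_zero]
  ring

/-- Two cosets `g₁ Γ₀(N)`, `g₂ Γ₀(N)` lie in the same `⟨T⟩`-orbit iff the integer condition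
holds. -/
lemma orbit_iff_exists_dvd (N : ℕ) (g₁ g₂ : SL(2, ℤ)) :
    (Quotient.mk'' (g₂ : SL(2, ℤ) ⧸ Gamma0 N) :
        MulAction.orbitRel.Quotient (Subgroup.zpowers ModularGroup.T) (SL(2, ℤ) ⧸ Gamma0 N)) =
      Quotient.mk'' (g₁ : SL(2, ℤ) ⧸ Gamma0 N) ↔
    ∃ k : ℤ, (N : ℤ) ∣ g₁ 0 0 * g₂ 1 0 - g₂ 0 0 * g₁ 1 0 + k * (g₁ 1 0 * g₂ 1 0) := by
  rw [Quotient.eq'', MulAction.orbitRel_apply, MulAction.mem_orbit_iff]
  constructor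
  · rintro ⟨⟨t, ht⟩, h⟩
    obtain ⟨k, rfl⟩ := Subgroup.mem_zpowers_iff.mp ht
    refine ⟨k, ?_⟩
    have h' : ((ModularGroup.T ^ k * g₁ : SL(2, ℤ)) : SL(2, ℤ) ⧸ Gamma0 N) = g₂ := h
    rw [QuotientGroup.eq, Gamma0_mem, lowerLeft_inv_mul] at h'
    exact (ZMod.intCast_zmod_eq_zero_iff_dvd _ _).mp h'
  · rintro ⟨k, hk⟩
    refine ⟨⟨ModularGroup.T ^ k, Subgroup.zpow_mem_zpowers _ _⟩, ?_⟩
    show ((ModularGroup.T ^ k * g₁ : SL(2, ℤ)) : SL(2, ℤ) ⧸ Gamma0 N) = g₂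
    rw [QuotientGroup.eq, Gamma0_mem, lowerLeft_inv_mul]
    exact (ZMod.intCast_zmod_eq_zero_iff_dvd _ _).mpr hk

/-- (L1) the gcd of the lower-left entry with `N` is an invariant. -/
lemma gcd_eq_of_dvd {N : ℕ} {a₁ c₁ a₂ c₂ : ℤ} (h₁ : IsCoprime a₁ c₁) (h₂ : IsCoprime a₂ c₂)
    (h : ∃ k : ℤ, (N : ℤ) ∣ a₁ * c₂ - a₂ * c₁ + k * (c₁ * c₂)) :
    Int.gcd c₁ N = Int.gcd c₂ N := by
  obtain ⟨k, hk⟩ := h
  apply Nat.dvd_antisymm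
  · -- d₁ ∣ c₂
    have hd1N : ((Int.gcd c₁ N : ℕ) : ℤ) ∣ (N : ℤ) := Int.gcd_dvd_right _ _
    have hd1c : ((Int.gcd c₁ N : ℕ) : ℤ) ∣ c₁ := Int.gcd_dvd_left _ _
    have h3 : ((Int.gcd c₁ N : ℕ) : ℤ) ∣ a₁ * c₂ := by
      have h4 := hd1N.trans hk
      have h5 : ((Int.gcd c₁ N : ℕ) : ℤ) ∣ a₂ * c₁ - k * (c₁ * c₂) :=
        Dvd.dvd.sub (hd1c.mul_left _) ((hd1c.mul_right _).mul_left _)
      have := h4.add h5
      simpa using this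
    have hcop : IsCoprime ((Int.gcd c₁ N : ℕ) : ℤ) a₁ :=
      (h₁.symm).of_isCoprime_of_dvd_left hd1c
    have h6 : ((Int.gcd c₁ N : ℕ) : ℤ) ∣ c₂ := hcop.dvd_of_dvd_mul_left h3
    exact Int.natCast_dvd_natCast.mp (Int.dvd_coe_gcd h6 hd1N)
  · have hd2N : ((Int.gcd c₂ N : ℕ) : ℤ) ∣ (N : ℤ) := Int.gcd_dvd_right _ _
    have hd2c : ((Int.gcd c₂ N : ℕ) : ℤ) ∣ c₂ := Int.gcd_dvd_left _ _
    have h3 : ((Int.gcd c₂ N : ℕ) : ℤ) ∣ a₂ * c₁ := by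
      have h4 := hd2N.trans hk
      have h5 : ((Int.gcd c₂ N : ℕ) : ℤ) ∣ a₁ * c₂ + k * (c₁ * c₂) :=
        Dvd.dvd.add (hd2c.mul_left _) ((hd2c.mul_left _).mul_left _)
      have := h5.sub h4
      simpa using this
    have hcop : IsCoprime ((Int.gcd c₂ N : ℕ) : ℤ) a₂ :=
      (h₂.symm).of_isCoprime_of_dvd_left hd2c
    have h6 : ((Int.gcd c₂ N : ℕ) : ℤ) ∣ c₁ := hcop.dvd_of_dvd_mul_left h3
    exact Int.natCast_dvd_natCast.mp (Int.dvd_coe_gcd h6 hd2N)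

/-- (L2) solvability of the congruence. -/
lemma exists_dvd_iff {d M : ℤ} (hd : d ≠ 0) {a₁ c₁ a₂ c₂ : ℤ}
    (hc₁ : IsCoprime c₁ M) (hc₂ : IsCoprime c₂ M) :
    (∃ k : ℤ, d * M ∣ a₁ * (d * c₂) - a₂ * (d * c₁) + k * ((d * c₁) * (d * c₂))) ↔
      ((Int.gcd d M : ℕ) : ℤ) ∣ a₁ * c₂ - a₂ * c₁ := by
  constructor
  · rintro ⟨k, hk⟩
    have h1 : d * M ∣ d * (a₁ * c₂ - a₂ * c₁ + k * d * (c₁ * c₂)) := by
      convert hk using 1; ring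
    have h2 : M ∣ a₁ * c₂ - a₂ * c₁ + k * d * (c₁ * c₂) :=
      (mul_dvd_mul_iff_left hd).mp h1
    have h3 : ((Int.gcd d M : ℕ) : ℤ) ∣ a₁ * c₂ - a₂ * c₁ + k * d * (c₁ * c₂) :=
      (Int.gcd_dvd_right _ _).trans h2
    have h4 : ((Int.gcd d M : ℕ) : ℤ) ∣ k * d * (c₁ * c₂) :=
      ((Int.gcd_dvd_left d M).mul_left k).mul_right _
    have := h3.sub h4
    simpa using this
  · rintro ⟨D', hD'⟩
    obtain ⟨v₁, w₁, h1⟩ := hc₁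
    obtain ⟨v₂, w₂, h2⟩ := hc₂
    have hb := Int.gcd_eq_gcd_ab d M
    set x := Int.gcdA d M
    set y := Int.gcdB d M
    -- (x v₁ v₂) * (d c₁ c₂) ≡ g' mod M
    refine ⟨-(D' * x * v₁ * v₂), ?_⟩
    have key : a₁ * (d * c₂) - a₂ * (d * c₁) + -(D' * x * v₁ * v₂) * ((d * c₁) * (d * c₂)) =
        d * M * (D' * (y + x * d * (w₁ + w₂ - w₁ * w₂ * M))) := by
      have e1 : a₁ * (d * c₂) - a₂ * (d * c₁) = d * (a₁ * c₂ - a₂ * c₁) := by ring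
      rw [e1, hD', hb]
      have hv1 : v₁ * c₁ = 1 - w₁ * M := by linarith
      have hv2 : v₂ * c₂ = 1 - w₂ * M := by linarith
      have e2 : -(D' * x * v₁ * v₂) * ((d * c₁) * (d * c₂)) =
          -(D' * x) * d * d * ((v₁ * c₁) * (v₂ * c₂)) := by ring
      rw [e2, hv1, hv2]
      ring
    rw [key]
    exact dvd_mul_right _ _

/-- the residue invariant -/
noncomputable def rfun (m : ℕ) (a c : ℤ) : ℕ := ((a : ZMod m) * (c : ZMod m)⁻¹).val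

lemma rfun_lt (m : ℕ) [NeZero m] (a c : ℤ) : rfun m a c < m := ZMod.val_lt _

lemma rfun_coprime {m : ℕ} {a c : ℤ} (ha : IsCoprime a (m : ℤ)) (hc : IsCoprime c (m : ℤ)) :
    Nat.Coprime (rfun m a c) m := by
  have hua : IsUnit (a : ZMod m) := IsUnit.of_mul_eq_one _ (ZMod.coe_int_mul_inv_eq_one ha)
  have huc : IsUnit ((c : ZMod m)⁻¹) := IsUnit.of_mul_eq_one _ (ZMod.coe_int_inv_mul_eq_one hc)
  have hu : IsUnit ((a : ZMod m) * (c : ZMod m)⁻¹) := hua.mul huc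
  have := ZMod.val_coe_unit_coprime hu.unit
  simpa [rfun] using this

lemma rfun_eq_iff {m : ℕ} [NeZero m] {a₁ c₁ a₂ c₂ : ℤ} (hc₁ : IsCoprime c₁ (m : ℤ))
    (hc₂ : IsCoprime c₂ (m : ℤ)) :
    rfun m a₁ c₁ = rfun m a₂ c₂ ↔ (m : ℤ) ∣ a₁ * c₂ - a₂ * c₁ := by
  unfold rfun
  rw [(ZMod.val_injective m).eq_iff]
  have e1 := ZMod.coe_int_inv_mul_eq_one hc₁
  have e2 := ZMod.coe_int_inv_mul_eq_one hc₂
  have e1' := ZMod.coe_int_mul_inv_eq_one hc₁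
  have e2' := ZMod.coe_int_mul_inv_eq_one hc₂
  have key : (a₁ : ZMod m) * (c₁ : ZMod m)⁻¹ = a₂ * (c₂ : ZMod m)⁻¹ ↔
      (a₂ : ZMod m) * c₁ = a₁ * c₂ := by
    constructor
    · intro h
      calc (a₂ : ZMod m) * c₁ = (a₂ * (c₂ : ZMod m)⁻¹) * c₁ * c₂ := by
            rw [mul_assoc, mul_assoc, mul_comm (c₁ : ZMod m), ← mul_assoc _ (c₂ : ZMod m), e2,
              one_mul]
        _ = (a₁ * (c₁ : ZMod m)⁻¹) * c₁ * c₂ := by rw [h]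
        _ = a₁ * c₂ := by rw [mul_assoc (a₁ : ZMod m), e1, mul_one]
    · intro h
      calc (a₁ : ZMod m) * (c₁ : ZMod m)⁻¹ = (a₁ * c₂) * ((c₂ : ZMod m)⁻¹ * (c₁ : ZMod m)⁻¹) := by
            rw [mul_assoc, ← mul_assoc (c₂ : ZMod m), e2', one_mul]
        _ = (a₂ * c₁) * ((c₂ : ZMod m)⁻¹ * (c₁ : ZMod m)⁻¹) := by rw [h]
        _ = a₂ * (c₂ : ZMod m)⁻¹ := by
            rw [mul_comm ((c₂ : ZMod m)⁻¹), mul_assoc, ← mul_assoc (c₁ : ZMod m), e1', one_mul]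
  rw [key]
  have := ZMod.intCast_eq_intCast_iff_dvd_sub (a₂ * c₁) (a₁ * c₂) m
  push_cast at this
  exact this


/-- `gcd(d, N/d)` -/
def gfun (N d : ℕ) : ℕ := Nat.gcd d (N / d)

lemma gfun_pos {N d : ℕ} (hd : d ≠ 0) : gfun N d ≠ 0 := by
  unfold gfun
  exact Nat.gcd_ne_zero_left hd

/-- The index set: pairs `(d, r)` with `d ∣ N`, `0 ≤ r < gcd(d, N/d)`, `r` coprime to
`gcd(d, N/d)`. -/
def idx (N : ℕ) : Finset (Σ _ : ℕ, ℕ) :=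
  N.divisors.sigma fun d => (Finset.range (gfun N d)).filter fun r => (gfun N d).Coprime r

lemma card_idx (N : ℕ) : (idx N).card = ModularCurve.cuspCount N := by
  rw [idx, Finset.card_sigma, ModularCurve.cuspCount]
  refine Finset.sum_congr rfl (fun d _ => ?_)
  rw [Nat.totient_eq_card_coprime]
  rfl

/-- The invariant of a matrix. -/
noncomputable def Φraw (N : ℕ) (g : SL(2, ℤ)) : Σ _ : ℕ, ℕ :=
  ⟨Int.gcd (g 1 0) N,
    rfun (gfun N (Int.gcd (g 1 0) N)) (g 0 0) (g 1 0 / ((Int.gcd (g 1 0) N : ℕ) : ℤ))⟩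

section facts

variable (N : ℕ) (a c : ℤ)

lemma gcd_ne_zero' [NeZero N] : Int.gcd c N ≠ 0 := by
  intro h
  rw [Int.gcd_eq_zero_iff] at h
  exact NeZero.ne N (by exact_mod_cast h.2)

lemma gcd_dvd_N : Int.gcd c N ∣ N := by
  have : ((Int.gcd c N : ℕ) : ℤ) ∣ (N : ℤ) := Int.gcd_dvd_right _ _
  exact_mod_cast this

lemma c_eq : c = ((Int.gcd c N : ℕ) : ℤ) * (c / ((Int.gcd c N : ℕ) : ℤ)) :=
  (Int.mul_ediv_cancel' (Int.gcd_dvd_left _ _)).symm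

lemma N_eq : (N : ℤ) = ((Int.gcd c N : ℕ) : ℤ) * ((N / Int.gcd c N : ℕ) : ℤ) := by
  rw [← Nat.cast_mul, Nat.mul_div_cancel' (gcd_dvd_N N c)]

lemma isCoprime_div [NeZero N] : IsCoprime (c / ((Int.gcd c N : ℕ) : ℤ)) ((N / Int.gcd c N : ℕ) : ℤ) := by
  rw [Int.isCoprime_iff_gcd_eq_one]
  have h := Int.gcd_div_gcd_div_gcd (i := c) (j := (N : ℤ))
    (Nat.pos_of_ne_zero (gcd_ne_zero' N c))
  rw [Int.natCast_div]
  exact h

lemma isCoprime_div_gfun [NeZero N] :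
    IsCoprime (c / ((Int.gcd c N : ℕ) : ℤ)) ((gfun N (Int.gcd c N) : ℕ) : ℤ) := by
  refine (isCoprime_div N c).of_isCoprime_of_dvd_right ?_
  exact_mod_cast Nat.gcd_dvd_right _ _

lemma isCoprime_gfun (h : IsCoprime a c) :
    IsCoprime a ((gfun N (Int.gcd c N) : ℕ) : ℤ) := by
  refine h.of_isCoprime_of_dvd_right ?_
  have h1 : ((gfun N (Int.gcd c N) : ℕ) : ℤ) ∣ ((Int.gcd c N : ℕ) : ℤ) := by
    exact_mod_cast Nat.gcd_dvd_left _ _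
  exact h1.trans (Int.gcd_dvd_left _ _)

end facts

lemma Φraw_mem (N : ℕ) [NeZero N] (g : SL(2, ℤ)) : Φraw N g ∈ idx N := by
  unfold Φraw idx
  rw [Finset.mem_sigma]
  refine ⟨?_, ?_⟩
  · simp only [Nat.mem_divisors]
    exact ⟨gcd_dvd_N N _, NeZero.ne N⟩
  · simp only [Finset.mem_filter, Finset.mem_range]
    have : NeZero (gfun N (Int.gcd (g 1 0) N)) := ⟨gfun_pos (gcd_ne_zero' N _)⟩
    refine ⟨rfun_lt _ _ _, ?_⟩
    exact (rfun_coprime (isCoprime_gfun N _ _ (Matrix.SpecialLinearGroup.isCoprime_col g 0))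
      (isCoprime_div_gfun N _)).symm

lemma arith_core {N d M : ℕ} (hd0 : d ≠ 0) (hN : N = d * M) {a₁ a₂ c₁' c₂' : ℤ}
    (hc₁ : IsCoprime c₁' (M : ℤ)) (hc₂ : IsCoprime c₂' (M : ℤ)) :
    rfun (Nat.gcd d M) a₁ c₁' = rfun (Nat.gcd d M) a₂ c₂' ↔
      ∃ k : ℤ, (N : ℤ) ∣ a₁ * ((d : ℤ) * c₂') - a₂ * ((d : ℤ) * c₁') +
        k * (((d : ℤ) * c₁') * ((d : ℤ) * c₂')) := by
  have : NeZero (Nat.gcd d M) := ⟨Nat.gcd_ne_zero_left hd0⟩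
  have hdvd : ((Nat.gcd d M : ℕ) : ℤ) ∣ (M : ℤ) := by exact_mod_cast Nat.gcd_dvd_right d M
  rw [rfun_eq_iff (hc₁.of_isCoprime_of_dvd_right hdvd) (hc₂.of_isCoprime_of_dvd_right hdvd)]
  have hd0' : (d : ℤ) ≠ 0 := by exact_mod_cast hd0
  rw [hN, Nat.cast_mul, exists_dvd_iff hd0' hc₁ hc₂, Int.gcd_natCast_natCast]

lemma arith_iff (N : ℕ) [NeZero N] {a₁ c₁ a₂ c₂ : ℤ} (h₁ : IsCoprime a₁ c₁)
    (h₂ : IsCoprime a₂ c₂) :
    ((⟨Int.gcd c₁ N, rfun (gfun N (Int.gcd c₁ N)) a₁ (c₁ / ((Int.gcd c₁ N : ℕ) : ℤ))⟩ :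
        Σ _ : ℕ, ℕ) =
      ⟨Int.gcd c₂ N, rfun (gfun N (Int.gcd c₂ N)) a₂ (c₂ / ((Int.gcd c₂ N : ℕ) : ℤ))⟩) ↔
      ∃ k : ℤ, (N : ℤ) ∣ a₁ * c₂ - a₂ * c₁ + k * (c₁ * c₂) := by
  rw [Sigma.mk.injEq, heq_eq_eq]
  have hN := Nat.mul_div_cancel' (gcd_dvd_N N c₁)
  have key := fun (c₂' : ℤ) => arith_core (N := N) (d := Int.gcd c₁ N) (M := N / Int.gcd c₁ N)
    (a₁ := a₁) (a₂ := a₂) (c₁' := c₁ / ((Int.gcd c₁ N : ℕ) : ℤ)) (c₂' := c₂')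
    (gcd_ne_zero' N c₁) hN.symm (isCoprime_div N c₁)
  constructor
  · rintro ⟨hd, hr⟩
    have hc₂' := isCoprime_div N c₂
    rw [← hd] at hr hc₂'
    have := (key _ hc₂').mp hr
    have e₁ := c_eq N c₁
    have e₂ := c_eq N c₂
    rw [← hd] at e₂
    rwa [← e₁, ← e₂] at this
  · intro h
    have hd := gcd_eq_of_dvd h₁ h₂ h
    refine ⟨hd, ?_⟩
    have hc₂' := isCoprime_div N c₂
    rw [← hd] at hc₂' ⊢
    refine (key _ hc₂').mpr ?_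
    have e₁ := c_eq N c₁
    have e₂ := c_eq N c₂
    rw [← hd] at e₂
    rwa [← e₁, ← e₂]

/-- Main equivalence: same invariant iff the divisibility condition is solvable. -/
lemma Φraw_eq_iff (N : ℕ) [NeZero N] (g₁ g₂ : SL(2, ℤ)) :
    Φraw N g₁ = Φraw N g₂ ↔
      ∃ k : ℤ, (N : ℤ) ∣ g₁ 0 0 * g₂ 1 0 - g₂ 0 0 * g₁ 1 0 + k * (g₁ 1 0 * g₂ 1 0) :=
  arith_iff N (Matrix.SpecialLinearGroup.isCoprime_col g₁ 0)
    (Matrix.SpecialLinearGroup.isCoprime_col g₂ 0)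

/-- Every index is attained. -/
lemma Φraw_surj (N : ℕ) [NeZero N] {x : Σ _ : ℕ, ℕ} (hx : x ∈ idx N) :
    ∃ g : SL(2, ℤ), Φraw N g = x := by
  obtain ⟨d, r⟩ := x
  rw [idx, Finset.mem_sigma] at hx
  obtain ⟨hd, hr⟩ := hx
  simp only [Finset.mem_filter, Finset.mem_range] at hr
  obtain ⟨hrlt, hrcop⟩ := hr
  have hdN : d ∣ N := Nat.dvd_of_mem_divisors hd
  have hd0 : d ≠ 0 := fun h => NeZero.ne N (by rw [h] at hdN; exact Nat.eq_zero_of_zero_dvd hdN)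
  have : NeZero d := ⟨hd0⟩
  have hg0 : gfun N d ≠ 0 := gfun_pos hd0
  have : NeZero (gfun N d) := ⟨hg0⟩
  have hdvd : gfun N d ∣ d := Nat.gcd_dvd_left _ _
  obtain ⟨u, hu⟩ := ZMod.unitsMap_surjective hdvd (ZMod.unitOfCoprime r hrcop.symm)
  have hu' : ((((u : ZMod d).val : ℕ) : ℤ) : ZMod (gfun N d)) = (r : ZMod (gfun N d)) := by
    have h1 := congrArg (fun v : (ZMod (gfun N d))ˣ => (v : ZMod (gfun N d))) hu
    simp only [ZMod.unitsMap_def, Units.coe_map, MonoidHom.coe_coe, ZMod.castHom_apply,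
      ZMod.coe_unitOfCoprime] at h1
    rw [← h1, Int.cast_natCast, ZMod.natCast_val]
  have hcop : IsCoprime (((u : ZMod d).val : ℕ) : ℤ) ((d : ℕ) : ℤ) :=
    Nat.isCoprime_iff_coprime.mpr (ZMod.val_coe_unit_coprime u)
  obtain ⟨g, hg0, hg1⟩ := hcop.exists_SL2_col 0
  refine ⟨g, ?_⟩
  unfold Φraw
  rw [hg0, hg1]
  have e1 : Int.gcd ((d : ℕ) : ℤ) (N : ℤ) = d := by
    rw [Int.gcd_natCast_natCast]
    exact Nat.gcd_eq_left hdN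
  rw [e1, Int.ediv_self (by exact_mod_cast hd0)]
  congr 1
  unfold rfun
  rw [hu', Int.cast_one, ZMod.inv_one, mul_one, ZMod.val_natCast_of_lt hrlt]

/-- `T ^ N` acts trivially on `SL(2, ℤ) ⧸ Γ₀(N)`. -/
theorem T_pow_N_smul (N : ℕ) (x : SL(2, ℤ) ⧸ Gamma0 N) : (ModularGroup.T ^ N) • x = x := by
  induction x using QuotientGroup.induction_on with
  | H g =>
    show ((ModularGroup.T ^ N * g : SL(2, ℤ)) : SL(2, ℤ) ⧸ Gamma0 N) = g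
    rw [QuotientGroup.eq, Gamma0_mem, ← zpow_natCast, lowerLeft_inv_mul]
    simp

/-- The number of `⟨T⟩`-orbits on `SL(2, ℤ) ⧸ Γ₀(N)` is the number of cusps of `Γ₀(N)`. -/
theorem card_orbits_T (N : ℕ) [NeZero N] :
    Nat.card (MulAction.orbitRel.Quotient (Subgroup.zpowers ModularGroup.T)
      (SL(2, ℤ) ⧸ Gamma0 N)) = ModularCurve.cuspCount N := by
  let π : SL(2, ℤ) → MulAction.orbitRel.Quotient (Subgroup.zpowers ModularGroup.T)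
      (SL(2, ℤ) ⧸ Gamma0 N) := fun g => Quotient.mk'' (g : SL(2, ℤ) ⧸ Gamma0 N)
  have hπ : Function.Surjective π := by
    intro q
    induction q using Quotient.inductionOn' with
    | h x =>
      induction x using QuotientGroup.induction_on with
      | H g => exact ⟨g, rfl⟩
  let Φ : SL(2, ℤ) → idx N := fun g => ⟨Φraw N g, Φraw_mem N g⟩
  have hΦ : Function.Surjective Φ := by
    rintro ⟨x, hx⟩
    obtain ⟨g, hg⟩ := Φraw_surj N hx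
    exact ⟨g, Subtype.ext hg⟩
  have hker : Setoid.ker π = Setoid.ker Φ := by
    ext g₁ g₂
    rw [Setoid.ker_def, Setoid.ker_def]
    show π g₁ = π g₂ ↔ Φ g₁ = Φ g₂
    rw [Subtype.ext_iff]
    show π g₁ = π g₂ ↔ Φraw N g₁ = Φraw N g₂
    rw [eq_comm (a := Φraw N g₁), Φraw_eq_iff]
    exact orbit_iff_exists_dvd N g₂ g₁
  have e1 := Setoid.quotientKerEquivOfSurjective π hπ
  have e2 := Setoid.quotientKerEquivOfSurjective Φ hΦ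
  rw [Nat.card_congr e1.symm, hker, Nat.card_congr e2, Nat.card_eq_fintype_card,
    Fintype.card_coe, card_idx]

end Fermat.Agent.S24.helper83
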