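import Mathlib
import Fermat.Prelude.Def_ModularCurve_GenusNumerics

set_option autoImplicit false

open scoped MatrixGroups
open CongruenceSubgroup Matrix

namespace Fermat.Agent.S24.helper27

variable (N : ℕ)

theorem inv_mul_apply_one_zero (g g' : SL(2, ℤ)) :
    (g⁻¹ * g') 1 0 = g 0 0 * g' 1 0 - g 1 0 * g' 0 0 := by
  rw [Matrix.SpecialLinearGroup.coe_mul, Matrix.SpecialLinearGroup.coe_inv,
    Matrix.adjugate_fin_two, Matrix.mul_apply]
  simp [Fin.sum_univ_two]
  ring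

/-- Two cosets `g Γ₀(N)` and `g' Γ₀(N)` agree iff the first columns of `g` and `g'` are
proportional mod `N`. -/
theorem mk_eq_mk_iff (g g' : SL(2, ℤ)) :
    (QuotientGroup.mk g : SL(2, ℤ) ⧸ Gamma0 N) = QuotientGroup.mk g' ↔
      ((g 0 0 : ℤ) : ZMod N) * ((g' 1 0 : ℤ) : ZMod N)
        - ((g 1 0 : ℤ) : ZMod N) * ((g' 0 0 : ℤ) : ZMod N) = 0 := by
  rw [QuotientGroup.eq, Gamma0_mem, inv_mul_apply_one_zero]
  push_cast
  rfl

theorem S_mul_apply_zero_zero (g : SL(2, ℤ)) : (ModularGroup.S * g) 0 0 = - g 1 0 := by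
  rw [Matrix.SpecialLinearGroup.coe_mul, ModularGroup.coe_S, Matrix.mul_apply]
  simp [Fin.sum_univ_two]

theorem S_mul_apply_one_zero (g : SL(2, ℤ)) : (ModularGroup.S * g) 1 0 = g 0 0 := by
  rw [Matrix.SpecialLinearGroup.coe_mul, ModularGroup.coe_S, Matrix.mul_apply]
  simp [Fin.sum_univ_two]

theorem ST_mul_apply_zero_zero (g : SL(2, ℤ)) :
    (ModularGroup.S * ModularGroup.T * g) 0 0 = - g 1 0 := by
  rw [Matrix.SpecialLinearGroup.coe_mul, Matrix.SpecialLinearGroup.coe_mul, ModularGroup.coe_S,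
    ModularGroup.coe_T, Matrix.mul_apply]
  simp [Fin.sum_univ_two]

theorem ST_mul_apply_one_zero (g : SL(2, ℤ)) :
    (ModularGroup.S * ModularGroup.T * g) 1 0 = g 0 0 + g 1 0 := by
  rw [Matrix.SpecialLinearGroup.coe_mul, Matrix.SpecialLinearGroup.coe_mul, ModularGroup.coe_S,
    ModularGroup.coe_T, Matrix.mul_apply]
  simp [Fin.sum_univ_two]

/-- The coset `g Γ₀(N)` is fixed by `S` iff `a² + c² ≡ 0 mod N`, `(a, c)` the first column. -/
theorem S_smul_mk_eq_iff (g : SL(2, ℤ)) :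
    ModularGroup.S • (QuotientGroup.mk g : SL(2, ℤ) ⧸ Gamma0 N) = QuotientGroup.mk g ↔
      ((g 0 0 : ℤ) : ZMod N) ^ 2 + ((g 1 0 : ℤ) : ZMod N) ^ 2 = 0 := by
  rw [MulAction.Quotient.smul_mk, smul_eq_mul, mk_eq_mk_iff, S_mul_apply_zero_zero,
    S_mul_apply_one_zero]
  push_cast
  constructor
  · intro h; linear_combination -h
  · intro h; linear_combination -h

theorem ST_smul_mk_eq_iff (g : SL(2, ℤ)) :
    (ModularGroup.S * ModularGroup.T) • (QuotientGroup.mk g : SL(2, ℤ) ⧸ Gamma0 N)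
        = QuotientGroup.mk g ↔
      ((g 0 0 : ℤ) : ZMod N) ^ 2 + ((g 0 0 : ℤ) : ZMod N) * ((g 1 0 : ℤ) : ZMod N)
        + ((g 1 0 : ℤ) : ZMod N) ^ 2 = 0 := by
  rw [MulAction.Quotient.smul_mk, smul_eq_mul, mk_eq_mk_iff, ST_mul_apply_zero_zero,
    ST_mul_apply_one_zero]
  push_cast
  constructor
  · intro h; linear_combination -h
  · intro h; linear_combination -h

/-- The determinant relation mod `N`. -/
theorem det_cast (g : SL(2, ℤ)) :
    ((g 0 0 : ℤ) : ZMod N) * ((g 1 1 : ℤ) : ZMod N)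
      - ((g 0 1 : ℤ) : ZMod N) * ((g 1 0 : ℤ) : ZMod N) = 1 := by
  have h := g.2
  rw [Matrix.det_fin_two] at h
  have := congrArg (Int.cast : ℤ → ZMod N) h
  push_cast at this
  exact this

/-- The representative `[[x, -1], [1, 0]]`. -/
def rep (x : ℤ) : SL(2, ℤ) := ⟨!![x, -1; 1, 0], by simp [Matrix.det_fin_two_of]⟩

@[simp] theorem rep_apply_zero_zero (x : ℤ) : (rep x) 0 0 = x := rfl
@[simp] theorem rep_apply_one_zero (x : ℤ) : (rep x) 1 0 = 1 := rfl


theorem cast_rep_val [NeZero N] (x : ZMod N) : (((x.val : ℕ) : ℤ) : ZMod N) = x := by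
  simp

section FixedS

variable [NeZero N]

theorem S_fixed_aux (g : SL(2, ℤ))
    (h : ((g 0 0 : ℤ) : ZMod N) ^ 2 + ((g 1 0 : ℤ) : ZMod N) ^ 2 = 0) :
    ∃ x : ZMod N, x ^ 2 + 1 = 0 ∧
      (QuotientGroup.mk (rep (x.val : ℤ)) : SL(2, ℤ) ⧸ Gamma0 N) = QuotientGroup.mk g := by
  have hdet := det_cast N g
  set a : ZMod N := ((g 0 0 : ℤ) : ZMod N) with ha
  set b : ZMod N := ((g 0 1 : ℤ) : ZMod N) with hb
  set c : ZMod N := ((g 1 0 : ℤ) : ZMod N) with hc
  set d : ZMod N := ((g 1 1 : ℤ) : ZMod N) with hd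
  set u : ZMod N := -(c * d + a * b) * d - b with hu
  have hcu : c * u = 1 := by
    rw [hu]; linear_combination (a * d + 1) * hdet - d ^ 2 * h
  refine ⟨a * u, ?_, ?_⟩
  · linear_combination u ^ 2 * h - (c * u + 1) * hcu
  · rw [mk_eq_mk_iff, rep_apply_zero_zero, rep_apply_one_zero, cast_rep_val]
    push_cast
    linear_combination a * hcu

/-- The bijection between solutions of `x² + 1 = 0` in `ZMod N` and the fixed points of `S`
on `SL(2, ℤ) ⧸ Γ₀(N)`. -/
noncomputable def fixedBySEquiv :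
    {x : ZMod N // x ^ 2 + 1 = 0} ≃
      MulAction.fixedBy (SL(2, ℤ) ⧸ Gamma0 N) ModularGroup.S :=
  Equiv.ofBijective
    (fun x => ⟨(QuotientGroup.mk (rep (x.1.val : ℤ)) : SL(2, ℤ) ⧸ Gamma0 N), by
      rw [MulAction.mem_fixedBy, S_smul_mk_eq_iff, rep_apply_zero_zero, rep_apply_one_zero,
        cast_rep_val]
      push_cast
      linear_combination x.2⟩)
    ⟨by
      rintro ⟨x, hx⟩ ⟨y, hy⟩ hxy
      have h := congrArg Subtype.val hxy
      simp only at h
      rw [mk_eq_mk_iff, rep_apply_zero_zero, rep_apply_one_zero, rep_apply_zero_zero,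
        rep_apply_one_zero, cast_rep_val, cast_rep_val] at h
      push_cast at h
      apply Subtype.ext
      simp only
      linear_combination h, by
      rintro ⟨X, hX⟩
      induction X using QuotientGroup.induction_on with
      | H g =>
        rw [MulAction.mem_fixedBy, S_smul_mk_eq_iff] at hX
        obtain ⟨x, hx, hxg⟩ := S_fixed_aux N g hX
        exact ⟨⟨x, hx⟩, Subtype.ext hxg⟩⟩

theorem card_fixedBy_S :
    Nat.card (MulAction.fixedBy (SL(2, ℤ) ⧸ Gamma0 N) ModularGroup.S) = ModularCurve.nuTwo N :=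
  (Nat.card_congr (fixedBySEquiv N)).symm

end FixedS

section FixedST

variable [NeZero N]

theorem ST_fixed_aux (g : SL(2, ℤ))
    (h : ((g 0 0 : ℤ) : ZMod N) ^ 2 + ((g 0 0 : ℤ) : ZMod N) * ((g 1 0 : ℤ) : ZMod N)
        + ((g 1 0 : ℤ) : ZMod N) ^ 2 = 0) :
    ∃ x : ZMod N, x ^ 2 + x + 1 = 0 ∧
      (QuotientGroup.mk (rep (x.val : ℤ)) : SL(2, ℤ) ⧸ Gamma0 N) = QuotientGroup.mk g := by
  have hdet := det_cast N g
  set a : ZMod N := ((g 0 0 : ℤ) : ZMod N) with ha
  set b : ZMod N := ((g 0 1 : ℤ) : ZMod N) with hb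
  set c : ZMod N := ((g 1 0 : ℤ) : ZMod N) with hc
  set d : ZMod N := ((g 1 1 : ℤ) : ZMod N) with hd
  set u : ZMod N := (-(a + c) * d - a * b) * d - b with hu
  have hcu : c * u = 1 := by
    rw [hu]; linear_combination (a * d + 1) * hdet - d ^ 2 * h
  refine ⟨a * u, ?_, ?_⟩
  · linear_combination u ^ 2 * h - (a * u + c * u + 1) * hcu
  · rw [mk_eq_mk_iff, rep_apply_zero_zero, rep_apply_one_zero, cast_rep_val]
    push_cast
    linear_combination a * hcu

/-- The bijection between solutions of `x² + x + 1 = 0` in `ZMod N` and the fixed points of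
`S * T` on `SL(2, ℤ) ⧸ Γ₀(N)`. -/
noncomputable def fixedBySTEquiv :
    {x : ZMod N // x ^ 2 + x + 1 = 0} ≃
      MulAction.fixedBy (SL(2, ℤ) ⧸ Gamma0 N) (ModularGroup.S * ModularGroup.T) :=
  Equiv.ofBijective
    (fun x => ⟨(QuotientGroup.mk (rep (x.1.val : ℤ)) : SL(2, ℤ) ⧸ Gamma0 N), by
      rw [MulAction.mem_fixedBy, ST_smul_mk_eq_iff, rep_apply_zero_zero, rep_apply_one_zero,
        cast_rep_val]
      push_cast
      linear_combination x.2⟩)
    ⟨by
      rintro ⟨x, hx⟩ ⟨y, hy⟩ hxy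
      have h := congrArg Subtype.val hxy
      simp only at h
      rw [mk_eq_mk_iff, rep_apply_zero_zero, rep_apply_one_zero, rep_apply_zero_zero,
        rep_apply_one_zero, cast_rep_val, cast_rep_val] at h
      push_cast at h
      apply Subtype.ext
      simp only
      linear_combination h, by
      rintro ⟨X, hX⟩
      induction X using QuotientGroup.induction_on with
      | H g =>
        rw [MulAction.mem_fixedBy, ST_smul_mk_eq_iff] at hX
        obtain ⟨x, hx, hxg⟩ := ST_fixed_aux N g hX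
        exact ⟨⟨x, hx⟩, Subtype.ext hxg⟩⟩

theorem card_fixedBy_ST :
    Nat.card (MulAction.fixedBy (SL(2, ℤ) ⧸ Gamma0 N) (ModularGroup.S * ModularGroup.T))
      = ModularCurve.nuThree N :=
  (Nat.card_congr (fixedBySTEquiv N)).symm

end FixedST


section Orders

theorem S_sq : ModularGroup.S ^ 2 = -1 := by decide

theorem ST_cube : (ModularGroup.S * ModularGroup.T) ^ 3 = -1 := by decide

theorem S_pow_four : ModularGroup.S ^ 4 = 1 := by decide

theorem ST_pow_six : (ModularGroup.S * ModularGroup.T) ^ 6 = 1 := by decide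

theorem orderOf_S : orderOf ModularGroup.S = 4 := by
  rw [orderOf_eq_iff (by norm_num)]
  refine ⟨S_pow_four, ?_⟩
  intro m hm hpos
  interval_cases m <;> decide

theorem orderOf_ST : orderOf (ModularGroup.S * ModularGroup.T) = 6 := by
  rw [orderOf_eq_iff (by norm_num)]
  refine ⟨ST_pow_six, ?_⟩
  intro m hm hpos
  interval_cases m <;> decide

end Orders

section TrivialAction

theorem neg_one_smul_mk (g : SL(2, ℤ)) :
    (-1 : SL(2, ℤ)) • (QuotientGroup.mk g : SL(2, ℤ) ⧸ Gamma0 N) = QuotientGroup.mk g := by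
  rw [MulAction.Quotient.smul_mk, smul_eq_mul, mk_eq_mk_iff]
  have h00 : (-1 * g : SL(2, ℤ)) 0 0 = - g 0 0 := by simp
  have h10 : (-1 * g : SL(2, ℤ)) 1 0 = - g 1 0 := by simp
  rw [h00, h10]
  push_cast
  ring

/-- `-1` acts trivially on `SL(2, ℤ) ⧸ Γ₀(N)`. -/
theorem neg_one_smul_quot (x : SL(2, ℤ) ⧸ Gamma0 N) : (-1 : SL(2, ℤ)) • x = x := by
  induction x using QuotientGroup.induction_on with
  | H g => exact neg_one_smul_mk N g

theorem S_sq_smul (x : SL(2, ℤ) ⧸ Gamma0 N) : (ModularGroup.S ^ 2) • x = x := by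
  rw [S_sq]; exact neg_one_smul_quot N x

theorem ST_cube_smul (x : SL(2, ℤ) ⧸ Gamma0 N) :
    ((ModularGroup.S * ModularGroup.T) ^ 3) • x = x := by
  rw [ST_cube]; exact neg_one_smul_quot N x

end TrivialAction

section Burnside

open MulAction

/-- Burnside's lemma for the cyclic group generated by an element of finite order,
in `Nat.card` form. -/
theorem sum_card_fixedBy_zpowers {G X : Type*} [Group G] [MulAction G X] [Finite X] (g : G)
    (n : ℕ) (hn : orderOf g = n) (hpos : 0 < n) :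
    ∑ i : Fin n, Nat.card (fixedBy X (g ^ (i : ℕ)))
      = Nat.card (orbitRel.Quotient (Subgroup.zpowers g) X) * n := by
  subst hn
  have hg : IsOfFinOrder g := orderOf_pos_iff.mp hpos
  have : Finite (Subgroup.zpowers g) := Finite.of_equiv _ (finEquivZPowers hg)
  have e := sigmaFixedByEquivOrbitsProdGroup (Subgroup.zpowers g) X
  have h1 := Nat.card_congr e
  rw [Nat.card_prod, Nat.card_zpowers] at h1
  rw [← h1]
  have e2 : (Σ i : Fin (orderOf g), fixedBy X (g ^ (i : ℕ))) ≃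
      (Σ h : Subgroup.zpowers g, fixedBy X h) :=
    Equiv.sigmaCongrLeft (β := fun h : Subgroup.zpowers g => fixedBy X h) (finEquivZPowers hg)
  rw [← Nat.card_congr e2, Nat.card_sigma]

theorem card_fixedBy_of_forall {G X : Type*} [Group G] [MulAction G X] {g : G}
    (h : ∀ x : X, g • x = x) : Nat.card (fixedBy X g) = Nat.card X :=
  Nat.card_congr (Equiv.subtypeUnivEquiv h)

theorem card_fixedBy_congr {G X : Type*} [Group G] [MulAction G X] {g g' : G}
    (h : ∀ x : X, g • x = x ↔ g' • x = x) :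
    Nat.card (fixedBy X g) = Nat.card (fixedBy X g') := by
  have : fixedBy X g = fixedBy X g' := Set.ext fun x => h x
  rw [this]

variable [NeZero N]

/-- Orbit count for `S`: `2 * #(⟨S⟩ \ X) = #X + ν₂`. -/
theorem two_mul_card_orbits_S :
    2 * Nat.card (orbitRel.Quotient (Subgroup.zpowers ModularGroup.S) (SL(2, ℤ) ⧸ Gamma0 N))
      = Nat.card (SL(2, ℤ) ⧸ Gamma0 N) + ModularCurve.nuTwo N := by
  have hfin : Finite (SL(2, ℤ) ⧸ Gamma0 N) := Subgroup.finite_quotient_of_finiteIndex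
  have h : ∑ i : Fin 4, Nat.card (fixedBy (SL(2, ℤ) ⧸ Gamma0 N) (ModularGroup.S ^ (i : ℕ)))
      = Nat.card (orbitRel.Quotient (Subgroup.zpowers ModularGroup.S) (SL(2, ℤ) ⧸ Gamma0 N)) * 4 :=
    sum_card_fixedBy_zpowers (X := SL(2, ℤ) ⧸ Gamma0 N) ModularGroup.S 4 orderOf_S
      (by norm_num)
  rw [Fin.sum_univ_four] at h
  have h0 : Nat.card (fixedBy (SL(2, ℤ) ⧸ Gamma0 N) (ModularGroup.S ^ ((0 : Fin 4) : ℕ)))
      = Nat.card (SL(2, ℤ) ⧸ Gamma0 N) :=
    card_fixedBy_of_forall fun x => by simp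
  have h1 : Nat.card (fixedBy (SL(2, ℤ) ⧸ Gamma0 N) (ModularGroup.S ^ ((1 : Fin 4) : ℕ)))
      = ModularCurve.nuTwo N := by
    rw [← card_fixedBy_S N]
    exact card_fixedBy_congr fun x => by simp
  have h2 : Nat.card (fixedBy (SL(2, ℤ) ⧸ Gamma0 N) (ModularGroup.S ^ ((2 : Fin 4) : ℕ)))
      = Nat.card (SL(2, ℤ) ⧸ Gamma0 N) :=
    card_fixedBy_of_forall fun x => S_sq_smul N x
  have h3 : Nat.card (fixedBy (SL(2, ℤ) ⧸ Gamma0 N) (ModularGroup.S ^ ((3 : Fin 4) : ℕ)))
      = ModularCurve.nuTwo N := by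
    rw [← card_fixedBy_S N]
    refine card_fixedBy_congr fun x => ?_
    have : (ModularGroup.S ^ ((3 : Fin 4) : ℕ)) • x = ModularGroup.S • x := by
      show (ModularGroup.S ^ 3) • x = ModularGroup.S • x
      rw [show (3 : ℕ) = 1 + 2 from rfl, pow_add, mul_smul, S_sq_smul, pow_one]
    rw [this]
  rw [h0, h1, h2, h3] at h
  omega

/-- Orbit count for `S * T`: `3 * #(⟨ST⟩ \ X) = #X + 2 ν₃`. -/
theorem three_mul_card_orbits_ST :
    3 * Nat.card (orbitRel.Quotient (Subgroup.zpowers (ModularGroup.S * ModularGroup.T))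
        (SL(2, ℤ) ⧸ Gamma0 N))
      = Nat.card (SL(2, ℤ) ⧸ Gamma0 N) + 2 * ModularCurve.nuThree N := by
  have hfin : Finite (SL(2, ℤ) ⧸ Gamma0 N) := Subgroup.finite_quotient_of_finiteIndex
  have h : ∑ i : Fin 6, Nat.card (fixedBy (SL(2, ℤ) ⧸ Gamma0 N)
        ((ModularGroup.S * ModularGroup.T) ^ (i : ℕ)))
      = Nat.card (orbitRel.Quotient (Subgroup.zpowers (ModularGroup.S * ModularGroup.T))
          (SL(2, ℤ) ⧸ Gamma0 N)) * 6 :=
    sum_card_fixedBy_zpowers (X := SL(2, ℤ) ⧸ Gamma0 N)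
      (ModularGroup.S * ModularGroup.T) 6 orderOf_ST (by norm_num)
  rw [Fin.sum_univ_six] at h
  generalize hg : ModularGroup.S * ModularGroup.T = g at h ⊢
  have hcube : ∀ x : SL(2, ℤ) ⧸ Gamma0 N, (g ^ 3) • x = x := by
    intro x; rw [← hg]; exact ST_cube_smul N x
  have hν : Nat.card (fixedBy (SL(2, ℤ) ⧸ Gamma0 N) g) = ModularCurve.nuThree N := by
    rw [← hg]; exact card_fixedBy_ST N
  have hsq : ∀ x : SL(2, ℤ) ⧸ Gamma0 N, (g ^ 2) • x = x ↔ g • x = x := by
    intro x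
    constructor
    · intro hx
      have h3 := hcube x
      rw [show (3 : ℕ) = 1 + 2 from rfl, pow_add, mul_smul, hx, pow_one] at h3
      exact h3
    · intro hx
      rw [pow_two, mul_smul, hx, hx]
  have h0 : Nat.card (fixedBy (SL(2, ℤ) ⧸ Gamma0 N) (g ^ ((0 : Fin 6) : ℕ)))
      = Nat.card (SL(2, ℤ) ⧸ Gamma0 N) :=
    card_fixedBy_of_forall fun x => by simp
  have h1 : Nat.card (fixedBy (SL(2, ℤ) ⧸ Gamma0 N) (g ^ ((1 : Fin 6) : ℕ)))
      = ModularCurve.nuThree N := by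
    rw [← hν]
    exact card_fixedBy_congr fun x => by simp
  have h2 : Nat.card (fixedBy (SL(2, ℤ) ⧸ Gamma0 N) (g ^ ((2 : Fin 6) : ℕ)))
      = ModularCurve.nuThree N := by
    rw [← hν]
    exact card_fixedBy_congr fun x => hsq x
  have h3 : Nat.card (fixedBy (SL(2, ℤ) ⧸ Gamma0 N) (g ^ ((3 : Fin 6) : ℕ)))
      = Nat.card (SL(2, ℤ) ⧸ Gamma0 N) :=
    card_fixedBy_of_forall fun x => hcube x
  have h4 : Nat.card (fixedBy (SL(2, ℤ) ⧸ Gamma0 N) (g ^ ((4 : Fin 6) : ℕ)))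
      = ModularCurve.nuThree N := by
    rw [← hν]
    refine card_fixedBy_congr fun x => ?_
    have : (g ^ ((4 : Fin 6) : ℕ)) • x = g • x := by
      show (g ^ 4) • x = g • x
      rw [show (4 : ℕ) = 1 + 3 from rfl, pow_add, mul_smul, hcube, pow_one]
    rw [this]
  have h5 : Nat.card (fixedBy (SL(2, ℤ) ⧸ Gamma0 N) (g ^ ((5 : Fin 6) : ℕ)))
      = ModularCurve.nuThree N := by
    rw [← hν]
    refine card_fixedBy_congr fun x => ?_
    have : (g ^ ((5 : Fin 6) : ℕ)) • x = (g ^ 2) • x := by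
      show (g ^ 5) • x = (g ^ 2) • x
      rw [show (5 : ℕ) = 2 + 3 from rfl, pow_add, mul_smul, hcube]
    rw [this]
    exact hsq x
  rw [h0, h1, h2, h3, h4, h5] at h
  omega

end Burnside

end Fermat.Agent.S24.helper27
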