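/-
S24-C1 (task board T#2), helper37.

Main results (namespace `Fermat.Agent.S24.helper37`):
* `index_Gamma0 (N) (hN : N ≠ 0) : (Gamma0 N).index = ModularCurve.dedekindPsi N`
* `card_quotient_Gamma0 (N) [NeZero N] : Nat.card (SL(2, ℤ) ⧸ Gamma0 N) = ModularCurve.dedekindPsi N`
* `relIndex_Gamma0_mul_prime`, `dedekindPsi_mul_prime`: the one-prime-at-a-time recursions
* `finite_quotient_Gamma0`, `dedekindPsi_pos`
* generic: `card_quotient_eq_card_range`, `relIndex_eq_card_image`, `Gamma0_le_of_dvd`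

Proof: induction on `N`, peeling off one prime `p` at a time.  The cosets of `Γ₀(Mp)` in `Γ₀(M)`
are classified by the point `[a : c / M]` of the projective line over `𝔽_p`; all `p + 1` points
occur when `p ∤ M`, and exactly the `p` points with `a ≠ 0` occur when `p ∣ M`.
-/
import Mathlib
import Fermat.Prelude.Def_ModularCurve_GenusNumerics

set_option autoImplicit false
open scoped MatrixGroups
open CongruenceSubgroup Matrix

namespace Fermat.Agent.S24.helper37

lemma Gamma0_le_of_dvd {M N : ℕ} (h : M ∣ N) : Gamma0 N ≤ Gamma0 M := by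
  intro g hg
  rw [Gamma0_mem] at hg ⊢
  rw [ZMod.intCast_zmod_eq_zero_iff_dvd] at hg ⊢
  exact (Int.natCast_dvd_natCast.mpr h).trans hg

lemma card_quotient_eq_card_range {G Y : Type*} [Group G] (H : Subgroup G) (φ : G → Y)
    (hφ : ∀ a b, φ a = φ b ↔ a⁻¹ * b ∈ H) : Nat.card (G ⧸ H) = Nat.card (Set.range φ) := by
  let ψ : G ⧸ H → Y :=
    Quotient.lift φ (fun a b hab => (hφ a b).mpr (QuotientGroup.leftRel_apply.mp hab))
  have hinj : Function.Injective ψ := by
    intro x y hxy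
    induction x using QuotientGroup.induction_on with
    | H a =>
      induction y using QuotientGroup.induction_on with
      | H b => exact QuotientGroup.eq.mpr ((hφ _ _).mp hxy)
  have hrange : Set.range ψ = Set.range φ := by
    ext y; constructor
    · rintro ⟨x, rfl⟩
      induction x using QuotientGroup.induction_on with
      | H a => exact ⟨a, rfl⟩
    · rintro ⟨a, rfl⟩; exact ⟨QuotientGroup.mk a, rfl⟩
  rw [← hrange]
  exact Nat.card_congr (Equiv.ofInjective ψ hinj)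

lemma relIndex_eq_card_image {G Y : Type*} [Group G] (H K : Subgroup G) (φ : G → Y)
    (hφ : ∀ a ∈ K, ∀ b ∈ K, φ a = φ b ↔ a⁻¹ * b ∈ H) :
    H.relIndex K = Nat.card (φ '' (K : Set G)) := by
  have hset : Set.range (fun k : K => φ k.1) = φ '' (K : Set G) := by
    ext y
    constructor
    · rintro ⟨k, rfl⟩; exact ⟨k.1, k.2, rfl⟩
    · rintro ⟨g, hg, rfl⟩; exact ⟨⟨g, hg⟩, rfl⟩
  rw [Subgroup.relIndex, Subgroup.index_eq_card,
    card_quotient_eq_card_range (H.subgroupOf K) (fun k : K => φ k.1)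
      (fun a b => by
        rw [hφ a.1 a.2 b.1 b.2, Subgroup.mem_subgroupOf]
        rfl), hset]

lemma inv_mul_apply_one_zero (γ γ' : SL(2, ℤ)) :
    (γ⁻¹ * γ') 1 0 = γ 0 0 * γ' 1 0 - γ 1 0 * γ' 0 0 := by
  have h := (Matrix.two_mul_expl (γ⁻¹).1 γ'.1).2.2.1
  have h2 : ((γ⁻¹ * γ' : SL(2, ℤ)) : Matrix (Fin 2) (Fin 2) ℤ) = (γ⁻¹).1 * γ'.1 := rfl
  show ((γ⁻¹ * γ' : SL(2, ℤ)) : Matrix (Fin 2) (Fin 2) ℤ) 1 0 = _
  rw [h2, h, SpecialLinearGroup.SL2_inv_expl]
  simp
  ring

/-- The classifying map `Γ₀(M) → ℙ¹(𝔽_p)`, `γ ↦ [a : c / M]`, encoded in `Option (ZMod p)`. -/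
noncomputable def cls (M p : ℕ) (γ : SL(2, ℤ)) : Option (ZMod p) :=
  if ((γ 0 0 : ℤ) : ZMod p) = 0 then none
  else some (((γ 1 0 / (M : ℤ) : ℤ) : ZMod p) * ((γ 0 0 : ℤ) : ZMod p)⁻¹)

lemma det_eq_one' (γ : SL(2, ℤ)) : γ 0 0 * γ 1 1 - γ 0 1 * γ 1 0 = 1 := by
  have := γ.2
  rwa [Matrix.det_fin_two] at this

lemma mem_Gamma0_iff_dvd {N : ℕ} {γ : SL(2, ℤ)} : γ ∈ Gamma0 N ↔ (N : ℤ) ∣ γ 1 0 := by
  rw [Gamma0_mem, ZMod.intCast_zmod_eq_zero_iff_dvd]

section
variable {M p : ℕ} [hp : Fact p.Prime]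

/-- nonvanishing of the pair `(a, c/M)` mod `p` -/
lemma key_ne (γ : SL(2, ℤ)) (hγ : γ ∈ Gamma0 M)
    (ha : ((γ 0 0 : ℤ) : ZMod p) = 0) : ((γ 1 0 / (M : ℤ) : ℤ) : ZMod p) ≠ 0 := by
  intro hc
  obtain ⟨c, hc'⟩ := mem_Gamma0_iff_dvd.mp hγ
  have hdet := det_eq_one' γ
  have h1 : ((γ 0 0 * γ 1 1 - γ 0 1 * γ 1 0 : ℤ) : ZMod p) = 1 := by
    rw [hdet]; simp
  by_cases hM : (M : ℤ) = 0
  · rw [hc', hM] at h1
    push_cast at h1
    rw [ha] at h1
    simp at h1
  · rw [hc', Int.mul_ediv_cancel_left _ hM] at hc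
    rw [hc'] at h1
    push_cast at h1
    rw [ha, hc] at h1
    simp at h1

lemma cls_eq_iff (hM : M ≠ 0) (γ γ' : SL(2, ℤ)) (hγ : γ ∈ Gamma0 M) (hγ' : γ' ∈ Gamma0 M) :
    cls M p γ = cls M p γ' ↔ γ⁻¹ * γ' ∈ Gamma0 (M * p) := by
  obtain ⟨c, hc⟩ := mem_Gamma0_iff_dvd.mp hγ
  obtain ⟨c₂, hc₂⟩ := mem_Gamma0_iff_dvd.mp hγ'
  have hMz : (M : ℤ) ≠ 0 := by exact_mod_cast hM
  have hR : γ⁻¹ * γ' ∈ Gamma0 (M * p) ↔
      ((γ 0 0 : ℤ) : ZMod p) * ((c₂ : ℤ) : ZMod p) = ((c : ℤ) : ZMod p) * ((γ' 0 0 : ℤ) : ZMod p) := by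
    rw [mem_Gamma0_iff_dvd, inv_mul_apply_one_zero, hc, hc₂]
    have : γ 0 0 * ((M : ℤ) * c₂) - (M : ℤ) * c * γ' 0 0 = (M : ℤ) * (γ 0 0 * c₂ - c * γ' 0 0) := by
      ring
    rw [this]
    push_cast
    rw [mul_dvd_mul_iff_left hMz, ← sub_eq_zero, ← Int.cast_mul, ← Int.cast_mul, ← Int.cast_sub,
      ZMod.intCast_zmod_eq_zero_iff_dvd]
  rw [hR]
  have hk := key_ne (p := p) γ hγ
  have hk' := key_ne (p := p) γ' hγ'
  rw [hc, Int.mul_ediv_cancel_left _ hMz] at hk
  rw [hc₂, Int.mul_ediv_cancel_left _ hMz] at hk'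
  unfold cls
  rw [hc, hc₂, Int.mul_ediv_cancel_left _ hMz, Int.mul_ediv_cancel_left _ hMz]
  by_cases ha : ((γ 0 0 : ℤ) : ZMod p) = 0
  · by_cases ha' : ((γ' 0 0 : ℤ) : ZMod p) = 0
    · simp [ha, ha']
    · simp only [ha, ha', if_true, if_false, zero_mul]
      constructor
      · intro h; exact absurd h (by simp)
      · intro h
        exfalso
        rcases mul_eq_zero.mp h.symm with h1 | h1
        · exact hk ha h1
        · exact ha' h1
  · by_cases ha' : ((γ' 0 0 : ℤ) : ZMod p) = 0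
    · simp only [ha, ha', if_true, if_false, mul_zero]
      constructor
      · intro h; exact absurd h (by simp)
      · intro h
        exfalso
        rcases mul_eq_zero.mp h with h1 | h1
        · exact ha h1
        · exact hk' ha' h1
    · simp only [ha, ha', if_false, Option.some.injEq]
      constructor
      · intro h
        field_simp at h
        linear_combination -h
      · intro h
        field_simp
        linear_combination -h

/-- the matrix `[[a, b], [c, d]]` of determinant one -/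
def mk2 (a b c d : ℤ) (h : a * d - b * c = 1) : SL(2, ℤ) :=
  ⟨!![a, b; c, d], by rw [Matrix.det_fin_two]; simpa using h⟩

@[simp] lemma mk2_zero_zero (a b c d : ℤ) (h : a * d - b * c = 1) : mk2 a b c d h 0 0 = a := rfl
@[simp] lemma mk2_one_zero (a b c d : ℤ) (h : a * d - b * c = 1) : mk2 a b c d h 1 0 = c := rfl

/-- the matrix `[[1, 0], [c, 1]]` -/
def lowerUni (c : ℤ) : SL(2, ℤ) := ⟨!![1, 0; c, 1], by simp [Matrix.det_fin_two]⟩

@[simp] lemma lowerUni_zero_zero (c : ℤ) : lowerUni c 0 0 = 1 := rfl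
@[simp] lemma lowerUni_one_zero (c : ℤ) : lowerUni c 1 0 = c := rfl

lemma cls_lowerUni (hM : M ≠ 0) (x : ZMod p) :
    cls M p (lowerUni ((M : ℤ) * (x.val : ℤ))) = some x := by
  have hMz : (M : ℤ) ≠ 0 := by exact_mod_cast hM
  unfold cls
  rw [lowerUni_zero_zero, lowerUni_one_zero, Int.mul_ediv_cancel_left _ hMz]
  have h1 : ((1 : ℤ) : ZMod p) ≠ 0 := by
    have : Fact (1 < p) := ⟨hp.out.one_lt⟩
    simp
  rw [if_neg h1]
  simp

lemma lowerUni_mem (M : ℕ) (c : ℤ) : lowerUni ((M : ℤ) * c) ∈ Gamma0 M := by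
  rw [mem_Gamma0_iff_dvd, lowerUni_one_zero]
  exact dvd_mul_right _ _

lemma image_cls_of_dvd (hM : M ≠ 0) (hpM : p ∣ M) :
    cls M p '' (Gamma0 M : Set SL(2, ℤ)) = Set.range some := by
  ext y
  constructor
  · rintro ⟨γ, hγ, rfl⟩
    have ha : ((γ 0 0 : ℤ) : ZMod p) ≠ 0 := by
      intro ha
      obtain ⟨c, hc'⟩ := mem_Gamma0_iff_dvd.mp hγ
      have hdet := det_eq_one' γ
      have h1 : ((γ 0 0 * γ 1 1 - γ 0 1 * γ 1 0 : ℤ) : ZMod p) = 1 := by
        rw [hdet]; simp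
      have hMp : ((M : ℤ) : ZMod p) = 0 := by
        rw [Int.cast_natCast, ZMod.natCast_eq_zero_iff]
        exact hpM
      rw [hc'] at h1
      push_cast at h1
      rw [ha] at h1
      simp only [Int.cast_natCast] at hMp
      rw [hMp] at h1
      simp at h1
    unfold cls
    rw [if_neg ha]
    exact ⟨_, rfl⟩
  · rintro ⟨x, rfl⟩
    exact ⟨_, lowerUni_mem M _, cls_lowerUni hM x⟩

lemma image_cls_of_not_dvd (hM : M ≠ 0) (hpM : ¬ p ∣ M) :
    cls M p '' (Gamma0 M : Set SL(2, ℤ)) = Set.univ := by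
  rw [Set.eq_univ_iff_forall]
  rintro (_ | x)
  · -- `none`: need a matrix in `Γ₀(M)` with upper-left entry divisible by `p`
    have hcop : IsCoprime (p : ℤ) (M : ℤ) := by
      rw [Int.isCoprime_iff_gcd_eq_one, Int.gcd_natCast_natCast]
      exact (Nat.Prime.coprime_iff_not_dvd hp.out).mpr hpM
    obtain ⟨u, v, huv⟩ := hcop
    have hdet : (p : ℤ) * u - (-v) * (M : ℤ) = 1 := by linear_combination huv
    refine ⟨mk2 (p : ℤ) (-v) (M : ℤ) u hdet, ?_, ?_⟩
    · show mk2 (p : ℤ) (-v) (M : ℤ) u hdet ∈ Gamma0 M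
      rw [mem_Gamma0_iff_dvd, mk2_one_zero]
    · unfold cls
      rw [mk2_zero_zero]
      simp
  · exact ⟨_, lowerUni_mem M _, cls_lowerUni hM x⟩

lemma relIndex_Gamma0_mul_prime (hM : M ≠ 0) :
    (Gamma0 (M * p)).relIndex (Gamma0 M) = if p ∣ M then p else p + 1 := by
  rw [relIndex_eq_card_image (Gamma0 (M * p)) (Gamma0 M) (cls M p)
    (fun a ha b hb => cls_eq_iff hM a b ha hb)]
  split_ifs with hpM
  · rw [image_cls_of_dvd hM hpM, Nat.card_range_of_injective (Option.some_injective _),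
      Nat.card_zmod]
  · rw [image_cls_of_not_dvd hM hpM, Nat.card_coe_set_eq, Set.ncard_univ,
      Nat.card_eq_fintype_card, Fintype.card_option, ZMod.card]

end



lemma dedekindPsi_mul_prime_of_dvd {M p : ℕ} (hp : p.Prime) (hM : M ≠ 0) (h : p ∣ M) :
    ModularCurve.dedekindPsi (M * p) = p * ModularCurve.dedekindPsi M := by
  unfold ModularCurve.dedekindPsi
  have hset : (M * p).divisors.filter Squarefree = M.divisors.filter Squarefree := by
    ext d
    simp only [Finset.mem_filter, Nat.mem_divisors]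
    constructor
    · rintro ⟨⟨hd, -⟩, hsq⟩
      refine ⟨⟨?_, hM⟩, hsq⟩
      by_cases hpd : p ∣ d
      · obtain ⟨e, rfl⟩ := hpd
        have hcop : Nat.Coprime p e := by
          rw [Nat.Prime.coprime_iff_not_dvd hp]
          intro hpe
          obtain ⟨f, rfl⟩ := hpe
          have := hsq p ⟨f, by ring⟩
          exact hp.not_isUnit this
        have he : e ∣ M := by
          rw [mul_comm M p] at hd
          exact (Nat.mul_dvd_mul_iff_left hp.pos).mp hd
        exact Nat.Coprime.mul_dvd_of_dvd_of_dvd hcop h he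
      · have hcop : Nat.Coprime d p := by
          rw [Nat.coprime_comm, Nat.Prime.coprime_iff_not_dvd hp]
          exact hpd
        exact hcop.dvd_of_dvd_mul_right hd
    · rintro ⟨⟨hd, -⟩, hsq⟩
      exact ⟨⟨hd.mul_right p, mul_ne_zero hM hp.ne_zero⟩, hsq⟩
  rw [hset, Finset.mul_sum]
  refine Finset.sum_congr rfl fun d hd => ?_
  have hdM : d ∣ M := (Nat.mem_divisors.mp (Finset.mem_filter.mp hd).1).1
  rw [mul_comm M p, Nat.mul_div_assoc _ hdM]

lemma dedekindPsi_mul_prime_of_not_dvd {M p : ℕ} (hp : p.Prime) (hM : M ≠ 0) (h : ¬ p ∣ M) :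
    ModularCurve.dedekindPsi (M * p) = (p + 1) * ModularCurve.dedekindPsi M := by
  unfold ModularCurve.dedekindPsi
  set S := M.divisors.filter Squarefree with hS
  have hSdvd : ∀ d ∈ S, d ∣ M := fun d hd => (Nat.mem_divisors.mp (Finset.mem_filter.mp hd).1).1
  have hSsq : ∀ d ∈ S, Squarefree d := fun d hd => (Finset.mem_filter.mp hd).2
  have hSp : ∀ d ∈ S, ¬ p ∣ d := fun d hd hpd => h (hpd.trans (hSdvd d hd))
  have hset : (M * p).divisors.filter Squarefree = S ∪ S.image (· * p) := by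
    ext d
    simp only [Finset.mem_filter, Nat.mem_divisors, Finset.mem_union, Finset.mem_image]
    constructor
    · rintro ⟨⟨hd, -⟩, hsq⟩
      by_cases hpd : p ∣ d
      · right
        obtain ⟨e, rfl⟩ := hpd
        have he : e ∣ M := by
          rw [mul_comm M p] at hd
          exact (Nat.mul_dvd_mul_iff_left hp.pos).mp hd
        refine ⟨e, ?_, mul_comm e p⟩
        rw [hS, Finset.mem_filter, Nat.mem_divisors]
        exact ⟨⟨he, hM⟩, hsq.of_mul_right⟩
      · left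
        have hcop : Nat.Coprime d p := by
          rw [Nat.coprime_comm, Nat.Prime.coprime_iff_not_dvd hp]
          exact hpd
        rw [hS, Finset.mem_filter, Nat.mem_divisors]
        exact ⟨⟨hcop.dvd_of_dvd_mul_right hd, hM⟩, hsq⟩
    · rintro (hd | ⟨e, he, rfl⟩)
      · exact ⟨⟨(hSdvd d hd).mul_right p, mul_ne_zero hM hp.ne_zero⟩, hSsq d hd⟩
      · refine ⟨⟨Nat.mul_dvd_mul_right (hSdvd e he) p, mul_ne_zero hM hp.ne_zero⟩, ?_⟩
        have hcop : Nat.Coprime e p := by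
          rw [Nat.coprime_comm, Nat.Prime.coprime_iff_not_dvd hp]
          exact hSp e he
        exact (Nat.squarefree_mul hcop).mpr ⟨hSsq e he, hp.prime.squarefree⟩
  have hdisj : Disjoint S (S.image (· * p)) := by
    rw [Finset.disjoint_left]
    intro d hd hd'
    obtain ⟨e, -, rfl⟩ := Finset.mem_image.mp hd'
    exact hSp _ hd (dvd_mul_left p e)
  rw [hset, Finset.sum_union hdisj, Finset.sum_image (fun a _ b _ hab => Nat.eq_of_mul_eq_mul_right hp.pos hab),
    add_mul, one_mul, Finset.mul_sum]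
  congr 1
  · refine Finset.sum_congr rfl fun d hd => ?_
    rw [mul_comm M p, Nat.mul_div_assoc _ (hSdvd d hd)]
  · refine Finset.sum_congr rfl fun d hd => ?_
    exact Nat.mul_div_mul_right M d hp.pos

lemma dedekindPsi_mul_prime {M p : ℕ} (hp : p.Prime) (hM : M ≠ 0) :
    ModularCurve.dedekindPsi (M * p) = (if p ∣ M then p else p + 1) * ModularCurve.dedekindPsi M := by
  split_ifs with h
  · exact dedekindPsi_mul_prime_of_dvd hp hM h
  · exact dedekindPsi_mul_prime_of_not_dvd hp hM h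


/-- **Index of `Γ₀(N)`**: `[SL₂(ℤ) : Γ₀(N)] = ψ(N)` (Dedekind psi function). -/
theorem index_Gamma0 (N : ℕ) (hN : N ≠ 0) : (Gamma0 N).index = ModularCurve.dedekindPsi N := by
  induction N using Nat.strong_induction_on with
  | _ N ih =>
    by_cases h1 : N = 1
    · subst h1
      have htop : Gamma0 1 = ⊤ := by
        ext g
        simp only [Gamma0_mem, Subgroup.mem_top, iff_true]
        exact Subsingleton.elim _ _
      rw [htop, Subgroup.index_top, ModularCurve.dedekindPsi_one]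
    · obtain ⟨p, hp, hpN⟩ := Nat.exists_prime_and_dvd h1
      obtain ⟨M, rfl⟩ := hpN
      have hM : M ≠ 0 := fun h => hN (by rw [h, mul_zero])
      have hlt : M < p * M := by
        have := hp.one_lt
        have hMpos : 0 < M := Nat.pos_of_ne_zero hM
        nlinarith
      have : Fact p.Prime := ⟨hp⟩
      rw [mul_comm p M, ← Subgroup.relIndex_mul_index (Gamma0_le_of_dvd (dvd_mul_right M p)),
        relIndex_Gamma0_mul_prime hM, ih M hlt hM, dedekindPsi_mul_prime hp hM]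

/-- Task S24-C1: the number of cosets of `Γ₀(N)` in `SL₂(ℤ)` is `ψ(N)`. -/
theorem card_quotient_Gamma0 (N : ℕ) [NeZero N] :
    Nat.card (SL(2, ℤ) ⧸ Gamma0 N) = ModularCurve.dedekindPsi N := by
  rw [← Subgroup.index_eq_card]
  exact index_Gamma0 N (NeZero.ne N)

lemma dedekindPsi_pos (N : ℕ) (hN : N ≠ 0) : 0 < ModularCurve.dedekindPsi N := by
  rw [← index_Gamma0 N hN]
  have : NeZero N := ⟨hN⟩
  exact Nat.pos_of_ne_zero (Subgroup.FiniteIndex.index_ne_zero)

theorem finite_quotient_Gamma0 (N : ℕ) [NeZero N] : Finite (SL(2, ℤ) ⧸ Gamma0 N) :=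
  Subgroup.finite_quotient_of_finiteIndex

end Fermat.Agent.S24.helper37

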