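import Mathlib
import Fermat.Prelude.Def_ModularCurve_ArithmeticGalois
import Fermat.Prelude.Def_ModularCurve_GenusNumerics
import Fermat.Prelude.Def_AlgebraicCurve_CanonicalDivisor

/-!
# S24: shared definitions (interface file for the S24 cluster)

Only definitions and trivial lemmas.  All S24 modules import this file and state their
deliverables in terms of these definitions.
-/

set_option autoImplicit false

noncomputable section

open ModularCurve AlgebraicCurve UpperHalfPlane
open scoped MatrixGroups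

namespace Fermat.Agent.S24

/-- The base field `ℚ̄`. -/
abbrev Kbar : Type := AlgebraicClosure ℚ

/-- The function field of `X₀(N)` over `ℚ̄` (as a type). -/
abbrev FN (N : ℕ) : Type := ↥(modularFunctionFieldBar N)

/-- `J_d = j(q^d)` as a Laurent series with coefficients in `ℚ̄`. -/
def Jd (d : ℕ) [NeZero d] : LaurentSeries Kbar := coeffEmb Kbar (qExpand ℚ d jq)

theorem Jd_mem (N d : ℕ) [NeZero d] (h : d ∣ N) : Jd d ∈ modularFunctionFieldBar N :=
  coeffEmb_mem_laurentBaseChange Kbar (jqd_mem_full N h)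

/-- `J_d` as an element of the function field `FN N` (for `d ∣ N`). -/
def JdF (N d : ℕ) [NeZero d] (h : d ∣ N) : FN N := ⟨Jd d, Jd_mem N d h⟩

/-- The `j`-function `x = J_1 = j(q)` as an element of the function field. -/
def xJ (N : ℕ) : FN N := JdF N 1 (one_dvd N)

/-- Places of `F` over the point `x = a` of the `x`-line (zeros of `x - a`). -/
def placesOver {K F : Type*} [Field K] [Field F] [Algebra K F] (x : F) (a : K) :
    Set (Place K F) :=
  {v | 0 < v.ord (x - algebraMap K F a)}

/-- Places of `F` over `x = ∞` (poles of `x`). -/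
def placesOverInfty (K : Type*) {F : Type*} [Field K] [Field F] [Algebra K F] (x : F) :
    Set (Place K F) :=
  {v | v.ord x < 0}

/-- The coset space `SL(2,ℤ) / Γ₀(N)` (left cosets `g Γ₀(N)`), with its natural left action of
`SL(2,ℤ)`.  The coset `g Γ₀(N)` corresponds to the conjugate functions `f ∘ g⁻¹`. -/
abbrev X0 (N : ℕ) : Type := SL(2, ℤ) ⧸ CongruenceSubgroup.Gamma0 N

/-- Number of orbits of the cyclic group generated by `g` acting on `SL(2,ℤ) / Γ₀(N)`. -/
def orbitCount (g : SL(2, ℤ)) (N : ℕ) : ℕ :=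
  Nat.card (MulAction.orbitRel.Quotient (Subgroup.zpowers g) (X0 N))

/-- The analytic `j`-function `E₄³ / Δ` on the upper half plane. -/
def jfun (τ : ℍ) : ℂ := (ModularForm.E₄ τ) ^ 3 / ModularForm.discriminant τ

/-- The scaling `τ ↦ d τ` on the upper half plane (`d > 0`). -/
def scaleH (d : ℕ) [NeZero d] (τ : ℍ) : ℍ :=
  ⟨(d : ℂ) * (τ : ℂ), by
    have hd : (0 : ℝ) < (d : ℝ) := by exact_mod_cast Nat.pos_of_ne_zero (NeZero.ne d)
    have hτ := τ.im_pos
    have : ((d : ℂ) * (τ : ℂ)).im = (d : ℝ) * τ.im := by simp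
    rw [this]; positivity⟩

/-- The analytic function `τ ↦ j(d τ)`. -/
def jfunD (d : ℕ) [NeZero d] (τ : ℍ) : ℂ := jfun (scaleH d τ)

/-- The conjugate `τ ↦ j(d · g⁻¹ τ)` of `j_d` attached to `g ∈ SL(2,ℤ)` (it depends only on the
coset `g Γ₀(N)` when `d ∣ N`). -/
def jfunDg (d : ℕ) [NeZero d] (g : SL(2, ℤ)) (τ : ℍ) : ℂ := jfunD d (g⁻¹ • τ)

/-- The chosen embedding `ℚ̄ → ℂ`. -/
def iotaC : Kbar →ₐ[ℚ] ℂ :=
  haveI : Algebra.IsAlgebraic ℚ (AlgebraicClosure ℚ) := AlgebraicClosure.isAlgebraic ℚ
  IsAlgClosed.lift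


/-- Total version of `Jd` (junk value `0` at `d = 0`). -/
def JdT (d : ℕ) : LaurentSeries Kbar :=
  if h : d = 0 then 0 else haveI : NeZero d := ⟨h⟩; Jd d

/-- Total version of `jfunD` (junk value `0` at `d = 0`). -/
def jfunDT (d : ℕ) (τ : ℍ) : ℂ :=
  if h : d = 0 then 0 else haveI : NeZero d := ⟨h⟩; jfunD d τ

/-- The substitution `s ↦ ζ s` on Laurent series, coefficientwise: the `k`-th coefficient is
multiplied by `ζ ^ k`. -/
def rotL (ζ : ℂ) (f : LaurentSeries ℂ) : LaurentSeries ℂ where
  coeff k := ζ ^ k * f.coeff k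
  isPWO_support' := f.isPWO_support.mono fun k hk => by
    simp only [Function.mem_support, ne_eq] at hk ⊢
    exact fun h => hk (by rw [h, mul_zero])

@[simp]
theorem rotL_coeff (ζ : ℂ) (f : LaurentSeries ℂ) (k : ℤ) :
    (rotL ζ f).coeff k = ζ ^ k * f.coeff k := rfl

/-- Local uniformization data for the zeros of a function `y ∈ F` (`y = x - a` for the fibre of
`x` over `a`, `y = x⁻¹` for the fibre over `∞`): a family of field embeddings of `F` into
`ℂ((s))`, indexed by a finite set `X`, pairwise distinct, agreeing on `y`, with `y` of order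
`E > 0`, and permuted by the rotation `s ↦ ζ s` (`ζ` a primitive `E`-th root of unity) according
to the permutation `π` of `X`. -/
structure LocalEmbData {K F : Type*} [Field K] [Field F] [Algebra K F] (ι : K →+* ℂ) (y : F)
    (X : Type*) where
  /-- the embeddings -/
  emb : X → (F →+* LaurentSeries ℂ)
  emb_algebraMap : ∀ (c : X) (k : K), emb c (algebraMap K F k) = HahnSeries.C (ι k)
  emb_injective : Function.Injective emb
  emb_y : ∀ c c' : X, emb c y = emb c' y
  /-- the order of vanishing of `y` in the local parameter `s` -/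
  E : ℕ
  E_pos : 0 < E
  order_y : ∀ c : X, (emb c y).order = (E : ℤ)
  /-- the rotation factor -/
  ζ : ℂ
  hζ : IsPrimitiveRoot ζ E
  /-- the permutation of the index set induced by the rotation -/
  π : Equiv.Perm X
  rot : ∀ (c : X) (f : F), emb (π c) f = rotL ζ (emb c f)

end Fermat.Agent.S24
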