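import Mathlib
import Fermat.Agent.S24.Defs
import Fermat.Prelude.Def_ModularCurve_JqCoeff
import Fermat.Prelude.Thm_ModularCurve_coeffMap_qExpand

/-!
# S24 / AN-bridge, part 1: formal `q`-expansions versus functions on the upper half plane

`IsNice g` : `g` is holomorphic on `ℍ`, `1`-periodic and bounded at `i∞`.
`IsQExp f g` : the formal Laurent series `f` is the `q`-expansion at `∞` of `g`.
-/

set_option autoImplicit false

noncomputable section

open ModularCurve UpperHalfPlane ModularForm Function Filter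
open scoped MatrixGroups Manifold Topology

namespace Fermat.Agent.S24.helper17

local notation "𝕢" => Periodic.qParam

/-- holomorphic on `ℍ`, `1`-periodic, bounded at `i∞`. -/
structure IsNice (g : ℍ → ℂ) : Prop where
  periodic : Periodic (g ∘ ofComplex) 1
  mdiff : MDiff g
  bdd : IsBoundedAtImInfty g

namespace IsNice

variable {g g₁ g₂ : ℍ → ℂ}

theorem analyticAt (h : IsNice g) : AnalyticAt ℂ (cuspFunction 1 g) 0 :=
  analyticAt_cuspFunction_zero one_pos h.periodic h.mdiff h.bdd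

theorem hasSum (h : IsNice g) (τ : ℍ) :
    HasSum (fun m : ℕ ↦ (qExpansion 1 g).coeff m • 𝕢 1 τ ^ m) (g τ) :=
  hasSum_qExpansion one_pos h.periodic h.mdiff h.bdd τ

theorem qExpansion_eq_zero_iff (h : IsNice g) : qExpansion 1 g = 0 ↔ g = 0 :=
  UpperHalfPlane.qExpansion_eq_zero_iff one_pos h.periodic h.mdiff h.bdd

theorem congr (h : IsNice g₁) (e : ∀ τ, g₁ τ = g₂ τ) : IsNice g₂ := by
  have : g₁ = g₂ := funext e
  exact this ▸ h

theorem const (c : ℂ) : IsNice (fun _ => c) where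
  periodic := fun _ => rfl
  mdiff := mdifferentiable_const
  bdd := const_boundedAtFilter _ c

theorem add (h₁ : IsNice g₁) (h₂ : IsNice g₂) : IsNice (g₁ + g₂) where
  periodic := fun z => by
    have e1 := h₁.periodic z
    have e2 := h₂.periodic z
    simp only [comp_apply, Pi.add_apply] at e1 e2 ⊢
    rw [e1, e2]
  mdiff := h₁.mdiff.add h₂.mdiff
  bdd := h₁.bdd.add h₂.bdd

theorem mul (h₁ : IsNice g₁) (h₂ : IsNice g₂) : IsNice (g₁ * g₂) where
  periodic := fun z => by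
    have e1 := h₁.periodic z
    have e2 := h₂.periodic z
    simp only [comp_apply, Pi.mul_apply] at e1 e2 ⊢
    rw [e1, e2]
  mdiff := h₁.mdiff.mul h₂.mdiff
  bdd := h₁.bdd.mul h₂.bdd

theorem neg (h : IsNice g) : IsNice (-g) := by
  have := (IsNice.const (-1)).mul h
  exact this.congr fun τ => by simp

theorem sub (h₁ : IsNice g₁) (h₂ : IsNice g₂) : IsNice (g₁ - g₂) := by
  have := h₁.add h₂.neg
  exact this.congr fun τ => by simp [sub_eq_add_neg]

theorem pow (h : IsNice g) (n : ℕ) : IsNice (g ^ n) := by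
  induction n with
  | zero => exact (IsNice.const 1).congr fun τ => by simp
  | succ n ih => exact (ih.mul h).congr fun τ => by simp [pow_succ]

end IsNice

theorem mdiff_of_complex (G : ℂ → ℂ) (hdiff : DifferentiableOn ℂ G {z | 0 < z.im}) :
    MDiff (fun τ : ℍ => G τ) := by
  rw [UpperHalfPlane.mdifferentiable_iff]
  refine hdiff.congr fun z hz => ?_
  simp only [comp_apply]
  rw [ofComplex_apply_of_im_pos hz]

/-- A `1`-periodic function on `ℂ`, holomorphic on the upper half plane and bounded for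
`Im z ≥ A`, gives a nice function on `ℍ`. -/
theorem isNice_of_complex (G : ℂ → ℂ) (hper : ∀ z : ℂ, 0 < z.im → G (z + 1) = G z)
    (hdiff : DifferentiableOn ℂ G {z | 0 < z.im})
    (hbdd : ∃ M A : ℝ, ∀ z : ℂ, 0 < z.im → A ≤ z.im → ‖G z‖ ≤ M) :
    IsNice (fun τ : ℍ => G τ) where
  periodic := fun z => by
    simp only [comp_apply]
    by_cases hz : 0 < z.im
    · have hz' : 0 < (z + 1).im := by simpa using hz
      rw [ofComplex_apply_of_im_pos hz, ofComplex_apply_of_im_pos hz']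
      exact hper z hz
    · have hz1 : z.im ≤ 0 := not_lt.mp hz
      have hz' : (z + 1).im ≤ 0 := by simpa using hz1
      rw [ofComplex_apply_eq_of_im_nonpos hz' hz1]
  mdiff := by
    rw [UpperHalfPlane.mdifferentiable_iff]
    refine hdiff.congr fun z hz => ?_
    simp only [comp_apply]
    rw [ofComplex_apply_of_im_pos hz]
  bdd := by
    rw [isBoundedAtImInfty_iff]
    obtain ⟨M, A, h⟩ := hbdd
    exact ⟨M, A, fun z hz => h z z.im_pos hz⟩

theorem qParam_add_one (z : ℂ) : 𝕢 1 (z + 1) = 𝕢 1 z := by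
  simp only [Periodic.qParam, Complex.ofReal_one, div_one]
  rw [mul_add, mul_one, Complex.exp_add, Complex.exp_two_pi_mul_I, mul_one]

theorem qParam_nat_mul (d : ℕ) (z : ℂ) : 𝕢 1 ((d : ℂ) * z) = 𝕢 1 z ^ d := by
  simp only [Periodic.qParam, Complex.ofReal_one, div_one]
  rw [← Complex.exp_nat_mul]
  congr 1
  ring

/-- The function `q = exp(2πiτ)` is nice. -/
theorem isNice_qParam : IsNice (fun τ : ℍ => 𝕢 1 τ) := by
  refine isNice_of_complex (fun z => 𝕢 1 z) (fun z _ => qParam_add_one z) ?_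
    ⟨1, 0, fun z hz _ => ?_⟩
  · intro z _
    have : DifferentiableAt ℂ (fun z => 𝕢 1 z) z := by
      unfold Periodic.qParam
      fun_prop
    exact this.differentiableWithinAt
  · exact (Periodic.norm_qParam_lt_one one_pos hz).le

/-- uniqueness of the coefficients of a `q`-expansion, for plain functions. -/
theorem coeff_unique (g : ℍ → ℂ) (c : ℕ → ℂ) (hg : AnalyticAt ℂ (cuspFunction 1 g) 0)
    (hf : ∀ τ : ℍ, HasSum (fun m ↦ c m • 𝕢 1 τ ^ m) (g τ)) (m : ℕ) :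
    c m = (qExpansion 1 g).coeff m := by
  have h1 := (hasFPowerSeriesOnBall_cuspFunction one_pos hg hf).hasFPowerSeriesAt
  have h2 := hg.hasFPowerSeriesAt
  have := congr_arg (FormalMultilinearSeries.coeff · m) (h1.eq_formalMultilinearSeries h2)
  simp only [FormalMultilinearSeries.coeff_ofScalars] at this
  rw [this, qExpansion_coeff]
  ring

/-- If a nice function is given by a convergent power series in `q`, this is its `q`-expansion. -/
theorem IsNice.qExpansion_eq_of_hasSum {g : ℍ → ℂ} (hg : IsNice g) (P : PowerSeries ℂ)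
    (hf : ∀ τ : ℍ, HasSum (fun m ↦ P.coeff m • 𝕢 1 τ ^ m) (g τ)) : qExpansion 1 g = P := by
  ext m
  exact (coeff_unique g (fun m => P.coeff m) hg.analyticAt hf m).symm

theorem isNice_qParam_pow (M : ℕ) : IsNice (fun τ : ℍ => 𝕢 1 τ ^ M) :=
  (isNice_qParam.pow M).congr fun _ => rfl

theorem qExpansion_qParam_pow (M : ℕ) :
    qExpansion 1 (fun τ : ℍ => 𝕢 1 τ ^ M) = PowerSeries.X ^ M := by
  refine (isNice_qParam_pow M).qExpansion_eq_of_hasSum _ fun τ => ?_
  have := hasSum_ite_eq M (𝕢 1 (τ : ℂ) ^ M)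
  convert this using 2 with m
  rw [PowerSeries.coeff_X_pow]
  split_ifs with h
  · rw [h, one_smul]
  · rw [zero_smul]

theorem IsNice.qExpansion_mul {g₁ g₂ : ℍ → ℂ} (h₁ : IsNice g₁) (h₂ : IsNice g₂) :
    qExpansion 1 (g₁ * g₂) = qExpansion 1 g₁ * qExpansion 1 g₂ :=
  UpperHalfPlane.qExpansion_mul h₁.analyticAt h₂.analyticAt

theorem IsNice.qExpansion_add {g₁ g₂ : ℍ → ℂ} (h₁ : IsNice g₁) (h₂ : IsNice g₂) :
    qExpansion 1 (g₁ + g₂) = qExpansion 1 g₁ + qExpansion 1 g₂ :=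
  UpperHalfPlane.qExpansion_add h₁.analyticAt h₂.analyticAt

theorem IsNice.qExpansion_pow {g : ℍ → ℂ} (h : IsNice g) (n : ℕ) :
    qExpansion 1 (g ^ n) = qExpansion 1 g ^ n := by
  induction n with
  | zero =>
    rw [pow_zero, pow_zero]
    exact qExpansion_one 1
  | succ n ih => rw [pow_succ, pow_succ, (h.pow n).qExpansion_mul h, ih]

theorem qExpansion_const (c : ℂ) : qExpansion 1 (fun _ : ℍ => c) = PowerSeries.C c := by
  refine (IsNice.const c).qExpansion_eq_of_hasSum _ fun τ => ?_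
  have := hasSum_ite_eq 0 c
  convert this using 2 with m
  rw [PowerSeries.coeff_C]
  split_ifs with h
  · rw [h, pow_zero, smul_eq_mul, mul_one]
  · rw [zero_smul]

/-- The formal Laurent series `f` is the `q`-expansion at `∞` of the function `g` on `ℍ`
(a pole of finite order at `∞` is allowed). -/
def IsQExp (f : LaurentSeries ℂ) (g : ℍ → ℂ) : Prop :=
  ∃ M : ℕ, IsNice (fun τ => 𝕢 1 τ ^ M * g τ) ∧
    HahnSeries.ofPowerSeries ℤ ℂ (qExpansion 1 (fun τ => 𝕢 1 τ ^ M * g τ))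
      = HahnSeries.single (M : ℤ) 1 * f

namespace IsQExp

variable {f f₁ f₂ : LaurentSeries ℂ} {g g₁ g₂ : ℍ → ℂ}

theorem of_isNice (h : IsNice g) : IsQExp (HahnSeries.ofPowerSeries ℤ ℂ (qExpansion 1 g)) g := by
  refine ⟨0, h.congr fun τ => by simp, ?_⟩
  have : (fun τ : ℍ => 𝕢 1 τ ^ 0 * g τ) = g := funext fun τ => by simp
  rw [this]
  simp

/-- In the definition of `IsQExp` the pole order bound can be taken arbitrarily large. -/
theorem eventually (h : IsQExp f g) : ∃ M₀ : ℕ, ∀ M : ℕ, M₀ ≤ M →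
    IsNice (fun τ => 𝕢 1 τ ^ M * g τ) ∧
    HahnSeries.ofPowerSeries ℤ ℂ (qExpansion 1 (fun τ => 𝕢 1 τ ^ M * g τ))
      = HahnSeries.single (M : ℤ) 1 * f := by
  obtain ⟨M₀, hn, he⟩ := h
  refine ⟨M₀, fun M hM => ?_⟩
  obtain ⟨k, rfl⟩ := Nat.exists_eq_add_of_le hM
  have hfun : (fun τ : ℍ => 𝕢 1 τ ^ (M₀ + k) * g τ)
      = (fun τ : ℍ => 𝕢 1 τ ^ k) * (fun τ : ℍ => 𝕢 1 τ ^ M₀ * g τ) := by
    funext τ
    simp only [Pi.mul_apply]
    ring
  refine ⟨hfun ▸ (isNice_qParam_pow k).mul hn, ?_⟩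
  rw [hfun, (isNice_qParam_pow k).qExpansion_mul hn, qExpansion_qParam_pow, map_mul, he,
    HahnSeries.ofPowerSeries_X_pow, ← mul_assoc, HahnSeries.single_mul_single, mul_one]
  congr 2
  push_cast
  rw [add_comm (k : ℤ) (M₀ : ℤ)]

theorem add (h₁ : IsQExp f₁ g₁) (h₂ : IsQExp f₂ g₂) : IsQExp (f₁ + f₂) (g₁ + g₂) := by
  obtain ⟨M₁, H₁⟩ := h₁.eventually
  obtain ⟨M₂, H₂⟩ := h₂.eventually
  obtain ⟨hn₁, he₁⟩ := H₁ (max M₁ M₂) (le_max_left _ _)
  obtain ⟨hn₂, he₂⟩ := H₂ (max M₁ M₂) (le_max_right _ _)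
  have hfun : (fun τ : ℍ => 𝕢 1 τ ^ (max M₁ M₂) * (g₁ + g₂) τ)
      = (fun τ : ℍ => 𝕢 1 τ ^ (max M₁ M₂) * g₁ τ) + (fun τ : ℍ => 𝕢 1 τ ^ (max M₁ M₂) * g₂ τ) := by
    funext τ
    simp only [Pi.add_apply]
    ring
  refine ⟨max M₁ M₂, hfun ▸ hn₁.add hn₂, ?_⟩
  rw [hfun, hn₁.qExpansion_add hn₂, map_add, he₁, he₂, mul_add]

theorem mul (h₁ : IsQExp f₁ g₁) (h₂ : IsQExp f₂ g₂) : IsQExp (f₁ * f₂) (g₁ * g₂) := by
  obtain ⟨M₁, hn₁, he₁⟩ := h₁
  obtain ⟨M₂, hn₂, he₂⟩ := h₂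
  have hfun : (fun τ : ℍ => 𝕢 1 τ ^ (M₁ + M₂) * (g₁ * g₂) τ)
      = (fun τ : ℍ => 𝕢 1 τ ^ M₁ * g₁ τ) * (fun τ : ℍ => 𝕢 1 τ ^ M₂ * g₂ τ) := by
    funext τ
    simp only [Pi.mul_apply]
    ring
  refine ⟨M₁ + M₂, hfun ▸ hn₁.mul hn₂, ?_⟩
  rw [hfun, hn₁.qExpansion_mul hn₂, map_mul, he₁, he₂]
  have : HahnSeries.single ((M₁ + M₂ : ℕ) : ℤ) (1 : ℂ)
      = HahnSeries.single (M₁ : ℤ) 1 * HahnSeries.single (M₂ : ℤ) 1 := by
    rw [HahnSeries.single_mul_single, mul_one]
    push_cast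
    rfl
  rw [this]
  ring

theorem const (c : ℂ) : IsQExp (HahnSeries.C c) (fun _ => c) := by
  have := of_isNice (IsNice.const c)
  rwa [qExpansion_const, HahnSeries.ofPowerSeries_C] at this

theorem one : IsQExp 1 (1 : ℍ → ℂ) := by
  have := const 1
  rwa [map_one] at this

theorem zero : IsQExp 0 (0 : ℍ → ℂ) := by
  have := const 0
  rwa [map_zero] at this

theorem neg (h : IsQExp f g) : IsQExp (-f) (-g) := by
  have := (const (-1)).mul h
  have e1 : HahnSeries.C (-1 : ℂ) * f = -f := by rw [map_neg, map_one, neg_one_mul]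
  have e2 : ((fun _ : ℍ => (-1 : ℂ)) * g) = -g := by
    funext τ
    simp
  rwa [e1, e2] at this

theorem sub (h₁ : IsQExp f₁ g₁) (h₂ : IsQExp f₂ g₂) : IsQExp (f₁ - f₂) (g₁ - g₂) := by
  have := h₁.add h₂.neg
  rwa [← sub_eq_add_neg, ← sub_eq_add_neg] at this

theorem pow (h : IsQExp f g) (n : ℕ) : IsQExp (f ^ n) (g ^ n) := by
  induction n with
  | zero =>
    rw [pow_zero, pow_zero]
    exact one
  | succ n ih =>
    rw [pow_succ, pow_succ]
    exact ih.mul h

theorem congr_right (h : IsQExp f g₁) (e : ∀ τ, g₁ τ = g₂ τ) : IsQExp f g₂ := by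
  have : g₁ = g₂ := funext e
  exact this ▸ h

theorem eq_zero_iff (h : IsQExp f g) : f = 0 ↔ g = 0 := by
  obtain ⟨M, hn, he⟩ := h
  constructor
  · intro hf
    rw [hf, mul_zero] at he
    have h0 : qExpansion 1 (fun τ : ℍ => 𝕢 1 τ ^ M * g τ) = 0 := by
      apply HahnSeries.ofPowerSeries_injective (Γ := ℤ)
      rw [he, map_zero]
    have := hn.qExpansion_eq_zero_iff.mp h0
    funext τ
    have h1 := congrFun this τ
    simp only [Pi.zero_apply, mul_eq_zero] at h1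
    rcases h1 with h1 | h1
    · exact absurd h1 (pow_ne_zero _ (Periodic.qParam_ne_zero _))
    · exact h1
  · intro hg
    have h0 : (fun τ : ℍ => 𝕢 1 τ ^ M * g τ) = 0 := by
      funext τ
      simp [hg]
    rw [h0, qExpansion_zero, map_zero] at he
    have hs : HahnSeries.single (M : ℤ) (1 : ℂ) ≠ 0 := by
      simp
    exact (mul_eq_zero.mp he.symm).resolve_left hs

theorem left_unique (h₁ : IsQExp f₁ g) (h₂ : IsQExp f₂ g) : f₁ = f₂ := by
  have := (h₁.sub h₂).eq_zero_iff.mpr (sub_self g)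
  exact sub_eq_zero.mp this

theorem right_unique (h₁ : IsQExp f g₁) (h₂ : IsQExp f g₂) : g₁ = g₂ := by
  have := (h₁.sub h₂).eq_zero_iff.mp (sub_self f)
  exact sub_eq_zero.mp this

theorem mdiff (h : IsQExp f g) : MDiff g := by
  obtain ⟨M, hn, -⟩ := h
  have hq : MDiff (fun τ : ℍ => (𝕢 1 τ ^ M)⁻¹) := by
    refine mdiff_of_complex (fun z => (𝕢 1 z ^ M)⁻¹) fun z _ => ?_
    have h1 : DifferentiableAt ℂ (fun z => 𝕢 1 z ^ M) z :=
      (Periodic.differentiable_qParam (h := 1)).differentiableAt.pow M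
    exact (h1.inv (pow_ne_zero _ (Periodic.qParam_ne_zero _))).differentiableWithinAt
  have := hq.mul hn.mdiff
  have e : (fun τ : ℍ => (𝕢 1 τ ^ M)⁻¹) * (fun τ : ℍ => 𝕢 1 τ ^ M * g τ) = g := by
    funext τ
    simp only [Pi.mul_apply]
    rw [← mul_assoc, inv_mul_cancel₀ (pow_ne_zero _ (Periodic.qParam_ne_zero _)), one_mul]
  rwa [e] at this

end IsQExp

/-! ### Scaling `τ ↦ d τ` -/

/-- The substitution `X ↦ X ^ d` on power series. -/
def expandPS (d : ℕ) (P : PowerSeries ℂ) : PowerSeries ℂ :=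
  PowerSeries.mk fun n => if d ∣ n then P.coeff (n / d) else 0

theorem coeff_expandPS (d : ℕ) (P : PowerSeries ℂ) (n : ℕ) :
    (expandPS d P).coeff n = if d ∣ n then P.coeff (n / d) else 0 := by
  simp [expandPS]

theorem ofPowerSeries_expandPS (d : ℕ) [NeZero d] (P : PowerSeries ℂ) :
    HahnSeries.ofPowerSeries ℤ ℂ (expandPS d P) = qExpand ℂ d (HahnSeries.ofPowerSeries ℤ ℂ P) := by
  have hd : 0 < d := Nat.pos_of_ne_zero (NeZero.ne d)
  have hdZ : (0 : ℤ) < (d : ℤ) := by exact_mod_cast hd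
  ext k
  rcases lt_or_ge k 0 with hk | hk
  · rw [ofPowerSeries_coeff_of_neg _ hk]
    by_cases hdk : (d : ℤ) ∣ k
    · obtain ⟨m, rfl⟩ := hdk
      rw [qExpand_coeff_mul]
      have hm : m < 0 := by
        by_contra hm
        have : 0 ≤ (d : ℤ) * m := mul_nonneg hdZ.le (not_lt.mp hm)
        omega
      rw [ofPowerSeries_coeff_of_neg _ hm]
    · rw [qExpand_coeff_of_not_dvd _ _ hdk]
  · lift k to ℕ using hk
    rw [HahnSeries.ofPowerSeries_apply_coeff, coeff_expandPS]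
    by_cases hdk : d ∣ k
    · rw [if_pos hdk]
      obtain ⟨m, rfl⟩ := hdk
      rw [Nat.mul_div_cancel_left _ hd]
      have : ((d * m : ℕ) : ℤ) = (d : ℤ) * (m : ℤ) := by push_cast; rfl
      rw [this, qExpand_coeff_mul, HahnSeries.ofPowerSeries_apply_coeff]
    · rw [if_neg hdk]
      have : ¬ (d : ℤ) ∣ (k : ℤ) := by
        rwa [Int.natCast_dvd_natCast]
      rw [qExpand_coeff_of_not_dvd _ _ this]

theorem coe_scaleH (d : ℕ) [NeZero d] (τ : ℍ) : ((scaleH d τ : ℍ) : ℂ) = (d : ℂ) * (τ : ℂ) := rfl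

theorem IsNice.comp_scale {g : ℍ → ℂ} (h : IsNice g) (d : ℕ) [NeZero d] :
    IsNice (fun τ => g (scaleH d τ)) := by
  have hd : 0 < d := Nat.pos_of_ne_zero (NeZero.ne d)
  have hdR : (1 : ℝ) ≤ (d : ℝ) := by exact_mod_cast hd
  have him : ∀ z : ℂ, ((d : ℂ) * z).im = (d : ℝ) * z.im := fun z => by simp
  have hpos : ∀ z : ℂ, 0 < z.im → 0 < ((d : ℂ) * z).im := fun z hz => by
    rw [him]
    positivity
  have key : ∀ τ : ℍ, g (scaleH d τ) = (g ∘ ofComplex) ((d : ℂ) * (τ : ℂ)) := fun τ => by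
    simp only [comp_apply]
    rw [ofComplex_apply_of_im_pos (hpos τ τ.im_pos)]
    rfl
  refine (isNice_of_complex (fun z => (g ∘ ofComplex) ((d : ℂ) * z)) (fun z _ => ?_) ?_ ?_).congr
    fun τ => (key τ).symm
  · have := h.periodic.nat_mul d ((d : ℂ) * z)
    rw [mul_one] at this
    rw [mul_add, mul_one]
    exact this
  · intro z hz
    have h1 := (UpperHalfPlane.mdifferentiable_iff.mp h.mdiff) ((d : ℂ) * z) (hpos z hz)
    have h2 : DifferentiableAt ℂ (g ∘ ofComplex) ((d : ℂ) * z) :=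
      h1.differentiableAt (isOpen_upperHalfPlaneSet.mem_nhds (hpos z hz))
    have h3 : DifferentiableAt ℂ (fun z : ℂ => (d : ℂ) * z) z := by fun_prop
    exact (h2.comp z h3).differentiableWithinAt
  · obtain ⟨M, A, hMA⟩ := isBoundedAtImInfty_iff.mp h.bdd
    refine ⟨M, max A 0, fun z hz hA => ?_⟩
    simp only [comp_apply]
    rw [ofComplex_apply_of_im_pos (hpos z hz)]
    apply hMA
    show A ≤ ((d : ℂ) * z).im
    rw [him]
    have h0 : 0 ≤ z.im := hz.le
    have hA' : A ≤ z.im := le_trans (le_max_left _ _) hA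
    nlinarith

theorem qParam_scaleH (d : ℕ) [NeZero d] (τ : ℍ) : 𝕢 1 (scaleH d τ) = 𝕢 1 τ ^ d := by
  rw [coe_scaleH, qParam_nat_mul]

theorem IsNice.qExpansion_comp_scale {g : ℍ → ℂ} (h : IsNice g) (d : ℕ) [NeZero d] :
    qExpansion 1 (fun τ => g (scaleH d τ)) = expandPS d (qExpansion 1 g) := by
  have hd : 0 < d := Nat.pos_of_ne_zero (NeZero.ne d)
  refine (h.comp_scale d).qExpansion_eq_of_hasSum _ fun τ => ?_
  have h1 := h.hasSum (scaleH d τ)
  rw [qParam_scaleH] at h1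
  have hinj : Function.Injective (fun m : ℕ => d * m) := fun a b hab =>
    Nat.eq_of_mul_eq_mul_left hd hab
  refine (hinj.hasSum_iff ?_).mp ?_
  · intro n hn
    have : ¬ d ∣ n := fun ⟨m, hm⟩ => hn ⟨m, hm.symm⟩
    rw [coeff_expandPS, if_neg this, zero_smul]
  · convert h1 using 2 with m
    simp only [comp_apply]
    rw [coeff_expandPS, if_pos (dvd_mul_right d m), Nat.mul_div_cancel_left _ hd, pow_mul]

theorem IsQExp.comp_scale {f : LaurentSeries ℂ} {g : ℍ → ℂ} (h : IsQExp f g) (d : ℕ) [NeZero d] :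
    IsQExp (qExpand ℂ d f) (fun τ => g (scaleH d τ)) := by
  obtain ⟨M, hn, he⟩ := h
  have hfun : (fun τ : ℍ => 𝕢 1 τ ^ (d * M) * g (scaleH d τ))
      = (fun τ => (fun τ : ℍ => 𝕢 1 τ ^ M * g τ) (scaleH d τ)) := by
    funext τ
    simp only []
    rw [qParam_scaleH, ← pow_mul]
  refine ⟨d * M, hfun ▸ hn.comp_scale d, ?_⟩
  rw [hfun, hn.qExpansion_comp_scale d, ofPowerSeries_expandPS, he, map_mul, qExpand_single]
  push_cast
  rfl

end Fermat.Agent.S24.helper17
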