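import Mathlib
import Fermat.Agent.S24.helper17_QExp
import Fermat.Prelude.Def_ModularCurve_X0

/-!
# S24 / AN-bridge, part 2: the `q`-expansions of `E₄`, `Δ` and `q/Δ`

The formal infinite product `etaProd = ∏ (1 - X^(n+1))` of the prelude is compared with the
analytic infinite product `∏ (1 - q^(n+1))` by comparing Taylor coefficients of the partial
products (locally uniform convergence gives convergence of all derivatives).
-/

set_option autoImplicit false

noncomputable section

open ModularCurve UpperHalfPlane ModularForm Function Filter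
open scoped MatrixGroups Manifold Topology Polynomial

namespace Fermat.Agent.S24.helper17

local notation "𝕢" => Periodic.qParam

/-! ### Derivatives of all orders converge locally uniformly -/

theorem tendstoLocallyUniformlyOn_iteratedDeriv {ι : Type*} {φ : Filter ι} {F : ι → ℂ → ℂ}
    {f : ℂ → ℂ} {U : Set ℂ} (hU : IsOpen U) (hf : TendstoLocallyUniformlyOn F f φ U)
    (hF : ∀ᶠ n in φ, DifferentiableOn ℂ (F n) U) (m : ℕ) :
    TendstoLocallyUniformlyOn (fun n => iteratedDeriv m (F n)) (iteratedDeriv m f) φ U ∧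
      ∀ᶠ n in φ, DifferentiableOn ℂ (iteratedDeriv m (F n)) U := by
  induction m with
  | zero => simpa [iteratedDeriv_zero] using ⟨hf, hF⟩
  | succ m ih =>
    obtain ⟨h1, h2⟩ := ih
    refine ⟨?_, ?_⟩
    · have := h1.deriv h2 hU
      simpa only [iteratedDeriv_succ, Function.comp_def] using this
    · filter_upwards [h2] with n hn
      rw [iteratedDeriv_succ]
      exact hn.deriv hU

theorem tendsto_iteratedDeriv_at {ι : Type*} {φ : Filter ι} {F : ι → ℂ → ℂ}
    {f : ℂ → ℂ} {U : Set ℂ} (hU : IsOpen U) (hf : TendstoLocallyUniformlyOn F f φ U)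
    (hF : ∀ᶠ n in φ, DifferentiableOn ℂ (F n) U) (m : ℕ) {x : ℂ} (hx : x ∈ U) :
    Tendsto (fun n => iteratedDeriv m (F n) x) φ (𝓝 (iteratedDeriv m f x)) :=
  (tendstoLocallyUniformlyOn_iteratedDeriv hU hf hF m).1.tendsto_at hx

/-! ### Taylor coefficients of polynomial functions -/

theorem iteratedDeriv_polynomial_eval (P : ℂ[X]) (m : ℕ) :
    iteratedDeriv m (fun q => P.eval q) = fun q => (Polynomial.derivative^[m] P).eval q := by
  induction m with
  | zero => simp
  | succ m ih =>
    rw [iteratedDeriv_succ, ih]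
    funext q
    rw [Polynomial.deriv, Function.iterate_succ_apply']

theorem iteratedDeriv_polynomial_eval_zero (P : ℂ[X]) (m : ℕ) :
    iteratedDeriv m (fun q => P.eval q) 0 = (m.factorial : ℂ) * P.coeff m := by
  rw [iteratedDeriv_polynomial_eval]
  simp only
  rw [← Polynomial.coeff_zero_eq_eval_zero, Polynomial.coeff_iterate_derivative]
  simp [Nat.descFactorial_self]

/-! ### The partial products -/

/-- the partial products of the eta product, as integral polynomials. -/
def etaPoly (s : Finset ℕ) : ℤ[X] := ∏ n ∈ s, (1 - Polynomial.X ^ (n + 1))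

theorem etaPoly_eval (s : Finset ℕ) (q : ℂ) :
    ((etaPoly s).map (Int.castRingHom ℂ)).eval q = ∏ n ∈ s, (1 - q ^ (n + 1)) := by
  simp [etaPoly, Polynomial.map_prod, Polynomial.eval_prod]

theorem etaPoly_coe (s : Finset ℕ) :
    ((etaPoly s : ℤ[X]) : PowerSeries ℤ) = ∏ n ∈ s, (1 - PowerSeries.X ^ (n + 1)) := by
  have h := map_prod (Polynomial.coeToPowerSeries.ringHom (R := ℤ))
    (fun n : ℕ => (1 - Polynomial.X ^ (n + 1) : ℤ[X])) s
  simp only [Polynomial.coeToPowerSeries.ringHom_apply] at h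
  rw [etaPoly, h]
  refine Finset.prod_congr rfl fun n _ => ?_
  simp

/-- The analytic eta product `B(q) = ∏ (1 - q^(n+1))` on the unit disc. -/
def etaB (q : ℂ) : ℂ := ∏' n : ℕ, (1 - q ^ (n + 1))

theorem differentiableOn_etaB : DifferentiableOn ℂ etaB (Metric.ball (0 : ℂ) 1) :=
  differentiableOn_tprod_one_sub_pow

open scoped PowerSeries.WithPiTopology in
theorem tendsto_coeff_etaPoly (m : ℕ) :
    Tendsto (fun s : Finset ℕ => (((etaPoly s).coeff m : ℤ) : ℂ)) atTop
      (𝓝 ((etaProd.coeff m : ℤ) : ℂ)) := by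
  have h1 : Tendsto (fun s : Finset ℕ => ∏ n ∈ s, ((1 : PowerSeries ℤ) - PowerSeries.X ^ (n + 1)))
      atTop (𝓝 etaProd) :=
    (PowerSeries.WithPiTopology.multipliable_one_sub_X_pow ℤ).hasProd
  have h2 := ((PowerSeries.WithPiTopology.continuous_coeff ℤ m).tendsto etaProd).comp h1
  have h3 : Continuous (fun n : ℤ => (n : ℂ)) := continuous_of_discreteTopology
  have h4 := (h3.tendsto (etaProd.coeff m)).comp h2
  refine h4.congr fun s => ?_
  simp only [Function.comp_apply]
  rw [← etaPoly_coe, Polynomial.coeff_coe]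

theorem iteratedDeriv_etaB_zero (m : ℕ) :
    iteratedDeriv m etaB 0 = (m.factorial : ℂ) * ((etaProd.coeff m : ℤ) : ℂ) := by
  have h1 : TendstoLocallyUniformlyOn (fun (s : Finset ℕ) (q : ℂ) => ∏ n ∈ s, (1 - q ^ (n + 1)))
      etaB atTop (Metric.ball (0 : ℂ) 1) :=
    hasProdLocallyUniformlyOn_iff_tendstoLocallyUniformlyOn.mp
      multipliableLocallyUniformlyOn_one_sub_pow.hasProdLocallyUniformlyOn
  have h2 : ∀ s : Finset ℕ, (fun q : ℂ => ∏ n ∈ s, (1 - q ^ (n + 1))) =
      fun q => ((etaPoly s).map (Int.castRingHom ℂ)).eval q := by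
    intro s
    funext q
    rw [etaPoly_eval]
  have h3 : ∀ᶠ s : Finset ℕ in atTop,
      DifferentiableOn ℂ (fun q : ℂ => ∏ n ∈ s, (1 - q ^ (n + 1))) (Metric.ball (0 : ℂ) 1) := by
    refine .of_forall fun s => ?_
    rw [h2]
    exact (Polynomial.differentiable _).differentiableOn
  have h4 := tendsto_iteratedDeriv_at Metric.isOpen_ball h1 h3 m
    (Metric.mem_ball_self one_pos : (0 : ℂ) ∈ Metric.ball (0 : ℂ) 1)
  have h5 : Tendsto (fun s : Finset ℕ => (m.factorial : ℂ) * (((etaPoly s).coeff m : ℤ) : ℂ))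
      atTop (𝓝 (iteratedDeriv m etaB 0)) := by
    refine h4.congr fun s => ?_
    rw [h2, iteratedDeriv_polynomial_eval_zero, Polynomial.coeff_map]
    simp
  exact tendsto_nhds_unique h5 ((tendsto_coeff_etaPoly m).const_mul _)

/-! ### Functions of `q` -/

theorem norm_qParam_le_of_one_le_im {z : ℂ} (hz : 1 ≤ z.im) :
    ‖𝕢 1 z‖ ≤ Real.exp (-2 * Real.pi) := by
  rw [Periodic.norm_qParam]
  apply Real.exp_le_exp.mpr
  have hpi := Real.pi_pos
  simp only [div_one]
  nlinarith

theorem isNice_comp_qParam (G : ℂ → ℂ) (hG : DifferentiableOn ℂ G (Metric.ball (0 : ℂ) 1)) :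
    IsNice (fun τ : ℍ => G (𝕢 1 τ)) := by
  have hr : Real.exp (-2 * Real.pi) < 1 := by
    have := Real.pi_pos
    exact Real.exp_lt_one_iff.mpr (by linarith)
  have hsub : Metric.closedBall (0 : ℂ) (Real.exp (-2 * Real.pi)) ⊆ Metric.ball (0 : ℂ) 1 :=
    Metric.closedBall_subset_ball hr
  obtain ⟨C, hC⟩ := (isCompact_closedBall (0 : ℂ) (Real.exp (-2 * Real.pi))).exists_bound_of_continuousOn
    (hG.continuousOn.mono hsub)
  refine isNice_of_complex (fun z => G (𝕢 1 z)) (fun z _ => by rw [qParam_add_one]) ?_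
    ⟨C, 1, fun z _ hz => ?_⟩
  · refine hG.comp (s := {z : ℂ | 0 < z.im}) ?_ ?_
    · intro z _
      have : DifferentiableAt ℂ (fun z => 𝕢 1 z) z := by
        unfold Periodic.qParam
        fun_prop
      exact this.differentiableWithinAt
    · intro z hz
      simpa using Periodic.norm_qParam_lt_one one_pos hz
  · refine hC _ ?_
    simpa using norm_qParam_le_of_one_le_im hz

theorem qExpansion_comp_qParam (G : ℂ → ℂ) (hG : DifferentiableOn ℂ G (Metric.ball (0 : ℂ) 1)) :
    qExpansion 1 (fun τ : ℍ => G (𝕢 1 τ)) =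
      PowerSeries.mk fun m => (m.factorial : ℂ)⁻¹ * iteratedDeriv m G 0 := by
  refine (isNice_comp_qParam G hG).qExpansion_eq_of_hasSum _ fun τ => ?_
  have hz : 𝕢 1 (τ : ℂ) ∈ Metric.ball (0 : ℂ) 1 := by
    simpa using Periodic.norm_qParam_lt_one one_pos τ.im_pos
  have h := Complex.hasSum_taylorSeries_on_ball hG hz
  refine h.congr_fun fun m => ?_
  simp only [PowerSeries.coeff_mk, smul_eq_mul, sub_zero]
  ring

/-- the analytic eta product as a function on the upper half plane. -/
def etaBH (τ : ℍ) : ℂ := ∏' n : ℕ, (1 - eta_q n τ)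

theorem etaBH_eq (τ : ℍ) : etaBH τ = etaB (𝕢 1 τ) := rfl

theorem isNice_etaBH : IsNice etaBH := isNice_comp_qParam etaB differentiableOn_etaB

theorem qExpansion_etaBH : qExpansion 1 etaBH = etaProd.map (Int.castRingHom ℂ) := by
  have h := qExpansion_comp_qParam etaB differentiableOn_etaB
  have e : (fun τ : ℍ => etaB (𝕢 1 τ)) = etaBH := rfl
  rw [e] at h
  rw [h]
  ext m
  rw [PowerSeries.coeff_mk, PowerSeries.coeff_map, iteratedDeriv_etaB_zero]
  have : (m.factorial : ℂ) ≠ 0 := by exact_mod_cast m.factorial_ne_zero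
  simp [this]

/-! ### The discriminant -/

theorem discriminant_eq_qParam_mul_etaBH (τ : ℍ) :
    ModularForm.discriminant τ = 𝕢 1 τ * etaBH τ ^ 24 := by
  rw [discriminant_eq_q_prod, etaBH]
  congr 1
  exact (multipliableLocallyUniformlyOn_eta.multipliable τ.2).tprod_pow 24

theorem etaBH_ne_zero (τ : ℍ) : etaBH τ ≠ 0 := eta_tprod_ne_zero τ.2

theorem isNice_discriminant : IsNice (ModularForm.discriminant : ℍ → ℂ) :=
  (isNice_qParam.mul (isNice_etaBH.pow 24)).congr fun τ =>
    (discriminant_eq_qParam_mul_etaBH τ).symm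

theorem qExpansion_discriminant_eq :
    qExpansion 1 (ModularForm.discriminant : ℍ → ℂ) =
      PowerSeries.X * dedekindEtaUnit.map (Int.castRingHom ℂ) := by
  have e : (ModularForm.discriminant : ℍ → ℂ) = (fun τ : ℍ => 𝕢 1 τ ^ 1) * etaBH ^ 24 := by
    funext τ
    simp [discriminant_eq_qParam_mul_etaBH]
  rw [e, (isNice_qParam_pow 1).qExpansion_mul (isNice_etaBH.pow 24), qExpansion_qParam_pow,
    isNice_etaBH.qExpansion_pow, qExpansion_etaBH, dedekindEtaUnit, map_pow, pow_one]

/-! ### The inverse of the eta unit -/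

/-- `V = q / Δ = 1 / ∏ (1 - q^(n+1))^24`. -/
def etaV (τ : ℍ) : ℂ := (etaBH τ ^ 24)⁻¹

theorem etaB_zero : etaB 0 = 1 := by
  simp [etaB]

theorem etaB_ne_zero {q : ℂ} (hq : ‖q‖ < 1) : etaB q ≠ 0 := by
  by_cases hq0 : q = 0
  · rw [hq0, etaB_zero]
    exact one_ne_zero
  · have him := Periodic.im_invQParam_pos_of_norm_lt_one one_pos hq hq0
    have h := etaBH_ne_zero ⟨_, him⟩
    rw [etaBH_eq] at h
    simpa [Periodic.qParam_right_inv one_ne_zero hq0] using h

theorem isNice_etaV : IsNice etaV := by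
  refine isNice_comp_qParam (fun q => (etaB q ^ 24)⁻¹) ?_
  refine DifferentiableOn.inv (differentiableOn_etaB.pow 24) fun q hq => ?_
  exact pow_ne_zero _ (etaB_ne_zero (by simpa using hq))

theorem etaV_mul (τ : ℍ) : etaV τ * etaBH τ ^ 24 = 1 :=
  inv_mul_cancel₀ (pow_ne_zero _ (etaBH_ne_zero τ))

theorem qExpansion_etaV : qExpansion 1 etaV = dedekindEtaUnitInv.map (Int.castRingHom ℂ) := by
  have h1 : qExpansion 1 etaV * dedekindEtaUnit.map (Int.castRingHom ℂ) = 1 := by
    have e : etaV * etaBH ^ 24 = fun _ : ℍ => (1 : ℂ) := by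
      funext τ
      simpa using etaV_mul τ
    have := isNice_etaV.qExpansion_mul (isNice_etaBH.pow 24)
    rw [e, qExpansion_const, isNice_etaBH.qExpansion_pow, qExpansion_etaBH] at this
    rw [dedekindEtaUnit, map_pow, ← this]
    simp
  have h2 : dedekindEtaUnit.map (Int.castRingHom ℂ) *
      dedekindEtaUnitInv.map (Int.castRingHom ℂ) = 1 := by
    rw [← map_mul, dedekindEtaUnit_mul_inv, map_one]
  exact left_inv_eq_right_inv h1 h2

theorem etaV_eq (τ : ℍ) : etaV τ = 𝕢 1 τ / ModularForm.discriminant τ := by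
  rw [discriminant_eq_qParam_mul_etaBH, etaV]
  have hq : 𝕢 1 (τ : ℂ) ≠ 0 := by simp [Periodic.qParam]
  have := pow_ne_zero 24 (etaBH_ne_zero τ)
  field_simp

/-! ### The Eisenstein series `E₄` -/

theorem isNice_E₄ : IsNice (ModularForm.E₄ : ℍ → ℂ) where
  periodic := SlashInvariantFormClass.periodic_comp_ofComplex ModularForm.E₄
    one_mem_strictPeriods_SL
  mdiff := ModularFormClass.holo ModularForm.E₄
  bdd := ModularFormClass.bdd_at_infty ModularForm.E₄

theorem qExpansion_E₄_eq :
    qExpansion 1 (ModularForm.E₄ : ℍ → ℂ) = eisenstein4.map (Int.castRingHom ℂ) := by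
  ext m
  rw [show (ModularForm.E₄ : ℍ → ℂ) = ⇑(ModularForm.E (by norm_num : 3 ≤ 4)) from rfl,
    EisensteinSeries.E_qExpansion_coeff (by norm_num : 3 ≤ 4) ⟨2, rfl⟩ m, PowerSeries.coeff_map,
    eisenstein4, PowerSeries.coeff_mk,
    show bernoulli 4 = -1 / 30 by decide +kernel]
  rcases Nat.eq_zero_or_pos m with rfl | hm
  · simp
  · have hm' : m ≠ 0 := hm.ne'
    simp only [hm', if_false, ArithmeticFunction.sigma_apply]
    push_cast
    norm_num

end Fermat.Agent.S24.helper17
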