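import Mathlib
import Fermat.Agent.S24.helper17_EtaProd

/-!
# S24 / AN-bridge, part 3: the bridge between formal and analytic `j(q^d)`

* `isQExp_jfun` : the formal series `jqModC ℂ` is the `q`-expansion of `jfun = E₄³/Δ`.
* `isQExp_jfunD`, `isQExp_jfunDT` : the same for `j(q^d)` and `τ ↦ jfun (d τ)`.
* `bridge_complex`, `bridge` : a polynomial relation between the formal series `J_d` holds
  if and only if it holds between the analytic functions `τ ↦ jfun (d τ)`.
-/

set_option autoImplicit false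

noncomputable section

open ModularCurve UpperHalfPlane ModularForm Function Filter
open scoped MatrixGroups Manifold Topology

namespace Fermat.Agent.S24.helper17

local notation "𝕢" => Periodic.qParam

/-! ### The `j`-function -/

theorem qParam_mul_jfun_eq (τ : ℍ) : 𝕢 1 τ ^ 1 * jfun τ = ModularForm.E₄ τ ^ 3 * etaV τ := by
  rw [etaV_eq, jfun, pow_one]
  ring

theorem isNice_qParam_mul_jfun : IsNice (fun τ : ℍ => 𝕢 1 τ ^ 1 * jfun τ) :=
  ((isNice_E₄.pow 3).mul isNice_etaV).congr fun τ => (qParam_mul_jfun_eq τ).symm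

theorem qExpansion_qParam_mul_jfun :
    qExpansion 1 (fun τ : ℍ => 𝕢 1 τ ^ 1 * jfun τ) = jNum.map (Int.castRingHom ℂ) := by
  have e : (fun τ : ℍ => 𝕢 1 τ ^ 1 * jfun τ) = (ModularForm.E₄ : ℍ → ℂ) ^ 3 * etaV := by
    funext τ
    simpa using qParam_mul_jfun_eq τ
  rw [e, (isNice_E₄.pow 3).qExpansion_mul isNice_etaV, isNice_E₄.qExpansion_pow,
    qExpansion_E₄_eq, qExpansion_etaV, jNum, map_mul, map_pow]

/-- The formal `j`-series is the `q`-expansion of the analytic `j`-function. -/
theorem isQExp_jfun : IsQExp (jqModC ℂ) jfun := by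
  refine ⟨1, isNice_qParam_mul_jfun, ?_⟩
  rw [qExpansion_qParam_mul_jfun, jqModC, ← mul_assoc, HahnSeries.single_mul_single]
  simp

theorem mdiff_jfun : MDiff jfun := isQExp_jfun.mdiff

/-- The formal series `j(q^d)` is the `q`-expansion of `τ ↦ j(dτ)`. -/
theorem isQExp_jfunD (d : ℕ) [NeZero d] : IsQExp (qExpand ℂ d (jqModC ℂ)) (jfunD d) :=
  isQExp_jfun.comp_scale d

theorem mdiff_jfunD (d : ℕ) [NeZero d] : MDiff (jfunD d) := (isQExp_jfunD d).mdiff

/-! ### Coefficient fields -/

/-- `J_d = j(q^d)` with complex coefficients. -/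
def JdC (d : ℕ) [NeZero d] : LaurentSeries ℂ := qExpand ℂ d (jqModC ℂ)

theorem coeffMap_jqModC' {R S : Type*} [CommRing R] [CommRing S] (f : R →+* S) :
    coeffMap f (jqModC R) = jqModC S :=
  map_jqModC f

theorem coeffEmb_jq (L : Type*) [Field L] [Algebra ℚ L] : coeffEmb L jq = jqModC L := by
  rw [← jqModC_rat]
  exact coeffMap_jqModC' (algebraMap ℚ L)

theorem JdC_eq_coeffEmb (d : ℕ) [NeZero d] : JdC d = coeffEmb ℂ (qExpand ℚ d jq) := by
  rw [JdC, coeffEmb, coeffMap_qExpand]
  congr 1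
  exact (coeffEmb_jq ℂ).symm

theorem Jd_eq (d : ℕ) [NeZero d] : Jd d = qExpand Kbar d (jqModC Kbar) := by
  rw [Jd, coeffEmb, coeffMap_qExpand]
  congr 1
  exact coeffEmb_jq Kbar

/-- coefficientwise embedding of `ℚ̄((q))` into `ℂ((q))`. -/
def toC : LaurentSeries Kbar →+* LaurentSeries ℂ := coeffMap (iotaC : Kbar →+* ℂ)

@[simp]
theorem toC_coeff (x : LaurentSeries Kbar) (k : ℤ) : (toC x).coeff k = iotaC (x.coeff k) := rfl

theorem toC_injective : Function.Injective toC := by
  intro x y h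
  ext k
  have := congrArg (fun z : LaurentSeries ℂ => z.coeff k) h
  simp only [toC_coeff] at this
  exact (iotaC : Kbar →+* ℂ).injective this

theorem toC_Jd (d : ℕ) [NeZero d] : toC (Jd d) = JdC d := by
  rw [Jd_eq, toC, coeffMap_qExpand, coeffMap_jqModC', JdC]

theorem toC_algebraMap (c : Kbar) :
    toC (algebraMap Kbar (LaurentSeries Kbar) c) = algebraMap ℂ (LaurentSeries ℂ) (iotaC c) := by
  rw [HahnSeries.algebraMap_apply', HahnSeries.algebraMap_apply', toC]
  simp

/-- Total version of `JdC` (junk value `0` at `d = 0`). -/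
def JdTC (d : ℕ) : LaurentSeries ℂ :=
  if h : d = 0 then 0 else haveI : NeZero d := ⟨h⟩; coeffEmb ℂ (qExpand ℚ d jq)

theorem JdTC_zero : JdTC 0 = 0 := by simp [JdTC]

theorem JdTC_eq (d : ℕ) [NeZero d] : JdTC d = JdC d := by
  rw [JdTC, dif_neg (NeZero.ne d), JdC_eq_coeffEmb]

theorem toC_JdT (d : ℕ) : toC (JdT d) = JdTC d := by
  by_cases h : d = 0
  · subst h
    simp [JdT, JdTC]
  · have : NeZero d := ⟨h⟩
    rw [JdTC_eq, JdT, dif_neg h, toC_Jd]

theorem isQExp_jfunDT (d : ℕ) : IsQExp (JdTC d) (jfunDT d) := by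
  by_cases h : d = 0
  · subst h
    have e : jfunDT 0 = (0 : ℍ → ℂ) := by
      funext τ
      simp [jfunDT]
    rw [JdTC_zero, e]
    exact IsQExp.zero
  · have : NeZero d := ⟨h⟩
    have e : jfunDT d = jfunD d := by
      funext τ
      simp [jfunDT, h]
    rw [JdTC_eq, e]
    exact isQExp_jfunD d

/-! ### The bridge -/

/-- Polynomial expressions in `q`-expansions are `q`-expansions. -/
theorem IsQExp.aeval {ι : Type*} {f : ι → LaurentSeries ℂ} {g : ι → ℍ → ℂ}
    (h : ∀ i, IsQExp (f i) (g i)) (Q : MvPolynomial ι ℂ) :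
    IsQExp (MvPolynomial.aeval f Q) (fun τ => MvPolynomial.eval (fun i => g i τ) Q) := by
  induction Q using MvPolynomial.induction_on with
  | C a =>
    simp only [MvPolynomial.aeval_C, MvPolynomial.eval_C]
    have e : algebraMap ℂ (LaurentSeries ℂ) a = HahnSeries.C a := by
      rw [HahnSeries.algebraMap_apply']
      simp
    rw [e]
    exact IsQExp.const a
  | add p q hp hq =>
    simp only [map_add]
    exact hp.add hq
  | mul_X p i hp =>
    simp only [map_mul, MvPolynomial.aeval_X, MvPolynomial.eval_X]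
    exact hp.mul (h i)

/-- **Bridge, complex coefficients, general `q`-expansions.** -/
theorem bridge_of_isQExp {ι : Type*} {f : ι → LaurentSeries ℂ} {g : ι → ℍ → ℂ}
    (h : ∀ i, IsQExp (f i) (g i)) (Q : MvPolynomial ι ℂ) :
    MvPolynomial.aeval f Q = 0 ↔ ∀ τ : ℍ, MvPolynomial.eval (fun i => g i τ) Q = 0 := by
  rw [(IsQExp.aeval h Q).eq_zero_iff]
  exact funext_iff

/-- **Bridge, complex coefficients.** A polynomial relation between the formal series
`j(q^{d i})` holds iff it holds between the functions `τ ↦ j(d i · τ)`. -/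
theorem bridge_complex {ι : Type*} (d : ι → ℕ) (Q : MvPolynomial ι ℂ) :
    MvPolynomial.aeval (fun i => JdTC (d i)) Q = 0 ↔
      ∀ τ : ℍ, MvPolynomial.eval (fun i => jfunDT (d i) τ) Q = 0 :=
  bridge_of_isQExp (fun i => isQExp_jfunDT (d i)) Q

theorem toC_aeval {ι : Type*} (s : ι → LaurentSeries Kbar) (P : MvPolynomial ι Kbar) :
    toC (MvPolynomial.aeval s P) =
      MvPolynomial.aeval (fun i => toC (s i)) (MvPolynomial.map (iotaC : Kbar →+* ℂ) P) := by
  induction P using MvPolynomial.induction_on with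
  | C a =>
    simp only [MvPolynomial.aeval_C, MvPolynomial.map_C]
    exact toC_algebraMap a
  | add p q hp hq =>
    simp only [map_add, hp, hq]
  | mul_X p i hp =>
    simp only [map_mul, MvPolynomial.aeval_X, MvPolynomial.map_X, hp]

/-- **Bridge, `ℚ̄` coefficients.** -/
theorem bridge {ι : Type*} (d : ι → ℕ) (P : MvPolynomial ι Kbar) :
    MvPolynomial.aeval (fun i => JdT (d i)) P = 0 ↔
      ∀ τ : ℍ, MvPolynomial.eval₂ (iotaC : Kbar →+* ℂ) (fun i => jfunDT (d i) τ) P = 0 := by
  rw [← toC_injective.eq_iff, map_zero, toC_aeval]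
  simp only [toC_JdT]
  rw [bridge_complex]
  simp only [MvPolynomial.eval_map]

/-- The bridge in the shape `BridgeC N` (analytic relation ⇒ formal relation). -/
theorem bridgeC (N : ℕ) (Q : MvPolynomial {d // d ∈ N.divisors} ℂ)
    (h : ∀ τ : ℍ, MvPolynomial.eval (fun i => jfunDT i.1 τ) Q = 0) :
    MvPolynomial.aeval (fun i : {d // d ∈ N.divisors} => JdTC i.1) Q = 0 :=
  (bridge_complex (fun i : {d // d ∈ N.divisors} => i.1) Q).mpr h

end Fermat.Agent.S24.helper17
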