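import Mathlib
import Fermat.Agent.S24.Defs

/-!
# S24 / task 25 (AN-embed), part E1: generating the function field and extending ring homs

* `adjoinLift`: a ring hom `Θ` from a polynomial ring whose kernel is the kernel of the evaluation
  at generators `s i` induces a ring hom from the field generated by the `s i`.
* `modularFunctionFieldBar_eq_adjoin`: `F_N = ℚ̄(J_d : d ∣ N)`.
-/

set_option autoImplicit false

noncomputable section

open ModularCurve IntermediateField

namespace Fermat.Agent.S24.helper24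

open IntermediateField.algebraAdjoinAdjoin

section Abstract

variable {K E L : Type*} [Field K] [Field E] [Algebra K E] [Field L] {ι : Type*}
variable (s : ι → E) (Θ : MvPolynomial ι K →+* L)

theorem aeval_mem_algebra_adjoin (P : MvPolynomial ι K) :
    MvPolynomial.aeval s P ∈ Algebra.adjoin K (Set.range s) := by
  rw [Algebra.adjoin_range_eq_range_aeval]
  exact ⟨P, rfl⟩

theorem aeval_mem_adjoin (P : MvPolynomial ι K) :
    MvPolynomial.aeval s P ∈ IntermediateField.adjoin K (Set.range s) :=
  algebra_adjoin_le_adjoin K _ (aeval_mem_algebra_adjoin s P)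

/-- The ring hom on the subalgebra generated by the `s i`. -/
def adjoinLiftAux (hker : ∀ P, MvPolynomial.aeval s P = 0 → Θ P = 0) :
    Algebra.adjoin K (Set.range s) →+* L :=
  RingHom.liftOfSurjective
    ((MvPolynomial.aeval s).codRestrict (Algebra.adjoin K (Set.range s))
      (aeval_mem_algebra_adjoin s) : MvPolynomial ι K →+* Algebra.adjoin K (Set.range s))
    (by
      rintro ⟨x, hx⟩
      rw [Algebra.adjoin_range_eq_range_aeval] at hx
      obtain ⟨P, rfl⟩ := hx
      exact ⟨P, rfl⟩)
    ⟨Θ, fun P hP => by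
      rw [RingHom.mem_ker] at hP ⊢
      exact hker P (congrArg Subtype.val hP)⟩

theorem adjoinLiftAux_apply (hker : ∀ P, MvPolynomial.aeval s P = 0 → Θ P = 0)
    (P : MvPolynomial ι K) :
    adjoinLiftAux s Θ hker ⟨MvPolynomial.aeval s P, aeval_mem_algebra_adjoin s P⟩ = Θ P := by
  unfold adjoinLiftAux
  exact RingHom.liftOfRightInverse_comp_apply _ _ _ _ P

theorem adjoinLiftAux_injective (hker : ∀ P, MvPolynomial.aeval s P = 0 ↔ Θ P = 0) :
    Function.Injective (adjoinLiftAux s Θ fun P => (hker P).mp) := by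
  rw [injective_iff_map_eq_zero]
  rintro ⟨x, hx⟩ h
  have hx' := hx
  rw [Algebra.adjoin_range_eq_range_aeval] at hx'
  obtain ⟨P, hP⟩ := hx'
  have hP' : MvPolynomial.aeval s P = x := hP
  subst hP'
  rw [adjoinLiftAux_apply] at h
  exact Subtype.ext ((hker P).mpr h)

/-- The induced ring hom on the field generated by the `s i`. -/
def adjoinLift (hker : ∀ P, MvPolynomial.aeval s P = 0 ↔ Θ P = 0) :
    IntermediateField.adjoin K (Set.range s) →+* L :=
  IsFractionRing.lift (adjoinLiftAux_injective s Θ hker)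

theorem adjoinLift_aeval (hker : ∀ P, MvPolynomial.aeval s P = 0 ↔ Θ P = 0)
    (P : MvPolynomial ι K) :
    adjoinLift s Θ hker ⟨MvPolynomial.aeval s P, aeval_mem_adjoin s P⟩ = Θ P := by
  have h := IsFractionRing.lift_algebraMap (adjoinLiftAux_injective s Θ hker)
    (K := IntermediateField.adjoin K (Set.range s))
    ⟨MvPolynomial.aeval s P, aeval_mem_algebra_adjoin s P⟩
  rw [adjoinLiftAux_apply] at h
  exact h

theorem adjoinLift_gen (hker : ∀ P, MvPolynomial.aeval s P = 0 ↔ Θ P = 0) (i : ι) :
    adjoinLift s Θ hker ⟨s i, subset_adjoin K _ ⟨i, rfl⟩⟩ = Θ (MvPolynomial.X i) := by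
  have h := adjoinLift_aeval s Θ hker (MvPolynomial.X i)
  simpa using h

theorem adjoinLift_algebraMap (hker : ∀ P, MvPolynomial.aeval s P = 0 ↔ Θ P = 0) (c : K) :
    adjoinLift s Θ hker (algebraMap K _ c) = Θ (MvPolynomial.C c) := by
  have h := adjoinLift_aeval s Θ hker (MvPolynomial.C c)
  rw [← h]
  congr 1
  apply Subtype.ext
  simp

/-- Two ring homs out of the generated field agreeing on the images of all polynomials agree. -/
theorem ringHom_ext_adjoin {σ σ' : IntermediateField.adjoin K (Set.range s) →+* L}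
    (h : ∀ P : MvPolynomial ι K,
      σ ⟨MvPolynomial.aeval s P, aeval_mem_adjoin s P⟩
        = σ' ⟨MvPolynomial.aeval s P, aeval_mem_adjoin s P⟩) : σ = σ' := by
  refine IsFractionRing.ringHom_ext (A := Algebra.adjoin K (Set.range s)) ?_
  rintro ⟨x, hx⟩
  have hx' := hx
  rw [Algebra.adjoin_range_eq_range_aeval] at hx'
  obtain ⟨P, hP⟩ := hx'
  have hP' : MvPolynomial.aeval s P = x := hP
  subst hP'
  exact h P

end Abstract

end Fermat.Agent.S24.helper24

namespace Fermat.Agent.S24.helper24

open Fermat.Agent.S24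

/-- The generators `J_d`, `d ∣ N`, of the function field, indexed by the divisors of `N`. -/
def genJ (N : ℕ) (d : N.divisors) : LaurentSeries Kbar := JdT d.1

theorem JdT_eq_coeffEmb (d : ℕ) [NeZero d] : JdT d = coeffEmb Kbar (qExpand ℚ d jq) := by
  unfold JdT
  rw [dif_neg (NeZero.ne d)]
  rfl

theorem coeffEmb_algebraMap_rat (c : ℚ) :
    coeffEmb Kbar (algebraMap ℚ (LaurentSeries ℚ) c)
      = algebraMap Kbar (LaurentSeries Kbar) (algebraMap ℚ Kbar c) := by
  rw [ModularCurve.algebraMap_apply_eq_single, ModularCurve.algebraMap_laurentSeries_eq_single]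
  exact coeffMap_single _ _ _

theorem coeffEmb_injective : Function.Injective (coeffEmb Kbar) := by
  intro x y h
  ext k
  have := congrArg (fun z => HahnSeries.coeff z k) h
  simp only [coeffEmb_coeff] at this
  exact (algebraMap ℚ Kbar).injective this

theorem coeffEmb_mem_adjoin_genJ (N : ℕ) [NeZero N] (y : LaurentSeries ℚ)
    (hy : y ∈ IntermediateField.adjoin ℚ (divisorExpansions N)) :
    coeffEmb Kbar y ∈ IntermediateField.adjoin Kbar (Set.range (genJ N)) := by
  induction hy using IntermediateField.adjoin_induction with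
  | mem x hx =>
    obtain ⟨d, hne, hd, rfl⟩ := hx
    haveI := hne
    refine IntermediateField.subset_adjoin Kbar _ ⟨⟨d, ?_⟩, ?_⟩
    · exact Nat.mem_divisors.mpr ⟨hd, NeZero.ne N⟩
    · show JdT d = _
      exact JdT_eq_coeffEmb d
  | algebraMap c =>
    rw [coeffEmb_algebraMap_rat]
    exact IntermediateField.algebraMap_mem _ _
  | add x y _ _ hx hy =>
    rw [map_add]
    exact add_mem hx hy
  | inv x _ hx =>
    rw [map_inv₀]
    exact inv_mem hx
  | mul x y _ _ hx hy =>
    rw [map_mul]
    exact mul_mem hx hy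

theorem modularFunctionFieldBar_eq_adjoin (N : ℕ) [NeZero N] :
    modularFunctionFieldBar N = IntermediateField.adjoin Kbar (Set.range (genJ N)) := by
  apply le_antisymm
  · unfold modularFunctionFieldBar laurentBaseChange
    rw [IntermediateField.adjoin_le_iff]
    rintro _ ⟨y, hy, rfl⟩
    exact coeffEmb_mem_adjoin_genJ N y hy
  · rw [IntermediateField.adjoin_le_iff]
    rintro _ ⟨⟨d, hd⟩, rfl⟩
    have hd' := Nat.mem_divisors.mp hd
    have hd0 : d ≠ 0 := fun h => by
      rw [h] at hd'
      exact hd'.2 (Nat.eq_zero_of_zero_dvd hd'.1)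
    haveI : NeZero d := ⟨hd0⟩
    show JdT d ∈ _
    rw [JdT_eq_coeffEmb]
    exact Jd_mem N d hd'.1

end Fermat.Agent.S24.helper24
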