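import Mathlib
import Fermat.Agent.S24.Defs

/-!
# S24 / task 25: basic facts on the analytic `j`-function `jfun = E₄³/Δ`

* `jfun_smul`: `SL(2,ℤ)`-invariance.
* `tendsto_qParam_mul_jfun`: `q · j → 1` at `i∞`.
-/

set_option autoImplicit false

noncomputable section

open UpperHalfPlane ModularForm Filter Topology CongruenceSubgroup
open scoped MatrixGroups Manifold

namespace Fermat.Agent.S24.helper24

open Fermat.Agent.S24

local notation "𝕢" => Function.Periodic.qParam

theorem slash_eqn_SL {k : ℤ} {F : Type*} [FunLike F ℍ ℂ] [SlashInvariantFormClass F 𝒮ℒ k]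
    (f : F) (γ : SL(2, ℤ)) (τ : ℍ) : f (γ • τ) = denom γ τ ^ k * f τ := by
  have : SlashInvariantFormClass F Γ(1) k := Gamma_one_coe_eq_SL ▸ ‹_›
  exact SlashInvariantForm.slash_action_eqn_SL'' f (mem_Gamma_one γ) τ

theorem jfun_smul (γ : SL(2, ℤ)) (τ : ℍ) : jfun (γ • τ) = jfun τ := by
  unfold jfun
  have h4 := slash_eqn_SL (ModularForm.E₄) γ τ
  have h12 := slash_eqn_SL (CuspForm.discriminant) γ τ
  have hd : denom γ τ ≠ 0 := denom_ne_zero γ τ
  have hΔ : ModularForm.discriminant (γ • τ) = denom γ τ ^ (12 : ℤ) * ModularForm.discriminant τ :=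
    h12
  rw [h4, hΔ]
  have hΔne : ModularForm.discriminant τ ≠ 0 := ModularForm.discriminant_ne_zero τ
  field_simp

theorem valueAtInfty_E4 : valueAtInfty (ModularForm.E₄ : ℍ → ℂ) = 1 := by
  have h1 := EisensteinSeries.E_qExpansion_coeff_zero (k := 4) (by norm_num) ⟨2, rfl⟩
  have h2 := UpperHalfPlane.qExpansion_coeff_zero (h := 1) (f := (ModularForm.E₄ : ℍ → ℂ)) one_pos
    (ModularFormClass.analyticAt_cuspFunction_zero ModularForm.E₄ one_pos
      one_mem_strictPeriods_SL)
    (SlashInvariantFormClass.periodic_comp_ofComplex ModularForm.E₄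
      one_mem_strictPeriods_SL)
  rw [← h2]
  exact h1

theorem tendsto_E4 : Tendsto (fun τ : ℍ => ModularForm.E₄ τ) atImInfty (𝓝 1) := by
  obtain ⟨c, hc, hO⟩ := ModularFormClass.exp_decay_sub_atImInfty' (ModularForm.E₄)
  have h0 : Tendsto (fun τ : ℍ => Real.exp (-c * τ.im)) atImInfty (𝓝 0) := by
    have : Tendsto (fun τ : ℍ => τ.im) atImInfty atTop := tendsto_comap
    have h2 : Tendsto (fun x : ℝ => Real.exp (-c * x)) atTop (𝓝 0) := by
      have := Real.tendsto_exp_neg_atTop_nhds_zero.comp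
        (tendsto_id.const_mul_atTop hc)
      refine this.congr fun x => ?_
      simp [neg_mul]
    exact h2.comp this
  have h1 := hO.trans_tendsto h0
  rw [valueAtInfty_E4] at h1
  have := h1.add_const (1 : ℂ)
  simpa using this

theorem qParam_mul_jfun (τ : ℍ) :
    𝕢 1 τ * jfun τ = ModularForm.E₄ τ ^ 3 / ∏' n : ℕ, (1 - ModularForm.eta_q n τ) ^ 24 := by
  unfold jfun
  rw [ModularForm.discriminant_eq_q_prod]
  have hq : 𝕢 1 (τ : ℂ) ≠ 0 := by simp [Function.Periodic.qParam]
  have hΔ := ModularForm.discriminant_ne_zero τ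
  rw [ModularForm.discriminant_eq_q_prod] at hΔ
  have hP : (∏' n : ℕ, (1 - ModularForm.eta_q n τ) ^ 24) ≠ 0 := right_ne_zero_of_mul hΔ
  field_simp

theorem tendsto_qParam_mul_jfun :
    Tendsto (fun τ : ℍ => 𝕢 1 τ * jfun τ) atImInfty (𝓝 1) := by
  have h1 := (tendsto_E4.pow 3).div ModularForm.tendsto_atImInfty_tprod_one_sub_eta_q_pow
    one_ne_zero
  simp only [one_pow, div_one] at h1
  refine h1.congr fun τ => ?_
  rw [qParam_mul_jfun]
  rfl

theorem norm_qParam (τ : ℍ) : ‖𝕢 1 (τ : ℂ)‖ = Real.exp (-2 * Real.pi * τ.im) := by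
  simp [Function.Periodic.qParam, Complex.norm_exp]

theorem tendsto_exp_mul_norm_jfun :
    Tendsto (fun τ : ℍ => Real.exp (-2 * Real.pi * τ.im) * ‖jfun τ‖) atImInfty (𝓝 1) := by
  have h := tendsto_qParam_mul_jfun.norm
  simp only [norm_mul, norm_one] at h
  refine h.congr fun τ => ?_
  rw [norm_qParam]

end Fermat.Agent.S24.helper24
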