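import Mathlib
import Fermat.Agent.S24.Defs
import Fermat.Agent.S24.helper24_JBasic

/-!
# S24 / task 25, part E5: the stabiliser of `j(Nτ)` in `SL(2,ℤ)` is `Γ₀(N)`

Main result `mem_Gamma0_of_jfunD_invariant`: if `j(N · hτ) = j(N τ)` for all `τ` then
`h ∈ Γ₀(N)`.  Consequently the conjugates `τ ↦ j(N · g⁻¹ τ)` attached to distinct cosets
`g Γ₀(N)` are distinct functions (`jfunDg_eq_iff`).
-/

set_option autoImplicit false

noncomputable section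

open UpperHalfPlane ModularForm Filter Topology CongruenceSubgroup
open scoped MatrixGroups Manifold

namespace Fermat.Agent.S24.helper24

open Fermat.Agent.S24

@[simp]
theorem coe_scaleH (d : ℕ) [NeZero d] (τ : ℍ) : ((scaleH d τ : ℍ) : ℂ) = (d : ℂ) * (τ : ℂ) := rfl

theorem im_scaleH (d : ℕ) [NeZero d] (τ : ℍ) : (scaleH d τ).im = (d : ℝ) * τ.im := by
  show ((d : ℂ) * (τ : ℂ)).im = _
  simp

theorem tendsto_scaleH (d : ℕ) [NeZero d] : Tendsto (scaleH d) atImInfty atImInfty := by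
  rw [atImInfty, tendsto_comap_iff]
  have hd : (0 : ℝ) < (d : ℝ) := by exact_mod_cast Nat.pos_of_ne_zero (NeZero.ne d)
  have : Tendsto (fun τ : ℍ => (d : ℝ) * τ.im) (comap UpperHalfPlane.im atTop) atTop :=
    (tendsto_id.const_mul_atTop hd).comp tendsto_comap
  refine this.congr fun τ => ?_
  simp [im_scaleH]

/-- Key computation: imaginary part of `γ • (N · (h • τ))` when the bottom row `(q, -p)` of `γ`
kills the cusp `N a / c`. -/
theorem im_smul_scaleH_smul (N : ℕ) [NeZero N] (h γ : SL(2, ℤ)) (n₁ : ℤ)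
    (h1 : γ 1 0 * N * h 0 0 + γ 1 1 * h 1 0 = 0)
    (h2 : γ 1 0 * N * h 0 1 + γ 1 1 * h 1 1 = -n₁) (τ : ℍ) :
    (γ • scaleH N (h • τ)).im * (n₁ : ℝ) ^ 2 = (N : ℝ) * τ.im := by
  rw [ModularGroup.im_smul_eq_div_normSq, im_scaleH, ModularGroup.im_smul_eq_div_normSq]
  have hden_h : denom h τ ≠ 0 := denom_ne_zero h τ
  have hden_γ : denom γ (scaleH N (h • τ)) ≠ 0 := denom_ne_zero γ _
  have hns_h : Complex.normSq (denom h τ) ≠ 0 := by
    simpa [Complex.normSq_eq_zero] using hden_h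
  have hns_γ : Complex.normSq (denom γ (scaleH N (h • τ))) ≠ 0 := by
    simpa [Complex.normSq_eq_zero] using hden_γ
  -- the product of the two denominators is `-n₁`
  have key : denom γ (scaleH N (h • τ)) * denom h τ = -(n₁ : ℂ) := by
    have hd' : ((h 1 0 : ℤ) : ℂ) * (τ : ℂ) + ((h 1 1 : ℤ) : ℂ) ≠ 0 := by
      have := hden_h
      rwa [ModularGroup.denom_apply] at this
    have e1 : ((γ 1 0 : ℤ) : ℂ) * N * (h 0 0 : ℤ) + ((γ 1 1 : ℤ) : ℂ) * (h 1 0 : ℤ) = 0 := by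
      exact_mod_cast congrArg (fun x : ℤ => (x : ℂ)) h1
    have e2 : ((γ 1 0 : ℤ) : ℂ) * N * (h 0 1 : ℤ) + ((γ 1 1 : ℤ) : ℂ) * (h 1 1 : ℤ) = -(n₁ : ℂ) := by
      exact_mod_cast congrArg (fun x : ℤ => (x : ℂ)) h2
    have hz : ((h • τ : ℍ) : ℂ) = (((h 0 0 : ℤ) : ℂ) * τ + ((h 0 1 : ℤ) : ℂ))
        / (((h 1 0 : ℤ) : ℂ) * τ + ((h 1 1 : ℤ) : ℂ)) := by
      rw [UpperHalfPlane.coe_specialLinearGroup_apply]
      simp only [algebraMap_int_eq, eq_intCast, Complex.ofReal_intCast]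
    rw [ModularGroup.denom_apply, ModularGroup.denom_apply, coe_scaleH, hz]
    generalize ((h 0 0 : ℤ) : ℂ) = a at *
    generalize ((h 0 1 : ℤ) : ℂ) = b at *
    generalize ((h 1 0 : ℤ) : ℂ) = c at *
    generalize ((h 1 1 : ℤ) : ℂ) = d at *
    generalize ((γ 1 0 : ℤ) : ℂ) = q at *
    generalize ((γ 1 1 : ℤ) : ℂ) = p at *
    have e3 : (q * (↑N * ((a * ↑τ + b) / (c * ↑τ + d))) + p) * (c * ↑τ + d)
        = q * ↑N * (a * ↑τ + b) + p * (c * ↑τ + d) := by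
      have e4 : (a * ↑τ + b) / (c * ↑τ + d) * (c * ↑τ + d) = a * ↑τ + b :=
        div_mul_cancel₀ _ hd'
      linear_combination q * ↑N * e4
    rw [e3]
    linear_combination (τ : ℂ) * e1 + e2
  have key2 : Complex.normSq (denom γ (scaleH N (h • τ))) * Complex.normSq (denom h τ)
      = (n₁ : ℝ) ^ 2 := by
    rw [← Complex.normSq_mul, key, Complex.normSq_neg]
    rw [show (n₁ : ℂ) = ((n₁ : ℝ) : ℂ) by push_cast; rfl, Complex.normSq_ofReal]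
    ring
  rw [← key2]
  field_simp

theorem tendsto_of_im_eq {f : ℍ → ℍ} {κ : ℝ} (hκ : 0 < κ) (hf : ∀ τ, (f τ).im = κ * τ.im) :
    Tendsto f atImInfty atImInfty := by
  rw [atImInfty, tendsto_comap_iff]
  have : Tendsto (fun τ : ℍ => κ * τ.im) (comap UpperHalfPlane.im atTop) atTop :=
    (tendsto_id.const_mul_atTop hκ).comp tendsto_comap
  refine this.congr fun τ => ?_
  simp [hf]

/-- If `|F|` grows like `exp(2π κ₁ Im τ)` and like `exp(2π κ₂ Im τ)` then `κ₁ = κ₂`. -/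
theorem growth_rate_unique {F : ℍ → ℝ} {κ₁ κ₂ : ℝ}
    (h₁ : Tendsto (fun τ : ℍ => Real.exp (-2 * Real.pi * (κ₁ * τ.im)) * F τ) atImInfty (𝓝 1))
    (h₂ : Tendsto (fun τ : ℍ => Real.exp (-2 * Real.pi * (κ₂ * τ.im)) * F τ) atImInfty (𝓝 1)) :
    κ₁ = κ₂ := by
  -- symmetric statement: it suffices to exclude `κ₁ < κ₂`
  have aux : ∀ {κ₁ κ₂ : ℝ},
      Tendsto (fun τ : ℍ => Real.exp (-2 * Real.pi * (κ₁ * τ.im)) * F τ) atImInfty (𝓝 1) →
      Tendsto (fun τ : ℍ => Real.exp (-2 * Real.pi * (κ₂ * τ.im)) * F τ) atImInfty (𝓝 1) →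
      ¬ κ₁ < κ₂ := by
    intro κ₁ κ₂ h₁ h₂ hlt
    have hexp : Tendsto (fun τ : ℍ => Real.exp (-2 * Real.pi * ((κ₂ - κ₁) * τ.im)))
        atImInfty (𝓝 0) := by
      have h3 : Tendsto (fun τ : ℍ => τ.im) atImInfty atTop := tendsto_comap
      have hc : 0 < 2 * Real.pi * (κ₂ - κ₁) := by
        have := Real.pi_pos
        have := sub_pos.mpr hlt
        positivity
      have h4 := Real.tendsto_exp_neg_atTop_nhds_zero.comp
        ((tendsto_id.const_mul_atTop hc).comp h3)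
      refine h4.congr fun τ => ?_
      simp only [Function.comp_apply, id]
      congr 1
      ring
    have hprod := hexp.mul h₁
    rw [zero_mul] at hprod
    have heq : (fun τ : ℍ => Real.exp (-2 * Real.pi * ((κ₂ - κ₁) * τ.im)) *
        (Real.exp (-2 * Real.pi * (κ₁ * τ.im)) * F τ))
        = fun τ : ℍ => Real.exp (-2 * Real.pi * (κ₂ * τ.im)) * F τ := by
      funext τ
      rw [← mul_assoc, ← Real.exp_add]
      congr 2
      ring
    rw [heq] at hprod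
    exact zero_ne_one (tendsto_nhds_unique hprod h₂)
  rcases lt_trichotomy κ₁ κ₂ with hlt | heq | hgt
  · exact absurd hlt (aux h₁ h₂)
  · exact heq
  · exact absurd hgt (aux h₂ h₁)

/-- If `j(N · hτ) = j(Nτ)` for all `τ`, then `N` divides the lower left entry of `h`. -/
theorem dvd_of_jfun_scaleH_invariant (N : ℕ) [NeZero N] (h : SL(2, ℤ))
    (H : ∀ τ : ℍ, jfun (scaleH N (h • τ)) = jfun (scaleH N τ)) : (N : ℤ) ∣ h 1 0 := by
  have hN0 : (N : ℤ) ≠ 0 := by exact_mod_cast NeZero.ne N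
  have hNpos : (0 : ℤ) < N := by exact_mod_cast Nat.pos_of_ne_zero (NeZero.ne N)
  have hdet : h 0 0 * h 1 1 - h 0 1 * h 1 0 = 1 := by
    have := h.det_coe
    rwa [Matrix.det_fin_two] at this
  set g₀ : ℕ := Int.gcd (N * h 0 0) (h 1 0) with hg₀
  have hg1 : (g₀ : ℤ) ∣ N * h 0 0 := Int.gcd_dvd_left _ _
  have hg2 : (g₀ : ℤ) ∣ h 1 0 := Int.gcd_dvd_right _ _
  obtain ⟨p, hp⟩ := hg1
  obtain ⟨q, hq⟩ := hg2
  have hg0 : g₀ ≠ 0 := by
    intro h0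
    rw [hg₀, Int.gcd_eq_zero_iff] at h0
    have ha : h 0 0 = 0 := by
      rcases mul_eq_zero.mp h0.1 with h' | h'
      · exact absurd h' hN0
      · exact h'
    rw [ha, h0.2] at hdet
    simp at hdet
  have hg0' : (g₀ : ℤ) ≠ 0 := by exact_mod_cast hg0
  have hcop : IsCoprime q (-p) := by
    rw [IsCoprime.neg_right_iff, Int.isCoprime_iff_gcd_eq_one]
    have h3 : Int.gcd (N * h 0 0) (h 1 0) = g₀ * Int.gcd p q := by
      rw [hp, hq, Int.gcd_mul_left]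
      simp
    have h4 : g₀ * Int.gcd p q = g₀ * 1 := by
      rw [mul_one]
      exact h3.symm.trans hg₀.symm
    have h5 := Nat.eq_of_mul_eq_mul_left (Nat.pos_of_ne_zero hg0) h4
    rw [Int.gcd_comm]
    exact h5
  obtain ⟨γ, hγ0, hγ1⟩ := hcop.exists_SL2_row 1
  set n₁ : ℤ := p * h 1 1 - q * N * h 0 1 with hn₁
  have hgn : (g₀ : ℤ) * n₁ = N := by
    rw [hn₁]
    have : (g₀ : ℤ) * (p * h 1 1 - q * N * h 0 1)
        = ((g₀ : ℤ) * p) * h 1 1 - ((g₀ : ℤ) * q) * N * h 0 1 := by ring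
    rw [this, ← hp, ← hq]
    linear_combination (N : ℤ) * hdet
  have h1 : γ 1 0 * N * h 0 0 + γ 1 1 * h 1 0 = 0 := by
    rw [hγ0, hγ1]
    apply mul_left_cancel₀ hg0'
    have : (g₀ : ℤ) * (q * N * h 0 0 + -p * h 1 0)
        = ((g₀ : ℤ) * q) * (N * h 0 0) - ((g₀ : ℤ) * p) * h 1 0 := by ring
    rw [this, ← hp, ← hq]
    ring
  have h2 : γ 1 0 * N * h 0 1 + γ 1 1 * h 1 1 = -n₁ := by
    rw [hγ0, hγ1, hn₁]
    ring
  have hn0 : n₁ ≠ 0 := by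
    intro h0
    rw [h0, mul_zero] at hgn
    exact hN0 hgn.symm
  have hn0' : (n₁ : ℝ) ≠ 0 := by exact_mod_cast hn0
  have hNr : (0 : ℝ) < (N : ℝ) := by exact_mod_cast Nat.pos_of_ne_zero (NeZero.ne N)
  -- the two growth rates
  have him : ∀ τ : ℍ, (γ • scaleH N (h • τ)).im = ((N : ℝ) / (n₁ : ℝ) ^ 2) * τ.im := by
    intro τ
    have := im_smul_scaleH_smul N h γ n₁ h1 h2 τ
    field_simp
    linarith
  have hκ : (0 : ℝ) < (N : ℝ) / (n₁ : ℝ) ^ 2 := by positivity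
  have t1 : Tendsto (fun τ : ℍ => Real.exp (-2 * Real.pi * ((N : ℝ) * τ.im))
      * ‖jfun (scaleH N τ)‖) atImInfty (𝓝 1) := by
    have := tendsto_exp_mul_norm_jfun.comp (tendsto_scaleH N)
    refine this.congr fun τ => ?_
    simp only [Function.comp_apply, im_scaleH]
  have t2 : Tendsto (fun τ : ℍ => Real.exp (-2 * Real.pi * (((N : ℝ) / (n₁ : ℝ) ^ 2) * τ.im))
      * ‖jfun (scaleH N τ)‖) atImInfty (𝓝 1) := by
    have := tendsto_exp_mul_norm_jfun.comp (tendsto_of_im_eq hκ him)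
    refine this.congr fun τ => ?_
    simp only [Function.comp_apply, him, jfun_smul, H]
  have hrate := growth_rate_unique t1 t2
  -- hence `n₁ ^ 2 = 1`
  have hsq : (n₁ : ℝ) ^ 2 = 1 := by
    have h3 : (N : ℝ) * (n₁ : ℝ) ^ 2 = N := by
      have h6 : (N : ℝ) / (n₁ : ℝ) ^ 2 * (n₁ : ℝ) ^ 2 = N :=
        div_mul_cancel₀ _ (pow_ne_zero 2 hn0')
      rw [← hrate] at h6
      exact h6
    have h4 : (N : ℝ) * ((n₁ : ℝ) ^ 2 - 1) = 0 := by linarith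
    rcases mul_eq_zero.mp h4 with h5 | h5
    · exact absurd h5 hNr.ne'
    · linarith
  have hsqZ : n₁ ^ 2 = 1 := by exact_mod_cast hsq
  have hn1 : n₁ = 1 := by
    have h7 : (n₁ - 1) * (n₁ + 1) = 0 := by linear_combination hsqZ
    rcases mul_eq_zero.mp h7 with h5 | h5
    · linarith
    · exfalso
      have h8 : n₁ = -1 := by linarith
      rw [h8] at hgn
      have : (0 : ℤ) ≤ (g₀ : ℤ) := Int.natCast_nonneg _
      linarith
  rw [hn1, mul_one] at hgn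
  rw [← hgn]
  exact ⟨q, hq⟩

theorem mem_Gamma0_of_jfun_scaleH_invariant (N : ℕ) [NeZero N] (h : SL(2, ℤ))
    (H : ∀ τ : ℍ, jfun (scaleH N (h • τ)) = jfun (scaleH N τ)) : h ∈ Gamma0 N := by
  rw [Gamma0_mem]
  exact (ZMod.intCast_zmod_eq_zero_iff_dvd _ _).mpr (dvd_of_jfun_scaleH_invariant N h H)

/-- Distinct cosets give distinct conjugates of `j_N`. -/
theorem inv_mul_mem_Gamma0_of_jfunDg_eq (N : ℕ) [NeZero N] (g g' : SL(2, ℤ))
    (H : ∀ τ : ℍ, jfunDg N g τ = jfunDg N g' τ) : g⁻¹ * g' ∈ Gamma0 N := by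
  apply mem_Gamma0_of_jfun_scaleH_invariant
  intro τ
  have := H (g' • τ)
  simp only [jfunDg, jfunD] at this
  rw [← mul_smul, ← mul_smul, inv_mul_cancel, one_smul] at this
  exact this

/-- The companion matrix `[a, b d; c / d, δ]` of `γ = [a, b; c, δ] ∈ Γ₀(N)` for `d ∣ N`. -/
theorem exists_scaleH_smul (N d : ℕ) [NeZero d] (hd : d ∣ N) (γ : SL(2, ℤ))
    (hγ : γ ∈ Gamma0 N) :
    ∃ γ' : SL(2, ℤ), ∀ τ : ℍ, scaleH d (γ • τ) = γ' • scaleH d τ := by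
  have hc : (N : ℤ) ∣ γ 1 0 := by
    rw [Gamma0_mem] at hγ
    exact (ZMod.intCast_zmod_eq_zero_iff_dvd _ _).mp hγ
  have hdc : (d : ℤ) ∣ γ 1 0 := (Int.natCast_dvd_natCast.mpr hd).trans hc
  obtain ⟨c', hc'⟩ := hdc
  have hdet : γ 0 0 * γ 1 1 - γ 0 1 * γ 1 0 = 1 := by
    have := γ.det_coe
    rwa [Matrix.det_fin_two] at this
  let M : Matrix (Fin 2) (Fin 2) ℤ := !![γ 0 0, γ 0 1 * d; c', γ 1 1]
  have hM : M.det = 1 := by
    rw [Matrix.det_fin_two_of]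
    rw [hc'] at hdet
    linear_combination hdet
  let γ' : SL(2, ℤ) := ⟨M, hM⟩
  have e00 : (γ' 0 0 : ℤ) = γ 0 0 := rfl
  have e01 : (γ' 0 1 : ℤ) = γ 0 1 * d := rfl
  have e10 : (γ' 1 0 : ℤ) = c' := rfl
  have e11 : (γ' 1 1 : ℤ) = γ 1 1 := rfl
  refine ⟨γ', fun τ => ?_⟩
  apply UpperHalfPlane.ext
  have hz1 : ((γ • τ : ℍ) : ℂ) = (((γ 0 0 : ℤ) : ℂ) * τ + ((γ 0 1 : ℤ) : ℂ))
      / (((γ 1 0 : ℤ) : ℂ) * τ + ((γ 1 1 : ℤ) : ℂ)) := by
    rw [UpperHalfPlane.coe_specialLinearGroup_apply]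
    simp only [algebraMap_int_eq, eq_intCast, Complex.ofReal_intCast]
  have hz2 : ((γ' • scaleH d τ : ℍ) : ℂ)
      = (((γ' 0 0 : ℤ) : ℂ) * (scaleH d τ : ℂ) + ((γ' 0 1 : ℤ) : ℂ))
      / (((γ' 1 0 : ℤ) : ℂ) * (scaleH d τ : ℂ) + ((γ' 1 1 : ℤ) : ℂ)) := by
    rw [UpperHalfPlane.coe_specialLinearGroup_apply]
    simp only [algebraMap_int_eq, eq_intCast, Complex.ofReal_intCast]
  rw [coe_scaleH, hz1, hz2, coe_scaleH, e00, e01, e10, e11]
  have hd0 : (d : ℂ) ≠ 0 := by exact_mod_cast NeZero.ne d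
  have hden : ((γ 1 0 : ℤ) : ℂ) * (τ : ℂ) + ((γ 1 1 : ℤ) : ℂ) ≠ 0 := by
    have := denom_ne_zero γ τ
    rwa [ModularGroup.denom_apply] at this
  have hcC : ((γ 1 0 : ℤ) : ℂ) = (d : ℂ) * (c' : ℂ) := by
    exact_mod_cast congrArg (fun x : ℤ => (x : ℂ)) hc'
  have hden' : (c' : ℂ) * ((d : ℂ) * (τ : ℂ)) + ((γ 1 1 : ℤ) : ℂ) ≠ 0 := by
    have : (c' : ℂ) * ((d : ℂ) * (τ : ℂ)) + ((γ 1 1 : ℤ) : ℂ)
        = ((γ 1 0 : ℤ) : ℂ) * (τ : ℂ) + ((γ 1 1 : ℤ) : ℂ) := by rw [hcC]; ring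
    rw [this]; exact hden
  rw [mul_div_assoc', div_eq_div_iff hden hden']
  push_cast
  rw [hcC]
  ring

theorem jfunD_smul_of_mem_Gamma0 (N d : ℕ) [NeZero d] (hd : d ∣ N) (γ : SL(2, ℤ))
    (hγ : γ ∈ Gamma0 N) (τ : ℍ) : jfunD d (γ • τ) = jfunD d τ := by
  obtain ⟨γ', hγ'⟩ := exists_scaleH_smul N d hd γ hγ
  unfold jfunD
  rw [hγ', jfun_smul]

/-- `jfunDg d g` only depends on the coset `g Γ₀(N)` (for `d ∣ N`). -/
theorem jfunDg_mul_of_mem_Gamma0 (N d : ℕ) [NeZero d] (hd : d ∣ N) (g γ : SL(2, ℤ))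
    (hγ : γ ∈ Gamma0 N) (τ : ℍ) : jfunDg d (g * γ) τ = jfunDg d g τ := by
  unfold jfunDg
  rw [mul_inv_rev, mul_smul]
  exact jfunD_smul_of_mem_Gamma0 N d hd γ⁻¹ (inv_mem hγ) _

theorem jfunDg_eq_of_inv_mul_mem (N d : ℕ) [NeZero d] (hd : d ∣ N) (g g' : SL(2, ℤ))
    (h : g⁻¹ * g' ∈ Gamma0 N) (τ : ℍ) : jfunDg d g' τ = jfunDg d g τ := by
  have := jfunDg_mul_of_mem_Gamma0 N d hd g (g⁻¹ * g') h τ
  rwa [mul_inv_cancel_left] at this

end Fermat.Agent.S24.helper24
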