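import Mathlib
import Fermat.Agent.S24.Defs
import Fermat.Agent.S24.helper24_JBasic
import Fermat.Agent.S24.helper24_Stabilizer
import Fermat.Agent.S24.helper24_FieldGen

/-!
# S24 / task 25: holomorphy of the conjugates of `j_d` and the identity theorem

* `mdiff_jfun`, `mdiff_jfunD`, `mdiff_jfunDg`: holomorphy on the upper half plane.
* `evP0 N P`, `evP N g P`: evaluation of a polynomial in the functions `j_d` (resp. in their
  conjugates by `g`), and holomorphy of these.
* `BridgeHyp N`: the statement that polynomial relations among the `q`-expansions `J_d` are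
  the same as relations among the analytic functions `j_d`.
-/

set_option autoImplicit false

noncomputable section

open UpperHalfPlane ModularForm Filter Topology CongruenceSubgroup
open scoped MatrixGroups Manifold

namespace Fermat.Agent.S24.helper24

open Fermat.Agent.S24

theorem mdiff_jfun : MDiff jfun := by
  have h4 : MDiff (ModularForm.E₄ : ℍ → ℂ) := ModularFormClass.holo ModularForm.E₄
  have hΔ : MDiff (ModularForm.discriminant : ℍ → ℂ) := ModularFormClass.holo CuspForm.discriminant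
  rw [UpperHalfPlane.mdifferentiable_iff] at h4 hΔ ⊢
  have : (jfun ∘ ofComplex) = fun z => ((ModularForm.E₄ : ℍ → ℂ) ∘ ofComplex) z ^ 3 /
      ((ModularForm.discriminant : ℍ → ℂ) ∘ ofComplex) z := by
    ext z
    simp [jfun]
  rw [this]
  refine (h4.pow 3).div hΔ ?_
  intro z hz
  exact ModularForm.discriminant_ne_zero _

theorem mdiff_scaleH_comp {f : ℍ → ℂ} (hf : MDiff f) (d : ℕ) [NeZero d] :
    MDiff (fun τ => f (scaleH d τ)) := by
  rw [UpperHalfPlane.mdifferentiable_iff] at hf ⊢
  have hd : (0 : ℝ) < (d : ℝ) := by exact_mod_cast Nat.pos_of_ne_zero (NeZero.ne d)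
  have hmaps : Set.MapsTo (fun z : ℂ => (d : ℂ) * z) {z | 0 < z.im} {z | 0 < z.im} := by
    intro z hz
    have hz' : 0 < z.im := hz
    show 0 < ((d : ℂ) * z).im
    simp
    positivity
  have h1 : DifferentiableOn ℂ ((f ∘ ofComplex) ∘ (fun z : ℂ => (d : ℂ) * z)) {z | 0 < z.im} :=
    hf.comp ((differentiable_id.const_mul (d : ℂ)).differentiableOn) hmaps
  refine h1.congr ?_
  intro z hz
  simp only [Function.comp_apply]
  congr 1
  apply UpperHalfPlane.ext
  rw [coe_scaleH, ofComplex_apply_of_im_pos hz, ofComplex_apply_of_im_pos (hmaps hz)]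

theorem mdiff_jfunD (d : ℕ) [NeZero d] : MDiff (jfunD d) := mdiff_scaleH_comp mdiff_jfun d

theorem mdiff_smul_comp {f : ℍ → ℂ} (hf : MDiff f) (g : SL(2, ℤ)) :
    MDiff (fun τ => f (g • τ)) := by
  have h := UpperHalfPlane.mdifferentiable_smul (g := ((g : SL(2, ℤ)) : GL (Fin 2) ℝ))
    (by simp)
  exact hf.comp h

theorem mdiff_jfunDg (d : ℕ) [NeZero d] (g : SL(2, ℤ)) : MDiff (jfunDg d g) :=
  mdiff_smul_comp (mdiff_jfunD d) g⁻¹

theorem jfunDT_of_ne_zero (d : ℕ) [NeZero d] (τ : ℍ) : jfunDT d τ = jfunD d τ := by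
  unfold jfunDT
  rw [dif_neg (NeZero.ne d)]

theorem mdiff_jfunDT (d : ℕ) : MDiff (jfunDT d) := by
  by_cases h : d = 0
  · subst h
    have : jfunDT 0 = fun _ => (0 : ℂ) := by
      ext τ
      simp [jfunDT]
    rw [this]
    exact mdifferentiable_const
  · haveI : NeZero d := ⟨h⟩
    have : jfunDT d = jfunD d := funext fun τ => jfunDT_of_ne_zero d τ
    rw [this]
    exact mdiff_jfunD d

/-- Evaluation of a polynomial (with coefficients in `ℚ̄`) at the functions `j_d`, `d ∣ N`. -/
def evP0 (N : ℕ) (P : MvPolynomial N.divisors Kbar) (τ : ℍ) : ℂ :=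
  MvPolynomial.eval (fun d : N.divisors => jfunDT d.1 τ)
    (MvPolynomial.map (iotaC : Kbar →+* ℂ) P)

/-- Evaluation of a polynomial at the conjugates `j_d ∘ g⁻¹`. -/
def evP (N : ℕ) (g : SL(2, ℤ)) (P : MvPolynomial N.divisors Kbar) (τ : ℍ) : ℂ :=
  evP0 N P (g⁻¹ • τ)

@[simp] theorem evP0_C (N : ℕ) (c : Kbar) (τ : ℍ) : evP0 N (MvPolynomial.C c) τ = iotaC c := by
  simp [evP0]

@[simp] theorem evP0_X (N : ℕ) (d : N.divisors) (τ : ℍ) :
    evP0 N (MvPolynomial.X d) τ = jfunDT d.1 τ := by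
  simp [evP0]

@[simp] theorem evP0_add (N : ℕ) (P Q : MvPolynomial N.divisors Kbar) (τ : ℍ) :
    evP0 N (P + Q) τ = evP0 N P τ + evP0 N Q τ := by
  simp [evP0]

@[simp] theorem evP0_mul (N : ℕ) (P Q : MvPolynomial N.divisors Kbar) (τ : ℍ) :
    evP0 N (P * Q) τ = evP0 N P τ * evP0 N Q τ := by
  simp [evP0]

theorem mdiff_evP0 (N : ℕ) (P : MvPolynomial N.divisors Kbar) : MDiff (evP0 N P) := by
  induction P using MvPolynomial.induction_on with
  | C c =>
    have : evP0 N (MvPolynomial.C c) = fun _ => iotaC c := funext fun τ => evP0_C N c τ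
    rw [this]
    exact mdifferentiable_const
  | add P Q hP hQ =>
    have : evP0 N (P + Q) = fun τ => evP0 N P τ + evP0 N Q τ := funext fun τ => evP0_add N P Q τ
    rw [this]
    exact hP.add hQ
  | mul_X P d hP =>
    have : evP0 N (P * MvPolynomial.X d) = fun τ => evP0 N P τ * jfunDT d.1 τ :=
      funext fun τ => by rw [evP0_mul, evP0_X]
    rw [this]
    exact hP.mul (mdiff_jfunDT d.1)

theorem mdiff_evP (N : ℕ) (g : SL(2, ℤ)) (P : MvPolynomial N.divisors Kbar) :
    MDiff (evP N g P) :=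
  mdiff_smul_comp (mdiff_evP0 N P) g⁻¹

theorem evP_eq_zero_iff (N : ℕ) (g : SL(2, ℤ)) (P : MvPolynomial N.divisors Kbar) :
    (∀ τ, evP N g P τ = 0) ↔ ∀ τ, evP0 N P τ = 0 := by
  constructor
  · intro h τ
    have := h (g • τ)
    unfold evP at this
    rwa [inv_smul_smul] at this
  · intro h τ
    exact h _

/-- The bridge between formal `q`-expansions and analytic functions: a polynomial relation
among the `J_d` (`d ∣ N`) holds in `ℚ̄((q))` iff it holds among the analytic functions `j_d`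
on the upper half plane. -/
def BridgeHyp (N : ℕ) : Prop :=
  ∀ P : MvPolynomial N.divisors Kbar,
    MvPolynomial.aeval (genJ N) P = 0 ↔ ∀ τ : ℍ, evP0 N P τ = 0

/-- The identity theorem on the upper half plane: a holomorphic function vanishing on a
nonempty open set vanishes identically. -/
theorem eq_zero_of_isOpen {f : ℍ → ℂ} (hf : MDiff f) {U : Set ℍ} (hU : IsOpen U)
    (hne : U.Nonempty) (h0 : ∀ τ ∈ U, f τ = 0) (τ : ℍ) : f τ = 0 := by
  obtain ⟨τ₁, hτ₁⟩ := hne
  have hev : ∀ᶠ z in 𝓝 τ₁, f z = 0 := by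
    filter_upwards [hU.mem_nhds hτ₁] with z hz using h0 z hz
  have hfr : ∃ᶠ z in 𝓝[≠] τ₁, f z = 0 :=
    (hev.filter_mono nhdsWithin_le_nhds).frequently
  have := UpperHalfPlane.eq_zero_of_frequently hf hfr
  rw [this]
  rfl

end Fermat.Agent.S24.helper24
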