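import Mathlib

/-!
# S24 / AN-germ (helper99): the field of germs of meromorphic functions at a point

* `MeroGerm z` : the field of germs at `z : ℂ` of functions meromorphic at `z`
  (a subring of `Filter.Germ (𝓝[≠] z) ℂ`).
* `MeroGerm.mk f hf` : the germ of a function meromorphic at `z`.
* `MeroGerm.lift` : ring-hom constructor from a ring of functions meromorphic at `z`.
* `MeroGerm.V z : Valuation (MeroGerm z) ℤᵐ⁰` with `V (mk f hf) = exp (-n)` when
  `meromorphicOrderAt f z = n`.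
* rotation lemmas `dvd_meromorphicOrderAt_of_comp_eventuallyEq` and the cusp version.
-/

set_option autoImplicit false

namespace Fermat.Agent.S24.helper99

open Filter Topology WithZero

/-- The subring of `Germ (𝓝[≠] z) ℂ` of germs of functions meromorphic at `z`. -/
def meroGermSubring (z : ℂ) : Subring (Germ (𝓝[≠] z) ℂ) where
  carrier := {g | ∃ f : ℂ → ℂ, MeromorphicAt f z ∧ (f : Germ (𝓝[≠] z) ℂ) = g}
  mul_mem' := by
    rintro _ _ ⟨f, hf, rfl⟩ ⟨g, hg, rfl⟩
    exact ⟨f * g, hf.mul hg, rfl⟩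
  one_mem' := ⟨fun _ => 1, MeromorphicAt.const 1 z, rfl⟩
  add_mem' := by
    rintro _ _ ⟨f, hf, rfl⟩ ⟨g, hg, rfl⟩
    exact ⟨f + g, hf.add hg, rfl⟩
  zero_mem' := ⟨fun _ => 0, MeromorphicAt.const 0 z, rfl⟩
  neg_mem' := by
    rintro _ ⟨f, hf, rfl⟩
    exact ⟨-f, hf.neg, rfl⟩

/-- The type of germs at `z` of functions meromorphic at `z`. -/
def MeroGerm (z : ℂ) : Type := meroGermSubring z

namespace MeroGerm

variable {z : ℂ}

noncomputable instance instCommRing : CommRing (MeroGerm z) :=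
  inferInstanceAs (CommRing (meroGermSubring z))

/-- The germ of a function meromorphic at `z`. -/
noncomputable def mk (f : ℂ → ℂ) (hf : MeromorphicAt f z) : MeroGerm z :=
  ⟨(f : Germ (𝓝[≠] z) ℂ), f, hf, rfl⟩

theorem exists_rep (a : MeroGerm z) : ∃ (f : ℂ → ℂ) (hf : MeromorphicAt f z), mk f hf = a := by
  obtain ⟨g, f, hf, rfl⟩ := a
  exact ⟨f, hf, rfl⟩

theorem mk_eq_mk_iff {f g : ℂ → ℂ} {hf : MeromorphicAt f z} {hg : MeromorphicAt g z} :
    mk f hf = mk g hg ↔ f =ᶠ[𝓝[≠] z] g := by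
  constructor
  · intro h
    exact Germ.coe_eq.mp (congrArg Subtype.val h)
  · intro h
    exact Subtype.ext (Germ.coe_eq.mpr h)

theorem mk_congr {f g : ℂ → ℂ} (hf : MeromorphicAt f z) (h : f =ᶠ[𝓝[≠] z] g) :
    mk f hf = mk g (hf.congr h) :=
  mk_eq_mk_iff.mpr h

@[simp] theorem mk_zero : mk (fun _ => (0 : ℂ)) (MeromorphicAt.const 0 z) = 0 := rfl

@[simp] theorem mk_one : mk (fun _ => (1 : ℂ)) (MeromorphicAt.const 1 z) = 1 := rfl

theorem mk_add {f g : ℂ → ℂ} (hf : MeromorphicAt f z) (hg : MeromorphicAt g z) :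
    mk (f + g) (hf.add hg) = mk f hf + mk g hg := rfl

theorem mk_mul {f g : ℂ → ℂ} (hf : MeromorphicAt f z) (hg : MeromorphicAt g z) :
    mk (f * g) (hf.mul hg) = mk f hf * mk g hg := rfl

theorem mk_neg {f : ℂ → ℂ} (hf : MeromorphicAt f z) :
    mk (-f) hf.neg = -mk f hf := rfl

theorem mk_sub {f g : ℂ → ℂ} (hf : MeromorphicAt f z) (hg : MeromorphicAt g z) :
    mk (f - g) (hf.sub hg) = mk f hf - mk g hg := by
  rw [sub_eq_add_neg (mk f hf), ← mk_neg hg, ← mk_add hf hg.neg]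
  exact mk_eq_mk_iff.mpr (Eventually.of_forall fun x => by simp [sub_eq_add_neg])

theorem mk_eq_zero_iff {f : ℂ → ℂ} {hf : MeromorphicAt f z} :
    mk f hf = 0 ↔ ∀ᶠ x in 𝓝[≠] z, f x = 0 := by
  rw [← mk_zero, mk_eq_mk_iff]
  rfl

theorem mk_eq_zero_iff_order {f : ℂ → ℂ} {hf : MeromorphicAt f z} :
    mk f hf = 0 ↔ meromorphicOrderAt f z = ⊤ := by
  rw [mk_eq_zero_iff, meromorphicOrderAt_eq_top_iff]

theorem mk_ne_zero_iff {f : ℂ → ℂ} {hf : MeromorphicAt f z} :
    mk f hf ≠ 0 ↔ ∀ᶠ x in 𝓝[≠] z, f x ≠ 0 := by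
  rw [Ne, mk_eq_zero_iff_order, ← Ne, meromorphicOrderAt_ne_top_iff_eventually_ne_zero hf]

theorem mk_mul_mk_inv {f : ℂ → ℂ} (hf : MeromorphicAt f z) (h : mk f hf ≠ 0) :
    mk f hf * mk f⁻¹ hf.inv = 1 := by
  rw [← mk_mul, ← mk_one, mk_eq_mk_iff]
  filter_upwards [mk_ne_zero_iff.mp h] with x hx
  simp [hx]

theorem isField : IsField (MeroGerm z) where
  exists_pair_ne := by
    refine ⟨0, 1, fun h => ?_⟩
    have h' : (1 : MeroGerm z) = 0 := h.symm
    rw [← mk_one, mk_eq_zero_iff] at h'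
    have : ∀ᶠ x in 𝓝[≠] z, False := h'.mono fun x hx => one_ne_zero hx
    exact (NeBot.ne inferInstance) (eventually_false_iff_eq_bot.mp this)
  mul_comm := mul_comm
  mul_inv_cancel := by
    intro a ha
    obtain ⟨f, hf, rfl⟩ := exists_rep a
    exact ⟨mk f⁻¹ hf.inv, mk_mul_mk_inv hf ha⟩

noncomputable instance instField : Field (MeroGerm z) := isField.toField

theorem mk_inv {f : ℂ → ℂ} (hf : MeromorphicAt f z) :
    mk f⁻¹ hf.inv = (mk f hf)⁻¹ := by
  by_cases h : mk f hf = 0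
  · rw [h, inv_zero, mk_eq_zero_iff]
    filter_upwards [mk_eq_zero_iff.mp h] with x hx
    simp [hx]
  · exact eq_inv_of_mul_eq_one_right (mk_mul_mk_inv hf h)

theorem mk_div {f g : ℂ → ℂ} (hf : MeromorphicAt f z) (hg : MeromorphicAt g z) :
    mk (f / g) (hf.div hg) = mk f hf / mk g hg := by
  rw [div_eq_mul_inv (mk f hf), ← mk_inv hg, ← mk_mul hf hg.inv]
  exact mk_eq_mk_iff.mpr (Eventually.of_forall fun x => by simp [div_eq_mul_inv])

theorem mk_pow {f : ℂ → ℂ} (hf : MeromorphicAt f z) (n : ℕ) :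
    mk (f ^ n) (hf.pow n) = mk f hf ^ n := by
  induction n with
  | zero =>
    rw [pow_zero (mk f hf), ← mk_one]
    exact mk_eq_mk_iff.mpr (Eventually.of_forall fun x => by simp)
  | succ n ih =>
    rw [pow_succ (mk f hf), ← ih, ← mk_mul (hf.pow n) hf]
    exact mk_eq_mk_iff.mpr (Eventually.of_forall fun x => by simp [pow_succ])

/-- The germ of a constant function. -/
noncomputable def const (z : ℂ) (c : ℂ) : MeroGerm z := mk (fun _ => c) (MeromorphicAt.const c z)

/-- Constants as a ring homomorphism `ℂ →+* MeroGerm z`. -/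
noncomputable def constHom (z : ℂ) : ℂ →+* MeroGerm z where
  toFun := const z
  map_one' := rfl
  map_mul' _ _ := rfl
  map_zero' := rfl
  map_add' _ _ := rfl

@[simp] theorem constHom_apply (c : ℂ) : constHom z c = const z c := rfl

/-- Ring-hom constructor: a ring homomorphism into functions, all of whose values are
meromorphic at `z`, induces a ring homomorphism into `MeroGerm z`. -/
noncomputable def lift {R : Type*} [Semiring R] (φ : R →+* (ℂ → ℂ))
    (hφ : ∀ r, MeromorphicAt (φ r) z) : R →+* MeroGerm z where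
  toFun r := mk (φ r) (hφ r)
  map_one' := by
    rw [← mk_one]
    exact mk_eq_mk_iff.mpr (Eventually.of_forall fun x => by simp)
  map_mul' a b := by
    rw [← mk_mul]
    exact mk_eq_mk_iff.mpr (Eventually.of_forall fun x => by simp)
  map_zero' := by
    rw [← mk_zero]
    exact mk_eq_mk_iff.mpr (Eventually.of_forall fun x => by simp)
  map_add' a b := by
    rw [← mk_add]
    exact mk_eq_mk_iff.mpr (Eventually.of_forall fun x => by simp)

@[simp] theorem lift_apply {R : Type*} [Semiring R] (φ : R →+* (ℂ → ℂ))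
    (hφ : ∀ r, MeromorphicAt (φ r) z) (r : R) : lift φ hφ r = mk (φ r) (hφ r) := rfl

/-- The order of a meromorphic germ. -/
noncomputable def order (a : MeroGerm z) : WithTop ℤ :=
  meromorphicOrderAt (exists_rep a).choose z

theorem order_mk {f : ℂ → ℂ} (hf : MeromorphicAt f z) :
    order (mk f hf) = meromorphicOrderAt f z := by
  have h := (exists_rep (mk f hf)).choose_spec.choose_spec
  exact meromorphicOrderAt_congr (mk_eq_mk_iff.mp h)

theorem order_eq_top_iff {a : MeroGerm z} : order a = ⊤ ↔ a = 0 := by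
  obtain ⟨f, hf, rfl⟩ := exists_rep a
  rw [order_mk, mk_eq_zero_iff_order]

theorem order_mul (a b : MeroGerm z) : order (a * b) = order a + order b := by
  obtain ⟨f, hf, rfl⟩ := exists_rep a
  obtain ⟨g, hg, rfl⟩ := exists_rep b
  rw [← mk_mul hf hg, order_mk, order_mk, order_mk, meromorphicOrderAt_mul hf hg]

theorem order_add (a b : MeroGerm z) : min (order a) (order b) ≤ order (a + b) := by
  obtain ⟨f, hf, rfl⟩ := exists_rep a
  obtain ⟨g, hg, rfl⟩ := exists_rep b
  rw [← mk_add hf hg, order_mk, order_mk, order_mk]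
  exact meromorphicOrderAt_add hf hg

theorem order_one : order (1 : MeroGerm z) = 0 := by
  rw [← mk_one, order_mk, meromorphicOrderAt_const]
  simp

open scoped Classical in
/-- The valuation on `MeroGerm z` attached to the order at `z`:
`V a = exp (-(order a))` for `a ≠ 0`. -/
noncomputable def V (z : ℂ) : Valuation (MeroGerm z) ℤᵐ⁰ where
  toFun a := if a = 0 then 0 else exp (-(order a).untopD 0)
  map_zero' := by simp
  map_one' := by
    rw [if_neg one_ne_zero, order_one]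
    simp
  map_mul' a b := by
    by_cases ha : a = 0
    · simp [ha]
    by_cases hb : b = 0
    · simp [hb]
    rw [if_neg ha, if_neg hb, if_neg (mul_ne_zero ha hb), order_mul, ← exp_add]
    have ha' : order a ≠ ⊤ := fun h => ha (order_eq_top_iff.mp h)
    have hb' : order b ≠ ⊤ := fun h => hb (order_eq_top_iff.mp h)
    lift order a to ℤ using ha' with m
    lift order b to ℤ using hb' with n
    rw [← WithTop.coe_add]
    simp only [WithTop.untopD_coe]
    congr 1
    ring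
  map_add_le_max' a b := by
    by_cases hab : a + b = 0
    · simp [hab]
    rw [if_neg hab]
    have hab' : order (a + b) ≠ ⊤ := fun h => hab (order_eq_top_iff.mp h)
    have hle := order_add a b
    by_cases ha : a = 0
    · subst ha
      rw [zero_add] at hab ⊢
      rw [if_neg hab]
      exact le_max_right _ _
    by_cases hb : b = 0
    · subst hb
      rw [add_zero] at hab ⊢
      rw [if_neg hab]
      exact le_max_left _ _
    rw [if_neg ha, if_neg hb]
    have ha' : order a ≠ ⊤ := fun h => ha (order_eq_top_iff.mp h)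
    have hb' : order b ≠ ⊤ := fun h => hb (order_eq_top_iff.mp h)
    lift order a to ℤ using ha' with m
    lift order b to ℤ using hb' with n
    lift order (a + b) to ℤ using hab' with k
    simp only [WithTop.untopD_coe]
    rw [le_max_iff, exp_le_exp, exp_le_exp]
    have : min m n ≤ k := by
      have := hle
      rw [← WithTop.coe_min, WithTop.coe_le_coe] at this
      exact this
    rcases min_le_iff.mp this with h | h
    · left; omega
    · right; omega

open scoped Classical in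
theorem V_apply_of_ne_zero {a : MeroGerm z} (ha : a ≠ 0) :
    V z a = exp (-(order a).untopD 0) := if_neg ha

theorem V_mk_of_order_eq {f : ℂ → ℂ} (hf : MeromorphicAt f z) {n : ℤ}
    (h : meromorphicOrderAt f z = n) : V z (mk f hf) = exp (-n) := by
  have hne : mk f hf ≠ 0 := by
    rw [Ne, mk_eq_zero_iff_order, h]
    exact WithTop.coe_ne_top
  rw [V_apply_of_ne_zero hne, order_mk, h]
  rfl

theorem V_mk_eq_zero_iff {f : ℂ → ℂ} (hf : MeromorphicAt f z) :
    V z (mk f hf) = 0 ↔ ∀ᶠ x in 𝓝[≠] z, f x = 0 := by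
  rw [Valuation.zero_iff, mk_eq_zero_iff]

theorem V_const {c : ℂ} (hc : c ≠ 0) : V z (const z c) = 1 := by
  have h : meromorphicOrderAt (fun _ : ℂ => c) z = ((0 : ℤ) : WithTop ℤ) := by
    rw [meromorphicOrderAt_const]
    simp [hc]
  rw [const, V_mk_of_order_eq _ h]
  simp

theorem exists_int_V_eq {a : MeroGerm z} (ha : a ≠ 0) : ∃ n : ℤ, V z a = exp n :=
  ⟨_, V_apply_of_ne_zero ha⟩

theorem V_mk_of_analyticAt_of_ne_zero {f : ℂ → ℂ} (hf : AnalyticAt ℂ f z) (hfz : f z ≠ 0) :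
    V z (mk f hf.meromorphicAt) = 1 := by
  have h : meromorphicOrderAt f z = ((0 : ℤ) : WithTop ℤ) := by
    rw [meromorphicOrderAt_eq_int_iff hf.meromorphicAt]
    exact ⟨f, hf, hfz, Eventually.of_forall fun x => by simp⟩
  rw [V_mk_of_order_eq _ h]
  simp

theorem V_mk_le_one_of_analyticAt {f : ℂ → ℂ} (hf : AnalyticAt ℂ f z) :
    V z (mk f hf.meromorphicAt) ≤ 1 := by
  by_cases h0 : mk f hf.meromorphicAt = 0
  · rw [h0, map_zero]
    exact zero_le_one
  · have htop : meromorphicOrderAt f z ≠ ⊤ := fun h => h0 (mk_eq_zero_iff_order.mpr h)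
    obtain ⟨n, hn⟩ := WithTop.ne_top_iff_exists.mp htop
    rw [V_mk_of_order_eq _ hn.symm, ← exp_zero, exp_le_exp]
    have := hf.meromorphicOrderAt_nonneg
    rw [← hn] at this
    have h' : (0 : ℤ) ≤ n := by exact_mod_cast this
    omega

/-- The germ of the coordinate function `w ↦ w - z` has valuation `exp (-1)`. -/
theorem meromorphicAt_sub_const : MeromorphicAt (fun w : ℂ => w - z) z :=
  (analyticAt_id.sub analyticAt_const).meromorphicAt

theorem V_mk_sub_const :
    V z (mk (fun w => w - z) meromorphicAt_sub_const) = exp (-1) := by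
  have h : meromorphicOrderAt (fun w : ℂ => w - z) z = ((1 : ℤ) : WithTop ℤ) :=
    (meromorphicOrderAt_eq_int_iff meromorphicAt_sub_const).mpr
      ⟨fun _ => 1, analyticAt_const, one_ne_zero, Eventually.of_forall fun x => by simp⟩
  exact V_mk_of_order_eq _ h

/-- Precomposition with a map `φ` fixing `z`, analytic at `z` with nonzero derivative, does not
change the valuation. -/
theorem V_mk_comp {φ f : ℂ → ℂ} (hφ : AnalyticAt ℂ φ z) (hφz : φ z = z)
    (hφ' : deriv φ z ≠ 0) (hf : MeromorphicAt f z) :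
    V z (mk (f ∘ φ) ((hφz.symm ▸ hf : MeromorphicAt f (φ z)).comp_analyticAt hφ))
      = V z (mk f hf) := by
  have hord : meromorphicOrderAt (f ∘ φ) z = meromorphicOrderAt f z := by
    rw [meromorphicOrderAt_comp_of_deriv_ne_zero hφ hφ', hφz]
  by_cases h0 : mk f hf = 0
  · have h1 : mk (f ∘ φ) ((hφz.symm ▸ hf : MeromorphicAt f (φ z)).comp_analyticAt hφ) = 0 := by
      rw [mk_eq_zero_iff_order, hord, ← mk_eq_zero_iff_order (hf := hf)]
      exact h0
    rw [h0, h1]
  · have htop : meromorphicOrderAt f z ≠ ⊤ := fun h => h0 (mk_eq_zero_iff_order.mpr h)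
    obtain ⟨n, hn⟩ := WithTop.ne_top_iff_exists.mp htop
    rw [V_mk_of_order_eq _ hn.symm, V_mk_of_order_eq _ (hord.trans hn.symm)]

/-- Transport along an analytic change of coordinate: if `ψ` is analytic at `z₀` with
`ψ z₀ = z` and nonzero derivative, then the order of `f ∘ ψ` at `z₀` is the order of `f` at `z`,
hence the valuations agree. -/
theorem V_mk_comp_chart {z₀ : ℂ} {ψ f : ℂ → ℂ} (hψ : AnalyticAt ℂ ψ z₀) (hψz : ψ z₀ = z)
    (hψ' : deriv ψ z₀ ≠ 0) (hf : MeromorphicAt f z) :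
    V z₀ (mk (f ∘ ψ) ((hψz.symm ▸ hf : MeromorphicAt f (ψ z₀)).comp_analyticAt hψ))
      = V z (mk f hf) := by
  have hord : meromorphicOrderAt (f ∘ ψ) z₀ = meromorphicOrderAt f z := by
    rw [meromorphicOrderAt_comp_of_deriv_ne_zero hψ hψ', hψz]
  by_cases h0 : mk f hf = 0
  · have h1 : mk (f ∘ ψ) ((hψz.symm ▸ hf : MeromorphicAt f (ψ z₀)).comp_analyticAt hψ) = 0 := by
      rw [mk_eq_zero_iff_order, hord, ← mk_eq_zero_iff_order (hf := hf)]
      exact h0
    rw [h0, h1, map_zero, map_zero]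
  · have htop : meromorphicOrderAt f z ≠ ⊤ := fun h => h0 (mk_eq_zero_iff_order.mpr h)
    obtain ⟨n, hn⟩ := WithTop.ne_top_iff_exists.mp htop
    rw [V_mk_of_order_eq _ hn.symm, V_mk_of_order_eq _ (hord.trans hn.symm)]

theorem lift_injective {R : Type*} [DivisionRing R] (φ : R →+* (ℂ → ℂ))
    (hφ : ∀ r, MeromorphicAt (φ r) z) : Function.Injective (lift φ hφ) :=
  (lift φ hφ).injective

end MeroGerm

/-! ### Rotation lemma -/

/-- If `φ` fixes `z`, has nonzero derivative there, and `f ∘ φ = f` near `z`, where `f` is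
meromorphic at `z` of (finite) order `n`, then `(φ' z) ^ n = 1`. -/
theorem zpow_deriv_eq_one_of_comp_eventuallyEq {z : ℂ} {φ f : ℂ → ℂ} {n : ℤ}
    (hφ : DifferentiableAt ℂ φ z) (hφz : φ z = z) (hφ' : deriv φ z ≠ 0)
    (hf : MeromorphicAt f z) (hn : meromorphicOrderAt f z = n)
    (hinv : f ∘ φ =ᶠ[𝓝[≠] z] f) : deriv φ z ^ n = 1 := by
  obtain ⟨g, hg, hgz, hfg⟩ := (meromorphicOrderAt_eq_int_iff hf).mp hn
  have hslope : Tendsto (slope φ z) (𝓝[≠] z) (𝓝 (deriv φ z)) :=
    hasDerivAt_iff_tendsto_slope.mp hφ.hasDerivAt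
  have hne : ∀ᶠ w in 𝓝[≠] z, φ w ≠ z := by
    have : ∀ᶠ w in 𝓝[≠] z, slope φ z w ≠ 0 := hslope.eventually_ne hφ'
    filter_upwards [this, self_mem_nhdsWithin] with w hw hwz
    intro h
    apply hw
    rw [slope_def_field, h, hφz, sub_self, zero_div]
  have hφtend : Tendsto φ (𝓝[≠] z) (𝓝[≠] z) := by
    rw [tendsto_nhdsWithin_iff]
    refine ⟨?_, hne⟩
    have := hφ.continuousAt.tendsto
    rw [hφz] at this
    exact this.mono_left nhdsWithin_le_nhds
  have hfφ : ∀ᶠ w in 𝓝[≠] z, f (φ w) = (φ w - z) ^ n • g (φ w) := hφtend.eventually hfg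
  have hgφ : Tendsto (fun w => g (φ w)) (𝓝[≠] z) (𝓝 (g z)) := by
    have h1 : Tendsto φ (𝓝[≠] z) (𝓝 z) := hφtend.mono_right nhdsWithin_le_nhds
    exact hg.continuousAt.tendsto.comp h1
  have hgw : Tendsto g (𝓝[≠] z) (𝓝 (g z)) :=
    hg.continuousAt.tendsto.mono_left nhdsWithin_le_nhds
  have hid : ∀ᶠ w in 𝓝[≠] z, (slope φ z w) ^ n * g (φ w) = g w := by
    filter_upwards [hfg, hfφ, hinv, self_mem_nhdsWithin] with w h1 h2 h3 hwz
    have hwz' : w - z ≠ 0 := sub_ne_zero.mpr hwz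
    have h4 : (φ w - z) ^ n * g (φ w) = (w - z) ^ n * g w := by
      rw [← smul_eq_mul, ← h2, ← smul_eq_mul, ← h1]; exact h3
    have h5 : (w - z) ^ n ≠ 0 := zpow_ne_zero n hwz'
    rw [slope_def_field, hφz, div_zpow, div_mul_eq_mul_div, h4, mul_div_assoc, mul_comm,
      div_mul_cancel₀ _ h5]
  have hlim : Tendsto (fun w => (slope φ z w) ^ n * g (φ w)) (𝓝[≠] z)
      (𝓝 (deriv φ z ^ n * g z)) :=
    ((continuousAt_zpow₀ _ _ (Or.inl hφ')).tendsto.comp hslope).mul hgφ
  have h6 := tendsto_nhds_unique (hlim.congr' hid) hgw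
  exact mul_right_cancel₀ hgz (by rw [h6, one_mul])

/-- **Rotation lemma.** If `φ` is differentiable at `z`, fixes `z`, `φ' z` is a primitive `k`-th
root of unity (`0 < k`), and `f` is meromorphic at `z` of finite order `n` with `f ∘ φ = f`
near `z`, then `k ∣ n`. -/
theorem dvd_meromorphicOrderAt_of_comp_eventuallyEq {z : ℂ} {φ f : ℂ → ℂ} {k : ℕ} {n : ℤ}
    (hk0 : 0 < k) (hφ : DifferentiableAt ℂ φ z) (hφz : φ z = z)
    (hk : IsPrimitiveRoot (deriv φ z) k)
    (hf : MeromorphicAt f z) (hn : meromorphicOrderAt f z = n)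
    (hinv : f ∘ φ =ᶠ[𝓝[≠] z] f) : (k : ℤ) ∣ n :=
  (hk.zpow_eq_one_iff_dvd n).mp
    (zpow_deriv_eq_one_of_comp_eventuallyEq hφ hφz (hk.ne_zero hk0.ne') hf hn hinv)

/-- Rotation lemma, analytic version. -/
theorem dvd_meromorphicOrderAt_of_comp_eventuallyEq_of_analyticAt {z : ℂ} {φ f : ℂ → ℂ}
    {k : ℕ} {n : ℤ} (hk0 : 0 < k) (hφ : AnalyticAt ℂ φ z) (hφz : φ z = z)
    (hk : IsPrimitiveRoot (deriv φ z) k)
    (hf : MeromorphicAt f z) (hn : meromorphicOrderAt f z = n)
    (hinv : f ∘ φ =ᶠ[𝓝[≠] z] f) : (k : ℤ) ∣ n :=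
  dvd_meromorphicOrderAt_of_comp_eventuallyEq hk0 hφ.differentiableAt hφz hk hf hn hinv

/-- **Rotation lemma, cusp version**: `φ w = ζ * w` at `z = 0`. -/
theorem dvd_meromorphicOrderAt_of_rotation {ζ : ℂ} {k : ℕ} (hk0 : 0 < k)
    (hζ : IsPrimitiveRoot ζ k) {f : ℂ → ℂ} {n : ℤ}
    (hf : MeromorphicAt f 0) (hn : meromorphicOrderAt f 0 = n)
    (hinv : (fun w => f (ζ * w)) =ᶠ[𝓝[≠] 0] f) : (k : ℤ) ∣ n := by
  have hd : HasDerivAt (fun w : ℂ => ζ * w) ζ 0 := by
    simpa using (hasDerivAt_id (0 : ℂ)).const_mul ζ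
  refine dvd_meromorphicOrderAt_of_comp_eventuallyEq (φ := fun w => ζ * w) hk0
    hd.differentiableAt (mul_zero ζ) ?_ hf hn hinv
  rw [hd.deriv]
  exact hζ

/-- Rotation lemma in valuation form (the shape of hypothesis `hdiv` of `local_count`). -/
theorem MeroGerm.exists_V_eq_exp_mul_of_comp_eventuallyEq {z : ℂ} {φ f : ℂ → ℂ} {k : ℕ}
    (hk0 : 0 < k) (hφ : DifferentiableAt ℂ φ z) (hφz : φ z = z)
    (hk : IsPrimitiveRoot (deriv φ z) k)
    (hf : MeromorphicAt f z) (hne : MeroGerm.mk f hf ≠ 0)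
    (hinv : f ∘ φ =ᶠ[𝓝[≠] z] f) :
    ∃ m : ℤ, MeroGerm.V z (MeroGerm.mk f hf) = exp (m * (k : ℤ)) := by
  have htop : meromorphicOrderAt f z ≠ ⊤ := fun h => hne (MeroGerm.mk_eq_zero_iff_order.mpr h)
  obtain ⟨n, hn⟩ := WithTop.ne_top_iff_exists.mp htop
  obtain ⟨c, hc⟩ := dvd_meromorphicOrderAt_of_comp_eventuallyEq hk0 hφ hφz hk hf hn.symm hinv
  refine ⟨-c, ?_⟩
  rw [MeroGerm.V_mk_of_order_eq hf hn.symm, hc]
  congr 1
  ring

/-- Rotation lemma in valuation form, cusp version. -/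
theorem MeroGerm.exists_V_eq_exp_mul_of_rotation {ζ : ℂ} {k : ℕ} (hk0 : 0 < k)
    (hζ : IsPrimitiveRoot ζ k) {f : ℂ → ℂ}
    (hf : MeromorphicAt f 0) (hne : MeroGerm.mk f hf ≠ 0)
    (hinv : (fun w => f (ζ * w)) =ᶠ[𝓝[≠] 0] f) :
    ∃ m : ℤ, MeroGerm.V 0 (MeroGerm.mk f hf) = exp (m * (k : ℤ)) := by
  have htop : meromorphicOrderAt f 0 ≠ ⊤ := fun h => hne (MeroGerm.mk_eq_zero_iff_order.mpr h)
  obtain ⟨n, hn⟩ := WithTop.ne_top_iff_exists.mp htop
  obtain ⟨c, hc⟩ := dvd_meromorphicOrderAt_of_rotation hk0 hζ hf hn.symm hinv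
  refine ⟨-c, ?_⟩
  rw [MeroGerm.V_mk_of_order_eq hf hn.symm, hc]
  congr 1
  ring

end Fermat.Agent.S24.helper99
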