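import Mathlib
import Fermat.Agent.S24.Defs
import Fermat.Agent.S24.helper24_JAnalytic
import Fermat.Agent.S24.helper99_Germ

/-!
# S24 / task 25: embeddings of the function field into germ fields

A `Chart N` packages a local uniformizing map `u : ℍ → ℂ` near a point `z₀` (for an interior
point: the inclusion; for the cusp: `q_N = exp (2 π i τ / N)`) together with functions
`H g d`, meromorphic at `z₀`, with `H g d (u τ) = j_d (g⁻¹ τ)`.  From this (and the bridge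
between formal and analytic relations) we construct field embeddings
`sigma g : F_N → MeroGerm z₀`, and establish their basic properties.
-/

set_option autoImplicit false

noncomputable section

open UpperHalfPlane ModularForm Filter Topology CongruenceSubgroup
open scoped MatrixGroups Manifold

namespace Fermat.Agent.S24.helper24

open Fermat.Agent.S24 Fermat.Agent.S24.helper99

/-! ### Precomposition of germs with a local biholomorphism fixing the base point -/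

section Precomp

variable {z : ℂ}

theorem tendsto_nhdsNE_of_analyticAt {φ : ℂ → ℂ} (hφ : AnalyticAt ℂ φ z) (hφz : φ z = z)
    (hφ' : deriv φ z ≠ 0) : Tendsto φ (𝓝[≠] z) (𝓝[≠] z) := by
  have h := (hφ.differentiableAt.hasDerivAt).tendsto_nhdsNE hφ'
  rwa [hφz] at h

/-- Precomposition with `φ` as a ring endomorphism of the field of meromorphic germs. -/
def precomp (φ : ℂ → ℂ) (hφ : AnalyticAt ℂ φ z) (hφz : φ z = z) (hφ' : deriv φ z ≠ 0) :
    MeroGerm z →+* MeroGerm z where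
  toFun a := ⟨a.1.compTendsto φ (tendsto_nhdsNE_of_analyticAt hφ hφz hφ'), by
    obtain ⟨g, f, hf, rfl⟩ := a
    exact ⟨f ∘ φ, (hφz.symm ▸ hf : MeromorphicAt f (φ z)).comp_analyticAt hφ, rfl⟩⟩
  map_one' := rfl
  map_zero' := rfl
  map_mul' a b := by
    obtain ⟨_, f, hf, rfl⟩ := a
    obtain ⟨_, g, hg, rfl⟩ := b
    rfl
  map_add' a b := by
    obtain ⟨_, f, hf, rfl⟩ := a
    obtain ⟨_, g, hg, rfl⟩ := b
    rfl

theorem precomp_mk (φ : ℂ → ℂ) (hφ : AnalyticAt ℂ φ z) (hφz : φ z = z) (hφ' : deriv φ z ≠ 0)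
    (f : ℂ → ℂ) (hf : MeromorphicAt f z) :
    precomp φ hφ hφz hφ' (MeroGerm.mk f hf)
      = MeroGerm.mk (f ∘ φ) ((hφz.symm ▸ hf : MeromorphicAt f (φ z)).comp_analyticAt hφ) := rfl

theorem V_precomp (φ : ℂ → ℂ) (hφ : AnalyticAt ℂ φ z) (hφz : φ z = z) (hφ' : deriv φ z ≠ 0)
    (a : MeroGerm z) : MeroGerm.V z (precomp φ hφ hφz hφ' a) = MeroGerm.V z a := by
  obtain ⟨f, hf, rfl⟩ := MeroGerm.exists_rep a
  rw [precomp_mk]
  exact MeroGerm.V_mk_comp hφ hφz hφ' hf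

/-- A germ invariant under precomposition with `φ`, where `φ' z` is a primitive `k`-th root
of unity, has valuation in `exp (k ℤ)`. -/
theorem exists_V_eq_of_precomp_eq (φ : ℂ → ℂ) (hφ : AnalyticAt ℂ φ z) (hφz : φ z = z)
    (hφ' : deriv φ z ≠ 0) {k : ℕ} (hk0 : 0 < k) (hk : IsPrimitiveRoot (deriv φ z) k)
    (a : MeroGerm z) (ha : a ≠ 0) (hinv : precomp φ hφ hφz hφ' a = a) :
    ∃ m : ℤ, MeroGerm.V z a = WithZero.exp (m * (k : ℤ)) := by
  obtain ⟨f, hf, rfl⟩ := MeroGerm.exists_rep a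
  rw [precomp_mk, MeroGerm.mk_eq_mk_iff] at hinv
  exact MeroGerm.exists_V_eq_exp_mul_of_comp_eventuallyEq hk0 hφ.differentiableAt hφz hk hf ha
    hinv

end Precomp

/-! ### Generic transport along an equality of intermediate fields -/

section Generic

variable {K E L : Type*} [Field K] [Field E] [Algebra K E] [Field L] {ι : Type*}
  (s : ι → E)

/-- Variant of `adjoinLift` for an intermediate field which is equal to the field generated by
the `s i`. -/
def liftOfEqAdjoin {S : IntermediateField K E}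
    (h : S = IntermediateField.adjoin K (Set.range s)) (Θ : MvPolynomial ι K →+* L)
    (hker : ∀ P, MvPolynomial.aeval s P = 0 ↔ Θ P = 0) : S →+* L :=
  (adjoinLift s Θ hker).comp (IntermediateField.equivOfEq h).toAlgHom.toRingHom

theorem liftOfEqAdjoin_apply {S : IntermediateField K E}
    (h : S = IntermediateField.adjoin K (Set.range s)) (Θ : MvPolynomial ι K →+* L)
    (hker : ∀ P, MvPolynomial.aeval s P = 0 ↔ Θ P = 0) (x : S) (P : MvPolynomial ι K)
    (hx : (x : E) = MvPolynomial.aeval s P) : liftOfEqAdjoin s h Θ hker x = Θ P := by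
  subst h
  have hx' : x = ⟨MvPolynomial.aeval s P, aeval_mem_adjoin s P⟩ := Subtype.ext hx
  subst hx'
  exact adjoinLift_aeval s Θ hker P

theorem ringHom_ext_of_eq_adjoin {S : IntermediateField K E}
    (h : S = IntermediateField.adjoin K (Set.range s)) {σ σ' : S →+* L}
    (H : ∀ (x : S) (P : MvPolynomial ι K), (x : E) = MvPolynomial.aeval s P → σ x = σ' x) :
    σ = σ' := by
  subst h
  exact ringHom_ext_adjoin s (fun P => H _ P rfl)

end Generic

/-! ### Charts -/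

/-- A local chart for the family of conjugates of the `j_d`. -/
structure Chart (N : ℕ) where
  /-- the base point -/
  z₀ : ℂ
  /-- the local uniformizing map -/
  u : ℍ → ℂ
  u_cont : Continuous u
  cover : ∀ᶠ z in 𝓝[≠] z₀, z ∈ Set.range u
  /-- the conjugates of the `j_d` in the local coordinate -/
  H : SL(2, ℤ) → N.divisors → ℂ → ℂ
  H_mero : ∀ g d, MeromorphicAt (H g d) z₀
  H_spec : ∀ g d τ, H g d (u τ) = jfunDT d.1 (g⁻¹ • τ)

namespace Chart

variable {N : ℕ} (C : Chart N)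

/-- The ring homomorphism from polynomials to germs. -/
def Θ (g : SL(2, ℤ)) : MvPolynomial N.divisors Kbar →+* MeroGerm C.z₀ :=
  MvPolynomial.eval₂Hom ((MeroGerm.constHom C.z₀).comp (iotaC : Kbar →+* ℂ))
    (fun d => MeroGerm.mk (C.H g d) (C.H_mero g d))

theorem Θ_C (g : SL(2, ℤ)) (c : Kbar) :
    C.Θ g (MvPolynomial.C c) = MeroGerm.const C.z₀ (iotaC c) := by
  simp [Θ]

theorem Θ_X (g : SL(2, ℤ)) (d : N.divisors) :
    C.Θ g (MvPolynomial.X d) = MeroGerm.mk (C.H g d) (C.H_mero g d) := by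
  simp [Θ]

/-- Every value of `Θ` is represented by a function which on the image of the chart is given
by the evaluation of the polynomial at the conjugates. -/
theorem Θ_spec (g : SL(2, ℤ)) (P : MvPolynomial N.divisors Kbar) :
    ∃ (F : ℂ → ℂ) (hF : MeromorphicAt F C.z₀), C.Θ g P = MeroGerm.mk F hF ∧
      ∀ τ, F (C.u τ) = evP N g P τ := by
  induction P using MvPolynomial.induction_on with
  | C c =>
    refine ⟨fun _ => iotaC c, MeromorphicAt.const _ _, ?_, fun τ => ?_⟩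
    · rw [Θ_C]
      rfl
    · simp [evP]
  | add P Q hP hQ =>
    obtain ⟨F, hF, h1, h2⟩ := hP
    obtain ⟨G, hG, h3, h4⟩ := hQ
    refine ⟨F + G, hF.add hG, ?_, fun τ => ?_⟩
    · rw [map_add, h1, h3, MeroGerm.mk_add]
    · simp only [Pi.add_apply, evP, evP0_add]
      rw [h2, h4]
      rfl
  | mul_X P d hP =>
    obtain ⟨F, hF, h1, h2⟩ := hP
    refine ⟨F * C.H g d, hF.mul (C.H_mero g d), ?_, fun τ => ?_⟩
    · rw [map_mul, h1, Θ_X, MeroGerm.mk_mul]
    · simp only [Pi.mul_apply, evP, evP0_mul, evP0_X]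
      rw [h2, C.H_spec]
      rfl

/-- The preimage under the chart of a punctured neighbourhood of the base point contains a
nonempty open set. -/
theorem exists_open_of_eventually {p : ℂ → Prop} (h : ∀ᶠ z in 𝓝[≠] C.z₀, p z) :
    ∃ U : Set ℍ, IsOpen U ∧ U.Nonempty ∧ ∀ τ ∈ U, p (C.u τ) := by
  rw [eventually_nhdsWithin_iff, eventually_nhds_iff] at h
  obtain ⟨W, hW, hWo, hzW⟩ := h
  have hcov := C.cover
  rw [eventually_nhdsWithin_iff, eventually_nhds_iff] at hcov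
  obtain ⟨W', hW', hWo', hzW'⟩ := hcov
  have hWW : (W ∩ W') ∈ 𝓝 C.z₀ := (hWo.inter hWo').mem_nhds ⟨hzW, hzW'⟩
  have hne : ((W ∩ W') ∩ {C.z₀}ᶜ).Nonempty := by
    have : (W ∩ W') ∩ {C.z₀}ᶜ ∈ 𝓝[≠] C.z₀ := by
      rw [Set.inter_comm]
      exact inter_mem_nhdsWithin _ hWW
    exact (NormedField.nhdsNE_neBot C.z₀).nonempty_of_mem this
  obtain ⟨w, ⟨hwW, hwW'⟩, hwne⟩ := hne
  obtain ⟨τ₁, hτ₁⟩ := hW' w hwW' hwne
  refine ⟨C.u ⁻¹' (W ∩ {C.z₀}ᶜ), (hWo.inter isOpen_compl_singleton).preimage C.u_cont,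
    ⟨τ₁, ?_⟩, fun τ hτ => hW _ hτ.1 hτ.2⟩
  rw [Set.mem_preimage, hτ₁]
  exact ⟨hwW, hwne⟩

/-- A germ represented by `F` vanishes iff `F ∘ u` vanishes identically, provided `F ∘ u` is
holomorphic. -/
theorem mk_eq_zero_iff_forall {F : ℂ → ℂ} (hF : MeromorphicAt F C.z₀) {f : ℍ → ℂ}
    (hf : MDiff f) (hFf : ∀ τ, F (C.u τ) = f τ) :
    MeroGerm.mk F hF = 0 ↔ ∀ τ, f τ = 0 := by
  rw [MeroGerm.mk_eq_zero_iff]
  constructor
  · intro h
    obtain ⟨U, hU, hne, h0⟩ := C.exists_open_of_eventually h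
    exact eq_zero_of_isOpen hf hU hne fun τ hτ => by rw [← hFf, h0 τ hτ]
  · intro h
    filter_upwards [C.cover] with z hz
    obtain ⟨τ, rfl⟩ := hz
    rw [hFf, h]

theorem mk_eq_mk_iff_forall {F G : ℂ → ℂ} (hF : MeromorphicAt F C.z₀)
    (hG : MeromorphicAt G C.z₀) {f g : ℍ → ℂ}
    (hf : MDiff f) (hg : MDiff g) (hFf : ∀ τ, F (C.u τ) = f τ) (hGg : ∀ τ, G (C.u τ) = g τ) :
    MeroGerm.mk F hF = MeroGerm.mk G hG ↔ ∀ τ, f τ = g τ := by
  rw [← sub_eq_zero, ← MeroGerm.mk_sub]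
  rw [C.mk_eq_zero_iff_forall (hF.sub hG) (f := fun τ => f τ - g τ) (hf.sub hg)
    (fun τ => by simp [hFf, hGg])]
  simp only [sub_eq_zero]

theorem Θ_eq_zero_iff (g : SL(2, ℤ)) (P : MvPolynomial N.divisors Kbar) :
    C.Θ g P = 0 ↔ ∀ τ, evP0 N P τ = 0 := by
  obtain ⟨F, hF, h1, h2⟩ := C.Θ_spec g P
  rw [h1, C.mk_eq_zero_iff_forall hF (mdiff_evP N g P) h2, evP_eq_zero_iff]

theorem hker (hB : BridgeHyp N) (g : SL(2, ℤ)) (P : MvPolynomial N.divisors Kbar) :
    MvPolynomial.aeval (genJ N) P = 0 ↔ C.Θ g P = 0 := by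
  rw [hB P, C.Θ_eq_zero_iff]

/-- The field embedding `F_N → MeroGerm z₀` attached to `g ∈ SL(2,ℤ)`: `f ↦ f ∘ g⁻¹` in the
local coordinate. -/
def sigma [NeZero N] (hB : BridgeHyp N) (g : SL(2, ℤ)) : FN N →+* MeroGerm C.z₀ :=
  liftOfEqAdjoin (genJ N) (modularFunctionFieldBar_eq_adjoin N) (C.Θ g) (C.hker hB g)

variable [NeZero N] (hB : BridgeHyp N)

theorem sigma_of_eq (g : SL(2, ℤ)) (x : FN N) (P : MvPolynomial N.divisors Kbar)
    (hx : (x : LaurentSeries Kbar) = MvPolynomial.aeval (genJ N) P) :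
    C.sigma hB g x = C.Θ g P :=
  liftOfEqAdjoin_apply (genJ N) (modularFunctionFieldBar_eq_adjoin N) (C.Θ g) (C.hker hB g) x P hx

theorem sigma_algebraMap (g : SL(2, ℤ)) (c : Kbar) :
    C.sigma hB g (algebraMap Kbar (FN N) c) = MeroGerm.const C.z₀ (iotaC c) := by
  rw [C.sigma_of_eq hB g _ (MvPolynomial.C c) (by simp), Θ_C]

theorem sigma_gen (g : SL(2, ℤ)) (x : FN N) (d : N.divisors)
    (hx : (x : LaurentSeries Kbar) = genJ N d) :
    C.sigma hB g x = MeroGerm.mk (C.H g d) (C.H_mero g d) := by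
  rw [C.sigma_of_eq hB g _ (MvPolynomial.X d) (by simp [hx]), Θ_X]

end Chart

/-- Two ring homomorphisms out of `F_N` agreeing on polynomials in the generators are equal. -/
theorem ringHom_ext_FN {N : ℕ} [NeZero N] {L : Type*} [Field L] {σ σ' : FN N →+* L}
    (h : ∀ (x : FN N) (P : MvPolynomial N.divisors Kbar),
      (x : LaurentSeries Kbar) = MvPolynomial.aeval (genJ N) P → σ x = σ' x) : σ = σ' :=
  ringHom_ext_of_eq_adjoin (genJ N) (modularFunctionFieldBar_eq_adjoin N) h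

theorem genJ_apply (N : ℕ) (d : ℕ) [NeZero d] (hd : d ∈ N.divisors) : genJ N ⟨d, hd⟩ = Jd d := by
  unfold genJ JdT
  rw [dif_neg (NeZero.ne d)]

theorem jfunDT_smul_eq_jfunDg (d : ℕ) [NeZero d] (g : SL(2, ℤ)) (τ : ℍ) :
    jfunDT d (g⁻¹ • τ) = jfunDg d g τ := by
  rw [jfunDT_of_ne_zero]
  rfl

namespace Chart

variable {N : ℕ} (C : Chart N) [NeZero N] (hB : BridgeHyp N)

/-- `sigma g` only depends on the functions `j_d ∘ g⁻¹`. -/
theorem sigma_eq_of_forall (g g' : SL(2, ℤ))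
    (h : ∀ (d : N.divisors) (τ : ℍ), jfunDT d.1 (g⁻¹ • τ) = jfunDT d.1 (g'⁻¹ • τ)) :
    C.sigma hB g = C.sigma hB g' := by
  apply ringHom_ext_FN
  intro x P hx
  rw [C.sigma_of_eq hB g x P hx, C.sigma_of_eq hB g' x P hx]
  obtain ⟨F, hF, h1, h2⟩ := C.Θ_spec g P
  obtain ⟨G, hG, h3, h4⟩ := C.Θ_spec g' P
  rw [h1, h3, C.mk_eq_mk_iff_forall hF hG (mdiff_evP N g P) (mdiff_evP N g' P) h2 h4]
  intro τ
  have hfun : (fun d : N.divisors => jfunDT d.1 (g⁻¹ • τ))
      = (fun d : N.divisors => jfunDT d.1 (g'⁻¹ • τ)) := funext fun d => h d τ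
  show MvPolynomial.eval (fun d : N.divisors => jfunDT d.1 (g⁻¹ • τ)) _
    = MvPolynomial.eval (fun d : N.divisors => jfunDT d.1 (g'⁻¹ • τ)) _
  rw [hfun]

/-- `sigma g` only depends on the coset `g Γ₀(N)`. -/
theorem sigma_eq_of_mem (g g' : SL(2, ℤ)) (h : g⁻¹ * g' ∈ Gamma0 N) :
    C.sigma hB g = C.sigma hB g' := by
  apply C.sigma_eq_of_forall hB
  rintro ⟨d, hd⟩ τ
  have hd' := Nat.mem_divisors.mp hd
  have : NeZero d := ⟨fun h0 => hd'.2 (by rw [h0] at hd'; exact Nat.eq_zero_of_zero_dvd hd'.1)⟩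
  show jfunDT d (g⁻¹ • τ) = jfunDT d (g'⁻¹ • τ)
  rw [jfunDT_smul_eq_jfunDg, jfunDT_smul_eq_jfunDg]
  exact (jfunDg_eq_of_inv_mul_mem N d hd'.1 g g' h τ).symm

/-- Distinct cosets give distinct embeddings. -/
theorem mem_of_sigma_eq (g g' : SL(2, ℤ)) (h : C.sigma hB g = C.sigma hB g') :
    g⁻¹ * g' ∈ Gamma0 N := by
  have hN : N ∈ N.divisors := Nat.mem_divisors.mpr ⟨dvd_rfl, NeZero.ne N⟩
  have hx : ((JdF N N dvd_rfl : FN N) : LaurentSeries Kbar) = genJ N ⟨N, hN⟩ := by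
    rw [genJ_apply]
    rfl
  have h1 := C.sigma_gen hB g _ ⟨N, hN⟩ hx
  have h2 := C.sigma_gen hB g' _ ⟨N, hN⟩ hx
  rw [h] at h1
  have h3 := h1.symm.trans h2
  rw [C.mk_eq_mk_iff_forall (C.H_mero g ⟨N, hN⟩) (C.H_mero g' ⟨N, hN⟩)
    (f := jfunDg N g) (g := jfunDg N g') (mdiff_jfunDg N g) (mdiff_jfunDg N g')
    (fun τ => by rw [C.H_spec]; exact jfunDT_smul_eq_jfunDg N g τ)
    (fun τ => by rw [C.H_spec]; exact jfunDT_smul_eq_jfunDg N g' τ)] at h3
  exact inv_mul_mem_Gamma0_of_jfunDg_eq N g g' h3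

theorem sigma_eq_iff (g g' : SL(2, ℤ)) :
    C.sigma hB g = C.sigma hB g' ↔ g⁻¹ * g' ∈ Gamma0 N :=
  ⟨C.mem_of_sigma_eq hB g g', C.sigma_eq_of_mem hB g g'⟩

theorem sigma_ne_zero (g : SL(2, ℤ)) {f : FN N} (hf : f ≠ 0) : C.sigma hB g f ≠ 0 :=
  (map_ne_zero_iff _ (C.sigma hB g).injective).mpr hf

/-- The element `h⁻¹` acts in the chart as the local biholomorphism `φ` fixing the base
point. -/
structure IsRot (h : SL(2, ℤ)) (φ : ℂ → ℂ) : Prop where
  an : AnalyticAt ℂ φ C.z₀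
  fix : φ C.z₀ = C.z₀
  deriv_ne : deriv φ C.z₀ ≠ 0
  spec : ∀ τ, C.u (h⁻¹ • τ) = φ (C.u τ)

theorem sigma_rot (h g : SL(2, ℤ)) (φ : ℂ → ℂ) (hR : C.IsRot h φ) :
    C.sigma hB (h * g) = (precomp φ hR.an hR.fix hR.deriv_ne).comp (C.sigma hB g) := by
  apply ringHom_ext_FN
  intro x P hx
  rw [RingHom.comp_apply, C.sigma_of_eq hB (h * g) x P hx, C.sigma_of_eq hB g x P hx]
  obtain ⟨F, hF, h1, h2⟩ := C.Θ_spec (h * g) P
  obtain ⟨G, hG, h3, h4⟩ := C.Θ_spec g P
  rw [h1, h3, precomp_mk]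
  rw [C.mk_eq_mk_iff_forall hF _ (f := evP N (h * g) P) (g := evP N (h * g) P)
    (mdiff_evP N (h * g) P) (mdiff_evP N (h * g) P) h2]
  · intro τ
    rfl
  · intro τ
    rw [Function.comp_apply, ← hR.spec, h4]
    unfold evP
    rw [mul_inv_rev, mul_smul]

end Chart

end Fermat.Agent.S24.helper24
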