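import Mathlib
import Fermat.Statements.S24

/-!
# S24 final assembly (helper80), conditional form

`genus_eq_genusFormula_of_interface` derives the exact S24 statement from the interface
statements of the S24 cluster (Riemann-Hurwitz for `F / K(j)`, the analytic counts of places
over `j = 0, 1728, oo`, the coset combinatorics and the Euler-characteristic bound), all taken
as hypotheses.  No other `Fermat.Agent` module is imported.
-/

set_option autoImplicit false

namespace Fermat.Agent.S24.helper80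

open AlgebraicCurve KaehlerDifferential IntermediateField
open scoped MatrixGroups
open CongruenceSubgroup

/-! ## Arithmetic core -/

/-- The arithmetic behind the genus formula. -/
theorem genus_arith (d : ℤ) (n c0 c1 cinf nu2 nu3 : ℕ)
    (hRH : d + 2 * (n : ℤ) = ((n : ℤ) - c0) + ((n : ℤ) - c1) + ((n : ℤ) - cinf))
    (h2 : 2 * c1 = n + nu2) (h3 : 3 * c0 = n + 2 * nu3)
    (hle : c1 + cinf + c0 ≤ n + 2) (hpar : (c1 + cinf + c0) % 2 = n % 2) :
    ((((d + 2).toNat / 2 : ℕ) : ℕ) : ℚ)
      = 1 + (n : ℚ) / 12 - (nu2 : ℚ) / 4 - (nu3 : ℚ) / 3 - (cinf : ℚ) / 2 := by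
  obtain ⟨m, hm⟩ : ∃ m : ℕ, n + 2 = c1 + cinf + c0 + 2 * m := by
    obtain ⟨k, hk⟩ := Nat.exists_eq_add_of_le hle
    have hk2 : k % 2 = 0 := by omega
    exact ⟨k / 2, by omega⟩
  have hd : d + 2 = ((2 * m : ℕ) : ℤ) := by
    have : ((n : ℤ) + 2) = c1 + cinf + c0 + 2 * m := by exact_mod_cast hm
    push_cast
    linarith
  have hnat : (d + 2).toNat / 2 = m := by
    rw [hd, Int.toNat_natCast]
    omega
  rw [hnat]
  have hmQ : ((n : ℚ) + 2) = c1 + cinf + c0 + 2 * m := by exact_mod_cast hm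
  have h2Q : (2 : ℚ) * c1 = n + nu2 := by exact_mod_cast h2
  have h3Q : (3 : ℚ) * c0 = n + 2 * nu3 := by exact_mod_cast h3
  linarith

/-! ## Orbits of `zpowers g` versus orbits of `zpowers (toPerm g)` -/

section Orbits

variable {G X : Type*} [Group G] [MulAction G X]

theorem orbitRel_zpowers_iff (g : G) (x y : X) :
    MulAction.orbitRel (Subgroup.zpowers g) X x y ↔ ∃ k : ℤ, g ^ k • y = x := by
  rw [MulAction.orbitRel_apply, MulAction.mem_orbit_iff]
  constructor
  · rintro ⟨⟨h, hh⟩, rfl⟩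
    obtain ⟨k, rfl⟩ := Subgroup.mem_zpowers_iff.mp hh
    exact ⟨k, rfl⟩
  · rintro ⟨k, rfl⟩
    exact ⟨⟨g ^ k, Subgroup.zpow_mem_zpowers g k⟩, rfl⟩

theorem toPerm_zpow_apply (g : G) (k : ℤ) (y : X) :
    ((MulAction.toPerm g : Equiv.Perm X) ^ k) y = g ^ k • y := by
  have h : (MulAction.toPermHom G X) (g ^ k) = (MulAction.toPerm g : Equiv.Perm X) ^ k := by
    rw [map_zpow]; rfl
  rw [← h]
  rfl

theorem orbitRel_zpowers_toPerm_iff (g : G) (x y : X) :
    MulAction.orbitRel (Subgroup.zpowers (MulAction.toPerm g : Equiv.Perm X)) X x y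
      ↔ ∃ k : ℤ, g ^ k • y = x := by
  rw [orbitRel_zpowers_iff]
  constructor
  · rintro ⟨k, hk⟩
    refine ⟨k, ?_⟩
    rw [← hk, Equiv.Perm.smul_def, toPerm_zpow_apply]
  · rintro ⟨k, hk⟩
    refine ⟨k, ?_⟩
    rw [← hk, Equiv.Perm.smul_def, toPerm_zpow_apply]

/-- The orbit spaces of `⟨g⟩ ≤ G` and of `⟨toPerm g⟩ ≤ Perm X` have the same cardinality. -/
theorem card_orbits_zpowers_toPerm (g : G) :
    Nat.card (MulAction.orbitRel.Quotient (Subgroup.zpowers (MulAction.toPerm g : Equiv.Perm X)) X)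
      = Nat.card (MulAction.orbitRel.Quotient (Subgroup.zpowers g) X) := by
  refine Nat.card_congr (Quotient.congr (Equiv.refl X) ?_)
  intro x y
  show MulAction.orbitRel _ X x y ↔ MulAction.orbitRel _ X x y
  rw [orbitRel_zpowers_toPerm_iff, orbitRel_zpowers_iff]

/-- If `S` generates `G` and `G` acts transitively on `X`, then the subgroup of `Perm X`
generated by the permutations induced by `S` acts transitively. -/
theorem isPretransitive_closure_toPerm (s t : G) (hgen : Subgroup.closure {s, t} = ⊤)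
    [MulAction.IsPretransitive G X] :
    MulAction.IsPretransitive
      (Subgroup.closure {(MulAction.toPerm s : Equiv.Perm X), MulAction.toPerm t}) X := by
  constructor
  intro x y
  obtain ⟨g, rfl⟩ := MulAction.exists_smul_eq G x y
  have hg : g ∈ Subgroup.closure {s, t} := by rw [hgen]; exact Subgroup.mem_top g
  have himg : (MulAction.toPermHom G X) g
      ∈ Subgroup.closure {(MulAction.toPerm s : Equiv.Perm X), MulAction.toPerm t} := by
    have h1 : (MulAction.toPermHom G X) g ∈ (Subgroup.closure {s, t}).map (MulAction.toPermHom G X) :=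
      Subgroup.mem_map_of_mem _ hg
    rw [MonoidHom.map_closure] at h1
    have h2 : (MulAction.toPermHom G X) '' {s, t}
        = {(MulAction.toPerm s : Equiv.Perm X), MulAction.toPerm t} := by
      rw [Set.image_pair]
      rfl
    rwa [h2] at h1
  exact ⟨⟨_, himg⟩, rfl⟩

end Orbits

/-! ## The assembly -/

section Assembly

variable {K F : Type*} [Field K] [Field F] [Algebra K F] [CharZero K]

/-- **S24 from the interface statements.**  All hypotheses are the statements of the interface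
file of the S24 cluster (to be used with `K = Qbar`, `F = modularFunctionFieldBar N`, `x = j`). -/
theorem genus_eq_genusFormula_of_interface
    [AlgebraicCurve.HasCanonicalDivisor (K := K) (F := F)]
    (N : ℕ) [NeZero N]
    (j : F)
    [FiniteDimensional K⟮j⟯ F]
    -- FF-basic: `dj ≠ 0`
    (hDj : D K F j ≠ 0)
    -- RH: abstract Riemann-Hurwitz
    (hRH : ∀ (B : Finset K),
      (∀ (w : Place K F) (a : K), a ∉ B → 0 < w.ord (j - algebraMap K F a) →
        w.ord (j - algebraMap K F a) = 1) →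
      ∀ (ω : Ω[F⁄K]), ω ≠ 0 → ∀ (Dv : Divisor K F),
        (∀ v, Dv v = v.ordDifferential ω) →
        Divisor.degree Dv + 2 * (Module.finrank K⟮j⟯ F : ℤ)
          = ∑ a ∈ B, ((Module.finrank K⟮j⟯ F : ℤ)
                - (Nat.card {w : Place K F // 0 < w.ord (j - algebraMap K F a)} : ℤ))
            + ((Module.finrank K⟮j⟯ F : ℤ)
                - (Nat.card {w : Place K F // w.ord j < 0} : ℤ)))
    -- AN: degree, unramifiedness and counts
    (hfinrank : Module.finrank K⟮j⟯ F = Nat.card (SL(2, ℤ) ⧸ Gamma0 N))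
    (hunr : ∀ (a : K), a ≠ 0 → a ≠ 1728 → ∀ (w : Place K F),
      0 < w.ord (j - algebraMap K F a) → w.ord (j - algebraMap K F a) = 1)
    (hcount1728 : Nat.card {w : Place K F // 0 < w.ord (j - algebraMap K F 1728)}
      = Nat.card (MulAction.orbitRel.Quotient (Subgroup.zpowers ModularGroup.S)
          (SL(2, ℤ) ⧸ Gamma0 N)))
    (hcount0 : Nat.card {w : Place K F // 0 < w.ord (j - algebraMap K F 0)}
      = Nat.card (MulAction.orbitRel.Quotient
          (Subgroup.zpowers (ModularGroup.S * ModularGroup.T)) (SL(2, ℤ) ⧸ Gamma0 N)))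
    (hcountinf : Nat.card {w : Place K F // w.ord j < 0}
      = Nat.card (MulAction.orbitRel.Quotient (Subgroup.zpowers ModularGroup.T)
          (SL(2, ℤ) ⧸ Gamma0 N)))
    -- C1, C2, C3: coset combinatorics
    (hC1 : Nat.card (SL(2, ℤ) ⧸ Gamma0 N) = ModularCurve.dedekindPsi N)
    (hC2 : 2 * Nat.card (MulAction.orbitRel.Quotient (Subgroup.zpowers ModularGroup.S)
          (SL(2, ℤ) ⧸ Gamma0 N))
      = Nat.card (SL(2, ℤ) ⧸ Gamma0 N) + ModularCurve.nuTwo N)
    (hC2' : 3 * Nat.card (MulAction.orbitRel.Quotient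
          (Subgroup.zpowers (ModularGroup.S * ModularGroup.T)) (SL(2, ℤ) ⧸ Gamma0 N))
      = Nat.card (SL(2, ℤ) ⧸ Gamma0 N) + 2 * ModularCurve.nuThree N)
    (hC3 : Nat.card (MulAction.orbitRel.Quotient (Subgroup.zpowers ModularGroup.T)
          (SL(2, ℤ) ⧸ Gamma0 N))
      = ModularCurve.cuspCount N)
    -- C4: Euler characteristic bound, for the finite set of cosets
    (hEuler : ∀ [Fintype (SL(2, ℤ) ⧸ Gamma0 N)] [DecidableEq (SL(2, ℤ) ⧸ Gamma0 N)]
      (σ τ : Equiv.Perm (SL(2, ℤ) ⧸ Gamma0 N)),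
      MulAction.IsPretransitive (Subgroup.closure {σ, τ}) (SL(2, ℤ) ⧸ Gamma0 N) →
      Nat.card (MulAction.orbitRel.Quotient (Subgroup.zpowers σ) (SL(2, ℤ) ⧸ Gamma0 N))
          + Nat.card (MulAction.orbitRel.Quotient (Subgroup.zpowers τ) (SL(2, ℤ) ⧸ Gamma0 N))
          + Nat.card (MulAction.orbitRel.Quotient (Subgroup.zpowers (σ * τ))
              (SL(2, ℤ) ⧸ Gamma0 N))
        ≤ Fintype.card (SL(2, ℤ) ⧸ Gamma0 N) + 2 ∧
      (Nat.card (MulAction.orbitRel.Quotient (Subgroup.zpowers σ) (SL(2, ℤ) ⧸ Gamma0 N))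
          + Nat.card (MulAction.orbitRel.Quotient (Subgroup.zpowers τ) (SL(2, ℤ) ⧸ Gamma0 N))
          + Nat.card (MulAction.orbitRel.Quotient (Subgroup.zpowers (σ * τ))
              (SL(2, ℤ) ⧸ Gamma0 N))) % 2
        = Fintype.card (SL(2, ℤ) ⧸ Gamma0 N) % 2) :
    (AlgebraicCurve.genus K F : ℚ) = ModularCurve.genusFormula N := by
  classical
  -- the nonzero differential chosen in the definition of the genus
  have hex : ∃ ω : Ω[F⁄K], ω ≠ 0 := ⟨_, hDj⟩
  have hgenus : AlgebraicCurve.genus K F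
      = (Divisor.degree (canonicalDivisorOf hex.choose_spec) + 2).toNat / 2 := by
    unfold AlgebraicCurve.genus
    rw [dif_pos hex]
  -- Riemann-Hurwitz with B = {0, 1728}
  have h1728 : (0 : K) ≠ 1728 := by norm_num
  have hRH' := hRH {0, 1728}
    (fun w a ha => hunr a (fun h => ha (by simp [h])) (fun h => ha (by simp [h])) w)
    hex.choose hex.choose_spec (canonicalDivisorOf hex.choose_spec)
    (fun v => canonicalDivisorOf_apply hex.choose_spec v)
  rw [Finset.sum_pair h1728] at hRH'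
  -- Euler bound for S, T
  let _ : Fintype (SL(2, ℤ) ⧸ Gamma0 N) := Fintype.ofFinite _
  have htrans : MulAction.IsPretransitive
      (Subgroup.closure {(MulAction.toPerm ModularGroup.S : Equiv.Perm (SL(2, ℤ) ⧸ Gamma0 N)),
        MulAction.toPerm ModularGroup.T}) (SL(2, ℤ) ⧸ Gamma0 N) :=
    isPretransitive_closure_toPerm ModularGroup.S ModularGroup.T
      SpecialLinearGroup.SL2Z_generators
  obtain ⟨hle, hpar⟩ := hEuler (MulAction.toPerm ModularGroup.S) (MulAction.toPerm ModularGroup.T)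
    htrans
  have hST : (MulAction.toPerm ModularGroup.S : Equiv.Perm (SL(2, ℤ) ⧸ Gamma0 N))
        * MulAction.toPerm ModularGroup.T
      = MulAction.toPerm (ModularGroup.S * ModularGroup.T) := by
    ext x
    simp [mul_smul]
  rw [hST, card_orbits_zpowers_toPerm, card_orbits_zpowers_toPerm, card_orbits_zpowers_toPerm,
    ← Nat.card_eq_fintype_card] at hle hpar
  have hle' : Nat.card (MulAction.orbitRel.Quotient (Subgroup.zpowers ModularGroup.S)
        (SL(2, ℤ) ⧸ Gamma0 N))
      + Nat.card (MulAction.orbitRel.Quotient (Subgroup.zpowers ModularGroup.T)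
        (SL(2, ℤ) ⧸ Gamma0 N))
      + Nat.card (MulAction.orbitRel.Quotient
        (Subgroup.zpowers (ModularGroup.S * ModularGroup.T)) (SL(2, ℤ) ⧸ Gamma0 N))
      ≤ Nat.card (SL(2, ℤ) ⧸ Gamma0 N) + 2 := hle
  have hpar' : (Nat.card (MulAction.orbitRel.Quotient (Subgroup.zpowers ModularGroup.S)
        (SL(2, ℤ) ⧸ Gamma0 N))
      + Nat.card (MulAction.orbitRel.Quotient (Subgroup.zpowers ModularGroup.T)
        (SL(2, ℤ) ⧸ Gamma0 N))
      + Nat.card (MulAction.orbitRel.Quotient
        (Subgroup.zpowers (ModularGroup.S * ModularGroup.T)) (SL(2, ℤ) ⧸ Gamma0 N))) % 2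
      = Nat.card (SL(2, ℤ) ⧸ Gamma0 N) % 2 := hpar
  clear hle hpar
  -- put everything together
  rw [hgenus]
  rw [ModularCurve.genusFormula, ← hC1, ← hC3]
  rw [hfinrank, hcount1728, hcount0, hcountinf] at hRH'
  exact genus_arith _ (Nat.card (SL(2, ℤ) ⧸ Gamma0 N))
    (Nat.card (MulAction.orbitRel.Quotient
      (Subgroup.zpowers (ModularGroup.S * ModularGroup.T)) (SL(2, ℤ) ⧸ Gamma0 N)))
    (Nat.card (MulAction.orbitRel.Quotient (Subgroup.zpowers ModularGroup.S)
      (SL(2, ℤ) ⧸ Gamma0 N)))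
    (Nat.card (MulAction.orbitRel.Quotient (Subgroup.zpowers ModularGroup.T)
      (SL(2, ℤ) ⧸ Gamma0 N)))
    (ModularCurve.nuTwo N) (ModularCurve.nuThree N)
    (by linarith) hC2 hC2' hle' hpar'

end Assembly

end Fermat.Agent.S24.helper80
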