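import Mathlib
import Fermat.Agent.S24.Defs
import Fermat.Agent.S24.helper24_Chart
import Fermat.Agent.S24.helper37_IndexGamma0
import Fermat.Agent.S24.helper80_Assembly

/-!
# S24 / task 25: counting places from a chart

`count_of_chart`: given a chart `C` at a point with stabiliser generated by `g₀` (of order `E`
on the cosets), the abstract local counting theorem yields that the number of zeros of `t`
equals the number of `⟨g₀⟩`-orbits on `SL(2,ℤ)/Γ₀(N)`.
-/

set_option autoImplicit false

noncomputable section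

open UpperHalfPlane ModularForm Filter Topology CongruenceSubgroup AlgebraicCurve
  IntermediateField WithZero
open scoped MatrixGroups Manifold

namespace Fermat.Agent.S24.helper24

open Fermat.Agent.S24 Fermat.Agent.S24.helper99

/-- The statement of the abstract local counting theorem (interface `local_count`), for fixed
fields `K`, `F`, `L` and index type `I`. -/
def LocalCountHyp (K F L I : Type*) [Field K] [Field F] [Algebra K F] [Field L] : Prop :=
  ∀ [Fintype I] (t : F) (_ht : Transcendental K t) [FiniteDimensional K⟮t⟯ F]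
    (V : Valuation L ℤᵐ⁰)
    (σ : I → F →+* L) (_hσ : Function.Injective σ)
    (_hcard : Fintype.card I = Module.finrank K⟮t⟯ F)
    (_hK : ∀ i (c : K), c ≠ 0 → V (σ i (algebraMap K F c)) = 1)
    (_hKagree : ∀ i j (c : K), σ i (algebraMap K F c) = σ j (algebraMap K F c))
    (_htagree : ∀ i j, σ i t = σ j t)
    (E : ℕ) (_hE : 0 < E) (_htE : ∀ i, V (σ i t) = exp (-(E : ℤ)))
    (π : Equiv.Perm I) (_hπE : π ^ E = 1)
    (_hπ : ∀ i f, V (σ (π i) f) = V (σ i f))
    (_hdiv : ∀ (i : I) (k : ℕ), k ∣ E → (π ^ (E / k)) i = i →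
      ∀ f : F, f ≠ 0 → ∃ m : ℤ, V (σ i f) = exp (m * k)),
    Nat.card {w : Place K F // 0 < w.ord t}
        = Nat.card (MulAction.orbitRel.Quotient (Subgroup.zpowers π) I)
      ∧ (E = 1 → ∀ w : Place K F, 0 < w.ord t → w.ord t = 1)

namespace Chart

variable {N : ℕ} (C : Chart N) [NeZero N] (hB : BridgeHyp N)

/-- The embedding attached to a coset. -/
def sigmaQ (c : X0 N) : FN N →+* MeroGerm C.z₀ := C.sigma hB (Quotient.out c)

theorem sigmaQ_mk (g : SL(2, ℤ)) : C.sigmaQ hB (QuotientGroup.mk g : X0 N) = C.sigma hB g := by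
  unfold sigmaQ
  apply C.sigma_eq_of_mem
  have h : (QuotientGroup.mk (Quotient.out (QuotientGroup.mk g : X0 N)) : X0 N)
      = QuotientGroup.mk g := Quotient.out_eq _
  exact QuotientGroup.eq.mp h

theorem sigmaQ_injective : Function.Injective (C.sigmaQ hB) := by
  intro c c' h
  induction c using QuotientGroup.induction_on with
  | H g =>
  induction c' using QuotientGroup.induction_on with
  | H g' =>
  rw [sigmaQ_mk, sigmaQ_mk] at h
  exact QuotientGroup.eq.mpr (C.mem_of_sigma_eq hB g g' h)

theorem sigmaQ_smul (h : SL(2, ℤ)) (c : X0 N) (φ : ℂ → ℂ) (hR : C.IsRot h φ) :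
    C.sigmaQ hB (h • c) = (precomp φ hR.an hR.fix hR.deriv_ne).comp (C.sigmaQ hB c) := by
  induction c using QuotientGroup.induction_on with
  | H g =>
  have : h • (QuotientGroup.mk g : X0 N) = QuotientGroup.mk (h * g) := rfl
  rw [this, sigmaQ_mk, sigmaQ_mk]
  exact C.sigma_rot hB h g φ hR

/-- **Counting places from a chart.** -/
theorem count_of_chart
    (hLC : LocalCountHyp Kbar (FN N) (MeroGerm C.z₀) (X0 N))
    (t : FN N) (ht : Transcendental Kbar t) [FiniteDimensional Kbar⟮t⟯ (FN N)]
    (hcard : Nat.card (X0 N) = Module.finrank Kbar⟮t⟯ (FN N))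
    (htagree : ∀ g g', C.sigma hB g t = C.sigma hB g' t)
    (E : ℕ) (hE : 0 < E) (htE : ∀ g, MeroGerm.V C.z₀ (C.sigma hB g t) = exp (-(E : ℤ)))
    (g₀ : SL(2, ℤ)) (hg₀ : ∀ c : X0 N, g₀ ^ E • c = c)
    (hrot : ∀ k : ℕ, k ∣ E → 1 < k →
      ∃ φ, C.IsRot (g₀ ^ (E / k)) φ ∧ IsPrimitiveRoot (deriv φ C.z₀) k) :
    Nat.card {w : Place Kbar (FN N) // 0 < w.ord t}
        = Nat.card (MulAction.orbitRel.Quotient (Subgroup.zpowers g₀) (X0 N))
      ∧ (E = 1 → ∀ w : Place Kbar (FN N), 0 < w.ord t → w.ord t = 1) := by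
  classical
  haveI : Finite (X0 N) := helper37.finite_quotient_Gamma0 N
  letI : Fintype (X0 N) := Fintype.ofFinite _
  have hpow : ∀ (n : ℕ) (c : X0 N),
      ((MulAction.toPerm g₀ : Equiv.Perm (X0 N)) ^ n) c = g₀ ^ n • c := by
    intro n c
    have := helper80.toPerm_zpow_apply (X := X0 N) g₀ (n : ℤ) c
    simpa using this
  have key := hLC t ht (MeroGerm.V C.z₀) (C.sigmaQ hB) (C.sigmaQ_injective hB)
    (by rw [← Nat.card_eq_fintype_card]; exact hcard)
    (fun i c hc => by
      unfold sigmaQ
      rw [C.sigma_algebraMap hB]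
      exact MeroGerm.V_const ((map_ne_zero_iff _ iotaC.injective).mpr hc))
    (fun i j c => by
      unfold sigmaQ
      rw [C.sigma_algebraMap hB, C.sigma_algebraMap hB])
    (fun i j => htagree _ _)
    E hE (fun i => htE _)
    (MulAction.toPerm g₀)
    (by
      ext c
      rw [hpow, hg₀]
      rfl)
    (by
      intro i f
      by_cases hE1 : E = 1
      · have : (MulAction.toPerm g₀ : Equiv.Perm (X0 N)) i = i := by
          have := hg₀ i
          rw [hE1, pow_one] at this
          exact this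
        rw [this]
      · obtain ⟨φ, hR, -⟩ := hrot E dvd_rfl (by omega)
        rw [Nat.div_self hE, pow_one] at hR
        have : (MulAction.toPerm g₀ : Equiv.Perm (X0 N)) i = g₀ • i := rfl
        rw [this, C.sigmaQ_smul hB g₀ i φ hR, RingHom.comp_apply, V_precomp])
    (by
      intro i k hk hfix f hf
      have hne : C.sigmaQ hB i f ≠ 0 := C.sigma_ne_zero hB _ hf
      by_cases hk1 : k = 1
      · obtain ⟨n, hn⟩ := MeroGerm.exists_int_V_eq hne
        exact ⟨n, by rw [hn, hk1]; simp⟩
      · have hk0 : 0 < k := Nat.pos_of_dvd_of_pos hk hE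
        obtain ⟨φ, hR, hprim⟩ := hrot k hk (by omega)
        rw [hpow] at hfix
        have h1 := C.sigmaQ_smul hB (g₀ ^ (E / k)) i φ hR
        rw [hfix] at h1
        have h2 : precomp φ hR.an hR.fix hR.deriv_ne (C.sigmaQ hB i f) = C.sigmaQ hB i f := by
          conv_rhs => rw [h1]
          rfl
        exact exists_V_eq_of_precomp_eq φ hR.an hR.fix hR.deriv_ne hk0 hprim _ hne h2)
  rw [helper80.card_orbits_zpowers_toPerm] at key
  exact key

end Chart

end Fermat.Agent.S24.helper24
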