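/-
S24 cluster, task LOC (helper43): abstract local counting of places from embeddings into a
valued field.
-/
import Mathlib
import Fermat.Prelude.Def_AlgebraicCurve_DivisorClassGroup

set_option autoImplicit false

namespace Fermat.Agent.S24.helper43

open AlgebraicCurve IntermediateField WithZero Polynomial

/-! ### A counting lemma -/

section Comb

/-- If `W : Q → P` is surjective, `h (W o) ≤ g o`, `g > 0` and the total sums agree, then `W` is
bijective. -/
lemma bijective_of_sum_eq {Q P : Type*} [Fintype Q] [Fintype P] (W : Q → P)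
    (hW : Function.Surjective W) (g : Q → ℕ) (h : P → ℕ) (hg : ∀ o, 0 < g o)
    (hle : ∀ o, h (W o) ≤ g o) (hsum : ∑ o, g o = ∑ w, h w) : Function.Bijective W := by
  classical
  refine ⟨?_, hW⟩
  -- a section of `W`
  let s : P → Q := Function.surjInv hW
  have hs : ∀ w, W (s w) = w := Function.surjInv_eq hW
  have hsinj : Function.Injective s := Function.injective_surjInv hW
  -- it suffices to show that `s` is surjective
  suffices hsurj : Function.Surjective s by
    intro o₁ o₂ ho
    obtain ⟨w₁, rfl⟩ := hsurj o₁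
    obtain ⟨w₂, rfl⟩ := hsurj o₂
    rw [hs, hs] at ho
    rw [ho]
  by_contra hns
  rw [Function.Surjective] at hns
  push Not at hns
  obtain ⟨o₀, ho₀⟩ := hns
  have h1 : ∑ w, h w ≤ ∑ w, g (s w) :=
    Finset.sum_le_sum fun w _ => by
      have := hle (s w)
      rwa [hs] at this
  have h2 : ∑ w, g (s w) = ∑ o ∈ Finset.univ.image s, g o := by
    rw [Finset.sum_image]
    intro x _ y _ hxy
    exact hsinj hxy
  have h3 : ∑ o ∈ Finset.univ.image s, g o < ∑ o, g o := by
    apply Finset.sum_lt_sum_of_subset (Finset.subset_univ _) (Finset.mem_univ o₀)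
    · simp only [Finset.mem_image, Finset.mem_univ, true_and, not_exists]
      exact ho₀
    · exact hg o₀
    · intro j _ _
      exact Nat.zero_le _
  omega

end Comb

section ZM0

/-- For `x < 1` nonzero in `ℤᵐ⁰`: `x ^ k ≤ 1 ↔ 0 ≤ k`. -/
lemma zpow_le_one_iff_of_lt_one {x : ℤᵐ⁰} (hx0 : x ≠ 0) (hx1 : x < 1) (k : ℤ) :
    x ^ k ≤ 1 ↔ 0 ≤ k := by
  have hlog : log x < 0 := by
    rw [log_lt_iff_lt_exp hx0, exp_zero]
    exact hx1
  have hxk : x ^ k ≠ 0 := zpow_ne_zero k hx0
  rw [← exp_zero, ← log_le_iff_le_exp hxk, log_zpow, smul_eq_mul]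
  constructor
  · intro h
    by_contra hk
    rw [not_le] at hk
    nlinarith
  · intro h
    nlinarith

/-- For `x < 1` nonzero in `ℤᵐ⁰`: `x ^ k = 1 ↔ k = 0`. -/
lemma zpow_eq_one_iff_of_lt_one {x : ℤᵐ⁰} (hx0 : x ≠ 0) (hx1 : x < 1) (k : ℤ) :
    x ^ k = 1 ↔ k = 0 := by
  constructor
  · intro h
    have h1 : 0 ≤ k := (zpow_le_one_iff_of_lt_one hx0 hx1 k).mp h.le
    have h2 : 0 ≤ -k := by
      apply (zpow_le_one_iff_of_lt_one hx0 hx1 (-k)).mp
      rw [zpow_neg, h, inv_one]
    omega
  · rintro rfl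
    exact zpow_zero x

end ZM0

section Agree

variable {K F : Type*} [Field K] [Field F] [Algebra K F]

lemma comp_algebraMap_adjoin_eq {L : Type*} [Field L] {t : F} {σ₁ σ₂ : F →+* L}
    (hK : ∀ c : K, σ₁ (algebraMap K F c) = σ₂ (algebraMap K F c)) (ht : σ₁ t = σ₂ t) :
    σ₁.comp (algebraMap K⟮t⟯ F) = σ₂.comp (algebraMap K⟮t⟯ F) := by
  have key : ∀ p : K[X], σ₁ (aeval t p) = σ₂ (aeval t p) := by
    intro p
    rw [aeval_def, hom_eval₂, hom_eval₂, ht]
    congr 1
    ext c
    exact hK c
  ext ⟨x, hx⟩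
  obtain ⟨r, s, rfl⟩ := (mem_adjoin_simple_iff K x).mp hx
  simp only [RingHom.comp_apply]
  change σ₁ (aeval t r / aeval t s) = σ₂ (aeval t r / aeval t s)
  rw [map_div₀, map_div₀, key, key]

/-- The normalised valuation of a place is trivial on the constants. -/
lemma adicValuation_algebraMap (w : Place K F) {c : K} (hc : c ≠ 0) :
    w.adicValuation (algebraMap K F c) = 1 := by
  have hu : IsUnit (algebraMap K w.toValuationSubring c) := (IsUnit.mk0 c hc).map _
  have := (w.adicValuation_coe_eq_one_iff (algebraMap K w.toValuationSubring c)).mpr hu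
  rwa [Place.coe_algebraMap] at this

lemma adicValuation_lt_one_of_ord_pos (w : Place K F) {f : F} (hf : 0 < w.ord f) :
    w.adicValuation f < 1 := by
  have hf0 : f ≠ 0 := by
    rintro rfl
    simp at hf
  have hv0 : w.adicValuation f ≠ 0 := w.adicValuation_ne_zero hf0
  rw [← exp_zero, ← log_lt_iff_lt_exp hv0]
  unfold Place.ord at hf
  omega

end Agree

section TAdic

variable {K F : Type*} [Field K] [Field F] [Algebra K F]

/-- A valuation that is trivial on `K` is `≤ 1` on `K[t]` as soon as `v t ≤ 1`. -/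
lemma val_aeval_le_one (v : Valuation F ℤᵐ⁰)
    (hK : ∀ c : K, c ≠ 0 → v (algebraMap K F c) = 1) {t : F} (ht : v t ≤ 1) (p : K[X]) :
    v (aeval t p) ≤ 1 := by
  rw [aeval_eq_sum_range]
  apply Valuation.map_sum_le
  intro k _
  rw [Algebra.smul_def, map_mul, map_pow]
  have h1 : v (algebraMap K F (p.coeff k)) ≤ 1 := by
    by_cases hc : p.coeff k = 0
    · simp [hc]
    · exact (hK _ hc).le
  exact mul_le_one' h1 (pow_le_one' ht k)

/-- A valuation that is trivial on `K` with `v t < 1` takes the value `1` on polynomials in `t`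
with nonzero constant coefficient. -/
lemma val_aeval_eq_one (v : Valuation F ℤᵐ⁰)
    (hK : ∀ c : K, c ≠ 0 → v (algebraMap K F c) = 1) {t : F} (ht : v t < 1) (p : K[X])
    (hp : p.coeff 0 ≠ 0) : v (aeval t p) = 1 := by
  have hdec : p = divX p * X + C (p.coeff 0) := (divX_mul_X_add p).symm
  have h1 : aeval t p = aeval t (divX p) * t + algebraMap K F (p.coeff 0) := by
    conv_lhs => rw [hdec]
    simp
  have h2 : v (aeval t (divX p) * t) < 1 := by
    rw [map_mul]
    calc v (aeval t (divX p)) * v t ≤ 1 * v t := by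
          gcongr
          exact val_aeval_le_one v hK ht.le _
      _ = v t := one_mul _
      _ < 1 := ht
  rw [h1, Valuation.map_add_eq_of_lt_right, hK _ hp]
  rw [hK _ hp]
  exact h2

/-- Every nonzero element of `K(t)` has the form `t ^ k * (p(t) / q(t))` with `p(0) q(0) ≠ 0`;
hence its valuation is `v t ^ k` for every valuation trivial on `K` with `v t < 1`. -/
lemma exists_zpow_of_mem_adjoin {t : F} (ht0 : t ≠ 0) {a : F} (ha : a ∈ K⟮t⟯) (ha0 : a ≠ 0) :
    ∃ k : ℤ, ∀ v : Valuation F ℤᵐ⁰, (∀ c : K, c ≠ 0 → v (algebraMap K F c) = 1) → v t < 1 →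
      v a = v t ^ k := by
  obtain ⟨r, s, rfl⟩ := (mem_adjoin_simple_iff K a).mp ha
  have hr0 : aeval t r ≠ 0 := fun h => ha0 (by rw [h, zero_div])
  have hs0 : aeval t s ≠ 0 := fun h => ha0 (by rw [h, div_zero])
  have hr : r ≠ 0 := fun h => hr0 (by rw [h, map_zero])
  have hs : s ≠ 0 := fun h => hs0 (by rw [h, map_zero])
  -- factor out the powers of `X`
  obtain ⟨r₁, hr₁, hr₁'⟩ := exists_eq_pow_rootMultiplicity_mul_and_not_dvd r hr 0
  obtain ⟨s₁, hs₁, hs₁'⟩ := exists_eq_pow_rootMultiplicity_mul_and_not_dvd s hs 0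
  simp only [map_zero, sub_zero] at hr₁ hr₁' hs₁ hs₁'
  have hr₁0 : r₁.coeff 0 ≠ 0 := fun h => hr₁' (X_dvd_iff.mpr h)
  have hs₁0 : s₁.coeff 0 ≠ 0 := fun h => hs₁' (X_dvd_iff.mpr h)
  refine ⟨(rootMultiplicity 0 r : ℤ) - (rootMultiplicity 0 s : ℤ), fun v hK ht => ?_⟩
  have hvt : v t ≠ 0 := (Valuation.ne_zero_iff v).mpr ht0
  have e1 : v (aeval t r) = v t ^ (rootMultiplicity 0 r) := by
    conv_lhs => rw [hr₁]
    rw [map_mul, map_pow, aeval_X, map_mul, map_pow, val_aeval_eq_one v hK ht r₁ hr₁0, mul_one]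
  have e2 : v (aeval t s) = v t ^ (rootMultiplicity 0 s) := by
    conv_lhs => rw [hs₁]
    rw [map_mul, map_pow, aeval_X, map_mul, map_pow, val_aeval_eq_one v hK ht s₁ hs₁0, mul_one]
  rw [map_div₀, e1, e2, zpow_sub₀ hvt, zpow_natCast, zpow_natCast]

end TAdic

section PlaceOf

variable {K F : Type*} [Field K] [Field F] [Algebra K F]

/-- The place attached to a nontrivial `ℤᵐ⁰`-valued valuation that is trivial on `K`. -/
noncomputable def placeOf (v : Valuation F ℤᵐ⁰)
    (hK : ∀ c : K, c ≠ 0 → v (algebraMap K F c) = 1)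
    (hnt : ∃ x : F, v x ≠ 0 ∧ v x ≠ 1) : Place K F where
  toValuationSubring := v.valuationSubring
  algebraMap_mem' := fun a => by
    rw [Valuation.mem_valuationSubring_iff]
    by_cases ha : a = 0
    · simp [ha]
    · exact (hK a ha).le
  ne_top' := by
    obtain ⟨x, hx0, hx1⟩ := hnt
    intro htop
    have h1 : v x ≤ 1 := by
      rw [← Valuation.mem_valuationSubring_iff, htop]
      exact ValuationSubring.mem_top x
    have h2 : v x⁻¹ ≤ 1 := by
      rw [← Valuation.mem_valuationSubring_iff, htop]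
      exact ValuationSubring.mem_top _
    rw [map_inv₀] at h2
    have h3 : 1 ≤ v x := by
      have := (inv_le_one₀ (zero_lt_iff.mpr hx0)).mp h2
      exact this
    exact hx1 (le_antisymm h1 h3)
  isPrincipalIdealRing' := by
    have : v.IsNontrivial := ⟨hnt⟩
    exact Valuation.valuationSubring_isPrincipalIdealRing v

@[simp]
lemma placeOf_toValuationSubring (v : Valuation F ℤᵐ⁰)
    (hK : ∀ c : K, c ≠ 0 → v (algebraMap K F c) = 1)
    (hnt : ∃ x : F, v x ≠ 0 ∧ v x ≠ 1) :
    (placeOf v hK hnt).toValuationSubring = v.valuationSubring := rfl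

/-- A valuation is a power of the normalised valuation of its place. -/
lemma exists_val_eq_exp_ord (v : Valuation F ℤᵐ⁰)
    (hK : ∀ c : K, c ≠ 0 → v (algebraMap K F c) = 1)
    (hnt : ∃ x : F, v x ≠ 0 ∧ v x ≠ 1) :
    ∃ d : ℤ, 0 < d ∧ (∃ π : F, π ≠ 0 ∧ v π = exp (-d)) ∧
      ∀ f : F, f ≠ 0 → v f = exp (-(d * (placeOf v hK hnt).ord f)) := by
  set w := placeOf v hK hnt with hw
  obtain ⟨π, hπ⟩ := IsDiscreteValuationRing.exists_irreducible w.toValuationSubring
  have hπmem : v (π : F) ≤ 1 := (Valuation.mem_valuationSubring_iff v _).mp π.2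
  have hπ0 : (π : F) ≠ 0 := by
    simpa [ne_eq, ZeroMemClass.coe_eq_zero] using hπ.ne_zero
  have hvπ0 : v (π : F) ≠ 0 := (Valuation.ne_zero_iff v).mpr hπ0
  have hπ1 : v (π : F) ≠ 1 := by
    intro h1
    apply hπ.not_isUnit
    have hinv : (π : F)⁻¹ ∈ w.toValuationSubring := by
      change (π : F)⁻¹ ∈ v.valuationSubring
      rw [Valuation.mem_valuationSubring_iff, map_inv₀, h1, inv_one]
    refine isUnit_iff_exists_inv.mpr ⟨⟨(π : F)⁻¹, hinv⟩, ?_⟩
    apply Subtype.ext
    simp [hπ0]
  have hπlt : v (π : F) < 1 := lt_of_le_of_ne hπmem hπ1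
  refine ⟨-(log (v (π : F))), ?_, ⟨π, hπ0, ?_⟩, ?_⟩
  · have : log (v (π : F)) < 0 := by
      rw [log_lt_iff_lt_exp hvπ0, exp_zero]
      exact hπlt
    omega
  · rw [neg_neg, exp_log hvπ0]
  · intro f hf
    obtain ⟨u, hu⟩ := w.exists_unit_mul_zpow hf hπ
    have hvu : v ((u : w.toValuationSubring) : F) = 1 := by
      have h1 : v ((u : w.toValuationSubring) : F) ≤ 1 :=
        (Valuation.mem_valuationSubring_iff v _).mp (u : w.toValuationSubring).2
      have h2 : v (((u⁻¹ : w.toValuationSubringˣ) : w.toValuationSubring) : F) ≤ 1 :=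
        (Valuation.mem_valuationSubring_iff v _).mp ((u⁻¹ : w.toValuationSubringˣ) :
          w.toValuationSubring).2
      have h3 : ((u : w.toValuationSubring) : F) *
          (((u⁻¹ : w.toValuationSubringˣ) : w.toValuationSubring) : F) = 1 := by
        have := congrArg (Subtype.val) (u.mul_inv)
        exact this
      have h4 : v ((u : w.toValuationSubring) : F) *
          v (((u⁻¹ : w.toValuationSubringˣ) : w.toValuationSubring) : F) = 1 := by
        rw [← map_mul, h3, map_one]
      apply le_antisymm h1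
      by_contra hlt
      rw [not_le] at hlt
      have : v ((u : w.toValuationSubring) : F) *
          v (((u⁻¹ : w.toValuationSubringˣ) : w.toValuationSubring) : F) < 1 := by
        calc _ ≤ v ((u : w.toValuationSubring) : F) * 1 := by gcongr
          _ = v ((u : w.toValuationSubring) : F) := mul_one _
          _ < 1 := hlt
      rw [h4] at this
      exact lt_irrefl _ this
    conv_lhs => rw [hu]
    rw [map_mul, hvu, one_mul, map_zpow₀]
    conv_lhs => rw [← exp_log hvπ0]
    rw [← exp_zsmul, smul_eq_mul]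
    congr 1
    ring

end PlaceOf

section Roots

variable {K₀ F L : Type*} [Field K₀] [Field F] [Field L] [Algebra K₀ F]
  [FiniteDimensional K₀ F] [Algebra.IsSeparable K₀ F]

/-- If `σ i` are `[F : K₀]` distinct embeddings of `F` into a field `L`, all restricting to the
same `φ` on `K₀`, then the minimal polynomial of any `f : F` splits over `L`, with roots among
the `σ i f`. -/
lemma splits_minpoly_of_card_eq {I : Type*} [Fintype I] (σ : I → F →+* L)
    (hσ : Function.Injective σ) (hcard : Fintype.card I = Module.finrank K₀ F)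
    (φ : K₀ →+* L) (hφ : ∀ i, (σ i).comp (algebraMap K₀ F) = φ) (f : F) :
    ((minpoly K₀ f).map φ).Splits ∧ ∀ r ∈ ((minpoly K₀ f).map φ).roots, ∃ i, r = σ i f := by
  classical
  let _ : Algebra K₀ L := φ.toAlgebra
  let Ω := AlgebraicClosure L
  let τ : I → (F →ₐ[K₀] L) := fun i =>
    { σ i with
      commutes' := fun x => by
        have := congrArg (fun g : K₀ →+* L => g x) (hφ i)
        exact this }
  let τ' : I → (F →ₐ[K₀] Ω) := fun i => (IsScalarTower.toAlgHom K₀ L Ω).comp (τ i)
  have hτ' : ∀ i x, τ' i x = algebraMap L Ω (σ i x) := fun i x => rfl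
  have hinj : Function.Injective τ' := by
    intro i j hij
    apply hσ
    ext x
    have := congrArg (fun g : F →ₐ[K₀] Ω => g x) hij
    simp only [hτ'] at this
    exact (algebraMap L Ω).injective this
  have hbij : Function.Bijective τ' := by
    rw [Fintype.bijective_iff_injective_and_card]
    refine ⟨hinj, ?_⟩
    rw [hcard, AlgHom.card]
  have hroot : ∀ r' ∈ ((minpoly K₀ f).map (algebraMap K₀ Ω)).roots,
      ∃ i, r' = algebraMap L Ω (σ i f) := by
    intro r' hr'
    have hmem : r' ∈ (minpoly K₀ f).rootSet Ω := by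
      rw [rootSet, aroots]
      simpa using hr'
    rw [← (Algebra.IsAlgebraic.of_finite K₀ F).range_eval_eq_rootSet_minpoly Ω f] at hmem
    obtain ⟨ψ, rfl⟩ := hmem
    obtain ⟨i, rfl⟩ := hbij.2 ψ
    exact ⟨i, hτ' i f⟩
  have hmapmap : ((minpoly K₀ f).map φ).map (algebraMap L Ω) =
      (minpoly K₀ f).map (algebraMap K₀ Ω) := by
    rw [Polynomial.map_map]
    congr 1
  have hsplitΩ : (((minpoly K₀ f).map φ).map (algebraMap L Ω)).Splits := IsAlgClosed.splits _
  have hrange : ∀ a ∈ (((minpoly K₀ f).map φ).map (algebraMap L Ω)).roots,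
      a ∈ (algebraMap L Ω).range := by
    intro a ha
    rw [hmapmap] at ha
    obtain ⟨i, rfl⟩ := hroot a ha
    exact ⟨σ i f, rfl⟩
  have hsplit : ((minpoly K₀ f).map φ).Splits :=
    Splits.of_splits_map_of_injective (algebraMap L Ω).injective hsplitΩ hrange
  refine ⟨hsplit, fun r hr => ?_⟩
  have hr' : algebraMap L Ω r ∈ (((minpoly K₀ f).map φ).map (algebraMap L Ω)).roots := by
    rw [hsplit.roots_map_of_injective (algebraMap L Ω).injective]
    exact Multiset.mem_map_of_mem _ hr
  rw [hmapmap] at hr'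
  obtain ⟨i, hi⟩ := hroot _ hr'
  exact ⟨i, (algebraMap L Ω).injective hi⟩

end Roots

section Surj

variable {K F : Type*} [Field K] [Field F] [Algebra K F] [CharZero K]

/-- Key step: a place `w` over `t = 0` cannot contain in its maximal ideal an element `f` all of
whose conjugates `σ i f` are `V`-units. -/
lemma false_of_val_eq_one {L : Type*} [Field L] (t : F) [FiniteDimensional K⟮t⟯ F]
    (V : Valuation L ℤᵐ⁰) {I : Type*} [Fintype I] (σ : I → F →+* L)
    (hσ : Function.Injective σ) (hcard : Fintype.card I = Module.finrank K⟮t⟯ F)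
    (hK : ∀ i (c : K), c ≠ 0 → V (σ i (algebraMap K F c)) = 1)
    (hKagree : ∀ i j (c : K), σ i (algebraMap K F c) = σ j (algebraMap K F c))
    (htagree : ∀ i j, σ i t = σ j t)
    (htV : ∀ i, V (σ i t) < 1) (ht0 : t ≠ 0)
    (w : Place K F) (hw : 0 < w.ord t) (f : F) (hf : 0 < w.ord f)
    (hVf : ∀ i, V (σ i f) = 1) : False := by
  classical
  have hn : 0 < Module.finrank K⟮t⟯ F := Module.finrank_pos
  have hI : Nonempty I := by
    rw [← Fintype.card_pos_iff, hcard]
    exact hn
  obtain ⟨i₀⟩ := hI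
  set φ : K⟮t⟯ →+* L := (σ i₀).comp (algebraMap K⟮t⟯ F) with hφdef
  have hφ : ∀ i, (σ i).comp (algebraMap K⟮t⟯ F) = φ := fun i =>
    comp_algebraMap_adjoin_eq (hKagree i i₀) (htagree i i₀)
  obtain ⟨hsplit, hroots⟩ := splits_minpoly_of_card_eq σ hσ hcard φ hφ f
  set P := minpoly K⟮t⟯ f with hP
  have hPmonic : P.Monic := minpoly.monic (Algebra.IsIntegral.isIntegral f)
  have hQmonic : (P.map φ).Monic := hPmonic.map φ
  -- all roots are `V`-units
  have hrootV : ∀ r ∈ (P.map φ).roots, V r = 1 := by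
    intro r hr
    obtain ⟨i, rfl⟩ := hroots r hr
    exact hVf i
  -- (a) the coefficients are `V`-integral
  have hcoeff_le : ∀ j, V ((P.map φ).coeff j) ≤ 1 := by
    have hmem : P.map φ ∈ Polynomial.lifts V.valuationSubring.subtype := by
      apply hsplit.mem_lift_of_roots_mem_range hQmonic
      intro a ha
      exact ⟨⟨a, (Valuation.mem_valuationSubring_iff V a).mpr (hrootV a ha).le⟩, rfl⟩
    intro j
    obtain ⟨x, hx⟩ := (lifts_iff_coeff_lifts _).mp hmem j
    rw [← hx]
    exact (Valuation.mem_valuationSubring_iff V _).mp x.2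
  -- (b) the constant coefficient is a `V`-unit
  have hcoeff_zero : V ((P.map φ).coeff 0) = 1 := by
    rw [hsplit.coeff_zero_eq_prod_roots_of_monic hQmonic, map_mul, map_pow, Valuation.map_neg,
      map_one, one_pow, one_mul, map_multiset_prod]
    apply Multiset.prod_eq_one
    intro x hx
    obtain ⟨r, hr, rfl⟩ := Multiset.mem_map.mp hx
    exact hrootV r hr
  -- the valuation of `w`
  set vw := w.adicValuation with hvw
  have hvwK : ∀ c : K, c ≠ 0 → vw (algebraMap K F c) = 1 := fun c hc =>
    adicValuation_algebraMap w hc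
  have hvwt : vw t < 1 := adicValuation_lt_one_of_ord_pos w hw
  have hvwf : vw f < 1 := adicValuation_lt_one_of_ord_pos w hf
  -- the valuation `V ∘ σ i₀`
  set v₀ : Valuation F ℤᵐ⁰ := V.comap (σ i₀) with hv₀
  have hv₀K : ∀ c : K, c ≠ 0 → v₀ (algebraMap K F c) = 1 := fun c hc => hK i₀ c hc
  have hv₀t : v₀ t < 1 := htV i₀
  have hv₀t0 : v₀ t ≠ 0 := (Valuation.ne_zero_iff v₀).mpr ht0
  have hvwt0 : vw t ≠ 0 := (Valuation.ne_zero_iff vw).mpr ht0
  -- (c),(d) transfer to `w`
  have hw_le : ∀ j, vw ((P.coeff j : K⟮t⟯) : F) ≤ 1 := by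
    intro j
    by_cases h0 : ((P.coeff j : K⟮t⟯) : F) = 0
    · rw [h0, map_zero]
      exact zero_le_one
    · obtain ⟨k, hk⟩ := exists_zpow_of_mem_adjoin (K := K) ht0 (P.coeff j).2 h0
      have h1 : v₀ ((P.coeff j : K⟮t⟯) : F) ≤ 1 := by
        have := hcoeff_le j
        rw [coeff_map] at this
        exact this
      rw [hk v₀ hv₀K hv₀t, zpow_le_one_iff_of_lt_one hv₀t0 hv₀t] at h1
      rw [hk vw hvwK hvwt, zpow_le_one_iff_of_lt_one hvwt0 hvwt]
      exact h1
  have hw_zero : vw ((P.coeff 0 : K⟮t⟯) : F) = 1 := by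
    have h0 : ((P.coeff 0 : K⟮t⟯) : F) ≠ 0 := by
      intro h0
      have := hcoeff_zero
      rw [coeff_map] at this
      have h0' : P.coeff 0 = 0 := by
        apply Subtype.ext
        exact h0
      rw [h0', map_zero, map_zero] at this
      exact zero_ne_one this
    obtain ⟨k, hk⟩ := exists_zpow_of_mem_adjoin (K := K) ht0 (P.coeff 0).2 h0
    have h1 : v₀ ((P.coeff 0 : K⟮t⟯) : F) = 1 := by
      have := hcoeff_zero
      rw [coeff_map] at this
      exact this
    rw [hk v₀ hv₀K hv₀t, zpow_eq_one_iff_of_lt_one hv₀t0 hv₀t] at h1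
    rw [hk vw hvwK hvwt, h1, zpow_zero]
  -- (e) the integral equation
  have haeval : aeval f P = 0 := minpoly.aeval K⟮t⟯ f
  rw [aeval_eq_sum_range, Finset.sum_range_succ'] at haeval
  simp only [pow_zero, Algebra.smul_def, mul_one] at haeval
  have hsumlt : vw (∑ j ∈ Finset.range P.natDegree,
      algebraMap K⟮t⟯ F (P.coeff (j + 1)) * f ^ (j + 1)) < 1 := by
    apply Valuation.map_sum_lt vw one_ne_zero
    intro j _
    rw [map_mul, map_pow]
    calc vw (algebraMap K⟮t⟯ F (P.coeff (j + 1))) * vw f ^ (j + 1)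
        ≤ 1 * vw f ^ (j + 1) := by
          gcongr
          exact hw_le (j + 1)
      _ = vw f ^ (j + 1) := one_mul _
      _ < 1 := pow_lt_one₀ zero_le hvwf (Nat.succ_ne_zero j)
  have hEq : algebraMap K⟮t⟯ F (P.coeff 0) = -(∑ j ∈ Finset.range P.natDegree,
      algebraMap K⟮t⟯ F (P.coeff (j + 1)) * f ^ (j + 1)) := by
    rw [eq_neg_iff_add_eq_zero, add_comm]
    exact haeval
  have : vw (algebraMap K⟮t⟯ F (P.coeff 0)) < 1 := by
    rw [hEq, Valuation.map_neg]
    exact hsumlt
  have h1 : vw (algebraMap K⟮t⟯ F (P.coeff 0)) = 1 := hw_zero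
  rw [h1] at this
  exact lt_irrefl _ this

end Surj

section Main

variable {K F : Type*} [Field K] [Field F] [Algebra K F] [CharZero K]

/-- **Abstract local counting** (task S24-LOC), with the needed function-field facts
(`hfin`, `hsum`, `hsep`) as explicit hypotheses. -/
theorem local_count_of {L : Type*} [Field L]
    (t : F) [FiniteDimensional K⟮t⟯ F]
    (hfin : {w : Place K F | 0 < w.ord t}.Finite)
    (hsum : ∑ w ∈ hfin.toFinset, w.ord t = (Module.finrank K⟮t⟯ F : ℤ))
    (hsep : ∀ (w : Place K F) (s : Finset (Place K F)), w ∉ s →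
      ∃ f : F, 0 < w.ord f ∧ ∀ v ∈ s, v.ord f = 0)
    (V : Valuation L ℤᵐ⁰)
    {I : Type*} [Fintype I] (σ : I → F →+* L) (hσ : Function.Injective σ)
    (hcard : Fintype.card I = Module.finrank K⟮t⟯ F)
    (hK : ∀ i (c : K), c ≠ 0 → V (σ i (algebraMap K F c)) = 1)
    (hKagree : ∀ i j (c : K), σ i (algebraMap K F c) = σ j (algebraMap K F c))
    (htagree : ∀ i j, σ i t = σ j t)
    (E : ℕ) (hE : 0 < E) (htE : ∀ i, V (σ i t) = exp (-(E : ℤ)))
    (π : Equiv.Perm I) (hπE : π ^ E = 1)
    (hπ : ∀ i f, V (σ (π i) f) = V (σ i f))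
    (hdiv : ∀ (i : I) (k : ℕ), k ∣ E → (π ^ (E / k)) i = i →
      ∀ f : F, f ≠ 0 → ∃ m : ℤ, V (σ i f) = exp (m * k)) :
    Nat.card {w : Place K F // 0 < w.ord t}
        = Nat.card (MulAction.orbitRel.Quotient (Subgroup.zpowers π) I)
      ∧ (E = 1 → ∀ w : Place K F, 0 < w.ord t → w.ord t = 1) := by
  classical
  have hn : 0 < Module.finrank K⟮t⟯ F := Module.finrank_pos
  have hI : Nonempty I := by
    rw [← Fintype.card_pos_iff, hcard]
    exact hn
  have hVt_lt : ∀ i, V (σ i t) < 1 := fun i => by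
    rw [htE, ← exp_zero, exp_lt_exp]
    omega
  have ht0 : t ≠ 0 := by
    rintro rfl
    obtain ⟨i⟩ := hI
    have := htE i
    rw [map_zero, map_zero] at this
    exact exp_ne_zero this.symm
  let v : I → Valuation F ℤᵐ⁰ := fun i => V.comap (σ i)
  have hvK : ∀ i (c : K), c ≠ 0 → v i (algebraMap K F c) = 1 := hK
  have hnt : ∀ i, ∃ x : F, v i x ≠ 0 ∧ v i x ≠ 1 := fun i =>
    ⟨t, (Valuation.ne_zero_iff _).mpr ht0, (hVt_lt i).ne⟩
  let W : I → Place K F := fun i => placeOf (v i) (hvK i) (hnt i)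
  have hex := fun i => exists_val_eq_exp_ord (v i) (hvK i) (hnt i)
  choose d hd hdπ hdord using hex
  have hEd : ∀ i, (E : ℤ) = d i * (W i).ord t := by
    intro i
    have h1 := hdord i t ht0
    have h2 : v i t = exp (-(E : ℤ)) := htE i
    rw [h2, exp_inj] at h1
    linarith
  have hWpos : ∀ i, 0 < (W i).ord t := by
    intro i
    have h1 : 0 < d i * (W i).ord t := by
      rw [← hEd i]
      exact_mod_cast hE
    exact (mul_pos_iff_of_pos_left (hd i)).mp h1
  -- every place over `t = 0` is one of the `W i`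
  have hsurj : ∀ w : Place K F, 0 < w.ord t → ∃ i, W i = w := by
    intro w hw
    by_contra hne
    push Not at hne
    have hws : w ∉ Finset.univ.image W := by
      simp only [Finset.mem_image, Finset.mem_univ, true_and, not_exists]
      exact hne
    obtain ⟨f, hf, hfs⟩ := hsep w _ hws
    have hf0 : f ≠ 0 := by
      rintro rfl
      simp at hf
    refine false_of_val_eq_one t V σ hσ hcard hK hKagree htagree hVt_lt ht0 w hw f hf ?_
    intro i
    have h1 := hdord i f hf0
    have h2 : (W i).ord f = 0 := hfs _ (Finset.mem_image_of_mem W (Finset.mem_univ i))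
    rw [h2, mul_zero, neg_zero, exp_zero] at h1
    exact h1
  -- second claim
  refine ⟨?_, fun hE1 w hw => ?_⟩
  swap
  · obtain ⟨i, rfl⟩ := hsurj w hw
    have h1 := hEd i
    rw [hE1] at h1
    have h2 := hd i
    have h3 := hWpos i
    have h4 : d i * (W i).ord t = 1 := by exact_mod_cast h1.symm
    rw [mul_comm] at h4
    exact Int.eq_one_of_mul_eq_one_right h3.le h4
  -- invariance under `π`
  have hWπ : ∀ i, W (π i) = W i := by
    intro i
    apply Place.ext
    ext f
    change V (σ (π i) f) ≤ 1 ↔ V (σ i f) ≤ 1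
    rw [hπ]
  have hWg : ∀ g ∈ Subgroup.zpowers π, ∀ i, W (g i) = W i := by
    let H : Subgroup (Equiv.Perm I) :=
      { carrier := {g | ∀ i, W (g i) = W i}
        mul_mem' := fun {a b} ha hb i => by
          rw [Equiv.Perm.mul_apply, ha, hb]
        one_mem' := fun i => rfl
        inv_mem' := fun {a} ha i => by
          have := ha (a⁻¹ i)
          have h' : a (a⁻¹ i) = i := by
            change (a * a⁻¹) i = i
            rw [mul_inv_cancel]
            rfl
          rw [h'] at this
          exact this.symm }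
    have hle : Subgroup.zpowers π ≤ H := Subgroup.zpowers_le.mpr hWπ
    exact fun g hg => hle hg
  -- the orbit bound
  have hbound : ∀ i, (W i).ord t ≤
      (Fintype.card (MulAction.orbit (Subgroup.zpowers π) i) : ℤ) := by
    intro i
    have hper : Function.IsPeriodicPt (fun x => π • x) E i := by
      rw [Function.IsPeriodicPt, Function.IsFixedPt, smul_iterate, hπE]
      exact one_smul _ i
    have hmE : Function.minimalPeriod (fun x => π • x) i ∣ E := hper.minimalPeriod_dvd
    have hmpos : 0 < Function.minimalPeriod (fun x => π • x) i :=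
      Function.minimalPeriod_pos_of_mem_periodicPts
        (Function.mk_mem_periodicPts hE hper)
    have hmfix : (π ^ Function.minimalPeriod (fun x => π • x) i) i = i := by
      have := Function.isPeriodicPt_minimalPeriod (fun x => π • x) i
      rw [Function.IsPeriodicPt, Function.IsFixedPt, smul_iterate] at this
      exact this
    rw [← MulAction.minimalPeriod_eq_card π i]
    set m := Function.minimalPeriod (fun x => π • x) i with hm
    set k := E / m with hk
    have hkE : k ∣ E := Nat.div_dvd_of_dvd hmE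
    have hEk : E / k = m := Nat.div_div_self hmE hE.ne'
    have hkm : k * m = E := Nat.div_mul_cancel hmE
    have hkpos : 0 < k := Nat.div_pos (Nat.le_of_dvd hE hmE) hmpos
    obtain ⟨ϖ, hϖ0, hϖ⟩ := hdπ i
    obtain ⟨z, hz⟩ := hdiv i k hkE (by rw [hEk]; exact hmfix) ϖ hϖ0
    have hz' : -(d i) = z * k := by
      have : v i ϖ = V (σ i ϖ) := rfl
      rw [this, hz, exp_inj] at hϖ
      exact hϖ.symm
    have hkd : (k : ℤ) ≤ d i := by
      have hdvd : (k : ℤ) ∣ d i := ⟨-z, by linarith⟩
      exact Int.le_of_dvd (hd i) hdvd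
    have h1 := hEd i
    have h2 := hWpos i
    have h3 : (k : ℤ) * (W i).ord t ≤ (k : ℤ) * m := by
      calc (k : ℤ) * (W i).ord t ≤ d i * (W i).ord t := by gcongr
        _ = E := (hEd i).symm
        _ = (k : ℤ) * m := by exact_mod_cast hkm.symm
    exact le_of_mul_le_mul_left h3 (by exact_mod_cast hkpos)
  -- the counting
  let _ : Fintype {w : Place K F // 0 < w.ord t} := hfin.fintype
  let Q := MulAction.orbitRel.Quotient (Subgroup.zpowers π) I
  let Wbar : Q → {w : Place K F // 0 < w.ord t} :=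
    Quotient.lift (fun i => (⟨W i, hWpos i⟩ : {w : Place K F // 0 < w.ord t}))
      (fun a b hab => by
        apply Subtype.ext
        change W a = W b
        obtain ⟨g, rfl⟩ := hab
        exact hWg g.1 g.2 b)
  have hWbar_surj : Function.Surjective Wbar := by
    rintro ⟨w, hw⟩
    obtain ⟨i, rfl⟩ := hsurj w hw
    exact ⟨Quotient.mk'' i, rfl⟩
  let g : Q → ℕ := fun o => Fintype.card o.orbit
  let h : {w : Place K F // 0 < w.ord t} → ℕ := fun w => (w.1.ord t).toNat
  have hgpos : ∀ o, 0 < g o := by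
    intro o
    induction o using Quotient.inductionOn' with
    | h i =>
      apply Fintype.card_pos_iff.mpr
      exact ⟨⟨i, MulAction.orbitRel.Quotient.mem_orbit.mpr rfl⟩⟩
  have hle : ∀ o, h (Wbar o) ≤ g o := by
    intro o
    induction o using Quotient.inductionOn' with
    | h i =>
      have h1 := hbound i
      have h2 : Fintype.card (MulAction.orbitRel.Quotient.orbit
          (Quotient.mk'' i : Q)) = Fintype.card (MulAction.orbit (Subgroup.zpowers π) i) := by
        apply Fintype.card_congr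
        rw [MulAction.orbitRel.Quotient.orbit_mk]
      change ((W i).ord t).toNat ≤ Fintype.card (MulAction.orbitRel.Quotient.orbit
          (Quotient.mk'' i : Q))
      rw [h2]
      omega
  have hsumg : ∑ o, g o = Fintype.card I := by
    rw [Fintype.card_congr (MulAction.selfEquivSigmaOrbits' (Subgroup.zpowers π) I),
      Fintype.card_sigma]
  have hsumh : ∑ w, h w = Fintype.card I := by
    have h1 : ∑ w ∈ hfin.toFinset, w.ord t =
        ∑ w : {w : Place K F // 0 < w.ord t}, w.1.ord t := by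
      apply Finset.sum_subtype
      intro x
      simp
    have h2 : ((∑ w, h w : ℕ) : ℤ) = ∑ w : {w : Place K F // 0 < w.ord t}, w.1.ord t := by
      push_cast
      apply Finset.sum_congr rfl
      intro w _
      exact Int.toNat_of_nonneg w.2.le
    have h3 : ((∑ w, h w : ℕ) : ℤ) = (Fintype.card I : ℤ) := by
      rw [h2, ← h1, hsum, hcard]
    exact_mod_cast h3
  have hbij := bijective_of_sum_eq Wbar hWbar_surj g h hgpos hle (hsumg.trans hsumh.symm)
  exact (Nat.card_eq_of_bijective Wbar hbij).symm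

end Main

end Fermat.Agent.S24.helper43
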