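import Mathlib

/-!
# S24-AN-local (helper48): local orders of the analytic `j`-function

`jan τ = E₄ τ ^ 3 / Δ τ` on the upper half plane.  Main results
(all in namespace `Fermat.Agent.S24.helper48`):

* `jan_smul` : `jan (γ • τ) = jan τ` for `γ : SL(2, ℤ)`.
* `jan_surjective` : `∀ a, ∃ τ, jan τ = a`.
* Ramanujan identities `D_E₄`, `D_E₆`, `D_discriminant` and `D_jan`, `deriv_jan`.
* `meromorphicOrderAt_jan_sub` / `analyticOrderAt_jan_sub` : at a point `τ` with
  `jan τ ∉ {0, 1728}` the function `jan - jan τ` has a simple zero.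
* `jan_I`, `meromorphicOrderAt_jan_sub_1728_I` : `jan i = 1728` and `jan - 1728` vanishes
  to order exactly `2` at `i`; `S_smul_I`.
* `jan_rho`, `meromorphicOrderAt_jan_rho` : `jan ρ = 0` and `jan` vanishes to order exactly
  `3` at `ρ = -1/2 + (√3/2) i`; `ST_smul_rho`.
-/

set_option autoImplicit false

open UpperHalfPlane hiding I
open ModularForm EisensteinSeries Derivative Filter Function Complex
open scoped MatrixGroups Manifold Topology Real

noncomputable section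

namespace Fermat.Agent.S24.helper48

local notation "𝕢" => Periodic.qParam
local notation "Δ" => ModularForm.discriminant

/-! ### Building level one forms from functions -/

/-- A holomorphic, `SL(2,ℤ)`-invariant (weight `k`) function which is bounded at `i∞`
is a level one modular form. -/
def mkModularForm (k : ℤ) (F : ℍ → ℂ) (hF : MDiff F)
    (hinv : ∀ γ : SL(2, ℤ), F ∣[k] γ = F) (hbdd : IsBoundedAtImInfty F) :
    ModularForm 𝒮ℒ k where
  toFun := F
  slash_action_eq' := fun _ ⟨γ, hγ⟩ ↦ hγ ▸ hinv γ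
  holo' := hF
  bdd_at_cusps' {c} hc := by
    rw [Subgroup.IsArithmetic.isCusp_iff_isCusp_SL2Z] at hc
    rw [OnePoint.isBoundedAt_iff_forall_SL2Z hc]
    intro γ _
    rw [hinv γ]
    exact hbdd

@[simp] lemma mkModularForm_apply (k : ℤ) (F : ℍ → ℂ) (hF : MDiff F)
    (hinv : ∀ γ : SL(2, ℤ), F ∣[k] γ = F) (hbdd : IsBoundedAtImInfty F) (z : ℍ) :
    mkModularForm k F hF hinv hbdd z = F z := rfl

/-- A holomorphic, `SL(2,ℤ)`-invariant (weight `k`) function which is zero at `i∞`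
is a level one cusp form. -/
def mkCuspForm (k : ℤ) (F : ℍ → ℂ) (hF : MDiff F)
    (hinv : ∀ γ : SL(2, ℤ), F ∣[k] γ = F) (hzero : IsZeroAtImInfty F) :
    CuspForm 𝒮ℒ k where
  toFun := F
  slash_action_eq' := fun _ ⟨γ, hγ⟩ ↦ hγ ▸ hinv γ
  holo' := hF
  zero_at_cusps' {c} hc := by
    rw [Subgroup.IsArithmetic.isCusp_iff_isCusp_SL2Z] at hc
    rw [OnePoint.isZeroAt_iff_forall_SL2Z hc]
    intro γ _
    rw [hinv γ]
    exact hzero

@[simp] lemma mkCuspForm_apply (k : ℤ) (F : ℍ → ℂ) (hF : MDiff F)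
    (hinv : ∀ γ : SL(2, ℤ), F ∣[k] γ = F) (hzero : IsZeroAtImInfty F) (z : ℍ) :
    mkCuspForm k F hF hinv hzero z = F z := rfl

/-- A holomorphic `SL(2,ℤ)`-invariant function of weight `k < 12` vanishing at `i∞` is zero. -/
theorem eq_zero_of_weight_lt_twelve {k : ℤ} (hk : k < 12) (F : ℍ → ℂ) (hF : MDiff F)
    (hinv : ∀ γ : SL(2, ℤ), F ∣[k] γ = F) (hzero : IsZeroAtImInfty F) : F = 0 := by
  have h := rank_zero_iff_forall_zero.mp (CuspForm.rank_eq_zero_of_weight_lt_twelve hk)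
    (mkCuspForm k F hF hinv hzero)
  funext z
  have := congrArg (fun f : CuspForm 𝒮ℒ k => f z) h
  simpa using this

/-! ### Behaviour at `i∞` -/

lemma hasDerivAt_qParam_one (z : ℂ) :
    HasDerivAt (𝕢 1) (2 * π * I * 𝕢 1 z) z := by
  have h3 : (𝕢 1) = fun w : ℂ => cexp (2 * π * I * w) := by
    funext w
    simp [Periodic.qParam]
  have h1 : HasDerivAt (fun w : ℂ => 2 * π * I * w) (2 * π * I) z := by
    simpa using ((hasDerivAt_id z).const_mul (2 * π * I))
  have h2 := h1.cexp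
  rw [h3]
  exact h2.congr_deriv (by ring)

/-- A periodic holomorphic function bounded at `i∞` tends to its value at infinity. -/
lemma tendsto_valueAtInfty {f : ℍ → ℂ} (hper : Periodic (f ∘ ofComplex) (1 : ℝ))
    (hhol : MDiff f) (hbdd : IsBoundedAtImInfty f) :
    Tendsto f atImInfty (𝓝 (valueAtInfty f)) := by
  have hanal := analyticAt_cuspFunction_zero (h := 1) one_pos hper hhol hbdd
  have : (cuspFunction 1 f ∘ fun τ : ℍ ↦ 𝕢 1 τ : ℍ → ℂ) = f := by
    funext τ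
    simpa using eq_cuspFunction τ one_ne_zero hper
  rw [← cuspFunction_apply_zero one_pos hanal hper]
  simpa [this] using hanal.continuousAt.tendsto.comp (qParam_tendsto_atImInfty one_pos)

/-- The normalised derivative in terms of the cusp function. -/
lemma normalizedDeriv_eq_cuspFunction {f : ℍ → ℂ} (hper : Periodic (f ∘ ofComplex) (1 : ℝ))
    (hhol : MDiff f) (hbdd : IsBoundedAtImInfty f) (τ : ℍ) :
    D f τ = 𝕢 1 τ * deriv (cuspFunction 1 f) (𝕢 1 τ) := by
  have hq : ‖𝕢 1 (τ : ℂ)‖ < 1 := Periodic.norm_qParam_lt_one one_pos τ.im_pos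
  have hF : DifferentiableAt ℂ (cuspFunction 1 f) (𝕢 1 τ) :=
    differentiableAt_cuspFunction one_pos hper hhol hbdd hq
  have hcomp : (f ∘ ofComplex) =ᶠ[𝓝 (τ : ℂ)] (cuspFunction 1 f) ∘ (𝕢 1) := by
    filter_upwards [isOpen_upperHalfPlaneSet.mem_nhds τ.im_pos] with w hw
    have := eq_cuspFunction (h := 1) (f := f) ⟨w, hw⟩ one_ne_zero hper
    simp only [Function.comp_apply, ofComplex_apply_of_im_pos hw]
    exact this.symm
  have hd : HasDerivAt ((cuspFunction 1 f) ∘ (𝕢 1))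
      (deriv (cuspFunction 1 f) (𝕢 1 τ) * (2 * π * I * 𝕢 1 τ)) (τ : ℂ) :=
    hF.hasDerivAt.comp (τ : ℂ) (hasDerivAt_qParam_one τ)
  rw [normalizedDerivOfComplex, hcomp.deriv_eq, hd.deriv]
  have : (2 * (π : ℂ) * I) ≠ 0 := by
    simp [Real.pi_ne_zero]
  field_simp

/-- The normalised derivative of a periodic holomorphic function bounded at `i∞`
vanishes at `i∞`. -/
lemma isZeroAtImInfty_normalizedDeriv {f : ℍ → ℂ} (hper : Periodic (f ∘ ofComplex) (1 : ℝ))
    (hhol : MDiff f) (hbdd : IsBoundedAtImInfty f) :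
    IsZeroAtImInfty (D f) := by
  have hanal := analyticAt_cuspFunction_zero (h := 1) one_pos hper hhol hbdd
  have hcont : ContinuousAt (fun q => q * deriv (cuspFunction 1 f) q) 0 :=
    continuousAt_id.mul hanal.deriv.continuousAt
  have h0 : Tendsto (fun τ : ℍ => 𝕢 1 τ * deriv (cuspFunction 1 f) (𝕢 1 τ)) atImInfty (𝓝 0) := by
    have := hcont.tendsto.comp (qParam_tendsto_atImInfty one_pos)
    simpa [Function.comp_def] using this
  rw [IsZeroAtImInfty, ZeroAtFilter]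
  exact h0.congr (fun τ => (normalizedDeriv_eq_cuspFunction hper hhol hbdd τ).symm)

/-! ### Periodicity and limits of `E2`, `E₄`, `E₆`, `Δ` -/

lemma periodic_E2 : Periodic (E2 ∘ ofComplex) (1 : ℝ) := by
  intro w
  by_cases hw : 0 < w.im
  · have hw1 : 0 < (w + (1 : ℝ)).im := by simpa using hw
    simp only [Function.comp_apply, ofComplex_apply_of_im_pos hw1, ofComplex_apply_of_im_pos hw,
      E2_eq_tsum_cexp]
    have : cexp (2 * π * I * ((w : ℂ) + (1 : ℝ))) = cexp (2 * π * I * w) := by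
      rw [mul_add, Complex.exp_add]
      have : cexp (2 * π * I * ((1 : ℝ) : ℂ)) = 1 := by
        simp
      rw [this, mul_one]
    simp only [this]
  · have hw' : w.im ≤ 0 := not_lt.mp hw
    have hw1 : (w + (1 : ℝ)).im ≤ 0 := by simpa using hw'
    simp only [Function.comp_apply]
    rw [ofComplex_apply_of_im_nonpos hw1, ofComplex_apply_of_im_nonpos hw']

/-- The `q`-expansion coefficients of `E2`. -/
def cE2 (m : ℕ) : ℂ := if m = 0 then (1 : ℂ) else -24 * (ArithmeticFunction.sigma 1 m : ℂ)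

lemma hasSum_E2' (τ : ℍ) : HasSum (fun m : ℕ ↦ cE2 m • 𝕢 (1 : ℝ) τ ^ m) (E2 τ) := by
  have h := hasSum_qExpansion_E2 (z := τ)
  have e : 𝕢 (1 : ℝ) (τ : ℂ) = cexp (2 * π * I * τ) := by
    simp [Function.Periodic.qParam]
  rw [e]
  exact h

lemma valueAtInfty_E2 : valueAtInfty E2 = 1 := by
  have hanal := analyticAt_cuspFunction_zero (h := 1) one_pos periodic_E2 E2_mdifferentiable
    isBoundedAtImInfty_E2
  have h1 : cuspFunction 1 E2 0 = valueAtInfty E2 :=
    cuspFunction_apply_zero one_pos hanal periodic_E2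
  have h2 := (hasFPowerSeriesOnBall_cuspFunction (h := 1) (f := E2) (c := cE2) one_pos hanal
    hasSum_E2').coeff_zero (fun _ => 0)
  rw [← h1, ← h2]
  simp [cE2]

lemma tendsto_E2 : Tendsto E2 atImInfty (𝓝 1) := by
  simpa [valueAtInfty_E2] using
    tendsto_valueAtInfty periodic_E2 E2_mdifferentiable isBoundedAtImInfty_E2

lemma periodic_of_modularForm {k : ℤ} (f : ModularForm 𝒮ℒ k) :
    Periodic ((f : ℍ → ℂ) ∘ ofComplex) (1 : ℝ) :=
  SlashInvariantFormClass.periodic_comp_ofComplex f one_mem_strictPeriods_SL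

lemma isBoundedAtImInfty_of_modularForm {k : ℤ} (f : ModularForm 𝒮ℒ k) :
    IsBoundedAtImInfty (f : ℍ → ℂ) :=
  ModularFormClass.bdd_at_infty f

lemma tendsto_of_modularForm {k : ℤ} (f : ModularForm 𝒮ℒ k) :
    Tendsto (f : ℍ → ℂ) atImInfty (𝓝 ((qExpansion 1 f).coeff 0)) := by
  have hanal := ModularFormClass.analyticAt_cuspFunction_zero f one_pos one_mem_strictPeriods_SL
  rw [qExpansion_coeff_zero one_pos hanal (periodic_of_modularForm f)]
  exact tendsto_valueAtInfty (periodic_of_modularForm f) f.holo'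
    (isBoundedAtImInfty_of_modularForm f)

lemma tendsto_E₄ : Tendsto (E₄ : ℍ → ℂ) atImInfty (𝓝 1) := by
  simpa [E_qExpansion_coeff_zero _ ⟨2, rfl⟩] using tendsto_of_modularForm E₄

lemma tendsto_E₆ : Tendsto (E₆ : ℍ → ℂ) atImInfty (𝓝 1) := by
  simpa [E_qExpansion_coeff_zero _ ⟨3, rfl⟩] using tendsto_of_modularForm E₆

lemma tendsto_discriminant : Tendsto (Δ : ℍ → ℂ) atImInfty (𝓝 0) :=
  CuspFormClass.zero_at_infty CuspForm.discriminant

/-! ### Basic properties of `E₄`, `E₆`, `Δ` as functions -/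

lemma mdifferentiable_discriminant : MDiff (Δ : ℍ → ℂ) :=
  CuspForm.discriminant.holo'

lemma mdifferentiable_E₄ : MDiff (E₄ : ℍ → ℂ) := E₄.holo'

lemma mdifferentiable_E₆ : MDiff (E₆ : ℍ → ℂ) := E₆.holo'

lemma mdifferentiable_E₄_cube : MDiff ((E₄ : ℍ → ℂ) ^ 3) := by
  have : ((E₄ : ℍ → ℂ) ^ 3) = (E₄ : ℍ → ℂ) * E₄ * E₄ := by funext z; simp [pow_succ]
  rw [this]; exact (mdifferentiable_E₄.mul mdifferentiable_E₄).mul mdifferentiable_E₄

lemma mdifferentiable_E₆_sq : MDiff ((E₆ : ℍ → ℂ) ^ 2) := by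
  have : ((E₆ : ℍ → ℂ) ^ 2) = (E₆ : ℍ → ℂ) * E₆ := by funext z; simp [pow_succ]
  rw [this]; exact mdifferentiable_E₆.mul mdifferentiable_E₆

lemma slash_E₄ (γ : SL(2, ℤ)) : (E₄ : ℍ → ℂ) ∣[(4 : ℤ)] γ = E₄ :=
  E₄.slash_action_eq' _ ⟨γ, rfl⟩

lemma slash_E₆ (γ : SL(2, ℤ)) : (E₆ : ℍ → ℂ) ∣[(6 : ℤ)] γ = E₆ :=
  E₆.slash_action_eq' _ ⟨γ, rfl⟩

lemma slash_discriminant (γ : SL(2, ℤ)) : (Δ : ℍ → ℂ) ∣[(12 : ℤ)] γ = Δ :=
  CuspForm.discriminant.slash_action_eq' _ ⟨γ, rfl⟩

lemma slash_E₄_cube (γ : SL(2, ℤ)) :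
    ((E₄ : ℍ → ℂ) * E₄ * E₄) ∣[(12 : ℤ)] γ = (E₄ : ℍ → ℂ) * E₄ * E₄ := by
  have h12 : (12 : ℤ) = (4 + 4) + 4 := by norm_num
  rw [h12, ModularForm.mul_slash_SL2, ModularForm.mul_slash_SL2, slash_E₄]

/-! ### Ramanujan's identities -/

/-- The Serre derivative of a level one modular form tends to `-(c/12) * a₀` at `i∞`. -/
lemma tendsto_serreDerivative {k : ℤ} (f : ModularForm 𝒮ℒ k) (c : ℂ) {a : ℂ}
    (ha : Tendsto (f : ℍ → ℂ) atImInfty (𝓝 a)) :
    Tendsto (serreDerivative c f) atImInfty (𝓝 (-(c * 12⁻¹ * a))) := by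
  have h1 : Tendsto (D f) atImInfty (𝓝 0) :=
    isZeroAtImInfty_normalizedDeriv (periodic_of_modularForm f) f.holo'
      (isBoundedAtImInfty_of_modularForm f)
  have h2 : Tendsto (fun z => c * 12⁻¹ * E2 z * f z) atImInfty (𝓝 (c * 12⁻¹ * 1 * a)) :=
    ((tendsto_const_nhds.mul tendsto_E2).mul ha)
  have := h1.sub h2
  simpa [serreDerivative] using this

/-- **Ramanujan's identity** for `E₄`, Serre derivative form. -/
theorem serreDerivative_E₄ (z : ℍ) : serreDerivative 4 E₄ z = -(1 / 3 : ℂ) * E₆ z := by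
  let F : ℍ → ℂ := serreDerivative ((4 : ℤ) : ℂ) E₄ + (1 / 3 : ℂ) • (E₆ : ℍ → ℂ)
  have hF : MDiff F :=
    (serreDerivative_mdifferentiable _ E₄.holo').add (E₆.holo'.const_smul (1 / 3 : ℂ))
  have hinv : ∀ γ : SL(2, ℤ), F ∣[(6 : ℤ)] γ = F := by
    intro γ
    have h1 : serreDerivative ((4 : ℤ) : ℂ) E₄ ∣[(6 : ℤ)] γ = serreDerivative ((4 : ℤ) : ℂ) E₄ :=
      serreDerivative_slash_invariant (k := 4) E₄.holo' (slash_E₄ γ)
    simp only [F, SlashAction.add_slash, ModularForm.SL_smul_slash, h1, slash_E₆ γ]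
  have hzero : IsZeroAtImInfty F := by
    have h1 := tendsto_serreDerivative E₄ ((4 : ℤ) : ℂ) tendsto_E₄
    have h2 : Tendsto ((1 / 3 : ℂ) • (E₆ : ℍ → ℂ)) atImInfty (𝓝 ((1 / 3 : ℂ) * 1)) :=
      tendsto_E₆.const_mul (1 / 3 : ℂ)
    have h3 := h1.add h2
    have hval : (-(((4 : ℤ) : ℂ) * 12⁻¹ * 1) + 1 / 3 * 1) = 0 := by norm_num
    rw [hval] at h3
    exact h3
  have := congrFun (eq_zero_of_weight_lt_twelve (by norm_num) F hF hinv hzero) z
  simp only [F, Pi.add_apply, Pi.smul_apply, smul_eq_mul, Pi.zero_apply] at this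
  have h4 : ((4 : ℤ) : ℂ) = 4 := by norm_num
  rw [h4] at this
  linear_combination this

/-- **Ramanujan's identity** for `E₆`, Serre derivative form. -/
theorem serreDerivative_E₆ (z : ℍ) : serreDerivative 6 E₆ z = -(1 / 2 : ℂ) * E₄ z ^ 2 := by
  let F : ℍ → ℂ := serreDerivative ((6 : ℤ) : ℂ) E₆ + (1 / 2 : ℂ) • ((E₄ : ℍ → ℂ) * (E₄ : ℍ → ℂ))
  have hF : MDiff F :=
    (serreDerivative_mdifferentiable _ E₆.holo').add
      ((E₄.holo'.mul E₄.holo').const_smul (1 / 2 : ℂ))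
  have hinv : ∀ γ : SL(2, ℤ), F ∣[(8 : ℤ)] γ = F := by
    intro γ
    have h1 : serreDerivative ((6 : ℤ) : ℂ) E₆ ∣[(8 : ℤ)] γ = serreDerivative ((6 : ℤ) : ℂ) E₆ :=
      serreDerivative_slash_invariant (k := 6) E₆.holo' (slash_E₆ γ)
    have h2 : ((E₄ : ℍ → ℂ) * (E₄ : ℍ → ℂ)) ∣[(8 : ℤ)] γ = (E₄ : ℍ → ℂ) * (E₄ : ℍ → ℂ) := by
      have := ModularForm.mul_slash_SL2 4 4 γ (E₄ : ℍ → ℂ) (E₄ : ℍ → ℂ)
      rw [slash_E₄ γ] at this
      exact this
    simp only [F, SlashAction.add_slash, ModularForm.SL_smul_slash, h1, h2]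
  have hzero : IsZeroAtImInfty F := by
    have h1 := tendsto_serreDerivative E₆ ((6 : ℤ) : ℂ) tendsto_E₆
    have h2 : Tendsto ((1 / 2 : ℂ) • ((E₄ : ℍ → ℂ) * (E₄ : ℍ → ℂ))) atImInfty
        (𝓝 ((1 / 2 : ℂ) * (1 * 1))) :=
      (tendsto_E₄.mul tendsto_E₄).const_mul (1 / 2 : ℂ)
    have h3 := h1.add h2
    have hval : (-(((6 : ℤ) : ℂ) * 12⁻¹ * 1) + 1 / 2 * (1 * 1)) = 0 := by norm_num
    rw [hval] at h3
    exact h3
  have := congrFun (eq_zero_of_weight_lt_twelve (by norm_num) F hF hinv hzero) z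
  simp only [F, Pi.add_apply, Pi.smul_apply, Pi.mul_apply, smul_eq_mul, Pi.zero_apply] at this
  have h6 : ((6 : ℤ) : ℂ) = 6 := by norm_num
  rw [h6] at this
  linear_combination this

/-- **Ramanujan's identity** `D E₄ = (E₂ E₄ - E₆) / 3`. -/
theorem D_E₄ (z : ℍ) : D E₄ z = (E2 z * E₄ z - E₆ z) / 3 := by
  have := serreDerivative_E₄ z
  rw [serreDerivative_apply] at this
  linear_combination this

/-- **Ramanujan's identity** `D E₆ = (E₂ E₆ - E₄²) / 2`. -/
theorem D_E₆ (z : ℍ) : D E₆ z = (E2 z * E₆ z - E₄ z ^ 2) / 2 := by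
  have := serreDerivative_E₆ z
  rw [serreDerivative_apply] at this
  linear_combination this

lemma discriminant_eq_fun :
    (Δ : ℍ → ℂ) = (1 / 1728 : ℂ) • ((E₄ : ℍ → ℂ) ^ 3 - (E₆ : ℍ → ℂ) ^ 2) := by
  funext z
  rw [discriminant_eq_E₄_cube_sub_E₆_sq z]
  simp only [Pi.smul_apply, Pi.sub_apply, Pi.pow_apply, smul_eq_mul]
  ring

/-- **Ramanujan's identity** `D Δ = E₂ Δ`. -/
theorem D_discriminant (z : ℍ) : D Δ z = E2 z * Δ z := by
  have h4 := mdifferentiable_E₄_cube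
  have h6 := mdifferentiable_E₆_sq
  have e1 : D Δ z = (1 / 1728 : ℂ) * (3 * E₄ z ^ 2 * D E₄ z - 2 * E₆ z * D E₆ z) := by
    conv_lhs => rw [discriminant_eq_fun]
    rw [normalizedDerivOfComplex_smul _ _ (h4.sub h6), normalizedDerivOfComplex_sub _ _ h4 h6,
      normalizedDerivOfComplex_pow _ _ mdifferentiable_E₄,
      normalizedDerivOfComplex_pow _ _ mdifferentiable_E₆]
    simp only [Pi.smul_apply, Pi.sub_apply, Pi.mul_apply, Pi.pow_apply, smul_eq_mul,
      Nat.cast_ofNat, Pi.ofNat_apply, show (3 - 1 : ℕ) = 2 from rfl,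
      show (2 - 1 : ℕ) = 1 from rfl, pow_one]
  rw [e1, D_E₄, D_E₆, discriminant_eq_E₄_cube_sub_E₆_sq z]
  ring

/-! ### The function `jan` -/

/-- The analytic `j`-invariant `E₄³ / Δ`. -/
def jan (τ : ℍ) : ℂ := E₄ τ ^ 3 / Δ τ

lemma jan_apply (τ : ℍ) : jan τ = E₄ τ ^ 3 / Δ τ := rfl

/-- `jan` is `SL(2,ℤ)`-invariant. -/
theorem jan_smul (γ : SL(2, ℤ)) (τ : ℍ) : jan (γ • τ) = jan τ := by
  have h1 := congrFun (slash_E₄ γ) τ
  have h2 := congrFun (slash_discriminant γ) τ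
  rw [ModularForm.SL_slash_apply] at h1 h2
  have hd : denom γ τ ≠ 0 := denom_ne_zero γ τ
  have h1' : E₄ (γ • τ) = E₄ τ * denom γ τ ^ (4 : ℤ) := by
    rw [← h1, mul_assoc, ← zpow_add₀ hd]; simp
  have h2' : Δ (γ • τ) = Δ τ * denom γ τ ^ (12 : ℤ) := by
    rw [← h2, mul_assoc, ← zpow_add₀ hd]; simp
  rw [jan, jan, h1', h2', mul_pow, ← zpow_natCast (denom γ τ ^ (4 : ℤ)) 3, ← zpow_mul]
  have : ((4 : ℤ) * ((3 : ℕ) : ℤ)) = 12 := by norm_num
  rw [this]
  have hz : denom γ τ ^ (12 : ℤ) ≠ 0 := zpow_ne_zero _ hd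
  field_simp [discriminant_ne_zero τ]

lemma mdifferentiable_jan : MDiff jan := by
  have h4 : MDiff ((E₄ : ℍ → ℂ) * E₄ * E₄) :=
    (mdifferentiable_E₄.mul mdifferentiable_E₄).mul mdifferentiable_E₄
  have := h4.div mdifferentiable_discriminant discriminant_ne_zero
  have e : jan = ((E₄ : ℍ → ℂ) * E₄ * E₄) / (Δ : ℍ → ℂ) := by
    funext z; simp [jan, pow_succ]
  rw [e]; exact this

/-- `jan` is surjective. -/
theorem jan_surjective (a : ℂ) : ∃ τ : ℍ, jan τ = a := by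
  by_contra hne
  push Not at hne
  let h : ℍ → ℂ := (E₄ : ℍ → ℂ) * E₄ * E₄ - a • (Δ : ℍ → ℂ)
  have hh_ne : ∀ z, h z ≠ 0 := by
    intro z hz
    apply hne z
    simp only [h, Pi.sub_apply, Pi.mul_apply, Pi.smul_apply, smul_eq_mul] at hz
    rw [jan, div_eq_iff (discriminant_ne_zero z)]
    linear_combination hz
  have hh_hol : MDiff h :=
    ((E₄.holo'.mul E₄.holo').mul E₄.holo').sub (mdifferentiable_discriminant.const_smul a)
  have hh_inv : ∀ γ : SL(2, ℤ), h ∣[(12 : ℤ)] γ = h := by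
    intro γ
    simp only [h, sub_eq_add_neg, SlashAction.add_slash, SlashAction.neg_slash,
      ModularForm.SL_smul_slash, slash_E₄_cube, slash_discriminant]
  have hh_tend : Tendsto h atImInfty (𝓝 1) := by
    have := ((tendsto_E₄.mul tendsto_E₄).mul tendsto_E₄).sub (tendsto_discriminant.const_mul a)
    have e : h = fun x => E₄ x * E₄ x * E₄ x - a * Δ x := rfl
    rw [e]
    simpa using this
  let g : ℍ → ℂ := (Δ : ℍ → ℂ) / h
  have hg_hol : MDiff g := mdifferentiable_discriminant.div hh_hol hh_ne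
  have hg_inv : ∀ γ : SL(2, ℤ), g ∣[(0 : ℤ)] γ = g := by
    intro γ
    have h0 : (0 : ℤ) = 12 - 12 := by norm_num
    simp only [g]
    rw [h0, ModularForm.div_slash_SL2, slash_discriminant, hh_inv]
  have hg_zero : IsZeroAtImInfty g := by
    have := tendsto_discriminant.div hh_tend one_ne_zero
    simpa [g, IsZeroAtImInfty, ZeroAtFilter] using this
  have hg0 := congrFun (eq_zero_of_weight_lt_twelve (by norm_num) g hg_hol hg_inv hg_zero)
    UpperHalfPlane.I
  simp only [g, Pi.div_apply, Pi.zero_apply, div_eq_zero_iff] at hg0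
  rcases hg0 with h1 | h1
  · exact discriminant_ne_zero _ h1
  · exact hh_ne _ h1

/-! ### Derivatives -/

lemma differentiableAt_comp_ofComplex {f : ℍ → ℂ} (hf : MDiff f) (τ : ℍ) :
    DifferentiableAt ℂ (f ∘ ofComplex) τ :=
  UpperHalfPlane.mdifferentiableAt_iff.mp (hf τ)

lemma analyticAt_comp_ofComplex {f : ℍ → ℂ} (hf : MDiff f) (τ : ℍ) :
    AnalyticAt ℂ (f ∘ ofComplex) τ := by
  have hd : DifferentiableOn ℂ (f ∘ ofComplex) upperHalfPlaneSet :=
    (UpperHalfPlane.mdifferentiable_iff.mp hf)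
  exact hd.analyticAt (isOpen_upperHalfPlaneSet.mem_nhds τ.im_pos)

lemma two_pi_I_ne_zero' : (2 * (π : ℂ) * I) ≠ 0 := by simp [Real.pi_ne_zero]

lemma deriv_comp_ofComplex (f : ℍ → ℂ) (τ : ℍ) :
    deriv (f ∘ ofComplex) τ = 2 * π * I * D f τ := by
  have := two_pi_I_ne_zero'
  rw [normalizedDerivOfComplex]
  field_simp

lemma hasDerivAt_comp_ofComplex {f : ℍ → ℂ} (hf : MDiff f) (τ : ℍ) :
    HasDerivAt (f ∘ ofComplex) (2 * π * I * D f τ) τ := by
  rw [← deriv_comp_ofComplex]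
  exact (differentiableAt_comp_ofComplex hf τ).hasDerivAt

theorem analyticAt_jan (τ : ℍ) : AnalyticAt ℂ (jan ∘ ofComplex) τ :=
  analyticAt_comp_ofComplex mdifferentiable_jan τ

/-- The normalised derivative of `jan`: `D j = - E₄² E₆ / Δ`. -/
theorem D_jan (τ : ℍ) : D jan τ = -(E₄ τ ^ 2 * E₆ τ / Δ τ) := by
  have e : jan * (Δ : ℍ → ℂ) = (E₄ : ℍ → ℂ) ^ 3 := by
    funext z
    simp only [Pi.mul_apply, Pi.pow_apply, jan]
    field_simp [discriminant_ne_zero z]
  have h := congrFun (congrArg D e) τ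
  rw [normalizedDerivOfComplex_mul _ _ mdifferentiable_jan mdifferentiable_discriminant,
    normalizedDerivOfComplex_pow _ _ mdifferentiable_E₄] at h
  simp only [Pi.add_apply, Pi.mul_apply, Pi.pow_apply, Nat.cast_ofNat, Pi.ofNat_apply,
    show (3 - 1 : ℕ) = 2 from rfl] at h
  rw [D_discriminant, D_E₄] at h
  have hΔ := discriminant_ne_zero τ
  have hj : jan τ = E₄ τ ^ 3 / Δ τ := rfl
  rw [hj] at h
  field_simp at h ⊢
  linear_combination h

theorem deriv_jan (τ : ℍ) :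
    deriv (jan ∘ ofComplex) τ = -(2 * π * I) * (E₄ τ ^ 2 * E₆ τ / Δ τ) := by
  rw [deriv_comp_ofComplex, D_jan]
  ring

theorem jan_sub_1728 (τ : ℍ) : jan τ - 1728 = E₆ τ ^ 2 / Δ τ := by
  have hΔ := discriminant_ne_zero τ
  have := discriminant_eq_E₄_cube_sub_E₆_sq τ
  rw [jan]
  field_simp
  linear_combination (-1728 : ℂ) * this

lemma jan_eq_zero_iff (τ : ℍ) : jan τ = 0 ↔ E₄ τ = 0 := by
  simp [jan, discriminant_ne_zero τ]

lemma jan_eq_1728_iff (τ : ℍ) : jan τ = 1728 ↔ E₆ τ = 0 := by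
  rw [← sub_eq_zero, jan_sub_1728]
  simp [discriminant_ne_zero τ]

/-! ### Generic points -/

/-- At a point where `jan` is neither `0` nor `1728`, the derivative of `jan` is nonzero. -/
theorem deriv_jan_ne_zero (τ : ℍ) (h0 : jan τ ≠ 0) (h1 : jan τ ≠ 1728) :
    deriv (jan ∘ ofComplex) τ ≠ 0 := by
  rw [deriv_jan]
  have h4 : E₄ τ ≠ 0 := fun h => h0 ((jan_eq_zero_iff τ).mpr h)
  have h6 : E₆ τ ≠ 0 := fun h => h1 ((jan_eq_1728_iff τ).mpr h)
  have hΔ := discriminant_ne_zero τ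
  have := two_pi_I_ne_zero'
  simp [h4, h6, hΔ, Real.pi_ne_zero]

/-- Generic points: `jan - jan τ` has a simple zero at `τ`. -/
theorem analyticOrderAt_jan_sub (τ : ℍ) (h0 : jan τ ≠ 0) (h1 : jan τ ≠ 1728) :
    analyticOrderAt (fun z : ℂ => jan (ofComplex z) - jan τ) τ = 1 := by
  have := (analyticAt_jan τ).analyticOrderAt_sub_eq_one_of_deriv_ne_zero
    (deriv_jan_ne_zero τ h0 h1)
  simpa [Function.comp_apply, ofComplex_apply] using this

/-- Generic points: `jan - jan τ` has a simple zero at `τ` (meromorphic order version). -/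
theorem meromorphicOrderAt_jan_sub (τ : ℍ) (h0 : jan τ ≠ 0) (h1 : jan τ ≠ 1728) :
    meromorphicOrderAt (fun z : ℂ => jan (ofComplex z) - jan τ) τ = 1 := by
  have ha : AnalyticAt ℂ (fun z : ℂ => jan (ofComplex z) - jan τ) τ :=
    (analyticAt_jan τ).sub analyticAt_const
  rw [ha.meromorphicOrderAt_eq, analyticOrderAt_jan_sub τ h0 h1]
  rfl

/-- Meromorphic order of the analytic function `f ∘ ofComplex` for `f` nonvanishing at `τ`. -/
lemma meromorphicOrderAt_comp_ofComplex_of_ne_zero {f : ℍ → ℂ} (hf : MDiff f) (τ : ℍ)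
    (h : f τ ≠ 0) : meromorphicOrderAt (f ∘ ofComplex) (τ : ℂ) = 0 := by
  have ha := analyticAt_comp_ofComplex hf τ
  rw [ha.meromorphicOrderAt_eq]
  have : analyticOrderAt (f ∘ ofComplex) (τ : ℂ) = 0 := by
    rw [ha.analyticOrderAt_eq_zero]
    simpa [Function.comp_apply, ofComplex_apply] using h
  rw [this]; rfl

/-- Passing from meromorphic order to analytic order for analytic functions. -/
lemma analyticOrderAt_eq_of_meromorphicOrderAt_eq {f : ℂ → ℂ} {z : ℂ} (ha : AnalyticAt ℂ f z)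
    {n : ℕ} (h : meromorphicOrderAt f z = (n : ℤ)) : analyticOrderAt f z = n := by
  rw [ha.meromorphicOrderAt_eq] at h
  cases hn : analyticOrderAt f z with
  | top => rw [hn] at h; simp at h
  | coe m =>
    rw [hn] at h
    simp only [ENat.map_natCast] at h
    have h2 : (m : ℤ) = n := WithTop.coe_injective h
    have h3 : m = n := by omega
    rw [h3]

/-! ### The point `i` -/

lemma S_smul_I : ModularGroup.S • UpperHalfPlane.I = UpperHalfPlane.I := by
  rw [UpperHalfPlane.modular_S_smul]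
  ext
  simp

theorem E₆_I : E₆ UpperHalfPlane.I = 0 := by
  have h := congrFun (slash_E₆ ModularGroup.S) UpperHalfPlane.I
  rw [ModularForm.SL_slash_apply, S_smul_I, ModularGroup.denom_S] at h
  have hI : ((UpperHalfPlane.I : ℍ) : ℂ) ^ (-(6 : ℤ)) = -1 := by
    rw [UpperHalfPlane.coe_I, zpow_neg, show (6 : ℤ) = ((6 : ℕ) : ℤ) by norm_num, zpow_natCast]
    have : (I : ℂ) ^ 6 = -1 := by
      calc (I : ℂ) ^ 6 = (I ^ 2) ^ 3 := by ring
        _ = -1 := by rw [I_sq]; norm_num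
    rw [this]; norm_num
  rw [hI] at h
  have : (2 : ℂ) * E₆ UpperHalfPlane.I = 0 := by linear_combination -h
  simpa using this

theorem jan_I : jan UpperHalfPlane.I = 1728 := (jan_eq_1728_iff _).mpr E₆_I

theorem E₄_I_ne_zero : E₄ UpperHalfPlane.I ≠ 0 := by
  intro h
  have := discriminant_eq_E₄_cube_sub_E₆_sq UpperHalfPlane.I
  rw [h, E₆_I] at this
  exact discriminant_ne_zero _ (by simpa using this)

/-- `E₆` has a simple zero at `i`. -/
theorem analyticOrderAt_E₆_I :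
    analyticOrderAt ((E₆ : ℍ → ℂ) ∘ ofComplex) (UpperHalfPlane.I : ℍ) = 1 := by
  apply (analyticAt_comp_ofComplex mdifferentiable_E₆ _).analyticOrderAt_eq_one_of_zero_deriv_ne_zero
  · rw [Function.comp_apply, ofComplex_apply]
    exact E₆_I
  · rw [deriv_comp_ofComplex, D_E₆, E₆_I]
    have := E₄_I_ne_zero
    have := two_pi_I_ne_zero'
    simp_all

/-- `jan - 1728` vanishes to order exactly `2` at `i`. -/
theorem meromorphicOrderAt_jan_sub_1728_I :
    meromorphicOrderAt (fun z : ℂ => jan (ofComplex z) - 1728) (UpperHalfPlane.I : ℍ) = 2 := by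
  have e : (fun z : ℂ => jan (ofComplex z) - 1728) =
      ((E₆ : ℍ → ℂ) ∘ ofComplex) ^ 2 / ((Δ : ℍ → ℂ) ∘ ofComplex) := by
    funext z
    simp [jan_sub_1728]
  have h6 := analyticAt_comp_ofComplex mdifferentiable_E₆ UpperHalfPlane.I
  have hΔ := analyticAt_comp_ofComplex mdifferentiable_discriminant UpperHalfPlane.I
  rw [e, meromorphicOrderAt_div (h6.meromorphicAt.pow 2) hΔ.meromorphicAt,
    meromorphicOrderAt_pow h6.meromorphicAt, h6.meromorphicOrderAt_eq, analyticOrderAt_E₆_I,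
    meromorphicOrderAt_comp_ofComplex_of_ne_zero mdifferentiable_discriminant _
      (discriminant_ne_zero _)]
  rfl

/-- `jan - 1728` vanishes to order exactly `2` at `i` (analytic order version). -/
theorem analyticOrderAt_jan_sub_1728_I :
    analyticOrderAt (fun z : ℂ => jan (ofComplex z) - 1728) (UpperHalfPlane.I : ℍ) = 2 :=
  analyticOrderAt_eq_of_meromorphicOrderAt_eq (n := 2)
    ((analyticAt_jan _).sub analyticAt_const) meromorphicOrderAt_jan_sub_1728_I

/-! ### The point `ρ` -/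

lemma rho_im_pos : 0 < (-1 / 2 + ((Real.sqrt 3 / 2 : ℝ) : ℂ) * I).im := by
  have : (-1 / 2 + ((Real.sqrt 3 / 2 : ℝ) : ℂ) * I).im = Real.sqrt 3 / 2 := by
    simp only [add_im, mul_im, ofReal_re, Complex.I_im, mul_one, ofReal_im, Complex.I_re,
      mul_zero, add_zero]
    have : (-1 / 2 : ℂ).im = 0 := by norm_num
    rw [this, zero_add]
  rw [this]
  positivity

/-- The point `ρ = -1/2 + (√3/2) i` of the upper half plane. -/
def rho : ℍ := ⟨-1 / 2 + ((Real.sqrt 3 / 2 : ℝ) : ℂ) * I, rho_im_pos⟩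

lemma coe_rho : (rho : ℂ) = -1 / 2 + ((Real.sqrt 3 / 2 : ℝ) : ℂ) * I := rfl

lemma rho_sq_add_rho_add_one : (rho : ℂ) ^ 2 + rho + 1 = 0 := by
  have h3 : ((Real.sqrt 3 : ℝ) : ℂ) ^ 2 = 3 := by
    rw [← ofReal_pow, Real.sq_sqrt (by norm_num)]; norm_num
  rw [coe_rho]
  push_cast
  linear_combination (-(1 : ℂ) / 4) * h3 + ((Real.sqrt 3 : ℂ) ^ 2 / 4) * I_sq

lemma rho_ne_one : (rho : ℂ) ≠ 1 := by
  intro h
  have := rho_sq_add_rho_add_one
  rw [h] at this
  norm_num at this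

lemma rho_ne_zero : (rho : ℂ) ≠ 0 := by
  intro h
  have := rho_sq_add_rho_add_one
  rw [h] at this
  norm_num at this

lemma ST_smul_rho : (ModularGroup.S * ModularGroup.T) • rho = rho := by
  rw [mul_smul, UpperHalfPlane.modular_T_smul, UpperHalfPlane.modular_S_smul]
  ext
  simp only [coe_vadd]
  have h := rho_sq_add_rho_add_one
  have hρ := rho_ne_zero
  change (-(((1 : ℝ) : ℂ) + (rho : ℂ)))⁻¹ = (rho : ℂ)
  rw [inv_eq_iff_eq_inv]
  field_simp
  push_cast
  linear_combination -h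

lemma denom_ST_rho :
    denom (Matrix.SpecialLinearGroup.toGL ((Matrix.SpecialLinearGroup.map (Int.castRingHom ℝ))
      (ModularGroup.S * ModularGroup.T))) (rho : ℂ) = (rho : ℂ) + 1 := by
  rw [ModularGroup.denom_apply]
  simp [Matrix.SpecialLinearGroup.coe_mul, ModularGroup.coe_S, ModularGroup.coe_T,
    Matrix.mul_apply, Fin.sum_univ_two]

theorem E₄_rho : E₄ rho = 0 := by
  have h := congrFun (slash_E₄ (ModularGroup.S * ModularGroup.T)) rho
  rw [ModularForm.SL_slash_apply, ST_smul_rho, denom_ST_rho] at h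
  have hρ := rho_sq_add_rho_add_one
  have hw : ((rho : ℂ) + 1) ^ (-(4 : ℤ)) = (rho : ℂ) := by
    have hw0 : (rho : ℂ) + 1 ≠ 0 := by
      intro h0
      have : (rho : ℂ) = -1 := by linear_combination h0
      rw [this] at hρ
      norm_num at hρ
    rw [zpow_neg, show (4 : ℤ) = ((4 : ℕ) : ℤ) by norm_num, zpow_natCast, inv_eq_iff_eq_inv]
    have hρ0 := rho_ne_zero
    field_simp
    linear_combination ((rho : ℂ) ^ 3 + 3 * rho ^ 2 + 2 * rho - 1) * hρ
  rw [hw] at h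
  have h1 : E₄ rho * ((rho : ℂ) - 1) = 0 := by linear_combination h
  rcases mul_eq_zero.mp h1 with h2 | h2
  · exact h2
  · exact absurd (sub_eq_zero.mp h2) rho_ne_one

theorem jan_rho : jan rho = 0 := (jan_eq_zero_iff _).mpr E₄_rho

theorem E₆_rho_ne_zero : E₆ rho ≠ 0 := by
  intro h
  have := discriminant_eq_E₄_cube_sub_E₆_sq rho
  rw [h, E₄_rho] at this
  exact discriminant_ne_zero _ (by simpa using this)

/-- `E₄` has a simple zero at `ρ`. -/
theorem analyticOrderAt_E₄_rho :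
    analyticOrderAt ((E₄ : ℍ → ℂ) ∘ ofComplex) (rho : ℍ) = 1 := by
  apply (analyticAt_comp_ofComplex mdifferentiable_E₄ _).analyticOrderAt_eq_one_of_zero_deriv_ne_zero
  · rw [Function.comp_apply, ofComplex_apply]
    exact E₄_rho
  · rw [deriv_comp_ofComplex, D_E₄, E₄_rho]
    have := E₆_rho_ne_zero
    have := two_pi_I_ne_zero'
    simp_all

/-- `jan` vanishes to order exactly `3` at `ρ`. -/
theorem meromorphicOrderAt_jan_rho :
    meromorphicOrderAt (fun z : ℂ => jan (ofComplex z)) (rho : ℍ) = 3 := by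
  have e : (fun z : ℂ => jan (ofComplex z)) =
      ((E₄ : ℍ → ℂ) ∘ ofComplex) ^ 3 / ((Δ : ℍ → ℂ) ∘ ofComplex) := by
    funext z
    simp [jan]
  have h4 := analyticAt_comp_ofComplex mdifferentiable_E₄ rho
  have hΔ := analyticAt_comp_ofComplex mdifferentiable_discriminant rho
  rw [e, meromorphicOrderAt_div (h4.meromorphicAt.pow 3) hΔ.meromorphicAt,
    meromorphicOrderAt_pow h4.meromorphicAt, h4.meromorphicOrderAt_eq, analyticOrderAt_E₄_rho,
    meromorphicOrderAt_comp_ofComplex_of_ne_zero mdifferentiable_discriminant _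
      (discriminant_ne_zero _)]
  rfl

/-- `jan` vanishes to order exactly `3` at `ρ` (analytic order version). -/
theorem analyticOrderAt_jan_rho :
    analyticOrderAt (fun z : ℂ => jan (ofComplex z)) (rho : ℍ) = 3 :=
  analyticOrderAt_eq_of_meromorphicOrderAt_eq (n := 3) (analyticAt_jan _)
    meromorphicOrderAt_jan_rho

/-- `jan - 0` vanishes to order exactly `3` at `ρ` (in the same shape as the other statements). -/
theorem meromorphicOrderAt_jan_sub_zero_rho :
    meromorphicOrderAt (fun z : ℂ => jan (ofComplex z) - 0) (rho : ℍ) = 3 := by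
  simpa using meromorphicOrderAt_jan_rho

end Fermat.Agent.S24.helper48
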