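import Mathlib
import Fermat.Agent.S24.helper48_LocalOrders
import Fermat.Agent.S24.helper99_Germ

/-!
# S24 / AN-moebius (helper48): the action of `SL(2,ℤ)` as local analytic charts on `ℍ`

For `γ : SL(2,ℤ)` the map `chartSL γ : ℂ → ℂ`, `z ↦ ↑(γ • ofComplex z)`, is analytic at every
point of the upper half plane, with derivative `1 / (c τ + d) ^ 2`.  We record

* order invariance: the order of `τ' ↦ f (γ • τ')` at `τ` is the order of `f` at `γ • τ`;
* rotation data at the elliptic points: `S` fixes `i` with derivative `-1`, and `S * T`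
  (and its inverse) fixes `ρ` with derivative a primitive cube root of unity;
* divisibility of orders of invariant functions at `i` and `ρ`;
* orders of `jan - 1728` and `jan` at arbitrary zeros of `E₆` and `E₄`.
-/

set_option autoImplicit false

noncomputable section

namespace Fermat.Agent.S24.helper48

open UpperHalfPlane hiding I
open Complex ModularForm EisensteinSeries Filter Topology
open scoped MatrixGroups Real Manifold

local notation "Δ" => ModularForm.discriminant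

/-! ### The chart map -/

/-- The chart map `z ↦ ↑(γ • ofComplex z)` of `γ : SL(2,ℤ)`. -/
def chartSL (γ : SL(2, ℤ)) (z : ℂ) : ℂ := ((γ • ofComplex z : ℍ) : ℂ)

lemma chartSL_coe (γ : SL(2, ℤ)) (τ : ℍ) : chartSL γ (τ : ℂ) = ((γ • τ : ℍ) : ℂ) := by
  rw [chartSL, ofComplex_apply]

lemma ofComplex_chartSL (γ : SL(2, ℤ)) (z : ℂ) :
    ofComplex (chartSL γ z) = γ • ofComplex z := by
  rw [chartSL, ofComplex_apply]

/-- Precomposition with the chart map is the same as precomposition with the action. -/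
lemma comp_ofComplex_comp_chartSL (f : ℍ → ℂ) (γ : SL(2, ℤ)) :
    (f ∘ ofComplex) ∘ chartSL γ = (fun τ : ℍ => f (γ • τ)) ∘ ofComplex := by
  funext z
  simp only [Function.comp_apply, ofComplex_chartSL]

lemma chartSL_of_smul_eq {γ : SL(2, ℤ)} {τ : ℍ} (h : γ • τ = τ) :
    chartSL γ (τ : ℂ) = (τ : ℂ) := by
  rw [chartSL_coe, h]

lemma det_coe_SL (γ : SL(2, ℤ)) : ((γ : GL (Fin 2) ℝ)).val.det = 1 := by
  have : ((γ : GL (Fin 2) ℝ)).val
      = ((Matrix.SpecialLinearGroup.map (Int.castRingHom ℝ) γ : SL(2, ℝ)) : Matrix _ _ ℝ) := rfl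
  rw [this, Matrix.SpecialLinearGroup.det_coe]

lemma det_coe_SL_pos (γ : SL(2, ℤ)) : 0 < ((γ : GL (Fin 2) ℝ)).val.det := by
  rw [det_coe_SL]; exact one_pos

lemma chartSL_eq (γ : SL(2, ℤ)) :
    chartSL γ = (fun z ↦ ↑((γ : GL (Fin 2) ℝ) • ofComplex z) : ℂ → ℂ) := rfl

theorem analyticAt_chartSL (γ : SL(2, ℤ)) (τ : ℍ) : AnalyticAt ℂ (chartSL γ) (τ : ℂ) :=
  UpperHalfPlane.analyticAt_smul (g := (γ : GL (Fin 2) ℝ)) (det_coe_SL_pos γ) τ

theorem deriv_chartSL (γ : SL(2, ℤ)) (τ : ℍ) :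
    deriv (chartSL γ) (τ : ℂ) = 1 / (denom γ τ) ^ 2 := by
  have := UpperHalfPlane.deriv_smul (g := (γ : GL (Fin 2) ℝ)) (det_coe_SL_pos γ) τ
  rw [det_coe_SL] at this
  rw [chartSL_eq, this]
  simp

theorem deriv_chartSL' (γ : SL(2, ℤ)) (τ : ℍ) :
    deriv (chartSL γ) (τ : ℂ) = 1 / ((γ 1 0 : ℂ) * τ + (γ 1 1 : ℂ)) ^ 2 := by
  rw [deriv_chartSL, ModularGroup.denom_apply]

theorem hasDerivAt_chartSL (γ : SL(2, ℤ)) (τ : ℍ) :
    HasDerivAt (chartSL γ) (1 / (denom γ τ) ^ 2) (τ : ℂ) := by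
  rw [← deriv_chartSL]
  exact (analyticAt_chartSL γ τ).differentiableAt.hasDerivAt

theorem deriv_chartSL_ne_zero (γ : SL(2, ℤ)) (τ : ℍ) : deriv (chartSL γ) (τ : ℂ) ≠ 0 := by
  rw [deriv_chartSL]
  exact one_div_ne_zero (pow_ne_zero _ (denom_ne_zero γ τ))

/-! ### Order invariance -/

/-- The order of `τ' ↦ f (γ • τ')` at `τ` is the order of `f` at `γ • τ`. -/
theorem meromorphicOrderAt_comp_smul_SL (f : ℍ → ℂ) (γ : SL(2, ℤ)) (τ : ℍ) :
    meromorphicOrderAt ((fun τ' : ℍ => f (γ • τ')) ∘ ofComplex) (τ : ℂ)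
      = meromorphicOrderAt (f ∘ ofComplex) ((γ • τ : ℍ) : ℂ) := by
  rw [← comp_ofComplex_comp_chartSL,
    meromorphicOrderAt_comp_of_deriv_ne_zero (analyticAt_chartSL γ τ) (deriv_chartSL_ne_zero γ τ),
    chartSL_coe]

/-- Meromorphy of `τ' ↦ f (γ • τ')` at `τ` is meromorphy of `f` at `γ • τ`. -/
theorem meromorphicAt_comp_smul_SL_iff (f : ℍ → ℂ) (γ : SL(2, ℤ)) (τ : ℍ) :
    MeromorphicAt ((fun τ' : ℍ => f (γ • τ')) ∘ ofComplex) (τ : ℂ)
      ↔ MeromorphicAt (f ∘ ofComplex) ((γ • τ : ℍ) : ℂ) := by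
  rw [← comp_ofComplex_comp_chartSL,
    meromorphicAt_comp_iff_of_deriv_ne_zero (analyticAt_chartSL γ τ) (deriv_chartSL_ne_zero γ τ),
    chartSL_coe]

/-- For an `SL(2,ℤ)`-invariant function the order at `γ • τ` is the order at `τ`. -/
theorem meromorphicOrderAt_smul_of_invariant (f : ℍ → ℂ) (γ : SL(2, ℤ))
    (hinv : ∀ τ : ℍ, f (γ • τ) = f τ) (τ : ℍ) :
    meromorphicOrderAt (f ∘ ofComplex) ((γ • τ : ℍ) : ℂ)
      = meromorphicOrderAt (f ∘ ofComplex) (τ : ℂ) := by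
  rw [← meromorphicOrderAt_comp_smul_SL]
  congr 1
  funext z
  simp only [Function.comp_apply, hinv]

/-! ### Fixed points and the rotation lemma -/

/-- If `γ` fixes `τ₀` and `f` is invariant under `γ` near `τ₀`, of finite order `n` at `τ₀`, then
`(1 / (c τ₀ + d) ^ 2) ^ n = 1`. -/
theorem zpow_deriv_chartSL_eq_one {γ : SL(2, ℤ)} {τ₀ : ℍ} (hγ : γ • τ₀ = τ₀) {f : ℍ → ℂ}
    (hf : MeromorphicAt (f ∘ ofComplex) (τ₀ : ℂ)) {n : ℤ}
    (hn : meromorphicOrderAt (f ∘ ofComplex) (τ₀ : ℂ) = n)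
    (hinv : (fun τ : ℍ => f (γ • τ)) ∘ ofComplex =ᶠ[𝓝[≠] (τ₀ : ℂ)] f ∘ ofComplex) :
    deriv (chartSL γ) (τ₀ : ℂ) ^ n = 1 := by
  refine helper99.zpow_deriv_eq_one_of_comp_eventuallyEq
    (analyticAt_chartSL γ τ₀).differentiableAt (chartSL_of_smul_eq hγ)
    (deriv_chartSL_ne_zero γ τ₀) hf hn ?_
  rw [comp_ofComplex_comp_chartSL]
  exact hinv

/-- **Rotation lemma on `ℍ`.** If `γ` fixes `τ₀`, the derivative of `γ` at `τ₀` is a primitive
`k`-th root of unity and `f` is invariant under `γ` near `τ₀`, of finite order `n` at `τ₀`, then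
`k ∣ n`. -/
theorem dvd_meromorphicOrderAt_of_smul_invariant {γ : SL(2, ℤ)} {τ₀ : ℍ} (hγ : γ • τ₀ = τ₀)
    {k : ℕ} (_hk0 : 0 < k) (hk : IsPrimitiveRoot (deriv (chartSL γ) (τ₀ : ℂ)) k) {f : ℍ → ℂ}
    (hf : MeromorphicAt (f ∘ ofComplex) (τ₀ : ℂ)) {n : ℤ}
    (hn : meromorphicOrderAt (f ∘ ofComplex) (τ₀ : ℂ) = n)
    (hinv : (fun τ : ℍ => f (γ • τ)) ∘ ofComplex =ᶠ[𝓝[≠] (τ₀ : ℂ)] f ∘ ofComplex) :
    (k : ℤ) ∣ n :=
  (hk.zpow_eq_one_iff_dvd n).mp (zpow_deriv_chartSL_eq_one hγ hf hn hinv)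

/-- Rotation lemma on `ℍ`, valuation form (the shape of `hdiv` in `local_count_of`). -/
theorem exists_V_eq_exp_mul_of_smul_invariant {γ : SL(2, ℤ)} {τ₀ : ℍ} (hγ : γ • τ₀ = τ₀)
    {k : ℕ} (hk0 : 0 < k) (hk : IsPrimitiveRoot (deriv (chartSL γ) (τ₀ : ℂ)) k) {f : ℍ → ℂ}
    (hf : MeromorphicAt (f ∘ ofComplex) (τ₀ : ℂ))
    (hne : helper99.MeroGerm.mk (f ∘ ofComplex) hf ≠ 0)
    (hinv : (fun τ : ℍ => f (γ • τ)) ∘ ofComplex =ᶠ[𝓝[≠] (τ₀ : ℂ)] f ∘ ofComplex) :
    ∃ m : ℤ, helper99.MeroGerm.V (τ₀ : ℂ) (helper99.MeroGerm.mk (f ∘ ofComplex) hf)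
      = WithZero.exp (m * (k : ℤ)) := by
  refine helper99.MeroGerm.exists_V_eq_exp_mul_of_comp_eventuallyEq (φ := chartSL γ) hk0
    (analyticAt_chartSL γ τ₀).differentiableAt (chartSL_of_smul_eq hγ) hk hf hne ?_
  rw [comp_ofComplex_comp_chartSL]
  exact hinv

/-! ### The point `i` -/

lemma Sinv_smul_I : ModularGroup.S⁻¹ • UpperHalfPlane.I = UpperHalfPlane.I := by
  rw [inv_smul_eq_iff, S_smul_I]

lemma deriv_chartSL_S_I : deriv (chartSL ModularGroup.S) (UpperHalfPlane.I : ℍ) = -1 := by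
  rw [deriv_chartSL, ModularGroup.denom_S, UpperHalfPlane.coe_I, I_sq]
  norm_num

lemma denom_Sinv (τ : ℍ) : denom (ModularGroup.S⁻¹ : SL(2, ℤ)) τ = -(τ : ℂ) := by
  rw [ModularGroup.denom_apply, Matrix.SpecialLinearGroup.coe_inv, Matrix.adjugate_fin_two]
  simp [ModularGroup.coe_S]

lemma deriv_chartSL_Sinv_I :
    deriv (chartSL ModularGroup.S⁻¹) (UpperHalfPlane.I : ℍ) = -1 := by
  rw [deriv_chartSL, denom_Sinv, UpperHalfPlane.coe_I, neg_sq, I_sq]
  norm_num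

lemma isPrimitiveRoot_neg_one_two : IsPrimitiveRoot (-1 : ℂ) 2 :=
  IsPrimitiveRoot.neg_one 0 (by norm_num)

theorem isPrimitiveRoot_deriv_chartSL_S_I :
    IsPrimitiveRoot (deriv (chartSL ModularGroup.S) (UpperHalfPlane.I : ℍ)) 2 := by
  rw [deriv_chartSL_S_I]; exact isPrimitiveRoot_neg_one_two

theorem isPrimitiveRoot_deriv_chartSL_Sinv_I :
    IsPrimitiveRoot (deriv (chartSL ModularGroup.S⁻¹) (UpperHalfPlane.I : ℍ)) 2 := by
  rw [deriv_chartSL_Sinv_I]; exact isPrimitiveRoot_neg_one_two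

/-- An `S`-invariant function has even order at `i`. -/
theorem two_dvd_meromorphicOrderAt_I {f : ℍ → ℂ}
    (hf : MeromorphicAt (f ∘ ofComplex) ((UpperHalfPlane.I : ℍ) : ℂ)) {n : ℤ}
    (hn : meromorphicOrderAt (f ∘ ofComplex) ((UpperHalfPlane.I : ℍ) : ℂ) = n)
    (hinv : ∀ τ : ℍ, f (ModularGroup.S • τ) = f τ) : (2 : ℤ) ∣ n := by
  have := dvd_meromorphicOrderAt_of_smul_invariant S_smul_I (k := 2) two_pos
    isPrimitiveRoot_deriv_chartSL_S_I hf hn
    (Eventually.of_forall fun z => by simp only [Function.comp_apply, hinv])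
  exact_mod_cast this

/-- Valuation form of `two_dvd_meromorphicOrderAt_I`. -/
theorem exists_V_eq_exp_mul_two_I {f : ℍ → ℂ}
    (hf : MeromorphicAt (f ∘ ofComplex) ((UpperHalfPlane.I : ℍ) : ℂ))
    (hne : helper99.MeroGerm.mk (f ∘ ofComplex) hf ≠ 0)
    (hinv : ∀ τ : ℍ, f (ModularGroup.S • τ) = f τ) :
    ∃ m : ℤ, helper99.MeroGerm.V ((UpperHalfPlane.I : ℍ) : ℂ)
      (helper99.MeroGerm.mk (f ∘ ofComplex) hf) = WithZero.exp (m * ((2 : ℕ) : ℤ)) :=
  exists_V_eq_exp_mul_of_smul_invariant S_smul_I two_pos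
    isPrimitiveRoot_deriv_chartSL_S_I hf hne
    (Eventually.of_forall fun z => by simp only [Function.comp_apply, hinv])

/-! ### The point `ρ` -/

lemma STinv_smul_rho :
    (ModularGroup.S * ModularGroup.T)⁻¹ • rho = rho := by
  rw [inv_smul_eq_iff, ST_smul_rho]

lemma denom_ST (τ : ℍ) :
    denom (ModularGroup.S * ModularGroup.T : SL(2, ℤ)) τ = (τ : ℂ) + 1 := by
  rw [ModularGroup.denom_apply]
  simp [Matrix.SpecialLinearGroup.coe_mul, ModularGroup.coe_S, ModularGroup.coe_T,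
    Matrix.mul_apply, Fin.sum_univ_two]

lemma denom_STinv (τ : ℍ) :
    denom ((ModularGroup.S * ModularGroup.T)⁻¹ : SL(2, ℤ)) τ = -(τ : ℂ) := by
  rw [ModularGroup.denom_apply, Matrix.SpecialLinearGroup.coe_inv, Matrix.adjugate_fin_two]
  simp [Matrix.SpecialLinearGroup.coe_mul, ModularGroup.coe_S, ModularGroup.coe_T]

lemma rho_cube : (rho : ℂ) ^ 3 = 1 := by
  linear_combination ((rho : ℂ) - 1) * rho_sq_add_rho_add_one

/-- The derivative of `S * T` at `ρ` is `ρ²`. -/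
lemma deriv_chartSL_ST_rho :
    deriv (chartSL (ModularGroup.S * ModularGroup.T)) (rho : ℂ) = (rho : ℂ) ^ 2 := by
  rw [deriv_chartSL, denom_ST]
  have h0 := rho_ne_zero
  have h := rho_sq_add_rho_add_one
  have h3 := rho_cube
  have h1 : ((rho : ℂ) + 1) ^ 2 = (rho : ℂ) := by linear_combination h
  rw [h1, one_div, inv_eq_iff_eq_inv, ← one_div, eq_div_iff (pow_ne_zero 2 h0)]
  linear_combination h3

/-- The derivative of `(S * T)⁻¹` at `ρ` is `ρ`. -/
lemma deriv_chartSL_STinv_rho :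
    deriv (chartSL (ModularGroup.S * ModularGroup.T)⁻¹) (rho : ℂ) = (rho : ℂ) := by
  rw [deriv_chartSL, denom_STinv, neg_sq]
  have h0 := rho_ne_zero
  have h3 := rho_cube
  rw [one_div, inv_eq_iff_eq_inv, ← one_div, eq_div_iff h0]
  linear_combination h3

lemma isPrimitiveRoot_rho : IsPrimitiveRoot (rho : ℂ) 3 := by
  refine IsPrimitiveRoot.mk_of_lt _ (by norm_num) rho_cube ?_
  intro l hl0 hl3 h
  have h' := rho_sq_add_rho_add_one
  interval_cases l
  · exact rho_ne_one (by simpa using h)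
  · rw [h] at h'
    have : (rho : ℂ) = -2 := by linear_combination h'
    rw [this] at h
    norm_num at h

lemma isPrimitiveRoot_rho_sq : IsPrimitiveRoot ((rho : ℂ) ^ 2) 3 := by
  refine IsPrimitiveRoot.mk_of_lt _ (by norm_num) ?_ ?_
  · calc ((rho : ℂ) ^ 2) ^ 3 = ((rho : ℂ) ^ 3) ^ 2 := by ring
      _ = 1 := by rw [rho_cube]; norm_num
  · intro l hl0 hl3 h
    have h' := rho_sq_add_rho_add_one
    have h3 := rho_cube
    interval_cases l
    · rw [pow_one] at h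
      rw [h] at h'
      have : (rho : ℂ) = -2 := by linear_combination h'
      rw [this] at h
      norm_num at h
    · have h4 : (rho : ℂ) = 1 := by
        calc (rho : ℂ) = (rho : ℂ) ^ 3 * rho := by rw [h3, one_mul]
          _ = ((rho : ℂ) ^ 2) ^ 2 := by ring
          _ = 1 := h
      exact rho_ne_one h4

theorem isPrimitiveRoot_deriv_chartSL_ST_rho :
    IsPrimitiveRoot (deriv (chartSL (ModularGroup.S * ModularGroup.T)) (rho : ℂ)) 3 := by
  rw [deriv_chartSL_ST_rho]; exact isPrimitiveRoot_rho_sq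

theorem isPrimitiveRoot_deriv_chartSL_STinv_rho :
    IsPrimitiveRoot (deriv (chartSL (ModularGroup.S * ModularGroup.T)⁻¹) (rho : ℂ)) 3 := by
  rw [deriv_chartSL_STinv_rho]; exact isPrimitiveRoot_rho

/-- An `S * T`-invariant function has order divisible by `3` at `ρ`. -/
theorem three_dvd_meromorphicOrderAt_rho {f : ℍ → ℂ}
    (hf : MeromorphicAt (f ∘ ofComplex) (rho : ℂ)) {n : ℤ}
    (hn : meromorphicOrderAt (f ∘ ofComplex) (rho : ℂ) = n)
    (hinv : ∀ τ : ℍ, f ((ModularGroup.S * ModularGroup.T) • τ) = f τ) : (3 : ℤ) ∣ n := by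
  have := dvd_meromorphicOrderAt_of_smul_invariant ST_smul_rho (k := 3) (by norm_num)
    isPrimitiveRoot_deriv_chartSL_ST_rho hf hn
    (Eventually.of_forall fun z => by simp only [Function.comp_apply, hinv])
  exact_mod_cast this

/-- Valuation form of `three_dvd_meromorphicOrderAt_rho`. -/
theorem exists_V_eq_exp_mul_three_rho {f : ℍ → ℂ}
    (hf : MeromorphicAt (f ∘ ofComplex) (rho : ℂ))
    (hne : helper99.MeroGerm.mk (f ∘ ofComplex) hf ≠ 0)
    (hinv : ∀ τ : ℍ, f ((ModularGroup.S * ModularGroup.T) • τ) = f τ) :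
    ∃ m : ℤ, helper99.MeroGerm.V (rho : ℂ)
      (helper99.MeroGerm.mk (f ∘ ofComplex) hf) = WithZero.exp (m * ((3 : ℕ) : ℤ)) :=
  exists_V_eq_exp_mul_of_smul_invariant ST_smul_rho (by norm_num)
    isPrimitiveRoot_deriv_chartSL_ST_rho hf hne
    (Eventually.of_forall fun z => by simp only [Function.comp_apply, hinv])

/-! ### Orders of `jan - 1728` and `jan` at arbitrary zeros of `E₆`, `E₄` -/

lemma E₄_ne_zero_of_E₆_eq_zero {τ : ℍ} (h : E₆ τ = 0) : E₄ τ ≠ 0 := by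
  intro h4
  have := discriminant_eq_E₄_cube_sub_E₆_sq τ
  rw [h4, h] at this
  exact discriminant_ne_zero _ (by simpa using this)

lemma E₆_ne_zero_of_E₄_eq_zero {τ : ℍ} (h : E₄ τ = 0) : E₆ τ ≠ 0 := by
  intro h6
  have := discriminant_eq_E₄_cube_sub_E₆_sq τ
  rw [h6, h] at this
  exact discriminant_ne_zero _ (by simpa using this)

/-- `E₆` has only simple zeros. -/
theorem analyticOrderAt_E₆_of_eq_zero {τ : ℍ} (h : E₆ τ = 0) :
    analyticOrderAt ((E₆ : ℍ → ℂ) ∘ ofComplex) (τ : ℂ) = 1 := by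
  apply (analyticAt_comp_ofComplex mdifferentiable_E₆ _).analyticOrderAt_eq_one_of_zero_deriv_ne_zero
  · rw [Function.comp_apply, ofComplex_apply]
    exact h
  · rw [deriv_comp_ofComplex, D_E₆, h]
    have := E₄_ne_zero_of_E₆_eq_zero h
    have := two_pi_I_ne_zero'
    simp_all

/-- `E₄` has only simple zeros. -/
theorem analyticOrderAt_E₄_of_eq_zero {τ : ℍ} (h : E₄ τ = 0) :
    analyticOrderAt ((E₄ : ℍ → ℂ) ∘ ofComplex) (τ : ℂ) = 1 := by
  apply (analyticAt_comp_ofComplex mdifferentiable_E₄ _).analyticOrderAt_eq_one_of_zero_deriv_ne_zero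
  · rw [Function.comp_apply, ofComplex_apply]
    exact h
  · rw [deriv_comp_ofComplex, D_E₄, h]
    have := E₆_ne_zero_of_E₄_eq_zero h
    have := two_pi_I_ne_zero'
    simp_all

/-- At every point with `jan τ = 1728` the function `jan - 1728` vanishes to order exactly `2`. -/
theorem meromorphicOrderAt_jan_sub_1728_of_eq {τ : ℍ} (h : jan τ = 1728) :
    meromorphicOrderAt (fun z : ℂ => jan (ofComplex z) - 1728) (τ : ℂ) = 2 := by
  have h6z : E₆ τ = 0 := (jan_eq_1728_iff τ).mp h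
  have e : (fun z : ℂ => jan (ofComplex z) - 1728) =
      ((E₆ : ℍ → ℂ) ∘ ofComplex) ^ 2 / ((Δ : ℍ → ℂ) ∘ ofComplex) := by
    funext z
    simp [jan_sub_1728]
  have h6 := analyticAt_comp_ofComplex mdifferentiable_E₆ τ
  have hΔ := analyticAt_comp_ofComplex mdifferentiable_discriminant τ
  rw [e, meromorphicOrderAt_div (h6.meromorphicAt.pow 2) hΔ.meromorphicAt,
    meromorphicOrderAt_pow h6.meromorphicAt, h6.meromorphicOrderAt_eq,
    analyticOrderAt_E₆_of_eq_zero h6z,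
    meromorphicOrderAt_comp_ofComplex_of_ne_zero mdifferentiable_discriminant _
      (discriminant_ne_zero _)]
  rfl

/-- At every point with `jan τ = 0` the function `jan` vanishes to order exactly `3`. -/
theorem meromorphicOrderAt_jan_of_eq_zero {τ : ℍ} (h : jan τ = 0) :
    meromorphicOrderAt (fun z : ℂ => jan (ofComplex z)) (τ : ℂ) = 3 := by
  have h4z : E₄ τ = 0 := (jan_eq_zero_iff τ).mp h
  have e : (fun z : ℂ => jan (ofComplex z)) =
      ((E₄ : ℍ → ℂ) ∘ ofComplex) ^ 3 / ((Δ : ℍ → ℂ) ∘ ofComplex) := by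
    funext z
    simp [jan]
  have h4 := analyticAt_comp_ofComplex mdifferentiable_E₄ τ
  have hΔ := analyticAt_comp_ofComplex mdifferentiable_discriminant τ
  rw [e, meromorphicOrderAt_div (h4.meromorphicAt.pow 3) hΔ.meromorphicAt,
    meromorphicOrderAt_pow h4.meromorphicAt, h4.meromorphicOrderAt_eq,
    analyticOrderAt_E₄_of_eq_zero h4z,
    meromorphicOrderAt_comp_ofComplex_of_ne_zero mdifferentiable_discriminant _
      (discriminant_ne_zero _)]
  rfl

/-- Uniform statement: the order of `jan - jan τ₀` at `τ₀` is `1`, `2` or `3` according to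
`jan τ₀ ∉ {0, 1728}`, `jan τ₀ = 1728`, `jan τ₀ = 0`. -/
theorem meromorphicOrderAt_jan_sub_self (τ₀ : ℍ) :
    meromorphicOrderAt (fun z : ℂ => jan (ofComplex z) - jan τ₀) (τ₀ : ℂ)
      = if jan τ₀ = 0 then 3 else if jan τ₀ = 1728 then 2 else 1 := by
  split_ifs with h0 h1
  · rw [h0]
    simpa using meromorphicOrderAt_jan_of_eq_zero h0
  · rw [h1]
    exact meromorphicOrderAt_jan_sub_1728_of_eq h1
  · exact meromorphicOrderAt_jan_sub τ₀ h0 h1

end Fermat.Agent.S24.helper48
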