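import Mathlib
import Fermat.Agent.S24.Defs

/-! # S24 / AN-degree, part 1 (helper77): transcendence of `j` over `Qbar`. -/

set_option autoImplicit false

namespace Fermat.Agent.S24.helper77

open ModularCurve HahnSeries IntermediateField

/-- An element of a field extension `L` of an algebraically closed field `K` which is algebraic
over `K` lies in (the image of) `K`. -/
theorem mem_range_algebraMap_of_isAlgebraic {K L : Type*} [Field K] [Field L] [Algebra K L]
    [IsAlgClosed K] {x : L} (hx : IsAlgebraic K x) : x ∈ Set.range (algebraMap K L) := by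
  have hint : IsIntegral K x := hx.isIntegral
  refine ⟨-(minpoly K x).coeff 0, ?_⟩
  have hq : (minpoly K x).leadingCoeff = 1 := minpoly.monic hint
  have h : (minpoly K x).degree = 1 :=
    IsAlgClosed.degree_eq_one_of_irreducible K (minpoly.irreducible hint)
  have : Polynomial.aeval x (minpoly K x) = 0 := minpoly.aeval K x
  rw [Polynomial.eq_X_add_C_of_degree_eq_one h, hq, Polynomial.C_1, one_mul, Polynomial.aeval_add,
    Polynomial.aeval_X, Polynomial.aeval_C, add_eq_zero_iff_eq_neg] at this
  exact (map_neg (algebraMap K L) ((minpoly K x).coeff 0)).symm ▸ this.symm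

/-- The element `j` of the function field, in the form used in the S24 interface draft. -/
noncomputable def jF (N : ℕ) : modularFunctionFieldBar N :=
  ⟨coeffEmb (AlgebraicClosure ℚ) jq, coeffEmb_mem_laurentBaseChange _ (by
    have h := jqd_mem_full N (one_dvd N)
    rwa [qExpand_one_apply] at h)⟩

@[simp] theorem coe_jF (N : ℕ) :
    ((jF N : modularFunctionFieldBar N) : LaurentSeries Kbar) = coeffEmb Kbar jq := rfl

/-- `xJ N` of `Defs.lean` is the interface's `jF N`. -/
theorem xJ_eq_jF (N : ℕ) : xJ N = jF N := by
  apply Subtype.ext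
  show coeffEmb Kbar (qExpand ℚ 1 jq) = coeffEmb Kbar jq
  rw [qExpand_one_apply]

@[simp] theorem coe_xJ (N : ℕ) :
    ((xJ N : FN N) : LaurentSeries Kbar) = coeffEmb Kbar jq := by
  rw [xJ_eq_jF]; rfl

theorem Jd_one : Jd 1 = coeffEmb Kbar jq := by
  show coeffEmb Kbar (qExpand ℚ 1 jq) = coeffEmb Kbar jq
  rw [qExpand_one_apply]

/-- A Laurent series over an algebraically closed field which is algebraic over the constants is
a constant; in particular all its coefficients of nonzero index vanish. -/
theorem coeff_eq_zero_of_isAlgebraic {K : Type*} [Field K] [IsAlgClosed K]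
    {x : LaurentSeries K} (hx : IsAlgebraic K x) {k : ℤ} (hk : k ≠ 0) : x.coeff k = 0 := by
  obtain ⟨c, rfl⟩ := mem_range_algebraMap_of_isAlgebraic hx
  rw [algebraMap_laurentSeries_eq_single, HahnSeries.coeff_single_of_ne hk]

/-- AN-T1: `j` is transcendental over `Qbar` (interface form). -/
theorem jF_transcendental (N : ℕ) : Transcendental Kbar (jF N) := by
  intro halg
  have h1 : IsAlgebraic Kbar ((jF N : modularFunctionFieldBar N) : LaurentSeries Kbar) := by
    have := halg.algebraMap (A := LaurentSeries Kbar)
    simpa using this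
  have h2 := coeff_eq_zero_of_isAlgebraic h1 (k := -1) (by norm_num)
  rw [coe_jF, coeffEmb_coeff, coeff_jq_neg_one, map_one] at h2
  exact one_ne_zero h2

/-- AN-T1: `j` is transcendental over `Qbar` (`Defs.lean` form). -/
theorem an_transcendental (N : ℕ) : Transcendental Kbar (xJ N) := by
  rw [xJ_eq_jF]; exact jF_transcendental N

end Fermat.Agent.S24.helper77
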