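import Mathlib
import Fermat.Agent.S24.helper82_FFBasic

/-!
# S24 FF: separation of finitely many places (helper82)

`ff_exists_separating`: for a place `w` and a finite set `s` of places not containing `w` there
is a function vanishing at `w` and a unit at every place of `s`.

The proof is elementary valuation theory (no integral closures): distinct places have
incomparable valuation rings, poles are removed by `t ↦ t / (t + c)` for a generic constant `c`,
and the functions for the single places of `s` are combined by generic linear combinations.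
-/

set_option autoImplicit false

namespace Fermat.Agent.S24.helper82

open AlgebraicCurve IntermediateField WithZero

variable {K F : Type*} [Field K] [Field F] [Algebra K F]

section Val

variable (v : Place K F)

theorem ord_nonneg_iff_val_le_one {f : F} (hf : f ≠ 0) :
    0 ≤ v.ord f ↔ v.adicValuation f ≤ 1 := by
  have h0 := v.adicValuation_ne_zero hf
  rw [Place.ord, neg_nonneg, WithZero.log_le_iff_le_exp h0, WithZero.exp_zero]

theorem ord_pos_iff_val_lt_one {f : F} (hf : f ≠ 0) :
    0 < v.ord f ↔ v.adicValuation f < 1 := by
  have h0 := v.adicValuation_ne_zero hf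
  rw [Place.ord, neg_pos, WithZero.log_lt_iff_lt_exp h0, WithZero.exp_zero]

theorem ord_eq_zero_of_val_eq_one {f : F} (h : v.adicValuation f = 1) : v.ord f = 0 := by
  simp [Place.ord, h]

theorem val_le_one_iff_mem {f : F} : v.adicValuation f ≤ 1 ↔ f ∈ v.toValuationSubring := by
  rcases eq_or_ne f 0 with rfl | hf
  · simp [zero_mem]
  · rw [← ord_nonneg_iff_val_le_one v hf, mem_iff_ord_nonneg]

theorem val_algebraMap {c : K} (hc : c ≠ 0) : v.adicValuation (algebraMap K F c) = 1 := by
  have h0 : v.adicValuation (algebraMap K F c) ≠ 0 :=
    v.adicValuation_ne_zero (by simpa using hc)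
  have h := ord_algebraMap v c
  rw [Place.ord, neg_eq_zero] at h
  rw [← WithZero.exp_log h0, h, WithZero.exp_zero]

theorem val_algebraMap_le_one (c : K) : v.adicValuation (algebraMap K F c) ≤ 1 := by
  rcases eq_or_ne c 0 with rfl | hc
  · simp
  · exact (val_algebraMap v hc).le

/-- Distinct places have incomparable valuation rings. -/
theorem exists_val_le_one_and_one_lt {v w : Place K F} (h : v ≠ w) :
    ∃ a : F, v.adicValuation a ≤ 1 ∧ 1 < w.adicValuation a := by
  by_contra hcon
  apply h
  apply Place.ext
  refine ValuationSubring.eq_of_le_of_ne_top _ ?_ w.ne_top'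
  intro a ha
  rw [← val_le_one_iff_mem] at ha ⊢
  by_contra hlt
  exact hcon ⟨a, ha, not_le.mp hlt⟩

end Val

section Sep

variable [IsAlgClosed K] (x : F) (hx : Transcendental K x) [FiniteDimensional K⟮x⟯ F]

include hx in
theorem exists_val_sub_lt_one (v : Place K F) {f : F} (hf : v.adicValuation f ≤ 1) :
    ∃ a : K, v.adicValuation (f - algebraMap K F a) < 1 := by
  have hf' : 0 ≤ v.ord f := by
    rcases eq_or_ne f 0 with rfl | h0
    · simp
    · exact (ord_nonneg_iff_val_le_one v h0).mpr hf
  obtain ⟨a, ha | ha⟩ := ff_exists_residue x hx v f hf'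
  · exact ⟨a, by rw [ha, sub_self, map_zero]; exact zero_lt_one⟩
  · refine ⟨a, ?_⟩
    have hne : f - algebraMap K F a ≠ 0 := by
      intro h
      rw [h] at ha
      simp at ha
    exact (ord_pos_iff_val_lt_one v hne).mp ha

include hx in
/-- Removing the poles of `t` at the places of `s`, keeping the zero at `w`. -/
theorem exists_integral_modification (w : Place K F) (s : Finset (Place K F)) (t : F)
    (ht0 : t ≠ 0) (htw : w.adicValuation t < 1) :
    ∃ h : F, h ≠ 0 ∧ w.adicValuation h < 1 ∧
      ∀ u ∈ s, u.adicValuation h ≤ 1 ∧ (1 ≤ u.adicValuation t → u.adicValuation h = 1) := by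
  classical
  have hres : ∀ u : Place K F, ∃ a : K,
      u.adicValuation t ≤ 1 → u.adicValuation (t - algebraMap K F a) < 1 := by
    intro u
    by_cases hu : u.adicValuation t ≤ 1
    · obtain ⟨a, ha⟩ := exists_val_sub_lt_one x hx u hu
      exact ⟨a, fun _ => ha⟩
    · exact ⟨0, fun h => absurd h hu⟩
  choose a ha using hres
  have : Infinite K := IsAlgClosed.instInfinite
  obtain ⟨c, hc⟩ := Infinite.exists_notMem_finset (insert 0 (s.image fun u => -a u))
  have hc0 : c ≠ 0 := by
    intro h
    apply hc
    rw [h]
    exact Finset.mem_insert_self _ _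
  have hca : ∀ u ∈ s, a u + c ≠ 0 := by
    intro u hu h
    apply hc
    refine Finset.mem_insert_of_mem (Finset.mem_image.mpr ⟨u, hu, ?_⟩)
    linear_combination -h
  have hwc : w.adicValuation (t + algebraMap K F c) = 1 := by
    rw [Valuation.map_add_eq_of_lt_right, val_algebraMap w hc0]
    rw [val_algebraMap w hc0]
    exact htw
  have htc0 : t + algebraMap K F c ≠ 0 := by
    intro h
    rw [h, map_zero] at hwc
    exact zero_ne_one hwc
  refine ⟨t / (t + algebraMap K F c), div_ne_zero ht0 htc0, ?_, fun u hu => ?_⟩
  · rw [map_div₀, hwc, div_one]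
    exact htw
  · rcases le_or_gt (u.adicValuation t) 1 with h1 | h1
    · have h2 := ha u h1
      have h3 : u.adicValuation (t + algebraMap K F c) = 1 := by
        have : t + algebraMap K F c = (t - algebraMap K F (a u)) + algebraMap K F (a u + c) := by
          rw [map_add]; ring
        rw [this, Valuation.map_add_eq_of_lt_right, val_algebraMap u (hca u hu)]
        rw [val_algebraMap u (hca u hu)]
        exact h2
      rw [map_div₀, h3, div_one]
      exact ⟨h1, fun h4 => le_antisymm h1 h4⟩
    · have h3 : u.adicValuation (t + algebraMap K F c) = u.adicValuation t := by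
        rw [Valuation.map_add_eq_of_lt_left]
        rw [val_algebraMap u hc0]
        exact h1
      have h4 : u.adicValuation t ≠ 0 := u.adicValuation_ne_zero ht0
      rw [map_div₀, h3, div_self h4]
      exact ⟨le_rfl, fun _ => rfl⟩

include hx in
theorem exists_separating_aux (w : Place K F) (s : Finset (Place K F)) (hw : w ∉ s)
    (s' : Finset (Place K F)) (hs' : s' ⊆ s) :
    ∃ f : F, f ≠ 0 ∧ w.adicValuation f < 1 ∧ (∀ u ∈ s, u.adicValuation f ≤ 1) ∧
      ∀ v ∈ s', v.adicValuation f = 1 := by
  classical
  induction s' using Finset.induction_on with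
  | empty =>
    obtain ⟨π, hπ⟩ := IsDiscreteValuationRing.exists_irreducible w.toValuationSubring
    have hπ0 : (π : F) ≠ 0 := by
      simpa [ne_eq, ZeroMemClass.coe_eq_zero] using hπ.ne_zero
    have hπw : w.adicValuation (π : F) < 1 := by
      rw [← ord_pos_iff_val_lt_one w hπ0, w.ord_coe_irreducible hπ]
      exact zero_lt_one
    obtain ⟨h, h0, hhw, hhs⟩ := exists_integral_modification x hx w s (π : F) hπ0 hπw
    exact ⟨h, h0, hhw, fun u hu => (hhs u hu).1, fun v hv => absurd hv (Finset.notMem_empty v)⟩
  | insert v s'' hv ih =>
    have hvs : v ∈ s := hs' (Finset.mem_insert_self _ _)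
    obtain ⟨f', hf'0, hf'w, hf's, hf's''⟩ :=
      ih (fun u hu => hs' (Finset.mem_insert_of_mem hu))
    have hvw : v ≠ w := fun h => hw (h ▸ hvs)
    obtain ⟨a, hav, haw⟩ := exists_val_le_one_and_one_lt hvw
    have ha0 : a ≠ 0 := by
      rintro rfl
      rw [map_zero] at haw
      exact not_lt.mpr zero_le_one haw
    have htw : w.adicValuation a⁻¹ < 1 := by
      rw [map_inv₀]
      exact inv_lt_one_of_one_lt₀ haw
    have htv : 1 ≤ v.adicValuation a⁻¹ := by
      rw [map_inv₀]
      exact (one_le_inv₀ (zero_lt_iff.mpr (v.adicValuation_ne_zero ha0))).mpr hav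
    obtain ⟨h, h0, hhw, hhs⟩ :=
      exists_integral_modification x hx w s a⁻¹ (inv_ne_zero ha0) htw
    have hhv : v.adicValuation h = 1 := (hhs v hvs).2 htv
    -- residues
    have hres : ∀ (g : F) (u : Place K F), ∃ b : K,
        u.adicValuation g ≤ 1 → u.adicValuation (g - algebraMap K F b) < 1 := by
      intro g u
      by_cases hu : u.adicValuation g ≤ 1
      · obtain ⟨b, hb⟩ := exists_val_sub_lt_one x hx u hu
        exact ⟨b, fun _ => hb⟩
      · exact ⟨0, fun h => absurd h hu⟩
    choose res hresp using hres
    have : Infinite K := IsAlgClosed.instInfinite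
    obtain ⟨c, hc⟩ := Infinite.exists_notMem_finset
      ((insert v s'').image fun u => -(res f' u) / (res h u))
    have key : ∀ u ∈ insert v s'', u.adicValuation (f' + algebraMap K F c * h) = 1 := by
      intro u hu
      have hus : u ∈ s := hs' hu
      have hα := hresp f' u (hf's u hus)
      have hβ := hresp h u (hhs u hus).1
      have hγ : res f' u + c * res h u ≠ 0 := by
        by_cases hβ0 : res h u = 0
        · rw [hβ0, mul_zero, add_zero]
          intro hα0
          rw [hα0, map_zero, sub_zero] at hα
          rw [hβ0, map_zero, sub_zero] at hβ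
          rcases Finset.mem_insert.mp hu with rfl | hu''
          · rw [hhv] at hβ
            exact lt_irrefl _ hβ
          · rw [hf's'' u hu''] at hα
            exact lt_irrefl _ hα
        · intro hzero
          apply hc
          refine Finset.mem_image.mpr ⟨u, hu, ?_⟩
          field_simp
          linear_combination -hzero
      have hsum : f' + algebraMap K F c * h
          = ((f' - algebraMap K F (res f' u)) + algebraMap K F c * (h - algebraMap K F (res h u)))
            + algebraMap K F (res f' u + c * res h u) := by
        rw [map_add, map_mul]; ring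
      have hlt : u.adicValuation ((f' - algebraMap K F (res f' u))
          + algebraMap K F c * (h - algebraMap K F (res h u))) < 1 := by
        refine Valuation.map_add_lt _ hα ?_
        rw [map_mul]
        calc u.adicValuation (algebraMap K F c) * u.adicValuation (h - algebraMap K F (res h u))
            ≤ 1 * u.adicValuation (h - algebraMap K F (res h u)) := by
              gcongr
              exact val_algebraMap_le_one u c
          _ = u.adicValuation (h - algebraMap K F (res h u)) := one_mul _
          _ < 1 := hβ
      rw [hsum, Valuation.map_add_eq_of_lt_right, val_algebraMap u hγ]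
      rw [val_algebraMap u hγ]
      exact hlt
    refine ⟨f' + algebraMap K F c * h, ?_, ?_, ?_, key⟩
    · intro h0
      have := key v (Finset.mem_insert_self _ _)
      rw [h0, map_zero] at this
      exact zero_ne_one this
    · refine Valuation.map_add_lt _ hf'w ?_
      rw [map_mul]
      calc w.adicValuation (algebraMap K F c) * w.adicValuation h
          ≤ 1 * w.adicValuation h := by
            gcongr
            exact val_algebraMap_le_one w c
        _ = w.adicValuation h := one_mul _
        _ < 1 := hhw
    · intro u hu
      refine Valuation.map_add_le _ (hf's u hu) ?_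
      rw [map_mul]
      calc u.adicValuation (algebraMap K F c) * u.adicValuation h
          ≤ 1 * 1 := by
            gcongr
            · exact val_algebraMap_le_one u c
            · exact (hhs u hu).1
        _ = 1 := one_mul _

/-- **FF-f: separation of finitely many places.** -/
theorem ff_exists_separating (x : F) (hx : Transcendental K x) [FiniteDimensional K⟮x⟯ F]
    (w : Place K F) (s : Finset (Place K F)) (hw : w ∉ s) :
    ∃ f : F, 0 < w.ord f ∧ ∀ v ∈ s, v.ord f = 0 := by
  obtain ⟨f, hf0, hfw, -, hfs⟩ := exists_separating_aux x hx w s hw s (Finset.Subset.refl _)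
  exact ⟨f, (ord_pos_iff_val_lt_one w hf0).mpr hfw,
    fun v hv => ord_eq_zero_of_val_eq_one v (hfs v hv)⟩

end Sep

end Fermat.Agent.S24.helper82
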