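import Mathlib
import Fermat.Agent.S24.Defs
import Fermat.Agent.S24.helper24_Count
import Fermat.Agent.S24.helper48_Moebius
import Fermat.Agent.S24.helper17_Bridge
import Fermat.Agent.S24.helper43_LocalCount
import Fermat.Agent.S24.helper75_FFCore
import Fermat.Agent.S24.helper82_Separating
import Fermat.Agent.S24.helper77_Transc
import Fermat.Agent.S24.helper55_RH
import Fermat.Agent.S24.helper27_FixedPoints

/-!
# S24 / task 25: the fibres of `j` over interior points

* `bridgeHyp`, `localCountHyp`: the hypotheses of the chart framework, from the landed modules.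
* `interiorChart N τ₀`: the chart at an interior point.
* `an_unramified_of`, `an_count_1728_of`, `an_count_0_of`: the number of places over
  `j = a` (generic `a`, `a = 1728`, `a = 0`), given the degree `[F_N : ℚ̄(j)] = [SL₂(ℤ) : Γ₀(N)]`.
-/

set_option autoImplicit false

noncomputable section

open UpperHalfPlane ModularForm Filter Topology CongruenceSubgroup AlgebraicCurve
  IntermediateField WithZero
open scoped MatrixGroups Manifold

namespace Fermat.Agent.S24.helper24

open Fermat.Agent.S24 Fermat.Agent.S24.helper99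

/-- The bridge between formal and analytic relations (helper17). -/
theorem bridgeHyp (N : ℕ) : BridgeHyp N := by
  intro P
  have h := helper17.bridge (fun d : N.divisors => d.1) P
  have h1 : (fun i : N.divisors => JdT i.1) = genJ N := rfl
  rw [h1] at h
  rw [h]
  refine forall_congr' fun τ => ?_
  unfold evP0
  rw [MvPolynomial.eval_map]

/-- The abstract local counting theorem (helper43, with the function field inputs of helper75
and helper82). -/
theorem localCountHyp (K F L I : Type*) [Field K] [Field F] [Algebra K F] [Field L]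
    [IsAlgClosed K] [CharZero K] : LocalCountHyp K F L I := by
  intro _ t ht _ V σ hσ hcard hK hKagree htagree E hE htE π hπE hπ hdiv
  exact helper43.local_count_of t (helper75.ff_finite_zeros t ht)
    (helper75.ff_sum_ord_zeros t ht)
    (fun w s hw => helper82.ff_exists_separating t ht w s hw)
    V σ hσ hcard hK hKagree htagree E hE htE π hπE hπ hdiv

/-- The chart at an interior point `τ₀`. -/
@[reducible] def interiorChart (N : ℕ) (τ₀ : ℍ) : Chart N where
  z₀ := (τ₀ : ℂ)
  u := fun τ => (τ : ℂ)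
  u_cont := UpperHalfPlane.continuous_coe
  cover := by
    have : {z : ℂ | 0 < z.im} ∈ 𝓝 (τ₀ : ℂ) := isOpen_upperHalfPlaneSet.mem_nhds τ₀.im_pos
    filter_upwards [mem_nhdsWithin_of_mem_nhds this] with z hz
    exact ⟨⟨z, hz⟩, rfl⟩
  H := fun g d z => jfunDT d.1 (g⁻¹ • ofComplex z)
  H_mero := fun g d =>
    (helper48.analyticAt_comp_ofComplex (f := fun τ => jfunDT d.1 (g⁻¹ • τ))
      (mdiff_smul_comp (mdiff_jfunDT d.1) g⁻¹) τ₀).meromorphicAt
  H_spec := fun g d τ => by
    show jfunDT d.1 (g⁻¹ • ofComplex (τ : ℂ)) = _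
    rw [ofComplex_apply]

theorem jan_eq_jfun : helper48.jan = jfun := rfl

theorem scaleH_one (τ : ℍ) : scaleH 1 τ = τ := by
  apply UpperHalfPlane.ext
  rw [coe_scaleH]
  simp

theorem jfunDT_one_smul (g : SL(2, ℤ)) (τ : ℍ) : jfunDT 1 (g • τ) = jfun τ := by
  rw [jfunDT_of_ne_zero]
  unfold jfunD
  rw [scaleH_one, jfun_smul]

theorem analyticAt_jfun (τ₀ : ℍ) : AnalyticAt ℂ (fun z => jfun (ofComplex z)) (τ₀ : ℂ) :=
  helper48.analyticAt_comp_ofComplex mdiff_jfun τ₀

variable (N : ℕ) [NeZero N]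

theorem sigma_interior_xJ (τ₀ : ℍ) (g : SL(2, ℤ)) :
    (interiorChart N τ₀).sigma (bridgeHyp N) g (xJ N)
      = MeroGerm.mk (fun z => jfun (ofComplex z)) (analyticAt_jfun τ₀).meromorphicAt := by
  have h1 : (1 : ℕ) ∈ N.divisors := Nat.mem_divisors.mpr ⟨one_dvd N, NeZero.ne N⟩
  have hx : ((xJ N : FN N) : LaurentSeries Kbar) = genJ N ⟨1, h1⟩ := by
    rw [genJ_apply]
    rfl
  rw [(interiorChart N τ₀).sigma_gen (bridgeHyp N) g (xJ N) ⟨1, h1⟩ hx]
  apply MeroGerm.mk_eq_mk_iff.mpr
  refine Eventually.of_forall fun z => ?_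
  show jfunDT 1 (g⁻¹ • ofComplex z) = jfun (ofComplex z)
  exact jfunDT_one_smul g⁻¹ _

theorem sigma_interior_sub (τ₀ : ℍ) (g : SL(2, ℤ)) (a : Kbar) :
    (interiorChart N τ₀).sigma (bridgeHyp N) g (xJ N - algebraMap Kbar (FN N) a)
      = MeroGerm.mk (fun z => jfun (ofComplex z) - iotaC a)
          ((analyticAt_jfun τ₀).sub analyticAt_const).meromorphicAt := by
  rw [map_sub, sigma_interior_xJ, Chart.sigma_algebraMap]
  unfold MeroGerm.const
  rw [← MeroGerm.mk_sub]
  rfl

omit [NeZero N] in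
theorem isRot_interior (τ₀ : ℍ) (h : SL(2, ℤ)) (hfix : h⁻¹ • τ₀ = τ₀) :
    (interiorChart N τ₀).IsRot h (helper48.chartSL h⁻¹) where
  an := helper48.analyticAt_chartSL h⁻¹ τ₀
  fix := helper48.chartSL_of_smul_eq hfix
  deriv_ne := helper48.deriv_chartSL_ne_zero h⁻¹ τ₀
  spec := fun τ => (helper48.chartSL_coe h⁻¹ τ).symm

/-- Counting the places over an interior point. -/
theorem count_interior (hfd : FiniteDimensional Kbar⟮xJ N⟯ (FN N))
    (hfinrank : Module.finrank Kbar⟮xJ N⟯ (FN N) = Nat.card (SL(2, ℤ) ⧸ Gamma0 N))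
    (a : Kbar) (τ₀ : ℍ) (E : ℕ) (hE : 0 < E)
    (hord : meromorphicOrderAt (fun z => jfun (ofComplex z) - iotaC a) (τ₀ : ℂ) = (E : ℤ))
    (g₀ : SL(2, ℤ)) (hg₀ : ∀ c : X0 N, g₀ ^ E • c = c)
    (hrot : ∀ k : ℕ, k ∣ E → 1 < k → (g₀ ^ (E / k))⁻¹ • τ₀ = τ₀ ∧
      IsPrimitiveRoot (deriv (helper48.chartSL (g₀ ^ (E / k))⁻¹) (τ₀ : ℂ)) k) :
    Nat.card {w : Place Kbar (FN N) // 0 < w.ord (xJ N - algebraMap Kbar (FN N) a)}
        = Nat.card (MulAction.orbitRel.Quotient (Subgroup.zpowers g₀) (X0 N))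
      ∧ (E = 1 → ∀ w : Place Kbar (FN N), 0 < w.ord (xJ N - algebraMap Kbar (FN N) a) →
          w.ord (xJ N - algebraMap Kbar (FN N) a) = 1) := by
  have hadj : Kbar⟮xJ N - algebraMap Kbar (FN N) a⟯ = Kbar⟮xJ N⟯ :=
    helper55.adjoin_sub_algebraMap_eq (xJ N) a
  haveI : FiniteDimensional Kbar⟮xJ N - algebraMap Kbar (FN N) a⟯ (FN N) := by
    rw [hadj]
    exact hfd
  have hcard : Nat.card (X0 N)
      = Module.finrank Kbar⟮xJ N - algebraMap Kbar (FN N) a⟯ (FN N) := by
    rw [hadj]
    exact hfinrank.symm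
  exact (interiorChart N τ₀).count_of_chart (bridgeHyp N) (localCountHyp _ _ _ _)
    (xJ N - algebraMap Kbar (FN N) a)
    (helper55.transcendental_sub_algebraMap (helper77.an_transcendental N) a)
    hcard
    (fun g g' => by rw [sigma_interior_sub, sigma_interior_sub])
    E hE
    (fun g => by
      rw [sigma_interior_sub]
      exact MeroGerm.V_mk_of_order_eq _ hord)
    g₀ hg₀
    (fun k hk hk1 => ⟨_, isRot_interior N τ₀ _ (hrot k hk hk1).1, (hrot k hk hk1).2⟩)

/-- **AN-T2** (conditional on the degree): `j` is unramified over `a ≠ 0, 1728`. -/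
theorem an_unramified_of (hfd : FiniteDimensional Kbar⟮xJ N⟯ (FN N))
    (hfinrank : Module.finrank Kbar⟮xJ N⟯ (FN N) = Nat.card (SL(2, ℤ) ⧸ Gamma0 N))
    (a : Kbar) (h0 : a ≠ 0) (h1 : a ≠ 1728) (w : Place Kbar (FN N))
    (hw : 0 < w.ord (xJ N - algebraMap Kbar (FN N) a)) :
    w.ord (xJ N - algebraMap Kbar (FN N) a) = 1 := by
  obtain ⟨τ₀, hτ₀⟩ := helper48.jan_surjective (iotaC a)
  have h0' : helper48.jan τ₀ ≠ 0 := by
    rw [hτ₀]
    exact (map_ne_zero_iff _ iotaC.injective).mpr h0
  have h1' : helper48.jan τ₀ ≠ 1728 := by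
    rw [hτ₀]
    intro h
    apply h1
    apply iotaC.injective
    show iotaC a = iotaC 1728
    rw [h, map_ofNat]
  have hord := helper48.meromorphicOrderAt_jan_sub τ₀ h0' h1'
  rw [hτ₀] at hord
  have key := count_interior N hfd hfinrank a τ₀ 1 one_pos (by exact_mod_cast hord) 1
    (fun c => by simp) (fun k hk hk1 => by
      have := Nat.le_of_dvd one_pos hk
      omega)
  exact key.2 rfl w hw

/-- **AN-T3** (conditional on the degree): the places over `j = 1728` correspond to the
`S`-orbits on the cosets. -/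
theorem an_count_1728_of (hfd : FiniteDimensional Kbar⟮xJ N⟯ (FN N))
    (hfinrank : Module.finrank Kbar⟮xJ N⟯ (FN N) = Nat.card (SL(2, ℤ) ⧸ Gamma0 N)) :
    Nat.card {w : Place Kbar (FN N) // 0 < w.ord (xJ N - algebraMap Kbar (FN N) 1728)}
      = Nat.card (MulAction.orbitRel.Quotient (Subgroup.zpowers ModularGroup.S)
          (SL(2, ℤ) ⧸ Gamma0 N)) := by
  have hord := helper48.meromorphicOrderAt_jan_sub_1728_I
  have key := count_interior N hfd hfinrank 1728 UpperHalfPlane.I 2 two_pos
    (by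
      rw [map_ofNat]
      exact_mod_cast hord)
    ModularGroup.S (fun c => helper27.S_sq_smul N c)
    (fun k hk hk1 => by
      have hk2 : k = 2 := by
        have := Nat.le_of_dvd two_pos hk
        omega
      subst hk2
      rw [Nat.div_self two_pos, pow_one]
      exact ⟨helper48.Sinv_smul_I, helper48.isPrimitiveRoot_deriv_chartSL_Sinv_I⟩)
  exact key.1

/-- **AN-T3** (conditional on the degree): the places over `j = 0` correspond to the
`S * T`-orbits on the cosets. -/
theorem an_count_0_of (hfd : FiniteDimensional Kbar⟮xJ N⟯ (FN N))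
    (hfinrank : Module.finrank Kbar⟮xJ N⟯ (FN N) = Nat.card (SL(2, ℤ) ⧸ Gamma0 N)) :
    Nat.card {w : Place Kbar (FN N) // 0 < w.ord (xJ N - algebraMap Kbar (FN N) 0)}
      = Nat.card (MulAction.orbitRel.Quotient
          (Subgroup.zpowers (ModularGroup.S * ModularGroup.T)) (SL(2, ℤ) ⧸ Gamma0 N)) := by
  have hord := helper48.meromorphicOrderAt_jan_sub_zero_rho
  have key := count_interior N hfd hfinrank 0 helper48.rho 3 (by norm_num)
    (by
      rw [map_zero]
      exact_mod_cast hord)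
    (ModularGroup.S * ModularGroup.T) (fun c => helper27.ST_cube_smul N c)
    (fun k hk hk1 => by
      have hk3 : k = 3 := by
        have h3 : Nat.Prime 3 := by norm_num
        rcases (Nat.dvd_prime h3).mp hk with h | h
        · omega
        · exact h
      subst hk3
      rw [Nat.div_self (by norm_num), pow_one]
      exact ⟨helper48.STinv_smul_rho, helper48.isPrimitiveRoot_deriv_chartSL_STinv_rho⟩)
  exact key.1

end Fermat.Agent.S24.helper24
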