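import Mathlib
import Fermat.Agent.S24.Defs

/-! # S24 / AN-degree, part 2 (helper77): invariant holomorphic functions are polynomials in `j`

* `jfun_smul`, `mdifferentiable_jfun`, `jfun_isBigO`: basic facts on the analytic `j`-function.
* `exists_poly_of_modularForm`: every level one modular form of weight `12 M` is
  `Δ ^ M * p(j)` with `p` a polynomial of degree `≤ M`.
* `exists_poly_of_invariant`: a holomorphic `SL(2,ℤ)`-invariant function on `ℍ` which is
  `O(exp (2 π M Im τ))` at `i∞` is a polynomial in `j` (of degree `≤ M`).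
-/

set_option autoImplicit false

noncomputable section

open UpperHalfPlane ModularForm ModularFormClass MatrixGroups Filter Asymptotics
open scoped Topology Manifold

namespace Fermat.Agent.S24.helper77

local notation "Δ" => ModularForm.discriminant

theorem jfun_def (τ : ℍ) : jfun τ = E₄ τ ^ 3 / Δ τ := rfl

theorem jfun_mul_discriminant (τ : ℍ) : jfun τ * Δ τ = E₄ τ ^ 3 := by
  rw [jfun_def, div_mul_cancel₀ _ (discriminant_ne_zero τ)]

theorem mem_SL (γ : SL(2, ℤ)) : (γ : GL (Fin 2) ℝ) ∈ 𝒮ℒ := ⟨γ, rfl⟩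

theorem E₄_smul (γ : SL(2, ℤ)) (τ : ℍ) :
    E₄ (γ • τ) = (denom (γ : GL (Fin 2) ℝ) τ) ^ (4 : ℤ) * E₄ τ := by
  have := SlashInvariantForm.slash_action_eqn' E₄ (mem_SL γ) τ
  simpa [denom] using this

theorem discriminant_smul (γ : SL(2, ℤ)) (τ : ℍ) :
    Δ (γ • τ) = (denom (γ : GL (Fin 2) ℝ) τ) ^ (12 : ℤ) * Δ τ := by
  have := SlashInvariantForm.slash_action_eqn' CuspForm.discriminant (mem_SL γ) τ
  simpa [denom] using this

/-- `j` is `SL(2,ℤ)`-invariant. -/
theorem jfun_smul (γ : SL(2, ℤ)) (τ : ℍ) : jfun (γ • τ) = jfun τ := by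
  have hd : denom (γ : GL (Fin 2) ℝ) τ ≠ 0 := denom_ne_zero _ τ
  rw [jfun_def, jfun_def, E₄_smul, discriminant_smul]
  have hΔ := discriminant_ne_zero τ
  field_simp

/-- `j` is holomorphic on the upper half plane. -/
theorem mdifferentiable_jfun : MDiff jfun := by
  have h4 : MDiff (E₄ : ℍ → ℂ) := ModularFormClass.holo E₄
  have hΔ : MDiff (Δ : ℍ → ℂ) := CuspForm.discriminant.holo'
  exact (h4.pow 3).div hΔ discriminant_ne_zero

/-- `j = O(exp(2π Im τ))` at `i∞`. -/
theorem jfun_isBigO : jfun =O[atImInfty] fun τ => Real.exp (2 * Real.pi * τ.im) := by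
  have h4 : (E₄ : ℍ → ℂ) =O[atImInfty] (1 : ℍ → ℝ) := ModularFormClass.bdd_at_infty E₄
  have h43 : (fun τ => E₄ τ ^ 3) =O[atImInfty] (fun _ : ℍ => (1 : ℝ) ^ 3) := h4.pow 3
  have hΔ : (fun τ => (Δ τ)⁻¹) =O[atImInfty] fun τ : ℍ => (Real.exp (-2 * Real.pi * τ.im))⁻¹ :=
    exp_isBigO_discriminant.inv_rev (Eventually.of_forall fun τ h => absurd h (Real.exp_pos _).ne')
  have := h43.mul hΔ
  refine (this.congr_left ?_).congr_right ?_
  · intro τ; rw [jfun_def, div_eq_mul_inv]
  · intro τ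
    rw [one_pow, one_mul, ← Real.exp_neg]
    congr 1; ring

theorem discriminant_isBigO :
    (Δ : ℍ → ℂ) =O[atImInfty] fun τ => Real.exp (-(2 * Real.pi * τ.im)) := by
  have := CuspFormClass.exp_decay_atImInfty (h := 1) CuspForm.discriminant one_pos
    one_mem_strictPeriods_SL
  refine this.congr_right fun τ => ?_
  congr 1; ring

/-- Every level one modular form of weight `12 M` is `Δ ^ M` times a polynomial in `j` of degree
at most `M`. -/
theorem exists_poly_of_modularForm (M : ℕ) : ∀ (k : ℤ) (_ : k = 12 * M) (f : ModularForm 𝒮ℒ k),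
    ∃ p : Polynomial ℂ, p.natDegree ≤ M ∧ ∀ z, f z = Δ z ^ M * p.eval (jfun z) := by
  induction M with
  | zero =>
    intro k hk f
    have hk0 : k = 0 := by simpa using hk
    subst hk0
    obtain ⟨c, hc⟩ := levelOne_weight_zero_const f
    exact ⟨Polynomial.C c, by simp, fun z => by simp [hc]⟩
  | succ M ih =>
    intro k hk f
    set c := (qExpansion 1 f).coeff 0 with hc
    let E : ModularForm 𝒮ℒ k := mcast (by rw [hk]; push_cast; ring) (E₄.pow (3 * (M + 1)))
    have hEcoe : (E : ℍ → ℂ) = (E₄ : ℍ → ℂ) ^ (3 * (M + 1)) :=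
      ModularForm.coe_pow E₄ (3 * (M + 1))
    have hE0 : (qExpansion 1 E).coeff 0 = 1 := by
      have h1 : qExpansion 1 (E : ℍ → ℂ) = qExpansion 1 (E₄ : ℍ → ℂ) ^ (3 * (M + 1)) := by
        rw [hEcoe, ← ModularForm.coe_pow,
          ModularForm.qExpansion_pow one_pos one_mem_strictPeriods_SL]
      rw [h1, PowerSeries.coeff_zero_eq_constantCoeff, map_pow,
        ← PowerSeries.coeff_zero_eq_constantCoeff]
      have := EisensteinSeries.E_qExpansion_coeff_zero (k := 4) (by norm_num) ⟨2, rfl⟩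
      rw [this, one_pow]
    let g : ModularForm 𝒮ℒ k := f - c • E
    have hg0 : (qExpansion 1 g).coeff 0 = 0 := by
      have h1 : qExpansion 1 (g : ℍ → ℂ) = qExpansion 1 f - c • qExpansion 1 E := by
        have : (g : ℍ → ℂ) = (f : ℍ → ℂ) - ((c • E : ModularForm 𝒮ℒ k) : ℍ → ℂ) := rfl
        rw [this, ModularForm.qExpansion_sub one_pos one_mem_strictPeriods_SL]
        congr 1
        exact ModularForm.qExpansion_smul one_pos one_mem_strictPeriods_SL c E
      rw [h1, map_sub, PowerSeries.coeff_smul, hE0, ← hc]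
      simp
    let h := CuspForm.discriminantEquiv (toCuspForm g hg0)
    obtain ⟨p, hp, hpz⟩ := ih (k - 12) (by rw [hk]; push_cast; ring) h
    refine ⟨p + Polynomial.C c * Polynomial.X ^ (M + 1), ?_, fun z => ?_⟩
    · refine (Polynomial.natDegree_add_le _ _).trans (max_le (hp.trans (Nat.le_succ M)) ?_)
      exact (Polynomial.natDegree_C_mul_le _ _).trans (Polynomial.natDegree_X_pow_le _)
    · have hgz : g z = Δ z * h z := by
        rw [discriminant_mul_discriminantEquiv_apply]; rfl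
      have hfz : f z = g z + c * E z := by
        show f z = (f z - c * E z) + c * E z
        ring
      have hEz : E z = E₄ z ^ (3 * (M + 1)) := by
        rw [hEcoe]; rfl
      rw [hfz, hgz, hpz z, hEz, Polynomial.eval_add, Polynomial.eval_mul, Polynomial.eval_C,
        Polynomial.eval_pow, Polynomial.eval_X, pow_mul, ← jfun_mul_discriminant]
      ring

theorem mul_discriminant_pow_slash (s : ℍ → ℂ) (hinv : ∀ (γ : SL(2, ℤ)) (τ : ℍ), s (γ • τ) = s τ)
    (M : ℕ) (γ : SL(2, ℤ)) :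
    (fun z => s z * Δ z ^ M) ∣[(12 * M : ℤ)] γ = fun z => s z * Δ z ^ M := by
  ext z
  rw [slash_action_eq'_iff]
  simp only [hinv, discriminant_smul, denom]
  rw [mul_pow, ← zpow_natCast, ← zpow_mul]
  simp only [Matrix.SpecialLinearGroup.coe_GL_coe_matrix, Matrix.SpecialLinearGroup.map_apply_coe,
    RingHom.mapMatrix_apply, Int.coe_castRingHom, Matrix.map_apply, Complex.ofReal_intCast]
  ring

theorem mul_discriminant_pow_isBounded (s : ℍ → ℂ) (M : ℕ)
    (hbd : s =O[atImInfty] fun τ => Real.exp (2 * Real.pi * M * τ.im)) :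
    IsBoundedAtImInfty (fun z => s z * Δ z ^ M) := by
  have h1 := hbd.mul (discriminant_isBigO.pow M)
  refine h1.congr_right fun τ => ?_
  rw [← Real.exp_nat_mul, ← Real.exp_add]
  simp
  ring

/-- `s * Δ ^ M` as a modular form of weight `12 M` and level one. -/
def mulDiscPow (s : ℍ → ℂ) (hs : MDiff s) (hinv : ∀ (γ : SL(2, ℤ)) (τ : ℍ), s (γ • τ) = s τ)
    (M : ℕ) (hbd : s =O[atImInfty] fun τ => Real.exp (2 * Real.pi * M * τ.im)) :
    ModularForm 𝒮ℒ (12 * M) where
  toFun z := s z * Δ z ^ M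
  slash_action_eq' := fun _ ⟨γ, hγ⟩ ↦ hγ ▸ mul_discriminant_pow_slash s hinv M γ
  holo' := hs.mul (CuspForm.discriminant.holo'.pow M)
  bdd_at_cusps' {c} hc := by
    rw [OnePoint.isBoundedAt_iff_forall_SL2Z hc]
    intro γ _
    have := mul_discriminant_pow_slash s hinv M γ
    show IsBoundedAtImInfty ((fun z => s z * Δ z ^ M) ∣[(12 * M : ℤ)] γ)
    rw [this]
    exact mul_discriminant_pow_isBounded s M hbd

theorem mulDiscPow_apply (s : ℍ → ℂ) (hs : MDiff s)
    (hinv : ∀ (γ : SL(2, ℤ)) (τ : ℍ), s (γ • τ) = s τ)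
    (M : ℕ) (hbd : s =O[atImInfty] fun τ => Real.exp (2 * Real.pi * M * τ.im)) (z : ℍ) :
    mulDiscPow s hs hinv M hbd z = s z * Δ z ^ M := rfl

/-- **Polynomial-in-`j` theorem.** A holomorphic, `SL(2,ℤ)`-invariant function on `ℍ` with at most
exponential growth `O(exp (2 π M Im τ))` at `i∞` is a polynomial of degree `≤ M` in `j`. -/
theorem exists_poly_of_invariant (s : ℍ → ℂ) (hs : MDiff s)
    (hinv : ∀ (γ : SL(2, ℤ)) (τ : ℍ), s (γ • τ) = s τ)
    (M : ℕ) (hbd : s =O[atImInfty] fun τ => Real.exp (2 * Real.pi * M * τ.im)) :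
    ∃ p : Polynomial ℂ, p.natDegree ≤ M ∧ ∀ z, s z = p.eval (jfun z) := by
  obtain ⟨p, hp, h⟩ := exists_poly_of_modularForm M _ rfl (mulDiscPow s hs hinv M hbd)
  refine ⟨p, hp, fun z => ?_⟩
  have h1 := h z
  rw [mulDiscPow_apply, mul_comm] at h1
  exact mul_left_cancel₀ (pow_ne_zero M (discriminant_ne_zero z)) h1

end Fermat.Agent.S24.helper77
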