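import Mathlib
import Fermat.Agent.S24.Defs
import Fermat.Agent.S24.helper77_PolyInJ

/-! # S24 / AN-degree, part 3 (helper77): Hermite reduction and the conjugates of `j_d`

* `exists_hermite`: for `g ∈ SL(2,ℤ)` and `d ≥ 1` there are `σ ∈ SL(2,ℤ)`, `α δ = d`, `β ∈ ℤ` with
  `σ • (d • (g • τ)) = (α τ + β) / δ` for all `τ`.
* `mdifferentiable_jfunD_smul`, `jfunD_smul_isBigO`: the conjugates `τ ↦ j(d · g τ)` are
  holomorphic on `ℍ` and `O(exp(2 π d Im τ))` at `i∞`.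
* `jfunD_smul_of_mem_Gamma0`: `j_d` is `Γ₀(N)`-invariant for `d ∣ N`.
-/

set_option autoImplicit false

noncomputable section

open UpperHalfPlane ModularForm ModularFormClass MatrixGroups Filter Asymptotics
open scoped Topology Manifold

namespace Fermat.Agent.S24.helper77


theorem coe_scaleH (d : ℕ) [NeZero d] (τ : ℍ) : ((scaleH d τ : ℍ) : ℂ) = (d : ℂ) * τ := rfl

theorem coe_SL_smul (g : SL(2, ℤ)) (z : ℍ) :
    ((g • z : ℍ) : ℂ) =
      ((g 0 0 : ℤ) * (z : ℂ) + (g 0 1 : ℤ)) / ((g 1 0 : ℤ) * (z : ℂ) + (g 1 1 : ℤ)) := by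
  rw [coe_specialLinearGroup_apply]
  simp

theorem SL_denom_ne_zero (g : SL(2, ℤ)) (z : ℍ) :
    ((g 1 0 : ℤ) : ℂ) * (z : ℂ) + (g 1 1 : ℤ) ≠ 0 := by
  have := denom_ne_zero (g : GL (Fin 2) ℝ) z
  simpa [denom] using this

/-- Integer part of the Hermite reduction. -/
theorem hermite_int (d : ℕ) (hd : d ≠ 0) (a b c e : ℤ) (hdet : a * e - b * c = 1) :
    ∃ (u v a' c' β : ℤ) (α δ : ℕ), 0 < α ∧ 0 < δ ∧ α * δ = d ∧ u * a' + v * c' = 1 ∧
      u * (d * a) + v * c = α ∧ -c' * (d * a) + a' * c = 0 ∧ β = u * d * b + v * e ∧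
      (δ : ℤ) = -c' * d * b + a' * e := by
  have hdZ : (d : ℤ) ≠ 0 := by exact_mod_cast hd
  obtain ⟨x, hx⟩ : ∃ x : ℤ, x = d * a := ⟨_, rfl⟩
  obtain ⟨α, hα⟩ : ∃ α : ℕ, α = Int.gcd x c := ⟨_, rfl⟩
  have hα0 : α ≠ 0 := by
    intro h
    rw [hα, Int.gcd_eq_zero_iff] at h
    obtain ⟨h1, h2⟩ := h
    have ha0 : a = 0 := by
      rw [hx] at h1
      rcases mul_eq_zero.mp h1 with h | h
      · exact absurd h hdZ
      · exact h
    rw [ha0, h2] at hdet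
    simp at hdet
  have hαpos : 0 < α := Nat.pos_of_ne_zero hα0
  have hαZ : (α : ℤ) ≠ 0 := by exact_mod_cast hα0
  obtain ⟨a', ha'⟩ : (α : ℤ) ∣ x := hα ▸ Int.gcd_dvd_left x c
  obtain ⟨c', hc'⟩ : (α : ℤ) ∣ c := hα ▸ Int.gcd_dvd_right x c
  obtain ⟨u, hu⟩ : ∃ u : ℤ, u = Int.gcdA x c := ⟨_, rfl⟩
  obtain ⟨v, hv⟩ : ∃ v : ℤ, v = Int.gcdB x c := ⟨_, rfl⟩
  have hbez : (α : ℤ) = x * u + c * v := by rw [hα, hu, hv]; exact Int.gcd_eq_gcd_ab x c
  have hbez' : u * a' + v * c' = 1 := by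
    have : (α : ℤ) * (u * a' + v * c') = α * 1 := by
      rw [mul_one]
      calc (α : ℤ) * (u * a' + v * c') = (α * a') * u + (α * c') * v := by ring
        _ = x * u + c * v := by rw [← ha', ← hc']
        _ = α := hbez.symm
    exact mul_left_cancel₀ hαZ this
  obtain ⟨δ', hδ'⟩ : ∃ δ' : ℤ, δ' = -c' * d * b + a' * e := ⟨_, rfl⟩
  have hαδ : (α : ℤ) * δ' = d := by
    have h1 : (α : ℤ) * δ' = -(α * c') * d * b + (α * a') * e := by rw [hδ']; ring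
    rw [h1, ← ha', ← hc', hx]
    linear_combination (d : ℤ) * hdet
  have hδpos : 0 < δ' := by
    have h1 : (0 : ℤ) < α * δ' := by rw [hαδ]; exact_mod_cast Nat.pos_of_ne_zero hd
    exact (mul_pos_iff_of_pos_left (by exact_mod_cast hαpos)).mp h1
  refine ⟨u, v, a', c', u * d * b + v * e, α, δ'.toNat, hαpos, by omega, ?_, hbez', ?_, ?_, rfl, ?_⟩
  · have : ((α * δ'.toNat : ℕ) : ℤ) = d := by
      push_cast
      rw [Int.toNat_of_nonneg hδpos.le, hαδ]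
    exact_mod_cast this
  · rw [hbez, hx]; ring
  · rw [← hx, ha', hc']; ring
  · rw [Int.toNat_of_nonneg hδpos.le, hδ']

theorem hermite_complex (a b c e u v a' c' β : ℤ) (d α δ : ℕ) (T : ℂ) (hδ : 0 < δ)
    (k1 : u * (d * a) + v * c = α) (k2 : -c' * (d * a) + a' * c = 0)
    (k3 : β = u * d * b + v * e) (k4 : (δ : ℤ) = -c' * d * b + a' * e)
    (hden1 : (c : ℂ) * T + e ≠ 0) :
    ((u : ℂ) * (d * ((a * T + b) / (c * T + e))) + v) /
      (((-c' : ℤ) : ℂ) * (d * ((a * T + b) / (c * T + e))) + a') = (α * T + β) / δ := by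
  have hδne : (δ : ℂ) ≠ 0 := by exact_mod_cast hδ.ne'
  have k1' : (u : ℂ) * (d * a) + v * c = α := by exact_mod_cast congrArg (Int.cast : ℤ → ℂ) k1
  have k2' : -(c' : ℂ) * (d * a) + a' * c = 0 := by
    exact_mod_cast congrArg (Int.cast : ℤ → ℂ) k2
  have k3' : (β : ℂ) = u * d * b + v * e := by rw [k3]; push_cast; ring
  have k4' : (δ : ℂ) = -c' * d * b + a' * e := by
    exact_mod_cast congrArg (Int.cast : ℤ → ℂ) k4
  obtain ⟨D, hD⟩ : ∃ D : ℂ, D = c * T + e := ⟨_, rfl⟩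
  rw [← hD] at hden1 ⊢
  have hN : (u : ℂ) * (d * ((a * T + b) / D)) + v = (α * T + β) / D := by
    field_simp
    rw [k3', hD]
    linear_combination T * k1'
  have hD' : ((-c' : ℤ) : ℂ) * (d * ((a * T + b) / D)) + a' = δ / D := by
    field_simp
    rw [k4', hD]
    push_cast
    linear_combination T * k2'
  rw [hN, hD']
  field_simp

/-- Hermite reduction: `σ • (d • (g • τ)) = (α τ + β) / δ` with `α δ = d`. -/
theorem exists_hermite (d : ℕ) [NeZero d] (g : SL(2, ℤ)) :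
    ∃ (σ : SL(2, ℤ)) (α δ : ℕ) (β : ℤ), 0 < α ∧ 0 < δ ∧ α * δ = d ∧
      ∀ τ : ℍ, ((σ • scaleH d (g • τ) : ℍ) : ℂ) = ((α : ℂ) * τ + β) / δ := by
  have hdet : g 0 0 * g 1 1 - g 0 1 * g 1 0 = 1 := by
    have := g.det_coe
    rwa [Matrix.det_fin_two] at this
  obtain ⟨u, v, a', c', β, α, δ, hα, hδ, hαδ, hbez, k1, k2, k3, k4⟩ :=
    hermite_int d (NeZero.ne d) _ _ _ _ hdet
  let σ : SL(2, ℤ) := ⟨!![u, v; -c', a'], by rw [Matrix.det_fin_two_of]; linarith⟩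
  refine ⟨σ, α, δ, β, hα, hδ, hαδ, fun τ => ?_⟩
  rw [coe_SL_smul, coe_scaleH, coe_SL_smul]
  exact hermite_complex _ _ _ _ u v a' c' β d α δ τ hδ k1 k2 k3 k4 (SL_denom_ne_zero g τ)




/-- The matrix `diag(d, 1)` as an element of `GL(2, ℝ)`. -/
def scaleGL (d : ℕ) [NeZero d] : GL (Fin 2) ℝ :=
  Matrix.GeneralLinearGroup.mkOfDetNeZero !![(d : ℝ), 0; 0, 1]
    (by simp [Matrix.det_fin_two_of, NeZero.ne d])

theorem det_scaleGL (d : ℕ) [NeZero d] : (scaleGL d).det.val = d := by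
  simp [scaleGL, Matrix.GeneralLinearGroup.mkOfDetNeZero, Matrix.det_fin_two_of]

theorem det_scaleGL_pos (d : ℕ) [NeZero d] : 0 < (scaleGL d).det.val := by
  rw [det_scaleGL]; exact_mod_cast Nat.pos_of_ne_zero (NeZero.ne d)

theorem scaleGL_smul (d : ℕ) [NeZero d] (τ : ℍ) : scaleGL d • τ = scaleH d τ := by
  apply UpperHalfPlane.ext
  rw [coe_smul_of_det_pos (det_scaleGL_pos d), coe_scaleH]
  simp [num, denom, scaleGL, Matrix.GeneralLinearGroup.mkOfDetNeZero]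

theorem mdifferentiable_scaleH (d : ℕ) [NeZero d] : MDiff (scaleH d) := by
  have h := mdifferentiable_smul (det_scaleGL_pos d)
  have e : (fun τ : ℍ => scaleGL d • τ) = scaleH d := funext (scaleGL_smul d)
  rwa [e] at h

theorem mdifferentiable_SL_smul (g : SL(2, ℤ)) : MDiff (fun τ : ℍ => g • τ) := by
  have h : 0 < ((g : GL (Fin 2) ℝ)).det.val := by simp
  exact mdifferentiable_smul h

theorem mdifferentiable_jfunD (d : ℕ) [NeZero d] : MDiff (jfunD d) :=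
  mdifferentiable_jfun.comp (mdifferentiable_scaleH d)

theorem mdifferentiable_jfunD_smul (d : ℕ) [NeZero d] (g : SL(2, ℤ)) :
    MDiff (fun τ => jfunD d (g • τ)) :=
  (mdifferentiable_jfunD d).comp (mdifferentiable_SL_smul g)

/-- explicit form of `jfun_isBigO`. -/
theorem exists_jfun_bound : ∃ C A : ℝ, 0 ≤ C ∧ 0 ≤ A ∧
    ∀ w : ℍ, A ≤ w.im → ‖jfun w‖ ≤ C * Real.exp (2 * Real.pi * w.im) := by
  obtain ⟨C, hC0, hC⟩ := jfun_isBigO.exists_nonneg
  rw [IsBigOWith, Filter.Eventually, atImInfty_mem] at hC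
  obtain ⟨A, hA⟩ := hC
  refine ⟨C, max A 0, hC0, le_max_right _ _, fun w hw => ?_⟩
  have := hA w ((le_max_left _ _).trans hw)
  simpa [Real.norm_of_nonneg (Real.exp_pos _).le] using this

/-- Growth of the conjugates of `j_d`: `j(d · g τ) = O(exp(2π d Im τ))`. -/
theorem jfunD_smul_isBigO (d : ℕ) [NeZero d] (g : SL(2, ℤ)) :
    (fun τ => jfunD d (g • τ)) =O[atImInfty] fun τ => Real.exp (2 * Real.pi * d * τ.im) := by
  obtain ⟨σ, α, δ, β, hα, hδ, hαδ, hW⟩ := exists_hermite d g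
  obtain ⟨C, A, hC, hA, hbd⟩ := exists_jfun_bound
  have hd : (0 : ℝ) < d := by exact_mod_cast Nat.pos_of_ne_zero (NeZero.ne d)
  have hαR : (1 : ℝ) ≤ α := by exact_mod_cast hα
  have hδR : (1 : ℝ) ≤ δ := by exact_mod_cast hδ
  have hαδR : (α : ℝ) * δ = d := by exact_mod_cast hαδ
  refine IsBigO.of_bound C ?_
  rw [Filter.Eventually, atImInfty_mem]
  refine ⟨d * A, fun τ hτ => ?_⟩
  show ‖jfunD d (g • τ)‖ ≤ C * ‖Real.exp (2 * Real.pi * d * τ.im)‖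
  have him : (σ • scaleH d (g • τ)).im = α * τ.im / δ := by
    have h1 : (σ • scaleH d (g • τ)).im = ((σ • scaleH d (g • τ) : ℍ) : ℂ).im := rfl
    rw [h1, hW τ]
    have h2 : ((α : ℂ) * τ + β) / δ = (((α : ℝ) : ℂ) * τ + ((β : ℝ) : ℂ)) * (((δ : ℝ)⁻¹ : ℝ) : ℂ) := by
      push_cast; rw [div_eq_mul_inv]
    rw [h2, Complex.im_mul_ofReal, Complex.add_im, Complex.ofReal_im, add_zero,
      Complex.im_ofReal_mul, div_eq_mul_inv]
    rfl
  have hτpos := τ.im_pos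
  have hlow : A ≤ (σ • scaleH d (g • τ)).im := by
    rw [him, le_div_iff₀ (by linarith)]
    calc A * δ ≤ A * d := by
          apply mul_le_mul_of_nonneg_left _ hA
          rw [← hαδR]; nlinarith
      _ = d * A := mul_comm _ _
      _ ≤ τ.im := hτ
      _ ≤ α * τ.im := by nlinarith
  have hup : (σ • scaleH d (g • τ)).im ≤ d * τ.im := by
    rw [him, div_le_iff₀ (by linarith)]
    have : (α : ℝ) ≤ d := by rw [← hαδR]; nlinarith
    nlinarith [mul_pos hd hτpos]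
  have hj : jfunD d (g • τ) = jfun (σ • scaleH d (g • τ)) := by
    rw [jfun_smul]; rfl
  rw [hj, Real.norm_of_nonneg (Real.exp_pos _).le]
  refine (hbd _ hlow).trans ?_
  apply mul_le_mul_of_nonneg_left _ hC
  apply Real.exp_le_exp.mpr
  have : 0 < 2 * Real.pi := by positivity
  nlinarith

/-- `j_d` is invariant under `Γ₀(N)` when `d ∣ N`. -/
theorem jfunD_smul_of_mem_Gamma0 {N d : ℕ} [NeZero d] (hd : d ∣ N) {γ : SL(2, ℤ)}
    (hγ : γ ∈ CongruenceSubgroup.Gamma0 N) (τ : ℍ) : jfunD d (γ • τ) = jfunD d τ := by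
  rw [CongruenceSubgroup.Gamma0_mem, ZMod.intCast_zmod_eq_zero_iff_dvd] at hγ
  obtain ⟨c', hc'⟩ : (d : ℤ) ∣ γ 1 0 := (Int.natCast_dvd_natCast.mpr hd).trans hγ
  have hdet : γ 0 0 * γ 1 1 - γ 0 1 * γ 1 0 = 1 := by
    have := γ.det_coe
    rwa [Matrix.det_fin_two] at this
  let γ' : SL(2, ℤ) := ⟨!![γ 0 0, d * γ 0 1; c', γ 1 1], by
    rw [Matrix.det_fin_two_of]; rw [hc'] at hdet; linear_combination hdet⟩
  have key : scaleH d (γ • τ) = γ' • scaleH d τ := by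
    apply UpperHalfPlane.ext
    rw [coe_scaleH, coe_SL_smul, coe_SL_smul, coe_scaleH]
    have h1 := SL_denom_ne_zero γ τ
    have h2 := SL_denom_ne_zero γ' (scaleH d τ)
    rw [coe_scaleH] at h2
    have e00 : (γ' 0 0 : ℤ) = γ 0 0 := rfl
    have e01 : (γ' 0 1 : ℤ) = d * γ 0 1 := rfl
    have e10 : (γ' 1 0 : ℤ) = c' := rfl
    have e11 : (γ' 1 1 : ℤ) = γ 1 1 := rfl
    rw [e10, e11] at h2
    rw [e00, e01, e10, e11]
    have hc'' : ((γ 1 0 : ℤ) : ℂ) = d * c' := by rw [hc']; push_cast; ring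
    rw [hc''] at h1 ⊢
    have h3 : (c' : ℂ) * (d * (τ : ℂ)) + (γ 1 1 : ℤ) = d * c' * τ + (γ 1 1 : ℤ) := by ring
    rw [h3] at h2 ⊢
    push_cast
    field_simp
  show jfun (scaleH d (γ • τ)) = jfun (scaleH d τ)
  rw [key, jfun_smul]


end Fermat.Agent.S24.helper77
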