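import Mathlib
import Fermat.Agent.S24.Defs
import Fermat.Agent.S24.helper77_PolyInJ
import Fermat.Agent.S24.helper77_Hermite

/-! # S24 / AN-degree, part 4 (helper77): the analytic relation of degree `[SL(2,ℤ) : Γ₀(N)]`

For `P` a polynomial in the functions `j_d = j(d τ)` (`d ∣ N`) with complex coefficients, the
function `θ = P(j_d)` is a root of a monic polynomial of degree `n = [SL(2,ℤ) : Γ₀(N)]` whose
coefficients are polynomials in `j`: the coefficients of `∏ (Y - θ ∘ g⁻¹)` (product over the cosets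
`g Γ₀(N)`) are holomorphic, `SL(2,ℤ)`-invariant and of exponential growth at `i∞`.

Main result: `exists_relation_thetaP`.
-/

set_option autoImplicit false

noncomputable section

open UpperHalfPlane ModularForm ModularFormClass MatrixGroups Filter Asymptotics
open scoped Topology Manifold

namespace Fermat.Agent.S24.helper77

theorem exp_isBigO_exp_of_le {M M' : ℕ} (h : M ≤ M') :
    (fun τ : ℍ => Real.exp (2 * Real.pi * M * τ.im)) =O[atImInfty]
      fun τ : ℍ => Real.exp (2 * Real.pi * M' * τ.im) := by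
  refine IsBigO.of_bound 1 (Eventually.of_forall fun τ => ?_)
  rw [one_mul, Real.norm_of_nonneg (Real.exp_pos _).le, Real.norm_of_nonneg (Real.exp_pos _).le]
  apply Real.exp_le_exp.mpr
  have h1 : (M : ℝ) ≤ M' := by exact_mod_cast h
  have h2 := τ.im_pos
  have h3 : 0 < 2 * Real.pi := by positivity
  nlinarith [mul_le_mul_of_nonneg_left h1 h3.le]

/-- The algebra of holomorphic functions on `ℍ` with at most exponential growth at `i∞`. -/
def holoExp : Subalgebra ℂ (ℍ → ℂ) where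
  carrier := {s | MDiff s ∧ ∃ M : ℕ, s =O[atImInfty] fun τ => Real.exp (2 * Real.pi * M * τ.im)}
  mul_mem' := by
    rintro s t ⟨hs, M, hM⟩ ⟨ht, M', hM'⟩
    refine ⟨hs.mul ht, M + M', ?_⟩
    refine (hM.mul hM').congr_right fun τ => ?_
    rw [← Real.exp_add]; push_cast; ring_nf
  add_mem' := by
    rintro s t ⟨hs, M, hM⟩ ⟨ht, M', hM'⟩
    refine ⟨hs.add ht, M + M', ?_⟩
    exact (hM.trans (exp_isBigO_exp_of_le (Nat.le_add_right M M'))).add
      (hM'.trans (exp_isBigO_exp_of_le (Nat.le_add_left M' M)))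
  algebraMap_mem' := by
    intro c
    refine ⟨mdifferentiable_const, 0, ?_⟩
    simp only [Nat.cast_zero, mul_zero, zero_mul, Real.exp_zero]
    exact isBigO_const_const _ one_ne_zero _

theorem mem_holoExp {s : ℍ → ℂ} : s ∈ holoExp ↔
    MDiff s ∧ ∃ M : ℕ, s =O[atImInfty] fun τ => Real.exp (2 * Real.pi * M * τ.im) := Iff.rfl

/-- Precomposition with `g⁻¹ • ·`, as an algebra endomorphism of the functions on `ℍ`. -/
def precomp (g : SL(2, ℤ)) : (ℍ → ℂ) →ₐ[ℂ] (ℍ → ℂ) :=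
  AlgHom.pi (fun τ => Pi.evalAlgHom ℂ _ (g⁻¹ • τ))

@[simp] theorem precomp_apply (g : SL(2, ℤ)) (s : ℍ → ℂ) (τ : ℍ) :
    precomp g s τ = s (g⁻¹ • τ) := rfl

theorem precomp_mul (g h : SL(2, ℤ)) (s : ℍ → ℂ) :
    precomp (g * h) s = precomp g (precomp h s) := by
  ext τ
  simp [mul_smul]

theorem precomp_one (s : ℍ → ℂ) : precomp 1 s = s := by
  ext τ; simp

/-- An invariant element of `holoExp` is a polynomial in `j`. -/
theorem exists_poly_of_mem_holoExp {s : ℍ → ℂ} (hs : s ∈ holoExp)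
    (hinv : ∀ g : SL(2, ℤ), precomp g s = s) :
    ∃ p : Polynomial ℂ, ∀ τ, s τ = p.eval (jfun τ) := by
  obtain ⟨h1, M, hM⟩ := hs
  obtain ⟨p, -, hp⟩ := exists_poly_of_invariant s h1 (fun γ τ => by
    have := congrFun (hinv γ⁻¹) τ
    simpa using this) M hM
  exact ⟨p, hp⟩

section Relation

variable {N : ℕ} [NeZero N] {ι : Type*} (dv : ι → ℕ)

/-- The family of functions `j_d`, `d = dv i`. -/
def jfam : ι → (ℍ → ℂ) := fun i => jfunDT (dv i)

theorem jfunDT_of_ne_zero {d : ℕ} [NeZero d] : jfunDT d = jfunD d := by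
  ext τ
  rw [jfunDT, dif_neg (NeZero.ne d)]

theorem precomp_jfam_mem_holoExp (hdv : ∀ i, dv i ≠ 0) (g : SL(2, ℤ)) (i : ι) :
    precomp g (jfam dv i) ∈ holoExp := by
  have : NeZero (dv i) := ⟨hdv i⟩
  have e : precomp g (jfam dv i) = fun τ => jfunD (dv i) (g⁻¹ • τ) := by
    ext τ
    rw [precomp_apply, jfam, jfunDT_of_ne_zero]
  rw [e]
  exact ⟨mdifferentiable_jfunD_smul _ _, dv i, jfunD_smul_isBigO _ _⟩

theorem precomp_jfam_of_mem_Gamma0 (hdv : ∀ i, dv i ∣ N) {γ : SL(2, ℤ)}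
    (hγ : γ ∈ CongruenceSubgroup.Gamma0 N) (i : ι) :
    precomp γ (jfam dv i) = jfam dv i := by
  have : NeZero (dv i) := ⟨fun h => NeZero.ne N (by simpa [h] using hdv i)⟩
  ext τ
  rw [precomp_apply, jfam, jfunDT_of_ne_zero]
  exact jfunD_smul_of_mem_Gamma0 (hdv i) (inv_mem hγ) τ

/-- The function `θ_P = P(j_d)`. -/
def thetaP (P : MvPolynomial ι ℂ) : ℍ → ℂ := MvPolynomial.aeval (jfam dv) P

theorem thetaP_apply (P : MvPolynomial ι ℂ) (τ : ℍ) :
    thetaP dv P τ = MvPolynomial.eval (fun i => jfunDT (dv i) τ) P := by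
  have := MvPolynomial.comp_aeval_apply (f := jfam dv) (Pi.evalAlgHom ℂ (fun _ : ℍ => ℂ) τ) P
  rw [thetaP]
  change (Pi.evalAlgHom ℂ (fun _ : ℍ => ℂ) τ) ((MvPolynomial.aeval (jfam dv)) P) = _
  rw [this, MvPolynomial.aeval_eq_eval]
  rfl

theorem precomp_thetaP (g : SL(2, ℤ)) (P : MvPolynomial ι ℂ) :
    precomp g (thetaP dv P) = MvPolynomial.aeval (fun i => precomp g (jfam dv i)) P := by
  rw [thetaP, MvPolynomial.comp_aeval_apply]

theorem precomp_thetaP_mem_holoExp (hdv : ∀ i, dv i ≠ 0) (g : SL(2, ℤ)) (P : MvPolynomial ι ℂ) :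
    precomp g (thetaP dv P) ∈ holoExp := by
  rw [precomp_thetaP]
  have := MvPolynomial.comp_aeval_apply (f := fun i =>
    (⟨precomp g (jfam dv i), precomp_jfam_mem_holoExp dv hdv g i⟩ : holoExp)) holoExp.val P
  have e : (MvPolynomial.aeval fun i => precomp g (jfam dv i)) P =
      ((MvPolynomial.aeval (fun i =>
        (⟨precomp g (jfam dv i), precomp_jfam_mem_holoExp dv hdv g i⟩ : holoExp)) P : holoExp) :
          ℍ → ℂ) := this.symm
  rw [e]
  exact Subtype.prop _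

theorem precomp_thetaP_of_mem_Gamma0 (hdv : ∀ i, dv i ∣ N) {γ : SL(2, ℤ)}
    (hγ : γ ∈ CongruenceSubgroup.Gamma0 N) (P : MvPolynomial ι ℂ) :
    precomp γ (thetaP dv P) = thetaP dv P := by
  rw [precomp_thetaP, thetaP]
  have : (fun i => precomp γ (jfam dv i)) = jfam dv :=
    funext fun i => precomp_jfam_of_mem_Gamma0 dv hdv hγ i
  rw [this]

end Relation

section Product

open Polynomial

variable {N : ℕ} [NeZero N]

/-- A chosen `Fintype` structure on the coset space (used only locally). -/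
@[reducible] def fintypeX0 (N : ℕ) [NeZero N] : Fintype (X0 N) := Fintype.ofFinite _

attribute [local instance] fintypeX0

/-- The conjugates of a function `θ`, indexed by the cosets `g Γ₀(N)`. -/
def conjFam (N : ℕ) (θ : ℍ → ℂ) (x : X0 N) : ℍ → ℂ := precomp (Quotient.out x) θ

omit [NeZero N] in
theorem conjFam_mk {θ : ℍ → ℂ}
    (hθ : ∀ γ ∈ CongruenceSubgroup.Gamma0 N, precomp γ θ = θ) (g : SL(2, ℤ)) :
    conjFam N θ (QuotientGroup.mk g : X0 N) = precomp g θ := by
  obtain ⟨γ, hγ⟩ := QuotientGroup.mk_out_eq_mul (CongruenceSubgroup.Gamma0 N) g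
  rw [conjFam, hγ, precomp_mul, hθ γ γ.2]

omit [NeZero N] in
theorem precomp_conjFam {θ : ℍ → ℂ}
    (hθ : ∀ γ ∈ CongruenceSubgroup.Gamma0 N, precomp γ θ = θ) (h : SL(2, ℤ)) (x : X0 N) :
    precomp h (conjFam N θ x) = conjFam N θ (h • x) := by
  obtain ⟨g, rfl⟩ := QuotientGroup.mk_surjective x
  rw [MulAction.Quotient.smul_mk, conjFam_mk hθ, conjFam_mk hθ, smul_eq_mul, precomp_mul]

/-- The characteristic polynomial `∏ (Y - θ ∘ g⁻¹)` of `θ`, the product over the cosets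
`g Γ₀(N)`. -/
def conjPoly (N : ℕ) [NeZero N] (θ : ℍ → ℂ) : Polynomial (ℍ → ℂ) :=
  ∏ x : X0 N, (X - C (conjFam N θ x))

theorem conjPoly_monic (θ : ℍ → ℂ) : (conjPoly N θ).Monic :=
  monic_prod_X_sub_C _ _

theorem conjPoly_natDegree (θ : ℍ → ℂ) : (conjPoly N θ).natDegree = Nat.card (X0 N) := by
  rw [conjPoly, natDegree_finsetProd_X_sub_C_eq_card, Finset.card_univ, Nat.card_eq_fintype_card]

theorem conjPoly_map_precomp {θ : ℍ → ℂ}
    (hθ : ∀ γ ∈ CongruenceSubgroup.Gamma0 N, precomp γ θ = θ) (h : SL(2, ℤ)) :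
    (conjPoly N θ).map (precomp h : (ℍ → ℂ) →+* (ℍ → ℂ)) = conjPoly N θ := by
  rw [conjPoly, Polynomial.map_prod]
  simp only [Polynomial.map_sub, Polynomial.map_X, Polynomial.map_C, RingHom.coe_coe,
    precomp_conjFam hθ]
  exact Equiv.prod_comp (MulAction.toPerm h) (fun x : X0 N => X - C (conjFam N θ x))

theorem precomp_coeff_conjPoly {θ : ℍ → ℂ}
    (hθ : ∀ γ ∈ CongruenceSubgroup.Gamma0 N, precomp γ θ = θ) (h : SL(2, ℤ)) (k : ℕ) :
    precomp h ((conjPoly N θ).coeff k) = (conjPoly N θ).coeff k := by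
  conv_rhs => rw [← conjPoly_map_precomp hθ h]
  rw [Polynomial.coeff_map]
  rfl

theorem coeff_conjPoly_mem {θ : ℍ → ℂ} (hmem : ∀ g : SL(2, ℤ), precomp g θ ∈ holoExp) (k : ℕ) :
    (conjPoly N θ).coeff k ∈ holoExp := by
  have e : conjPoly N θ =
      (∏ x : X0 N, (X - C (⟨conjFam N θ x, hmem _⟩ : holoExp))).map (holoExp.val : _ →+* _) := by
    rw [conjPoly, Polynomial.map_prod]
    simp only [Polynomial.map_sub, Polynomial.map_X, Polynomial.map_C]
    rfl
  rw [e, Polynomial.coeff_map]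
  exact Subtype.prop _

theorem conjPoly_eval_self {θ : ℍ → ℂ}
    (hθ : ∀ γ ∈ CongruenceSubgroup.Gamma0 N, precomp γ θ = θ) :
    (conjPoly N θ).eval θ = 0 := by
  rw [conjPoly, Polynomial.eval_prod]
  apply Finset.prod_eq_zero (Finset.mem_univ (QuotientGroup.mk 1 : X0 N))
  rw [conjFam_mk hθ, precomp_one]
  simp

/-- **Analytic relation.** If `θ` is `Γ₀(N)`-invariant and all its conjugates are holomorphic
with exponential growth at `i∞`, then `θ` is a root of a monic polynomial of degree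
`n = [SL(2,ℤ) : Γ₀(N)]` whose coefficients are polynomials in `j`. -/
theorem exists_relation {θ : ℍ → ℂ}
    (hθ : ∀ γ ∈ CongruenceSubgroup.Gamma0 N, precomp γ θ = θ)
    (hmem : ∀ g : SL(2, ℤ), precomp g θ ∈ holoExp) :
    ∃ p : ℕ → Polynomial ℂ, p (Nat.card (X0 N)) = 1 ∧
      ∀ τ, ∑ k ∈ Finset.range (Nat.card (X0 N) + 1), (p k).eval (jfun τ) * θ τ ^ k = 0 := by
  have hex : ∀ k, ∃ p : Polynomial ℂ, ∀ τ, (conjPoly N θ).coeff k τ = p.eval (jfun τ) := fun k =>
    exists_poly_of_mem_holoExp (coeff_conjPoly_mem hmem k) (fun g => precomp_coeff_conjPoly hθ g k)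
  choose p hp using hex
  refine ⟨fun k => if k = Nat.card (X0 N) then 1 else p k, by simp, fun τ => ?_⟩
  have h0 := congrFun (conjPoly_eval_self (N := N) hθ) τ
  rw [Polynomial.eval_eq_sum_range, conjPoly_natDegree] at h0
  rw [Pi.zero_apply, Finset.sum_apply] at h0
  rw [← h0]
  refine Finset.sum_congr rfl fun k _ => ?_
  rw [Pi.mul_apply, Pi.pow_apply]
  congr 1
  show eval (jfun τ) (if k = Nat.card (X0 N) then 1 else p k) = _
  split_ifs with hk
  · rw [hk, ← conjPoly_natDegree θ, (conjPoly_monic θ).coeff_natDegree]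
    simp
  · exact (hp k τ).symm

/-- **Analytic relation for `θ_P = P(j_d)`.** -/
theorem exists_relation_thetaP {ι : Type*} (dv : ι → ℕ) (hdv : ∀ i, dv i ∣ N)
    (P : MvPolynomial ι ℂ) :
    ∃ p : ℕ → Polynomial ℂ, p (Nat.card (X0 N)) = 1 ∧
      ∀ τ, ∑ k ∈ Finset.range (Nat.card (X0 N) + 1),
        (p k).eval (jfun τ) * (MvPolynomial.eval (fun i => jfunDT (dv i) τ) P) ^ k = 0 := by
  have hdv0 : ∀ i, dv i ≠ 0 := fun i h => NeZero.ne N (by simpa [h] using hdv i)
  obtain ⟨p, hp1, hp⟩ := exists_relation (N := N) (θ := thetaP dv P)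
    (fun γ hγ => precomp_thetaP_of_mem_Gamma0 dv hdv hγ P)
    (fun g => precomp_thetaP_mem_holoExp dv hdv0 g P)
  refine ⟨p, hp1, fun τ => ?_⟩
  have := hp τ
  simpa only [thetaP_apply] using this

end Product

end Fermat.Agent.S24.helper77
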