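import Mathlib
import Fermat.Agent.S24.Defs
import Fermat.Agent.S24.helper77_Transc
import Fermat.Agent.S24.helper77_SymmFun
import Fermat.Agent.S24.helper17_Bridge
import Fermat.Agent.S24.helper24_FieldGen

/-! # S24 / AN-degree, part 5 (helper77): `[F_N : ℚ̄(j)] ≤ [SL(2,ℤ) : Γ₀(N)]`

* `descent_relation`: descent of polynomial relations from `ℂ((q))` to `ℚ̄((q))`.
* `formal_relation`: every `f ∈ ℚ̄[J_d : d ∣ N]` is a root of a monic polynomial of degree
  `n = [SL(2,ℤ) : Γ₀(N)]` with coefficients in `ℚ̄[j]`.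
* `finrank_le_of_forall_aeval`: the abstract degree bound.
* `an_finiteDimensional`, `an_finrank_le`: the function field `F_N` is finite over `ℚ̄(j)` of degree
  at most `n`.
-/

set_option autoImplicit false

noncomputable section

open ModularCurve UpperHalfPlane

namespace Fermat.Agent.S24.helper77

open Fermat.Agent.S24.helper17 Fermat.Agent.S24.helper24

section Descent

variable {K L : Type*} [Field K] [Field L] (φ : K →+* L) (lam : L →+ K)

/-- Descent of linear relations: apply a `K`-linear functional `lam : L → K` coefficientwise. -/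
theorem descent_sum (hlam : ∀ (c : K) (a : L), lam (a * φ c) = lam a * c)
    {κ : Type*} (S : Finset κ) (a : κ → L) (u : κ → LaurentSeries K)
    (h : ∑ i ∈ S, HahnSeries.C (a i) * coeffMap φ (u i) = 0) :
    ∑ i ∈ S, HahnSeries.C (lam (a i)) * u i = 0 := by
  ext m
  have h1 := congrArg (fun v : LaurentSeries L => lam (v.coeff m)) h
  simp only [HahnSeries.coeff_sum, HahnSeries.C_mul_eq_smul, HahnSeries.coeff_smul, smul_eq_mul,
    coeffMap_coeff, map_sum, hlam, HahnSeries.coeff_zero, map_zero] at h1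
  simp only [HahnSeries.coeff_sum, HahnSeries.C_mul_eq_smul, HahnSeries.coeff_smul, smul_eq_mul,
    HahnSeries.coeff_zero]
  exact h1

/-- A `K`-linear functional on `L` with value `1` at `1`. -/
theorem exists_functional : ∃ lam : L →+ K, lam 1 = 1 ∧
    ∀ (c : K) (a : L), lam (a * φ c) = lam a * c := by
  let _ := φ.toAlgebra
  obtain ⟨g, hg⟩ := LinearMap.exists_leftInverse_of_injective (Algebra.linearMap K L)
    (LinearMap.ker_eq_bot.mpr (algebraMap K L).injective)
  refine ⟨g.toAddMonoidHom, ?_, fun c a => ?_⟩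
  · have := LinearMap.congr_fun hg 1
    simpa using this
  · have h1 : a * φ c = c • a := by
      rw [Algebra.smul_def, mul_comm]; rfl
    show g (a * φ c) = g a * c
    rw [h1, map_smul, smul_eq_mul, mul_comm]

theorem algebraMap_eq_C (c : K) : algebraMap K (LaurentSeries K) c = HahnSeries.C c := by
  rw [algebraMap_laurentSeries_eq_single]
  rfl

/-- Descent of a polynomial relation `∑ p_k(x) f^k = 0` from `L((q))` to `K((q))`. -/
theorem descent_relation (n : ℕ) (x f : LaurentSeries K) (p : ℕ → Polynomial L) (hp : p n = 1)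
    (h : ∑ k ∈ Finset.range (n + 1),
      Polynomial.aeval (coeffMap φ x) (p k) * coeffMap φ f ^ k = 0) :
    ∃ q : ℕ → Polynomial K, q n = 1 ∧
      ∑ k ∈ Finset.range (n + 1), Polynomial.aeval x (q k) * f ^ k = 0 := by
  obtain ⟨lam, hlam1, hlam⟩ := exists_functional (K := K) (L := L) φ
  set m := (Finset.range (n + 1)).sup (fun k => (p k).natDegree) with hm
  have hdeg : ∀ k ∈ Finset.range (n + 1), (p k).natDegree < m + 1 := fun k hk =>
    Nat.lt_succ_of_le (Finset.le_sup (f := fun k => (p k).natDegree) hk)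
  refine ⟨fun k => ∑ i ∈ Finset.range (m + 1), Polynomial.monomial i (lam ((p k).coeff i)),
    ?_, ?_⟩
  · show ∑ i ∈ Finset.range (m + 1), Polynomial.monomial i (lam ((p n).coeff i)) = 1
    rw [hp, Finset.sum_eq_single 0]
    · simp [hlam1]
    · intro i _ hi
      simp [Polynomial.coeff_one, hi]
    · intro h0
      exact absurd (Finset.mem_range.mpr (Nat.succ_pos m)) h0
  · -- expand the relation over `L`
    have h1 : ∑ ki ∈ Finset.range (n + 1) ×ˢ Finset.range (m + 1),
        HahnSeries.C ((p ki.1).coeff ki.2) * coeffMap φ (x ^ ki.2 * f ^ ki.1) = 0 := by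
      rw [Finset.sum_product, ← h]
      refine Finset.sum_congr rfl fun k hk => ?_
      rw [Polynomial.aeval_eq_sum_range' (hdeg k hk), Finset.sum_mul]
      refine Finset.sum_congr rfl fun i _ => ?_
      rw [map_mul, map_pow, map_pow, Algebra.smul_def, algebraMap_eq_C, mul_assoc]
    have h2 := descent_sum φ lam hlam _ _ _ h1
    rw [Finset.sum_product] at h2
    rw [← h2]
    refine Finset.sum_congr rfl fun k _ => ?_
    rw [map_sum, Finset.sum_mul]
    refine Finset.sum_congr rfl fun i _ => ?_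
    rw [Polynomial.aeval_monomial, algebraMap_eq_C, mul_assoc]

end Descent

theorem scaleH_one (τ : ℍ) : scaleH 1 τ = τ := by
  apply UpperHalfPlane.ext
  show ((1 : ℕ) : ℂ) * (τ : ℂ) = τ
  simp

theorem jfunDT_one (τ : ℍ) : jfunDT 1 τ = jfun τ := by
  rw [jfunDT, dif_neg one_ne_zero]
  show jfun (scaleH 1 τ) = jfun τ
  rw [scaleH_one]

theorem JdT_one : JdT 1 = coeffEmb Kbar jq := by
  rw [JdT, dif_neg one_ne_zero]
  exact Jd_one

/-- The index of the divisor `1`. -/
def idxOne (N : ℕ) [NeZero N] : N.divisors := ⟨1, Nat.mem_divisors.mpr ⟨one_dvd N, NeZero.ne N⟩⟩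

/-- The formal relation of degree `n = [SL(2,ℤ) : Γ₀(N)]` with complex coefficients. -/
theorem formal_relation_C (N : ℕ) [NeZero N] (P : MvPolynomial N.divisors Kbar) :
    ∃ p : ℕ → Polynomial ℂ, p (Nat.card (X0 N)) = 1 ∧
      ∑ k ∈ Finset.range (Nat.card (X0 N) + 1),
        Polynomial.aeval (toC (coeffEmb Kbar jq)) (p k) *
          toC (MvPolynomial.aeval (genJ N) P) ^ k = 0 := by
  obtain ⟨p, hp1, hp⟩ := exists_relation_thetaP (N := N) (fun i : N.divisors => i.1)
    (fun i => Nat.dvd_of_mem_divisors i.2) (MvPolynomial.map (iotaC : Kbar →+* ℂ) P)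
  refine ⟨p, hp1, ?_⟩
  set P' := MvPolynomial.map (iotaC : Kbar →+* ℂ) P with hP'
  set Q : MvPolynomial N.divisors ℂ := ∑ k ∈ Finset.range (Nat.card (X0 N) + 1),
    Polynomial.aeval (MvPolynomial.X (idxOne N) : MvPolynomial N.divisors ℂ) (p k) * P' ^ k with hQ
  have hQ0 : ∀ τ : ℍ, MvPolynomial.eval (fun i : N.divisors => jfunDT i.1 τ) Q = 0 := by
    intro τ
    rw [hQ, map_sum, ← hp τ]
    refine Finset.sum_congr rfl fun k _ => ?_
    rw [map_mul, map_pow]
    congr 1
    rw [Polynomial.aeval_def, Polynomial.hom_eval₂, MvPolynomial.eval_X]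
    show Polynomial.eval₂ _ (jfunDT 1 τ) (p k) = _
    rw [jfunDT_one]
    have : (MvPolynomial.eval fun i : N.divisors => jfunDT i.1 τ).comp
        (algebraMap ℂ (MvPolynomial N.divisors ℂ)) = RingHom.id ℂ := by
      ext c; simp
    rw [this]
    rfl
  have hb := (bridge_complex (fun i : N.divisors => i.1) Q).mpr hQ0
  rw [hQ, map_sum] at hb
  rw [← hb]
  refine Finset.sum_congr rfl fun k _ => ?_
  rw [map_mul, map_pow, ← Polynomial.aeval_algHom_apply, MvPolynomial.aeval_X]
  have e1 : JdTC (idxOne N).1 = toC (coeffEmb Kbar jq) := by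
    show JdTC 1 = _
    rw [← toC_JdT, JdT_one]
  have e2 : (fun i : N.divisors => toC (genJ N i)) = fun i : N.divisors => JdTC i.1 :=
    funext fun i => toC_JdT i.1
  rw [e1, toC_aeval, e2]


/-- **Formal relation.** Every `f ∈ ℚ̄[J_d : d ∣ N]` is a root of a monic polynomial of degree
`n = [SL(2,ℤ) : Γ₀(N)]` with coefficients in `ℚ̄[j]`. -/
theorem formal_relation (N : ℕ) [NeZero N] (P : MvPolynomial N.divisors Kbar) :
    ∃ q : ℕ → Polynomial Kbar, q (Nat.card (X0 N)) = 1 ∧
      ∑ k ∈ Finset.range (Nat.card (X0 N) + 1),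
        Polynomial.aeval (coeffEmb Kbar jq) (q k) * (MvPolynomial.aeval (genJ N) P) ^ k = 0 := by
  obtain ⟨p, hp1, hp⟩ := formal_relation_C N P
  exact descent_relation (iotaC : Kbar →+* ℂ) _ _ _ p hp1 hp

section FieldTheory

open IntermediateField Polynomial

variable {K F : Type*} [Field K] [Field F] [Algebra K F]

/-- If `β = c α` with `c ≠ 0` in the base field is a root of a nonzero polynomial of degree `≤ n`,
so is `α`. -/
theorem exists_poly_of_scaled {E : Type*} [Field E] [Algebra E F] (c : E) (hc : c ≠ 0) (α : F)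
    (n : ℕ) (Q : Polynomial E) (hQ0 : Q ≠ 0) (hQn : Q.natDegree ≤ n)
    (hQ : aeval (algebraMap E F c * α) Q = 0) :
    ∃ Q' : Polynomial E, Q' ≠ 0 ∧ Q'.natDegree ≤ n ∧ aeval α Q' = 0 := by
  refine ⟨Q.comp (C c * X), ?_, ?_, ?_⟩
  · intro h
    rw [comp_eq_zero_iff] at h
    rcases h with h | ⟨-, h⟩
    · exact hQ0 h
    · have := congrArg natDegree h
      rw [natDegree_C_mul_X c hc, natDegree_C] at this
      exact one_ne_zero this
  · rw [natDegree_comp, natDegree_C_mul_X c hc, mul_one]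
    exact hQn
  · rw [aeval_comp]
    simpa using hQ

variable [CharZero K]

/-- **Degree bound.** Let `F = K(s_i)` and `x ∈ K[s_i]` transcendental over `K`. If every
element of `K[s_i]` is a root of a nonzero polynomial of degree `≤ n` over `K(x)`, then
`[F : K(x)] ≤ n`. -/
theorem finrank_le_of_forall_aeval {ι : Type*} [Finite ι] (x : F) (hx : Transcendental K x)
    (s : ι → F) (hs : IntermediateField.adjoin K (Set.range s) = ⊤)
    (hxs : x ∈ Algebra.adjoin K (Set.range s)) (n : ℕ)
    (H : ∀ P : MvPolynomial ι K, ∃ Q : Polynomial K⟮x⟯, Q ≠ 0 ∧ Q.natDegree ≤ n ∧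
      aeval (MvPolynomial.aeval s P) Q = 0) :
    FiniteDimensional K⟮x⟯ F ∧ Module.finrank K⟮x⟯ F ≤ n := by
  -- every element of `K[s_i]` is algebraic over `E = K(x)` of degree `≤ n`
  have Hmem : ∀ β ∈ Algebra.adjoin K (Set.range s), ∃ Q : Polynomial K⟮x⟯,
      Q ≠ 0 ∧ Q.natDegree ≤ n ∧ aeval β Q = 0 := by
    intro β hβ
    rw [Algebra.adjoin_range_eq_range_aeval] at hβ
    obtain ⟨P, rfl⟩ := hβ
    exact H P
  have halg : ∀ y ∈ Set.range s, IsAlgebraic K⟮x⟯ y := by
    intro y hy
    obtain ⟨Q, hQ0, -, hQ⟩ := Hmem y (Algebra.subset_adjoin hy)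
    exact ⟨Q, hQ0, hQ⟩
  have htop : IntermediateField.adjoin K⟮x⟯ (Set.range s) = ⊤ :=
    adjoin_eq_top_of_adjoin_eq_top K hs
  have hfd : FiniteDimensional K⟮x⟯ F := by
    have h1 : FiniteDimensional K⟮x⟯ (IntermediateField.adjoin K⟮x⟯ (Set.range s)) :=
      finiteDimensional_adjoin fun y hy => (halg y hy).isIntegral
    rw [htop] at h1
    exact (topEquiv (F := K⟮x⟯) (E := F)).toLinearEquiv.finiteDimensional
  refine ⟨hfd, ?_⟩
  obtain ⟨α, hα⟩ := Field.exists_primitive_element K⟮x⟯ F
  rw [← (Field.primitive_element_iff_minpoly_natDegree_eq K⟮x⟯ α).mp hα]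
  -- `α` is a polynomial in the `s_i` with coefficients in `K(x)`
  have hαmem : α ∈ Algebra.adjoin K⟮x⟯ (Set.range s) := by
    rw [← adjoin_toSubalgebra_of_isAlgebraic halg, htop]
    trivial
  -- clear denominators
  have hclear : ∀ y ∈ Algebra.adjoin K⟮x⟯ (Set.range s), ∃ D : Polynomial K, D ≠ 0 ∧
      aeval x D * y ∈ Algebra.adjoin K (Set.range s) := by
    intro y hy
    induction hy using Algebra.adjoin_induction with
    | mem y hy => exact ⟨1, one_ne_zero, by simpa using Algebra.subset_adjoin hy⟩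
    | algebraMap e =>
      obtain ⟨r, t, hrt⟩ := (mem_adjoin_simple_iff K (e : F)).mp e.2
      by_cases ht : aeval x t = 0
      · refine ⟨1, one_ne_zero, ?_⟩
        have : (algebraMap K⟮x⟯ F) e = 0 := by
          show (e : F) = 0
          rw [hrt, ht, div_zero]
        rw [this, mul_zero]
        exact zero_mem _
      · refine ⟨t, fun h => ht (by rw [h, map_zero]), ?_⟩
        have : (algebraMap K⟮x⟯ F) e = aeval x r / aeval x t := hrt
        rw [this, mul_div_cancel₀ _ ht]
        exact Polynomial.aeval_mem_adjoin_singleton K x |> fun h =>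
          (Algebra.adjoin_le (Set.singleton_subset_iff.mpr hxs)) h
    | add y z _ _ hy hz =>
      obtain ⟨D₁, h1, h1'⟩ := hy
      obtain ⟨D₂, h2, h2'⟩ := hz
      refine ⟨D₁ * D₂, mul_ne_zero h1 h2, ?_⟩
      have hD₁ : aeval x D₁ ∈ Algebra.adjoin K (Set.range s) :=
        (Algebra.adjoin_le (Set.singleton_subset_iff.mpr hxs))
          (Polynomial.aeval_mem_adjoin_singleton K x)
      have hD₂ : aeval x D₂ ∈ Algebra.adjoin K (Set.range s) :=
        (Algebra.adjoin_le (Set.singleton_subset_iff.mpr hxs))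
          (Polynomial.aeval_mem_adjoin_singleton K x)
      have : aeval x (D₁ * D₂) * (y + z) =
          aeval x D₂ * (aeval x D₁ * y) + aeval x D₁ * (aeval x D₂ * z) := by
        rw [map_mul]; ring
      rw [this]
      exact add_mem (mul_mem hD₂ h1') (mul_mem hD₁ h2')
    | mul y z _ _ hy hz =>
      obtain ⟨D₁, h1, h1'⟩ := hy
      obtain ⟨D₂, h2, h2'⟩ := hz
      refine ⟨D₁ * D₂, mul_ne_zero h1 h2, ?_⟩
      have : aeval x (D₁ * D₂) * (y * z) = (aeval x D₁ * y) * (aeval x D₂ * z) := by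
        rw [map_mul]; ring
      rw [this]
      exact mul_mem h1' h2'
  obtain ⟨D, hD0, hDα⟩ := hclear α hαmem
  obtain ⟨Q, hQ0, hQn, hQ⟩ := Hmem _ hDα
  -- the scalar `D(x)` as an element of `K(x)`
  let c : K⟮x⟯ := aeval (AdjoinSimple.gen K x) D
  have hc : algebraMap K⟮x⟯ F c = aeval x D := by
    show algebraMap K⟮x⟯ F (aeval (AdjoinSimple.gen K x) D) = aeval x D
    rw [← Polynomial.aeval_algebraMap_apply, AdjoinSimple.algebraMap_gen]
  have hc0 : c ≠ 0 := by
    intro h
    have h1 : aeval x D = 0 := by rw [← hc, h, map_zero]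
    exact hD0 (by
      by_contra hne
      exact hx ⟨D, hne, h1⟩)
  rw [← hc] at hQ
  obtain ⟨Q', hQ'0, hQ'n, hQ'⟩ := exists_poly_of_scaled c hc0 α n Q hQ0 hQn hQ
  exact (natDegree_le_of_degree_le
    ((minpoly.degree_le_of_ne_zero K⟮x⟯ α hQ'0 hQ').trans degree_le_natDegree)).trans hQ'n

end FieldTheory


section Final

open IntermediateField Polynomial

/-- The generators `J_d`, `d ∣ N`, as elements of the function field. -/
def genF (N : ℕ) [NeZero N] (i : N.divisors) : FN N :=
  ⟨genJ N i, by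
    rw [modularFunctionFieldBar_eq_adjoin]
    exact subset_adjoin Kbar _ ⟨i, rfl⟩⟩

@[simp] theorem coe_genF (N : ℕ) [NeZero N] (i : N.divisors) :
    ((genF N i : FN N) : LaurentSeries Kbar) = genJ N i := rfl

theorem adjoin_genF_eq_top (N : ℕ) [NeZero N] :
    IntermediateField.adjoin Kbar (Set.range (genF N)) = ⊤ := by
  apply IntermediateField.lift_injective (modularFunctionFieldBar N)
  rw [lift_adjoin, lift_top]
  have : (Subtype.val '' Set.range (genF N) : Set (LaurentSeries Kbar)) = Set.range (genJ N) := by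
    rw [← Set.range_comp]
    rfl
  rw [this]
  exact (modularFunctionFieldBar_eq_adjoin N).symm


theorem genF_idxOne (N : ℕ) [NeZero N] : genF N (idxOne N) = xJ N := by
  apply Subtype.ext
  rw [coe_genF, coe_xJ]
  exact JdT_one

/-- A relation `∑ q_k(x) f^k = 0` with `q_n = 1` gives a nonzero polynomial of degree `≤ n` over
`K(x)` killing `f`. -/
theorem exists_poly_of_relation {K F : Type*} [Field K] [Field F] [Algebra K F] (x f : F)
    (n : ℕ) (q : ℕ → Polynomial K) (hq1 : q n = 1)
    (hq : ∑ k ∈ Finset.range (n + 1), aeval x (q k) * f ^ k = 0) :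
    ∃ Q : Polynomial K⟮x⟯, Q ≠ 0 ∧ Q.natDegree ≤ n ∧ aeval f Q = 0 := by
  let c : ℕ → K⟮x⟯ := fun k => aeval (AdjoinSimple.gen K x) (q k)
  have hc : ∀ k, algebraMap K⟮x⟯ F (c k) = aeval x (q k) := by
    intro k
    show algebraMap K⟮x⟯ F (aeval (AdjoinSimple.gen K x) (q k)) = aeval x (q k)
    rw [← Polynomial.aeval_algebraMap_apply, AdjoinSimple.algebraMap_gen]
  refine ⟨∑ k ∈ Finset.range (n + 1), monomial k (c k), ?_, ?_, ?_⟩
  · intro h
    have h1 := congrArg (fun Q : Polynomial K⟮x⟯ => Q.coeff n) h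
    simp only [finsetSum_coeff, coeff_monomial, coeff_zero] at h1
    rw [Finset.sum_eq_single n] at h1
    · simp only [if_true] at h1
      have : c n = 1 := by
        show aeval (AdjoinSimple.gen K x) (q n) = 1
        rw [hq1, map_one]
      rw [this] at h1
      exact one_ne_zero h1
    · intro k _ hk
      rw [if_neg hk]
    · intro h0
      exact absurd (Finset.mem_range.mpr (Nat.lt_succ_self n)) h0
  · refine natDegree_sum_le_of_forall_le _ _ fun k hk => ?_
    exact (natDegree_monomial_le _).trans (Nat.lt_succ_iff.mp (Finset.mem_range.mp hk))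
  · rw [map_sum, ← hq]
    refine Finset.sum_congr rfl fun k _ => ?_
    rw [aeval_monomial, hc]

/-- The relation of `formal_relation`, inside the function field. -/
theorem relation_in_FN (N : ℕ) [NeZero N] (P : MvPolynomial N.divisors Kbar) :
    ∃ q : ℕ → Polynomial Kbar, q (Nat.card (X0 N)) = 1 ∧
      ∑ k ∈ Finset.range (Nat.card (X0 N) + 1),
        aeval (xJ N) (q k) * (MvPolynomial.aeval (genF N) P) ^ k = 0 := by
  obtain ⟨q, hq1, hq⟩ := formal_relation N P
  refine ⟨q, hq1, ?_⟩
  obtain ⟨v, hv⟩ : ∃ v : FN N →ₐ[Kbar] LaurentSeries Kbar, ∀ y, v y = (y : LaurentSeries Kbar) :=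
    ⟨(modularFunctionFieldBar N).val, fun _ => rfl⟩
  have hvinj : Function.Injective v := fun a b h => Subtype.ext (by rw [← hv, ← hv, h])
  apply hvinj
  rw [map_sum, map_zero, ← hq]
  refine Finset.sum_congr rfl fun k _ => ?_
  rw [map_mul, map_pow, ← Polynomial.aeval_algHom_apply, MvPolynomial.comp_aeval_apply]
  have h1 : v (xJ N) = coeffEmb Kbar jq := (hv _).trans (coe_xJ N)
  have h2 : (fun i => v (genF N i)) = genJ N := funext fun i => hv _
  rw [h1, h2]

/-- The relation of `formal_relation`, as a polynomial over `ℚ̄(j)`. -/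
theorem exists_poly_over_adjoin (N : ℕ) [NeZero N] (P : MvPolynomial N.divisors Kbar) :
    ∃ Q : Polynomial Kbar⟮xJ N⟯, Q ≠ 0 ∧ Q.natDegree ≤ Nat.card (X0 N) ∧
      aeval (MvPolynomial.aeval (genF N) P) Q = 0 := by
  obtain ⟨q, hq1, hq⟩ := relation_in_FN N P
  exact exists_poly_of_relation _ _ _ q hq1 hq

/-- **Upper bound**: `F_N` is finite over `ℚ̄(j)`, of degree at most `[SL(2,ℤ) : Γ₀(N)]`. -/
theorem an_finiteDimensional_and_finrank_le (N : ℕ) [NeZero N] :
    FiniteDimensional Kbar⟮xJ N⟯ (FN N) ∧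
      Module.finrank Kbar⟮xJ N⟯ (FN N) ≤ Nat.card (X0 N) :=
  finrank_le_of_forall_aeval (xJ N) (an_transcendental N) (genF N) (adjoin_genF_eq_top N)
    (by rw [← genF_idxOne]; exact Algebra.subset_adjoin ⟨_, rfl⟩) _
    (exists_poly_over_adjoin N)

/-- AN-T1 (interface `an_finiteDimensional`). -/
theorem an_finiteDimensional (N : ℕ) [NeZero N] : FiniteDimensional Kbar⟮xJ N⟯ (FN N) :=
  (an_finiteDimensional_and_finrank_le N).1

theorem an_finrank_le (N : ℕ) [NeZero N] :
    Module.finrank Kbar⟮xJ N⟯ (FN N) ≤ Nat.card (X0 N) :=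
  (an_finiteDimensional_and_finrank_le N).2

end Final

end Fermat.Agent.S24.helper77
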