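import Mathlib
import Fermat.Agent.S24.Defs

/-!
# S24 / cusp case: `t`-expansions (`t = q^{1/N} = exp(2πiτ/N)`) of weakly holomorphic functions

* `IsNice N g`: `g : ℍ → ℂ` is holomorphic, `N`-periodic and bounded at `i∞`.
* `IsTExp N F f`: the Laurent series `F ∈ ℂ((t))` is the expansion at `i∞` of `f : ℍ → ℂ`
  (finite pole allowed).  Closed under ring operations, unique, injective, compatible with the
  rotation `τ ↦ τ + 1`.
-/

set_option autoImplicit false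
set_option linter.unusedSectionVars false
set_option linter.unusedVariables false

noncomputable section

open UpperHalfPlane Filter Topology Function
open scoped MatrixGroups Manifold

namespace Fermat.Agent.S24.helper37

local notation "𝕢" => Function.Periodic.qParam

/-! ## Nice functions -/

/-- `g` is holomorphic on `ℍ`, periodic of period `N` and bounded at `i∞`. -/
structure IsNice (N : ℕ) (g : ℍ → ℂ) : Prop where
  per : ∀ τ : ℍ, g (((N : ℕ) : ℝ) +ᵥ τ) = g τ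
  mdiff : MDiff g
  bdd : IsBoundedAtImInfty g

theorem periodic_comp_ofComplex {h : ℝ} {g : ℍ → ℂ} (hg : ∀ τ : ℍ, g (h +ᵥ τ) = g τ) :
    Periodic (g ∘ ofComplex) (h : ℂ) := by
  intro w
  by_cases hw : 0 < Complex.im w
  · have hw' : 0 < Complex.im (w + h) := by simpa using hw
    simp only [comp_apply, ofComplex_apply_of_im_pos hw', ofComplex_apply_of_im_pos hw]
    rw [← hg ⟨w, hw⟩]
    congr 1
    ext
    simp [add_comm]
  · have hw1 : Complex.im w ≤ 0 := not_lt.mp hw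
    have hw' : Complex.im (w + h) ≤ 0 := by simpa using hw1
    simp [ofComplex_apply_of_im_nonpos hw', ofComplex_apply_of_im_nonpos hw1]

section Nice

variable {N : ℕ} [NeZero N]

theorem natCast_pos_real (N : ℕ) [NeZero N] : (0 : ℝ) < (N : ℝ) := by
  exact_mod_cast Nat.pos_of_ne_zero (NeZero.ne N)

namespace IsNice

variable {g g₁ g₂ : ℍ → ℂ}

theorem periodic (hg : IsNice N g) : Periodic (g ∘ ofComplex) ((N : ℝ) : ℂ) :=
  periodic_comp_ofComplex hg.per

theorem analyticAt (hg : IsNice N g) : AnalyticAt ℂ (cuspFunction (N : ℝ) g) 0 :=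
  analyticAt_cuspFunction_zero (natCast_pos_real N) hg.periodic hg.mdiff hg.bdd

theorem hasSum (hg : IsNice N g) (τ : ℍ) :
    HasSum (fun m : ℕ => (qExpansion (N : ℝ) g).coeff m * 𝕢 (N : ℝ) τ ^ m) (g τ) := by
  have := hasSum_qExpansion (natCast_pos_real N) hg.periodic hg.mdiff hg.bdd τ
  simpa [smul_eq_mul] using this

theorem add (h₁ : IsNice N g₁) (h₂ : IsNice N g₂) : IsNice N (g₁ + g₂) where
  per τ := by simp [h₁.per τ, h₂.per τ]
  mdiff := h₁.mdiff.add h₂.mdiff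
  bdd := h₁.bdd.add h₂.bdd

theorem mul (h₁ : IsNice N g₁) (h₂ : IsNice N g₂) : IsNice N (g₁ * g₂) where
  per τ := by simp [h₁.per τ, h₂.per τ]
  mdiff := h₁.mdiff.mul h₂.mdiff
  bdd := h₁.bdd.mul h₂.bdd

theorem neg (h₁ : IsNice N g₁) : IsNice N (-g₁) where
  per τ := by simp [h₁.per τ]
  mdiff := h₁.mdiff.neg
  bdd := h₁.bdd.neg_left

theorem const (c : ℂ) : IsNice N (fun _ => c) where
  per _ := rfl
  mdiff := mdifferentiable_const
  bdd := Filter.const_boundedAtFilter _ c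

theorem qExpansion_add (h₁ : IsNice N g₁) (h₂ : IsNice N g₂) :
    qExpansion (N : ℝ) (g₁ + g₂) = qExpansion (N : ℝ) g₁ + qExpansion (N : ℝ) g₂ :=
  UpperHalfPlane.qExpansion_add h₁.analyticAt h₂.analyticAt

theorem qExpansion_mul (h₁ : IsNice N g₁) (h₂ : IsNice N g₂) :
    qExpansion (N : ℝ) (g₁ * g₂) = qExpansion (N : ℝ) g₁ * qExpansion (N : ℝ) g₂ :=
  UpperHalfPlane.qExpansion_mul h₁.analyticAt h₂.analyticAt

theorem qExpansion_neg (h₁ : IsNice N g₁) :
    qExpansion (N : ℝ) (-g₁) = -qExpansion (N : ℝ) g₁ :=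
  UpperHalfPlane.qExpansion_neg h₁.analyticAt

theorem qExpansion_eq_zero_iff (hg : IsNice N g) : qExpansion (N : ℝ) g = 0 ↔ g = 0 :=
  UpperHalfPlane.qExpansion_eq_zero_iff (natCast_pos_real N) hg.periodic hg.mdiff hg.bdd

/-- Uniqueness of coefficients. -/
theorem coeff_unique (hg : IsNice N g) {c : ℕ → ℂ}
    (hc : ∀ τ : ℍ, HasSum (fun m : ℕ => c m * 𝕢 (N : ℝ) τ ^ m) (g τ)) (m : ℕ) :
    c m = (qExpansion (N : ℝ) g).coeff m := by
  have h1 := (hasFPowerSeriesOnBall_cuspFunction (c := c) (natCast_pos_real N) hg.analyticAt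
    (fun τ => by simpa [smul_eq_mul] using hc τ)).hasFPowerSeriesAt
  have h2 := (hasFPowerSeriesOnBall_cuspFunction
    (c := fun m => (qExpansion (N : ℝ) g).coeff m) (natCast_pos_real N) hg.analyticAt
    (fun τ => by simpa [smul_eq_mul] using hg.hasSum τ)).hasFPowerSeriesAt
  have h3 := h1.eq_formalMultilinearSeries h2
  have h4 := congrArg (fun p => FormalMultilinearSeries.coeff p m) h3
  simpa [FormalMultilinearSeries.coeff_ofScalars] using h4

end IsNice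

theorem qParam_vadd (τ : ℍ) : 𝕢 (N : ℝ) (((N : ℝ) +ᵥ τ : ℍ) : ℂ) = 𝕢 (N : ℝ) (τ : ℂ) := by
  have hN : ((N : ℝ) : ℂ) ≠ 0 := by
    exact_mod_cast (natCast_pos_real N).ne'
  rw [coe_vadd, Function.Periodic.qParam, Function.Periodic.qParam]
  rw [show 2 * (Real.pi : ℂ) * Complex.I * (((N : ℝ) : ℂ) + (τ : ℂ)) / ((N : ℝ) : ℂ)
      = 2 * (Real.pi : ℂ) * Complex.I * (τ : ℂ) / ((N : ℝ) : ℂ) + 2 * (Real.pi : ℂ) * Complex.I by
    field_simp
    ring]
  rw [Complex.exp_add, Complex.exp_two_pi_mul_I, mul_one]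

theorem mdiff_qParam (h : ℝ) : MDiff (fun τ : ℍ => 𝕢 h (τ : ℂ)) := by
  rw [UpperHalfPlane.mdifferentiable_iff]
  have h1 : DifferentiableOn ℂ (𝕢 h) {z : ℂ | 0 < z.im} :=
    (Function.Periodic.differentiable_qParam).differentiableOn
  refine h1.congr fun z hz => ?_
  simp only [comp_apply]
  rw [ofComplex_apply_of_im_pos hz]

theorem isBoundedAtImInfty_qParam : IsBoundedAtImInfty (fun τ : ℍ => 𝕢 (N : ℝ) (τ : ℂ)) := by
  rw [isBoundedAtImInfty_iff]
  refine ⟨1, 0, fun z _ => ?_⟩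
  exact (Function.Periodic.norm_qParam_lt_one (natCast_pos_real N) z.im_pos).le

theorem isNice_qParam : IsNice N (fun τ : ℍ => 𝕢 (N : ℝ) (τ : ℂ)) where
  per τ := qParam_vadd τ
  mdiff := mdiff_qParam _
  bdd := isBoundedAtImInfty_qParam

theorem isNice_qParam_pow (k : ℕ) : IsNice N (fun τ : ℍ => 𝕢 (N : ℝ) (τ : ℂ) ^ k) := by
  induction k with
  | zero => simpa using IsNice.const (N := N) 1
  | succ k ih =>
    have := ih.mul (isNice_qParam (N := N))
    refine ⟨fun τ => ?_, ?_, ?_⟩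
    · have := this.per τ
      simpa [pow_succ] using this
    · have := this.mdiff
      simpa [pow_succ, Pi.mul_def] using this
    · have := this.bdd
      simpa [pow_succ, Pi.mul_def] using this

theorem qExpansion_qParam_pow (k : ℕ) :
    qExpansion (N : ℝ) (fun τ : ℍ => 𝕢 (N : ℝ) (τ : ℂ) ^ k) = PowerSeries.X ^ k := by
  ext m
  rw [PowerSeries.coeff_X_pow]
  have := (isNice_qParam_pow (N := N) k).coeff_unique (c := fun m => if m = k then 1 else 0)
    (fun τ => ?_) m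
  · exact this.symm
  · have h := hasSum_ite_eq k (𝕢 (N : ℝ) (τ : ℂ) ^ k)
    convert h using 2 with n
    by_cases hn : n = k
    · simp [hn]
    · simp [hn]

end Nice

/-! ## `t`-expansions -/

section TExp

variable {N : ℕ} [NeZero N]

/-- `F` is the `t`-expansion of `f`, witnessed by the pole bound `M`. -/
def IsTExpAt (N : ℕ) (M : ℕ) (F : LaurentSeries ℂ) (f : ℍ → ℂ) : Prop :=
  IsNice N (fun τ => 𝕢 (N : ℝ) (τ : ℂ) ^ M * f τ) ∧
    HahnSeries.ofPowerSeries ℤ ℂ (qExpansion (N : ℝ) (fun τ => 𝕢 (N : ℝ) (τ : ℂ) ^ M * f τ))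
      = HahnSeries.single (M : ℤ) (1 : ℂ) * F

/-- `F ∈ ℂ((t))` is the `t`-expansion (`t = exp(2πiτ/N)`) of `f : ℍ → ℂ`. -/
def IsTExp (N : ℕ) (F : LaurentSeries ℂ) (f : ℍ → ℂ) : Prop :=
  ∃ M : ℕ, IsTExpAt N M F f

theorem single_mul_single_neg (M : ℤ) :
    HahnSeries.single (-M) (1 : ℂ) * HahnSeries.single M (1 : ℂ) = 1 := by
  rw [HahnSeries.single_mul_single]
  simp

theorem single_mul_cancel {M : ℤ} {F G : LaurentSeries ℂ}
    (h : HahnSeries.single M (1 : ℂ) * F = HahnSeries.single M (1 : ℂ) * G) : F = G := by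
  have := congrArg (fun x => HahnSeries.single (-M) (1 : ℂ) * x) h
  simpa [← mul_assoc, single_mul_single_neg] using this

theorem IsTExpAt.add_right {M : ℕ} {F : LaurentSeries ℂ} {f : ℍ → ℂ}
    (h : IsTExpAt N M F f) (k : ℕ) : IsTExpAt N (M + k) F f := by
  obtain ⟨h1, h2⟩ := h
  have hfun : (fun τ : ℍ => 𝕢 (N : ℝ) (τ : ℂ) ^ (M + k) * f τ)
      = (fun τ : ℍ => 𝕢 (N : ℝ) (τ : ℂ) ^ k) * (fun τ : ℍ => 𝕢 (N : ℝ) (τ : ℂ) ^ M * f τ) := by
    funext τ
    simp only [Pi.mul_apply]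
    ring
  refine ⟨?_, ?_⟩
  · rw [hfun]
    exact (isNice_qParam_pow k).mul h1
  · rw [hfun, (isNice_qParam_pow k).qExpansion_mul h1, qExpansion_qParam_pow, map_mul, h2,
      HahnSeries.ofPowerSeries_X_pow, ← mul_assoc, HahnSeries.single_mul_single]
    rw [mul_one, show ((k : ℤ) + (M : ℤ)) = ((M + k : ℕ) : ℤ) by push_cast; ring]

theorem IsTExpAt.mono {M M' : ℕ} {F : LaurentSeries ℂ} {f : ℍ → ℂ}
    (h : IsTExpAt N M F f) (hM : M ≤ M') : IsTExpAt N M' F f := by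
  obtain ⟨k, rfl⟩ := Nat.exists_eq_add_of_le hM
  exact h.add_right k

namespace IsTExp

variable {F F₁ F₂ : LaurentSeries ℂ} {f f₁ f₂ : ℍ → ℂ}

theorem add (h₁ : IsTExp N F₁ f₁) (h₂ : IsTExp N F₂ f₂) : IsTExp N (F₁ + F₂) (f₁ + f₂) := by
  obtain ⟨M₁, h₁⟩ := h₁
  obtain ⟨M₂, h₂⟩ := h₂
  obtain ⟨a1, a2⟩ := h₁.mono (le_max_left M₁ M₂)
  obtain ⟨b1, b2⟩ := h₂.mono (le_max_right M₁ M₂)
  refine ⟨max M₁ M₂, ?_, ?_⟩
  · have := a1.add b1
    convert this using 1
    funext τ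
    simp only [Pi.add_apply]
    ring
  · have hfun : (fun τ : ℍ => 𝕢 (N : ℝ) (τ : ℂ) ^ (max M₁ M₂) * (f₁ + f₂) τ)
        = (fun τ : ℍ => 𝕢 (N : ℝ) (τ : ℂ) ^ (max M₁ M₂) * f₁ τ)
          + (fun τ : ℍ => 𝕢 (N : ℝ) (τ : ℂ) ^ (max M₁ M₂) * f₂ τ) := by
      funext τ
      simp only [Pi.add_apply]
      ring
    rw [hfun, a1.qExpansion_add b1, map_add, a2, b2, mul_add]

theorem mul (h₁ : IsTExp N F₁ f₁) (h₂ : IsTExp N F₂ f₂) : IsTExp N (F₁ * F₂) (f₁ * f₂) := by
  obtain ⟨M₁, a1, a2⟩ := h₁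
  obtain ⟨M₂, b1, b2⟩ := h₂
  have hfun : (fun τ : ℍ => 𝕢 (N : ℝ) (τ : ℂ) ^ (M₁ + M₂) * (f₁ * f₂) τ)
      = (fun τ : ℍ => 𝕢 (N : ℝ) (τ : ℂ) ^ M₁ * f₁ τ)
        * (fun τ : ℍ => 𝕢 (N : ℝ) (τ : ℂ) ^ M₂ * f₂ τ) := by
    funext τ
    simp only [Pi.mul_apply]
    ring
  refine ⟨M₁ + M₂, ?_, ?_⟩
  · rw [hfun]
    exact a1.mul b1
  · rw [hfun, a1.qExpansion_mul b1, map_mul, a2, b2]
    have : HahnSeries.single ((M₁ + M₂ : ℕ) : ℤ) (1 : ℂ)
        = HahnSeries.single (M₁ : ℤ) (1 : ℂ) * HahnSeries.single (M₂ : ℤ) (1 : ℂ) := by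
      rw [HahnSeries.single_mul_single]
      simp
    rw [this]
    ring

theorem const (c : ℂ) : IsTExp N (HahnSeries.C c) (fun _ => c) := by
  refine ⟨0, ?_, ?_⟩
  · simpa using IsNice.const (N := N) c
  · have hn : IsNice N (fun τ : ℍ => 𝕢 (N : ℝ) (τ : ℂ) ^ 0 * c) := by
      simpa using IsNice.const (N := N) c
    have hq : qExpansion (N : ℝ) (fun τ : ℍ => 𝕢 (N : ℝ) (τ : ℂ) ^ 0 * c) = PowerSeries.C c := by
      ext m
      have := hn.coeff_unique (c := fun m => if m = 0 then c else 0) (fun τ => ?_) m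
      · rw [← this, PowerSeries.coeff_C]
      · have h := hasSum_ite_eq (0 : ℕ) c
        convert h using 2 with n
        · by_cases hn : n = 0
          · simp [hn]
          · simp [hn]
        · simp
    rw [hq, HahnSeries.ofPowerSeries_C]
    simp

theorem neg (h : IsTExp N F f) : IsTExp N (-F) (-f) := by
  have := (const (N := N) (-1)).mul h
  convert this using 1
  · rw [map_neg, map_one]
    exact (neg_one_mul F).symm
  · funext τ
    simp

theorem sub (h₁ : IsTExp N F₁ f₁) (h₂ : IsTExp N F₂ f₂) : IsTExp N (F₁ - F₂) (f₁ - f₂) := by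
  rw [sub_eq_add_neg, sub_eq_add_neg]
  exact h₁.add h₂.neg

theorem zero : IsTExp N 0 (0 : ℍ → ℂ) := by
  have := const (N := N) 0
  rw [map_zero] at this
  exact this

theorem one : IsTExp N 1 (1 : ℍ → ℂ) := by
  have := const (N := N) 1
  rw [map_one] at this
  exact this

theorem unique (h₁ : IsTExp N F₁ f) (h₂ : IsTExp N F₂ f) : F₁ = F₂ := by
  obtain ⟨M₁, h₁⟩ := h₁
  obtain ⟨M₂, h₂⟩ := h₂
  obtain ⟨-, a2⟩ := h₁.mono (le_max_left M₁ M₂)
  obtain ⟨-, b2⟩ := h₂.mono (le_max_right M₁ M₂)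
  exact single_mul_cancel (a2.symm.trans b2)

theorem eq_zero_iff (h : IsTExp N F f) : F = 0 ↔ f = 0 := by
  constructor
  · rintro rfl
    obtain ⟨M, h1, h2⟩ := h
    rw [mul_zero] at h2
    have h3 : qExpansion (N : ℝ) (fun τ : ℍ => 𝕢 (N : ℝ) (τ : ℂ) ^ M * f τ) = 0 := by
      apply HahnSeries.ofPowerSeries_injective (Γ := ℤ) (R := ℂ)
      rw [h2, map_zero]
    rw [h1.qExpansion_eq_zero_iff] at h3
    funext τ
    have := congrFun h3 τ
    simp only [Pi.zero_apply, mul_eq_zero] at this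
    rcases this with h | h
    · exact absurd h (pow_ne_zero _ (Function.Periodic.qParam_ne_zero _))
    · exact h
  · rintro rfl
    exact h.unique zero

theorem congr_fun (h : IsTExp N F f₁) (hf : f₁ = f₂) : IsTExp N F f₂ := hf ▸ h

/-- Two functions with the same expansion are equal. -/
theorem fun_unique (h₁ : IsTExp N F f₁) (h₂ : IsTExp N F f₂) : f₁ = f₂ := by
  have h := h₁.sub h₂
  rw [sub_self] at h
  have := h.eq_zero_iff.mp rfl
  exact sub_eq_zero.mp this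

theorem pow (h : IsTExp N F f) (n : ℕ) : IsTExp N (F ^ n) (f ^ n) := by
  induction n with
  | zero => simpa using one (N := N)
  | succ n ih => simpa [pow_succ] using ih.mul h

/-- Compatibility with polynomial evaluation. -/
theorem aeval {ι : Type*} {T : ι → LaurentSeries ℂ} {φ : ι → ℍ → ℂ}
    (h : ∀ i, IsTExp N (T i) (φ i)) (P : MvPolynomial ι ℂ) :
    IsTExp N (MvPolynomial.aeval T P) (fun τ => MvPolynomial.eval (fun i => φ i τ) P) := by
  induction P using MvPolynomial.induction_on with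
  | C a =>
    have := const (N := N) a
    convert this using 1
    · rw [MvPolynomial.aeval_C, ModularCurve.algebraMap_laurentSeries_eq_single]
      rfl
    · funext τ
      simp
  | add p q hp hq =>
    have := hp.add hq
    convert this using 1
    · simp
    · funext τ
      simp
  | mul_X p i hp =>
    have := hp.mul (h i)
    convert this using 1
    · simp
    · funext τ
      simp

end IsTExp

/-- Existence of the expansion. -/
theorem exists_isTExp {f : ℍ → ℂ} (M : ℕ)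
    (h : IsNice N (fun τ => 𝕢 (N : ℝ) (τ : ℂ) ^ M * f τ)) :
    IsTExpAt N M (HahnSeries.single (-(M : ℤ)) (1 : ℂ) *
      HahnSeries.ofPowerSeries ℤ ℂ
        (qExpansion (N : ℝ) (fun τ => 𝕢 (N : ℝ) (τ : ℂ) ^ M * f τ))) f := by
  refine ⟨h, ?_⟩
  rw [← mul_assoc, HahnSeries.single_mul_single]
  simp

end TExp

/-! ## The rotation `t ↦ ζ t` as a ring homomorphism -/

section Rot

theorem rotL_support {ζ : ℂ} (hζ : ζ ≠ 0) (F : LaurentSeries ℂ) :
    (rotL ζ F).support = F.support := by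
  ext k
  simp only [HahnSeries.mem_support, rotL_coeff, ne_eq, mul_eq_zero, not_or]
  constructor
  · exact fun h => h.2
  · exact fun h => ⟨zpow_ne_zero _ hζ, h⟩

theorem rotL_add (ζ : ℂ) (F G : LaurentSeries ℂ) : rotL ζ (F + G) = rotL ζ F + rotL ζ G := by
  ext k
  simp [mul_add]

theorem rotL_zero (ζ : ℂ) : rotL ζ 0 = 0 := by
  ext k
  simp

theorem rotL_single (ζ : ℂ) (n : ℤ) (c : ℂ) :
    rotL ζ (HahnSeries.single n c) = HahnSeries.single n (ζ ^ n * c) := by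
  ext k
  rcases eq_or_ne k n with rfl | hk
  · simp
  · simp [HahnSeries.coeff_single_of_ne hk]

theorem rotL_one (ζ : ℂ) : rotL ζ 1 = 1 := by
  have : (1 : LaurentSeries ℂ) = HahnSeries.single 0 1 := rfl
  rw [this, rotL_single]
  simp

theorem rotL_C (ζ : ℂ) (c : ℂ) : rotL ζ (HahnSeries.C c) = HahnSeries.C c := by
  have : (HahnSeries.C c : LaurentSeries ℂ) = HahnSeries.single 0 c := rfl
  rw [this, rotL_single]
  simp

theorem rotL_mul {ζ : ℂ} (hζ : ζ ≠ 0) (F G : LaurentSeries ℂ) :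
    rotL ζ (F * G) = rotL ζ F * rotL ζ G := by
  ext a
  rw [rotL_coeff, HahnSeries.coeff_mul, HahnSeries.coeff_mul, Finset.mul_sum]
  have hset : Finset.antidiagonal (rotL ζ F).isPWO_support (rotL ζ G).isPWO_support a
      = Finset.antidiagonal F.isPWO_support G.isPWO_support a := by
    ext ij
    simp only [Finset.mem_antidiagonal, rotL_support hζ]
  rw [hset]
  refine Finset.sum_congr rfl fun ij hij => ?_
  rw [Finset.mem_antidiagonal] at hij
  rw [rotL_coeff, rotL_coeff, ← hij.2.2, zpow_add₀ hζ]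
  ring

/-- The rotation `t ↦ ζ t` as a ring homomorphism of `ℂ((t))`. -/
def rotLHom (ζ : ℂ) (hζ : ζ ≠ 0) : LaurentSeries ℂ →+* LaurentSeries ℂ where
  toFun := rotL ζ
  map_one' := rotL_one ζ
  map_mul' := rotL_mul hζ
  map_zero' := rotL_zero ζ
  map_add' := rotL_add ζ

@[simp]
theorem rotLHom_apply (ζ : ℂ) (hζ : ζ ≠ 0) (F : LaurentSeries ℂ) : rotLHom ζ hζ F = rotL ζ F := rfl

end Rot

/-! ## Translation `τ ↦ x + τ` -/

section Translate

variable {N : ℕ} [NeZero N]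

/-- `exp(2πi x / N)` -/
def zetaR (N : ℕ) (x : ℝ) : ℂ := Complex.exp (2 * Real.pi * Complex.I * x / N)

theorem zetaR_ne_zero (N : ℕ) (x : ℝ) : zetaR N x ≠ 0 := Complex.exp_ne_zero _

theorem qParam_vadd_real (x : ℝ) (τ : ℍ) :
    𝕢 (N : ℝ) ((x +ᵥ τ : ℍ) : ℂ) = zetaR N x * 𝕢 (N : ℝ) (τ : ℂ) := by
  rw [coe_vadd, Function.Periodic.qParam, Function.Periodic.qParam, zetaR, ← Complex.exp_add]
  congr 1
  push_cast
  ring

theorem mdiff_comp_vadd {g : ℍ → ℂ} (hg : MDiff g) (x : ℝ) : MDiff (fun τ : ℍ => g (x +ᵥ τ)) := by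
  rw [UpperHalfPlane.mdifferentiable_iff] at hg ⊢
  have h1 : DifferentiableOn ℂ (fun z : ℂ => (x : ℂ) + z) {z : ℂ | 0 < z.im} :=
    (differentiable_id.const_add (x : ℂ)).differentiableOn
  have h2 : Set.MapsTo (fun z : ℂ => (x : ℂ) + z) {z : ℂ | 0 < z.im} {z : ℂ | 0 < z.im} := by
    intro z hz
    simpa using hz
  refine (hg.comp h1 h2).congr fun z hz => ?_
  have hz' : 0 < ((x : ℂ) + z).im := by simpa using hz
  simp only [comp_apply]
  rw [ofComplex_apply_of_im_pos hz, ofComplex_apply_of_im_pos hz']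
  congr 1

theorem isBoundedAtImInfty_comp_vadd {g : ℍ → ℂ} (hg : IsBoundedAtImInfty g) (x : ℝ) :
    IsBoundedAtImInfty (fun τ : ℍ => g (x +ᵥ τ)) := by
  rw [isBoundedAtImInfty_iff] at hg ⊢
  obtain ⟨M, A, h⟩ := hg
  exact ⟨M, A, fun z hz => h _ (by rwa [vadd_im])⟩

theorem IsNice.comp_vadd {g : ℍ → ℂ} (hg : IsNice N g) (x : ℝ) :
    IsNice N (fun τ : ℍ => g (x +ᵥ τ)) where
  per τ := by
    have : x +ᵥ ((N : ℝ) +ᵥ τ) = (N : ℝ) +ᵥ (x +ᵥ τ) := by
      ext
      simp only [coe_vadd]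
      ring
    show g (x +ᵥ ((N : ℝ) +ᵥ τ)) = g (x +ᵥ τ)
    rw [this, hg.per]
  mdiff := mdiff_comp_vadd hg.mdiff x
  bdd := isBoundedAtImInfty_comp_vadd hg.bdd x

theorem IsNice.qExpansion_comp_vadd {g : ℍ → ℂ} (hg : IsNice N g) (x : ℝ) (m : ℕ) :
    (qExpansion (N : ℝ) (fun τ : ℍ => g (x +ᵥ τ))).coeff m
      = zetaR N x ^ m * (qExpansion (N : ℝ) g).coeff m := by
  symm
  refine (hg.comp_vadd x).coeff_unique
    (c := fun m => zetaR N x ^ m * (qExpansion (N : ℝ) g).coeff m) (fun τ => ?_) m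
  have := hg.hasSum (x +ᵥ τ)
  rw [qParam_vadd_real] at this
  convert this using 2 with n
  rw [mul_pow]
  ring

theorem isTExpAt_iff {M : ℕ} {F : LaurentSeries ℂ} {f : ℍ → ℂ} :
    IsTExpAt N M F f ↔ IsNice N (fun τ => 𝕢 (N : ℝ) (τ : ℂ) ^ M * f τ) ∧
      ∀ k : ℤ, F.coeff (k - M) = (HahnSeries.ofPowerSeries ℤ ℂ
        (qExpansion (N : ℝ) (fun τ => 𝕢 (N : ℝ) (τ : ℂ) ^ M * f τ))).coeff k := by
  unfold IsTExpAt
  refine and_congr_right fun _ => ?_
  constructor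
  · intro h k
    rw [h, HahnSeries.coeff_single_mul, one_mul]
  · intro h
    ext k
    rw [HahnSeries.coeff_single_mul, one_mul, h]

/-- Translation by a real number rotates the expansion. -/
theorem IsTExp.comp_vadd {F : LaurentSeries ℂ} {f : ℍ → ℂ} (h : IsTExp N F f) (x : ℝ) :
    IsTExp N (rotL (zetaR N x) F) (fun τ => f (x +ᵥ τ)) := by
  obtain ⟨M, hM⟩ := h
  rw [isTExpAt_iff] at hM
  obtain ⟨h1, h2⟩ := hM
  have hz := zetaR_ne_zero N x
  have hfun : (fun τ : ℍ => 𝕢 (N : ℝ) (τ : ℂ) ^ M * f (x +ᵥ τ))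
      = (fun _ : ℍ => (zetaR N x ^ M)⁻¹) *
        (fun τ : ℍ => (fun τ' : ℍ => 𝕢 (N : ℝ) (τ' : ℂ) ^ M * f τ') (x +ᵥ τ)) := by
    funext τ
    simp only [Pi.mul_apply]
    rw [qParam_vadd_real, mul_pow]
    field_simp
  have hn := (IsNice.const (N := N) ((zetaR N x ^ M)⁻¹)).mul (h1.comp_vadd x)
  refine ⟨M, ?_⟩
  rw [isTExpAt_iff]
  refine ⟨hfun ▸ hn, fun k => ?_⟩
  rw [rotL_coeff, h2 k]
  rcases lt_or_ge k 0 with hk | hk
  · rw [ModularCurve.ofPowerSeries_coeff_of_neg _ hk, ModularCurve.ofPowerSeries_coeff_of_neg _ hk,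
      mul_zero]
  · obtain ⟨n, rfl⟩ := Int.eq_ofNat_of_zero_le hk
    rw [HahnSeries.ofPowerSeries_apply_coeff, HahnSeries.ofPowerSeries_apply_coeff, hfun,
      (IsNice.const (N := N) ((zetaR N x ^ M)⁻¹)).qExpansion_mul (h1.comp_vadd x)]
    have hc : qExpansion (N : ℝ) (fun _ : ℍ => (zetaR N x ^ M)⁻¹)
        = PowerSeries.C ((zetaR N x ^ M)⁻¹) := by
      ext m
      have := (IsNice.const (N := N) ((zetaR N x ^ M)⁻¹)).coeff_unique
        (c := fun m => if m = 0 then (zetaR N x ^ M)⁻¹ else 0) (fun τ => ?_) m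
      · rw [← this, PowerSeries.coeff_C]
      · have h := hasSum_ite_eq (0 : ℕ) ((zetaR N x ^ M)⁻¹)
        convert h using 2 with n
        by_cases hn : n = 0
        · simp [hn]
        · simp [hn]
    rw [hc, PowerSeries.coeff_C_mul, h1.qExpansion_comp_vadd x n, zpow_sub₀ hz, zpow_natCast,
      zpow_natCast]
    field_simp

end Translate

/-! ## Leading terms -/

section Leading

variable {N : ℕ} [NeZero N]

theorem IsNice.coeff_zero_of_tendsto {g : ℍ → ℂ} (hg : IsNice N g) {c : ℂ}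
    (h : Tendsto g atImInfty (𝓝 c)) : (qExpansion (N : ℝ) g).coeff 0 = c := by
  rw [UpperHalfPlane.qExpansion_coeff_zero (natCast_pos_real N) hg.analyticAt hg.periodic]
  exact h.limUnder_eq

/-- If `q^M f → c ≠ 0` at `i∞`, the expansion of `f` has order `-M` and leading coefficient `c`. -/
theorem IsTExp.order_eq_of_tendsto {F : LaurentSeries ℂ} {f : ℍ → ℂ} (h : IsTExp N F f) (M : ℕ)
    (hn : IsNice N (fun τ => 𝕢 (N : ℝ) (τ : ℂ) ^ M * f τ)) {c : ℂ} (hc : c ≠ 0)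
    (ht : Tendsto (fun τ : ℍ => 𝕢 (N : ℝ) (τ : ℂ) ^ M * f τ) atImInfty (𝓝 c)) :
    F.order = -(M : ℤ) ∧ F.coeff (-(M : ℤ)) = c := by
  have h' : IsTExp N _ f := ⟨M, exists_isTExp M hn⟩
  have hF := h.unique h'
  have hcoef : ∀ k : ℤ, F.coeff (k - M) = (HahnSeries.ofPowerSeries ℤ ℂ
        (qExpansion (N : ℝ) (fun τ => 𝕢 (N : ℝ) (τ : ℂ) ^ M * f τ))).coeff k :=
    (isTExpAt_iff.mp (hF ▸ exists_isTExp M hn)).2
  have h0 : F.coeff (-(M : ℤ)) = c := by
    have := hcoef 0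
    rw [zero_sub] at this
    rw [this]
    have h1 := HahnSeries.ofPowerSeries_apply_coeff (Γ := ℤ)
      (qExpansion (N : ℝ) (fun τ => 𝕢 (N : ℝ) (τ : ℂ) ^ M * f τ)) 0
    rw [Nat.cast_zero] at h1
    rw [h1]
    exact hn.coeff_zero_of_tendsto ht
  refine ⟨?_, h0⟩
  have hne : F ≠ 0 := by
    intro hF0
    rw [hF0] at h0
    simp at h0
    exact hc h0.symm
  apply le_antisymm
  · exact HahnSeries.order_le_of_coeff_ne_zero (h0 ▸ hc)
  · by_contra hlt
    rw [not_le] at hlt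
    have hne' : F.coeff F.order ≠ 0 := fun h0' => hne (HahnSeries.coeff_order_eq_zero.mp h0')
    have := hcoef (F.order + M)
    rw [add_sub_cancel_right, ModularCurve.ofPowerSeries_coeff_of_neg _ (by omega)] at this
    exact hne' this

end Leading

end Fermat.Agent.S24.helper37
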