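import Mathlib
import Fermat.Agent.S24.Defs
import Fermat.Agent.S24.helper37_TExp
import Fermat.Agent.S24.helper17_Bridge
import Fermat.Agent.S24.helper24_FieldGen
import Fermat.Agent.S24.helper24_JBasic
import Fermat.Agent.S24.helper24_Stabilizer
import Fermat.Agent.S24.helper77_Hermite
import Fermat.Agent.S24.helper83_CuspCount

/-!
# S24 / AN-embed, cusp case: the local embedding data at `i∞`

For every coset `c = g Γ₀(N)` we construct the field embedding
`emb c : F_N → ℂ((t))`, `f ↦ t-expansion of (f ∘ g⁻¹)` (`t = exp(2πiτ/N)`), and package them as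
`cuspData N : LocalEmbData iotaC (xJ N)⁻¹ (X0 N)` with `E = N`, `π =` action of `T`,
`ζ = exp(-2πi/N)`.
-/

set_option autoImplicit false
set_option linter.unusedSectionVars false
set_option linter.unusedVariables false
set_option linter.style.haveILetI false

noncomputable section

open UpperHalfPlane Filter Topology Function ModularCurve CongruenceSubgroup
open scoped MatrixGroups Manifold

namespace Fermat.Agent.S24.helper37

open Fermat.Agent.S24

local notation "𝕢" => Function.Periodic.qParam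

/-! ## The conjugate functions -/

/-- index type of the generators `J_d`, `d ∣ N`. -/
abbrev Idx (N : ℕ) : Type := {d // d ∈ N.divisors}

theorem Idx.dvd {N : ℕ} (i : Idx N) : i.1 ∣ N := (Nat.mem_divisors.mp i.2).1

theorem Idx.ne_zero {N : ℕ} (i : Idx N) : i.1 ≠ 0 := fun h => by
  have h2 := Nat.mem_divisors.mp i.2
  rw [h] at h2
  exact h2.2 (Nat.eq_zero_of_zero_dvd h2.1)

/-- the conjugate `τ ↦ j(d · g⁻¹ τ)`. -/
def conjFun (N : ℕ) (g : SL(2, ℤ)) (i : Idx N) : ℍ → ℂ := fun τ => jfunDT i.1 (g⁻¹ • τ)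

theorem jfunDT_eq (d : ℕ) [NeZero d] : jfunDT d = jfunD d := by
  funext τ
  rw [jfunDT, dif_neg (NeZero.ne d)]

theorem conjFun_eq (N : ℕ) (g : SL(2, ℤ)) (i : Idx N) [NeZero i.1] (τ : ℍ) :
    conjFun N g i τ = jfunDg i.1 g τ := by
  rw [conjFun, jfunDT_eq]
  rfl

theorem vadd_eq_T_pow_smul (N : ℕ) (τ : ℍ) :
    ((N : ℝ) +ᵥ τ : ℍ) = (ModularGroup.T ^ N : SL(2, ℤ)) • τ := by
  have := UpperHalfPlane.modular_T_zpow_smul τ (N : ℤ)
  rw [zpow_natCast] at this
  rw [this]
  congr 1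

theorem conj_T_pow_mem (N : ℕ) (g : SL(2, ℤ)) : g⁻¹ * (ModularGroup.T ^ N * g) ∈ Gamma0 N := by
  have h := helper83.T_pow_N_smul N (g : SL(2, ℤ) ⧸ Gamma0 N)
  have h2 : ((ModularGroup.T ^ N * g : SL(2, ℤ)) : SL(2, ℤ) ⧸ Gamma0 N) = (g : SL(2, ℤ) ⧸ Gamma0 N) :=
    h
  have h3 := QuotientGroup.eq.mp h2.symm
  exact h3

theorem jfunD_smul_vadd {N d : ℕ} [NeZero d] (hd : d ∣ N) (g : SL(2, ℤ)) (τ : ℍ) :
    jfunD d (g • ((N : ℝ) +ᵥ τ)) = jfunD d (g • τ) := by
  rw [vadd_eq_T_pow_smul]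
  have hγ := conj_T_pow_mem N g⁻¹
  rw [inv_inv] at hγ
  have := helper77.jfunD_smul_of_mem_Gamma0 hd hγ (g • τ)
  rw [← this, ← mul_smul, ← mul_smul]
  congr 2
  group

theorem norm_qParam_pow (N : ℕ) [NeZero N] (M : ℕ) (τ : ℍ) :
    ‖𝕢 (N : ℝ) (τ : ℂ) ^ M‖ = Real.exp (-2 * Real.pi * M * τ.im / N) := by
  rw [norm_pow, Function.Periodic.norm_qParam, ← Real.exp_nat_mul]
  congr 1
  have : (τ : ℂ).im = τ.im := rfl
  rw [this]
  ring

theorem isNice_conj_aux {N d : ℕ} [NeZero N] [NeZero d] (hd : d ∣ N) (g : SL(2, ℤ)) :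
    IsNice N (fun τ : ℍ => 𝕢 (N : ℝ) (τ : ℂ) ^ (N * d) * jfunD d (g • τ)) where
  per τ := by
    show 𝕢 (N : ℝ) ((((N : ℝ) +ᵥ τ : ℍ)) : ℂ) ^ (N * d) * jfunD d (g • ((N : ℝ) +ᵥ τ)) = _
    rw [qParam_vadd, jfunD_smul_vadd hd]
  mdiff := (isNice_qParam_pow (N := N) (N * d)).mdiff.mul (helper77.mdifferentiable_jfunD_smul d g)
  bdd := by
    have h1 := helper77.jfunD_smul_isBigO d g
    have h2 : (fun τ : ℍ => 𝕢 (N : ℝ) (τ : ℂ) ^ (N * d))
        =O[atImInfty] fun τ : ℍ => Real.exp (-(2 * Real.pi * d * τ.im)) := by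
      refine Asymptotics.IsBigO.of_bound 1 (Filter.Eventually.of_forall fun τ => ?_)
      rw [norm_qParam_pow, one_mul, Real.norm_of_nonneg (Real.exp_pos _).le]
      apply le_of_eq
      congr 1
      have hN : (N : ℝ) ≠ 0 := (natCast_pos_real N).ne'
      push_cast
      field_simp
    have h3 := h2.mul h1
    have h4 : (fun τ : ℍ => Real.exp (-(2 * Real.pi * d * τ.im)) *
        Real.exp (2 * Real.pi * d * τ.im)) = fun _ => (1 : ℝ) := by
      funext τ
      rw [← Real.exp_add]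
      simp
    rw [h4] at h3
    exact h3

theorem isNice_conj (N : ℕ) [NeZero N] (g : SL(2, ℤ)) (i : Idx N) :
    IsNice N (fun τ : ℍ => 𝕢 (N : ℝ) (τ : ℂ) ^ (N * i.1) * conjFun N g i τ) := by
  haveI : NeZero i.1 := ⟨i.ne_zero⟩
  have := isNice_conj_aux (N := N) i.dvd g⁻¹
  convert this using 2 with τ
  rw [conjFun, jfunDT_eq]

/-- the `t`-expansion of the conjugate `j(d · g⁻¹ τ)`. -/
def conjExp (N : ℕ) [NeZero N] (g : SL(2, ℤ)) (i : Idx N) : LaurentSeries ℂ :=
  HahnSeries.single (-((N * i.1 : ℕ) : ℤ)) (1 : ℂ) *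
    HahnSeries.ofPowerSeries ℤ ℂ
      (qExpansion (N : ℝ) (fun τ : ℍ => 𝕢 (N : ℝ) (τ : ℂ) ^ (N * i.1) * conjFun N g i τ))

theorem isTExp_conjExp (N : ℕ) [NeZero N] (g : SL(2, ℤ)) (i : Idx N) :
    IsTExp N (conjExp N g i) (conjFun N g i) :=
  ⟨N * i.1, exists_isTExp (N * i.1) (isNice_conj N g i)⟩

theorem conjFun_congr (N : ℕ) [NeZero N] {g g' : SL(2, ℤ)} (h : g⁻¹ * g' ∈ Gamma0 N) :
    conjFun N g' = conjFun N g := by
  funext i τ
  haveI : NeZero i.1 := ⟨i.ne_zero⟩
  rw [conjFun_eq, conjFun_eq]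
  exact helper24.jfunDg_eq_of_inv_mul_mem N i.1 i.dvd g g' h τ

theorem conjExp_congr (N : ℕ) [NeZero N] {g g' : SL(2, ℤ)} (h : g⁻¹ * g' ∈ Gamma0 N) :
    conjExp N g' = conjExp N g := by
  funext i
  unfold conjExp
  rw [conjFun_congr N h]

/-! ## The embeddings -/

section Emb

variable (N : ℕ) [NeZero N]

/-- constants `ℚ̄ → ℂ((t))`. -/
def constHom : Kbar →+* LaurentSeries ℂ :=
  (HahnSeries.C : ℂ →+* LaurentSeries ℂ).comp (iotaC : Kbar →+* ℂ)

/-- evaluation of polynomials in the `J_d` at the expansions of the conjugates. -/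
def Theta (g : SL(2, ℤ)) : MvPolynomial (Idx N) Kbar →+* LaurentSeries ℂ :=
  MvPolynomial.eval₂Hom constHom (conjExp N g)

theorem Theta_apply (g : SL(2, ℤ)) (P : MvPolynomial (Idx N) Kbar) :
    Theta N g P = MvPolynomial.aeval (conjExp N g) (MvPolynomial.map (iotaC : Kbar →+* ℂ) P) := by
  rw [Theta, MvPolynomial.coe_eval₂Hom, MvPolynomial.aeval_def, MvPolynomial.eval₂_map]
  congr 1
  ext c
  simp only [constHom, RingHom.comp_apply]
  rw [ModularCurve.algebraMap_laurentSeries_eq_single]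
  rfl

/-- the function attached to a polynomial in the `J_d` and a coset representative. -/
def polyFun (g : SL(2, ℤ)) (P : MvPolynomial (Idx N) Kbar) : ℍ → ℂ :=
  fun τ => MvPolynomial.eval₂ (iotaC : Kbar →+* ℂ) (fun i => conjFun N g i τ) P

theorem isTExp_Theta (g : SL(2, ℤ)) (P : MvPolynomial (Idx N) Kbar) :
    IsTExp N (Theta N g P) (polyFun N g P) := by
  rw [Theta_apply]
  have := IsTExp.aeval (N := N) (fun i => isTExp_conjExp N g i)
    (MvPolynomial.map (iotaC : Kbar →+* ℂ) P)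
  convert this using 1
  funext τ
  rw [polyFun, MvPolynomial.eval_map]

theorem polyFun_eq (g : SL(2, ℤ)) (P : MvPolynomial (Idx N) Kbar) (τ : ℍ) :
    polyFun N g P τ
      = MvPolynomial.eval₂ (iotaC : Kbar →+* ℂ) (fun i : Idx N => jfunDT i.1 (g⁻¹ • τ)) P := rfl

theorem Theta_eq_zero_iff (g : SL(2, ℤ)) (P : MvPolynomial (Idx N) Kbar) :
    MvPolynomial.aeval (helper24.genJ N) P = 0 ↔ Theta N g P = 0 := by
  rw [(isTExp_Theta N g P).eq_zero_iff]
  have hb := helper17.bridge (fun i : Idx N => i.1) P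
  have hgen : (fun i : Idx N => JdT i.1) = helper24.genJ N := rfl
  rw [hgen] at hb
  rw [hb]
  constructor
  · intro h
    funext τ
    exact h (g⁻¹ • τ)
  · intro h τ
    have := congrFun h (g • τ)
    rw [polyFun_eq, inv_smul_smul] at this
    exact this

/-- the embedding attached to a coset representative, on `ℚ̄(J_d)`. -/
def embAdj (g : SL(2, ℤ)) :
    ↥(IntermediateField.adjoin Kbar (Set.range (helper24.genJ N))) →+* LaurentSeries ℂ :=
  helper24.adjoinLift (helper24.genJ N) (Theta N g) (Theta_eq_zero_iff N g)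

/-- the embedding attached to a coset representative. -/
def embG (g : SL(2, ℤ)) : FN N →+* LaurentSeries ℂ :=
  (embAdj N g).comp
    ((IntermediateField.equivOfEq (helper24.modularFunctionFieldBar_eq_adjoin N)) :
      FN N ≃ₐ[Kbar] _).toRingEquiv.toRingHom

theorem aeval_mem_FN (P : MvPolynomial (Idx N) Kbar) :
    MvPolynomial.aeval (helper24.genJ N) P ∈ modularFunctionFieldBar N := by
  rw [helper24.modularFunctionFieldBar_eq_adjoin]
  exact helper24.aeval_mem_adjoin _ P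

theorem embG_aeval (g : SL(2, ℤ)) (P : MvPolynomial (Idx N) Kbar) :
    embG N g ⟨MvPolynomial.aeval (helper24.genJ N) P, aeval_mem_FN N P⟩ = Theta N g P :=
  helper24.adjoinLift_aeval (helper24.genJ N) (Theta N g) (Theta_eq_zero_iff N g) P

theorem ringHom_ext_FN {L : Type*} [Field L] {σ σ' : FN N →+* L}
    (h : ∀ P : MvPolynomial (Idx N) Kbar,
      σ ⟨MvPolynomial.aeval (helper24.genJ N) P, aeval_mem_FN N P⟩
        = σ' ⟨MvPolynomial.aeval (helper24.genJ N) P, aeval_mem_FN N P⟩) : σ = σ' := by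
  let e : FN N ≃ₐ[Kbar] ↥(IntermediateField.adjoin Kbar (Set.range (helper24.genJ N))) :=
    IntermediateField.equivOfEq (helper24.modularFunctionFieldBar_eq_adjoin N)
  have h1 : σ.comp e.symm.toRingEquiv.toRingHom = σ'.comp e.symm.toRingEquiv.toRingHom := by
    apply helper24.ringHom_ext_adjoin (helper24.genJ N)
    intro P
    exact h P
  ext x
  have := congrArg (fun φ => φ (e x)) h1
  simpa using this

theorem embG_congr {g g' : SL(2, ℤ)} (h : g⁻¹ * g' ∈ Gamma0 N) : embG N g' = embG N g := by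
  apply ringHom_ext_FN
  intro P
  rw [embG_aeval, embG_aeval, Theta, Theta, conjExp_congr N h]

theorem embG_algebraMap (g : SL(2, ℤ)) (k : Kbar) :
    embG N g (algebraMap Kbar (FN N) k) = HahnSeries.C ((iotaC : Kbar →+* ℂ) k) := by
  have h := embG_aeval N g (MvPolynomial.C k)
  have e : (⟨MvPolynomial.aeval (helper24.genJ N) (MvPolynomial.C k),
      aeval_mem_FN N (MvPolynomial.C k)⟩ : FN N) = algebraMap Kbar (FN N) k := by
    apply Subtype.ext
    simp
  rw [e] at h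
  rw [h, Theta, MvPolynomial.coe_eval₂Hom, MvPolynomial.eval₂_C]
  rfl

theorem gen_mem_FN (i : Idx N) : helper24.genJ N i ∈ modularFunctionFieldBar N := by
  have := aeval_mem_FN N (MvPolynomial.X i)
  simpa using this

theorem embG_gen (g : SL(2, ℤ)) (i : Idx N) :
    embG N g ⟨helper24.genJ N i, gen_mem_FN N i⟩ = conjExp N g i := by
  have h := embG_aeval N g (MvPolynomial.X i)
  have e : (⟨MvPolynomial.aeval (helper24.genJ N) (MvPolynomial.X i),
      aeval_mem_FN N (MvPolynomial.X i)⟩ : FN N) = ⟨helper24.genJ N i, gen_mem_FN N i⟩ := by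
    apply Subtype.ext
    simp
  rw [e] at h
  rw [h, Theta, MvPolynomial.coe_eval₂Hom, MvPolynomial.eval₂_X]

end Emb

/-! ## The local embedding data at the cusp -/

section Data

variable (N : ℕ) [NeZero N]

/-- the index of `J_1 = j`. -/
def idxOne : Idx N := ⟨1, Nat.mem_divisors.mpr ⟨one_dvd N, NeZero.ne N⟩⟩

/-- the index of `J_N`. -/
def idxTop : Idx N := ⟨N, Nat.mem_divisors.mpr ⟨dvd_rfl, NeZero.ne N⟩⟩

theorem xJ_eq : xJ N = ⟨helper24.genJ N (idxOne N), gen_mem_FN N (idxOne N)⟩ := by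
  apply Subtype.ext
  show Jd 1 = JdT 1
  rw [JdT, dif_neg one_ne_zero]

theorem scaleH_one (τ : ℍ) : scaleH 1 τ = τ := by
  apply UpperHalfPlane.ext
  show ((1 : ℕ) : ℂ) * (τ : ℂ) = τ
  simp

theorem conjFun_one (g : SL(2, ℤ)) : conjFun N g (idxOne N) = jfun := by
  funext τ
  show jfunDT 1 (g⁻¹ • τ) = jfun τ
  rw [jfunDT_eq]
  unfold jfunD
  rw [scaleH_one]
  exact helper77.jfun_smul _ _

theorem conjExp_one (g g' : SL(2, ℤ)) : conjExp N g (idxOne N) = conjExp N g' (idxOne N) := by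
  have h1 := isTExp_conjExp N g (idxOne N)
  have h2 := isTExp_conjExp N g' (idxOne N)
  rw [conjFun_one] at h1 h2
  exact h1.unique h2

theorem qParam_pow_self (τ : ℍ) : 𝕢 (N : ℝ) (τ : ℂ) ^ N = 𝕢 1 (τ : ℂ) := by
  have hN : ((N : ℝ) : ℂ) ≠ 0 := by exact_mod_cast (natCast_pos_real N).ne'
  rw [Function.Periodic.qParam, Function.Periodic.qParam, ← Complex.exp_nat_mul]
  congr 1
  push_cast at hN ⊢
  field_simp

theorem order_conjExp_one (g : SL(2, ℤ)) : (conjExp N g (idxOne N)).order = -(N : ℤ) := by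
  have h1 := isTExp_conjExp N g (idxOne N)
  rw [conjFun_one] at h1
  have hn := isNice_conj N g (idxOne N)
  have e : (fun τ : ℍ => 𝕢 (N : ℝ) (τ : ℂ) ^ (N * (idxOne N).1) * conjFun N g (idxOne N) τ)
      = fun τ : ℍ => 𝕢 (N : ℝ) (τ : ℂ) ^ N * jfun τ := by
    funext τ
    rw [conjFun_one]
    show 𝕢 (N : ℝ) (τ : ℂ) ^ (N * 1) * jfun τ = _
    rw [mul_one]
  rw [e] at hn
  have ht : Tendsto (fun τ : ℍ => 𝕢 (N : ℝ) (τ : ℂ) ^ N * jfun τ) atImInfty (𝓝 1) := by
    have := helper24.tendsto_qParam_mul_jfun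
    refine this.congr fun τ => ?_
    rw [qParam_pow_self]
  exact (h1.order_eq_of_tendsto N hn one_ne_zero ht).1

theorem conjExp_one_ne_zero (g : SL(2, ℤ)) : conjExp N g (idxOne N) ≠ 0 := by
  intro h
  have := order_conjExp_one N g
  rw [h, HahnSeries.order_zero] at this
  have hN : (N : ℤ) ≠ 0 := by exact_mod_cast NeZero.ne N
  omega

theorem order_inv_laurent {F : LaurentSeries ℂ} (hF : F ≠ 0) : F⁻¹.order = -F.order := by
  have h := HahnSeries.order_mul hF (inv_ne_zero hF)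
  rw [mul_inv_cancel₀ hF, HahnSeries.order_one] at h
  omega

theorem embG_xJ (g : SL(2, ℤ)) : embG N g (xJ N) = conjExp N g (idxOne N) := by
  rw [xJ_eq, embG_gen]

/-- the root of unity `exp(-2πi/N)`. -/
def zetaCusp : ℂ := zetaR N (-1)

theorem zetaCusp_ne_zero : zetaCusp N ≠ 0 := zetaR_ne_zero N (-1)

theorem isPrimitiveRoot_zetaCusp : IsPrimitiveRoot (zetaCusp N) N := by
  have h := (Complex.isPrimitiveRoot_exp N (NeZero.ne N)).inv
  have e : zetaCusp N = (Complex.exp (2 * Real.pi * Complex.I / N))⁻¹ := by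
    show zetaR N (-1) = _
    rw [zetaR, ← Complex.exp_neg]
    congr 1
    push_cast
    ring
  rw [e]
  exact h

theorem T_inv_smul (τ : ℍ) : (ModularGroup.T⁻¹ : SL(2, ℤ)) • τ = (-1 : ℝ) +ᵥ τ := by
  have := UpperHalfPlane.modular_T_zpow_smul τ (-1)
  simpa using this

theorem polyFun_T_mul (g : SL(2, ℤ)) (P : MvPolynomial (Idx N) Kbar) (τ : ℍ) :
    polyFun N (ModularGroup.T * g) P τ = polyFun N g P ((-1 : ℝ) +ᵥ τ) := by
  rw [polyFun_eq, polyFun_eq, ← T_inv_smul, ← mul_smul, mul_inv_rev]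

theorem Theta_T_mul (g : SL(2, ℤ)) (P : MvPolynomial (Idx N) Kbar) :
    Theta N (ModularGroup.T * g) P = rotL (zetaCusp N) (Theta N g P) := by
  have h1 := isTExp_Theta N (ModularGroup.T * g) P
  have h2 := (isTExp_Theta N g P).comp_vadd (-1)
  have e : polyFun N (ModularGroup.T * g) P = fun τ => polyFun N g P ((-1 : ℝ) +ᵥ τ) :=
    funext (polyFun_T_mul N g P)
  rw [e] at h1
  exact h1.unique h2

theorem embG_T_mul (g : SL(2, ℤ)) (f : FN N) :
    embG N (ModularGroup.T * g) f = rotL (zetaCusp N) (embG N g f) := by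
  have h : embG N (ModularGroup.T * g)
      = (rotLHom (zetaCusp N) (zetaCusp_ne_zero N)).comp (embG N g) := by
    apply ringHom_ext_FN
    intro P
    rw [RingHom.comp_apply, embG_aeval, embG_aeval, rotLHom_apply, Theta_T_mul]
  rw [h]
  rfl

theorem embG_injective {g g' : SL(2, ℤ)} (h : embG N g = embG N g') : g⁻¹ * g' ∈ Gamma0 N := by
  apply helper24.inv_mul_mem_Gamma0_of_jfunDg_eq
  intro τ
  have h1 := embG_gen N g (idxTop N)
  have h2 := embG_gen N g' (idxTop N)
  rw [h] at h1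
  have h3 : conjExp N g (idxTop N) = conjExp N g' (idxTop N) := h1.symm.trans h2
  have h4 := isTExp_conjExp N g (idxTop N)
  have h5 := isTExp_conjExp N g' (idxTop N)
  rw [h3] at h4
  have h6 := congrFun (h4.fun_unique h5) τ
  have e : ∀ g₀ : SL(2, ℤ), conjFun N g₀ (idxTop N) τ = jfunDg N g₀ τ := by
    intro g₀
    show jfunDT N (g₀⁻¹ • τ) = _
    rw [jfunDT_eq]
    rfl
  rw [e, e] at h6
  exact h6

/-- **The local embedding data at the cusp `∞`.** -/
def cuspData : LocalEmbData (iotaC : Kbar →+* ℂ) ((xJ N)⁻¹) (X0 N) where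
  emb c := embG N (Quotient.out c)
  emb_algebraMap c k := embG_algebraMap N _ k
  emb_injective := by
    intro c c' h
    have h1 := embG_injective N h
    have h2 : ((Quotient.out c : SL(2, ℤ)) : X0 N) = ((Quotient.out c' : SL(2, ℤ)) : X0 N) :=
      QuotientGroup.eq.mpr h1
    rwa [QuotientGroup.out_eq', QuotientGroup.out_eq'] at h2
  emb_y c c' := by
    rw [map_inv₀, map_inv₀, embG_xJ, embG_xJ, conjExp_one N _ (Quotient.out c')]
  E := N
  E_pos := Nat.pos_of_ne_zero (NeZero.ne N)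
  order_y c := by
    rw [map_inv₀, embG_xJ, order_inv_laurent (conjExp_one_ne_zero N _), order_conjExp_one]
    simp
  ζ := zetaCusp N
  hζ := isPrimitiveRoot_zetaCusp N
  π := MulAction.toPerm (ModularGroup.T : SL(2, ℤ))
  rot c f := by
    have hmem : (Quotient.out ((ModularGroup.T : SL(2, ℤ)) • c))⁻¹ *
        (ModularGroup.T * Quotient.out c) ∈ Gamma0 N := by
      apply QuotientGroup.eq.mp
      rw [QuotientGroup.out_eq']
      conv_lhs => rw [← QuotientGroup.out_eq' c]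
      rfl
    have h1 := embG_congr N hmem
    show embG N (Quotient.out ((ModularGroup.T : SL(2, ℤ)) • c)) f = _
    rw [← h1, embG_T_mul]

@[simp] theorem cuspData_E : (cuspData N).E = N := rfl

@[simp] theorem cuspData_π :
    (cuspData N).π = MulAction.toPerm (ModularGroup.T : SL(2, ℤ)) := rfl

@[simp] theorem cuspData_ζ : (cuspData N).ζ = zetaCusp N := rfl

theorem cuspData_emb (c : X0 N) : (cuspData N).emb c = embG N (Quotient.out c) := rfl

end Data

end Fermat.Agent.S24.helper37
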