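import Mathlib
import Fermat.Agent.S24.Defs
import Fermat.Agent.S24.helper43_LocalCount
import Fermat.Agent.S24.helper37_Cusp
import Fermat.Agent.S24.helper37_IndexGamma0

/-!
# S24 AN-degree, lower bound (helper80)

`#X ≤ [F : K(x)]` for any family of pairwise distinct field embeddings `F → L` indexed by `X`
which agree on `K` and on `x`; in particular for the embeddings of a `LocalEmbData`, and for the
cusp data of `helper37`:  `#(SL(2,Z)/Gamma0(N)) ≤ [F_N : Kbar(j)]`.
-/

set_option autoImplicit false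

namespace Fermat.Agent.S24.helper80

open AlgebraicCurve IntermediateField

section Abstract

variable {K F : Type*} [Field K] [Field F] [Algebra K F]

/-- Pairwise distinct embeddings agreeing on `K(x)`: there are at most `[F : K(x)]` of them. -/
theorem card_le_finrank_of_embeddings {L : Type*} [Field L] (x : F) [FiniteDimensional K⟮x⟯ F]
    {X : Type*} [Finite X] (σ : X → F →+* L) (hσ : Function.Injective σ)
    (hK : ∀ (c c' : X) (k : K), σ c (algebraMap K F k) = σ c' (algebraMap K F k))
    (hx : ∀ c c' : X, σ c x = σ c' x) :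
    Nat.card X ≤ Module.finrank K⟮x⟯ F := by
  classical
  rcases isEmpty_or_nonempty X with hX | ⟨⟨c₀⟩⟩
  · simp
  let φ : K⟮x⟯ →+* L := (σ c₀).comp (algebraMap K⟮x⟯ F)
  have hφ : ∀ c, (σ c).comp (algebraMap K⟮x⟯ F) = φ := fun c =>
    helper43.comp_algebraMap_adjoin_eq (fun k => hK c c₀ k) (hx c c₀)
  letI : Algebra K⟮x⟯ L := φ.toAlgebra
  let τ : X → (F →ₐ[K⟮x⟯] L) := fun c =>
    { σ c with
      commutes' := fun e => by
        have := congrArg (fun g : K⟮x⟯ →+* L => g e) (hφ c)
        exact this }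
  have hτ : Function.Injective τ := by
    intro c c' h
    apply hσ
    ext f
    exact congrArg (fun g : F →ₐ[K⟮x⟯] L => g f) h
  calc Nat.card X ≤ Nat.card (F →ₐ[K⟮x⟯] L) := Nat.card_le_card_of_injective τ hτ
    _ ≤ Module.finrank K⟮x⟯ F := card_algHom_le_finrank K⟮x⟯ F L

/-- The lower bound for the degree from local embedding data for `x⁻¹`. -/
theorem card_le_finrank_of_led_inv {ι : K →+* ℂ} (x : F) [FiniteDimensional K⟮x⟯ F]
    {X : Type*} [Finite X] (D : LocalEmbData ι x⁻¹ X) :
    Nat.card X ≤ Module.finrank K⟮x⟯ F := by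
  refine card_le_finrank_of_embeddings x D.emb D.emb_injective ?_ ?_
  · intro c c' k
    rw [D.emb_algebraMap, D.emb_algebraMap]
  · intro c c'
    have h := D.emb_y c c'
    rw [map_inv₀, map_inv₀] at h
    exact inv_injective h

end Abstract

open scoped MatrixGroups
open CongruenceSubgroup

/-- **AN-degree, lower bound**: `[SL(2,ℤ) : Γ₀(N)] ≤ [F_N : ℚ̄(j)]`. -/
theorem an_finrank_ge (N : ℕ) [NeZero N]
    [FiniteDimensional (AlgebraicClosure ℚ)⟮xJ N⟯ (FN N)] :
    Nat.card (SL(2, ℤ) ⧸ Gamma0 N) ≤ Module.finrank (AlgebraicClosure ℚ)⟮xJ N⟯ (FN N) := by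
  haveI : Finite (X0 N) := helper37.finite_quotient_Gamma0 N
  exact card_le_finrank_of_led_inv (xJ N) (helper37.cuspData N)

end Fermat.Agent.S24.helper80
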