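import Mathlib
import Fermat.Agent.S24.helper77_Degree
import Fermat.Agent.S24.helper80_DegreeLB

/-! # S24 / AN-degree (helper77): `[F_N : ℚ̄(j)] = [SL(2,ℤ) : Γ₀(N)]`

Upper bound: `helper77.an_finrank_le` (symmetric functions of the conjugates + polynomials in `j`
+ bridge + descent).  Lower bound: `helper80.an_finrank_ge` (distinct embeddings at the cusp).
-/

set_option autoImplicit false

namespace Fermat.Agent.S24.helper77

open IntermediateField
open scoped MatrixGroups

/-- **AN-degree** (interface `an_finrank`): `[F_N : ℚ̄(j)] = [SL(2,ℤ) : Γ₀(N)]`. -/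
theorem an_finrank (N : ℕ) [NeZero N] :
    Module.finrank (AlgebraicClosure ℚ)⟮xJ N⟯ (FN N)
      = Nat.card (SL(2, ℤ) ⧸ CongruenceSubgroup.Gamma0 N) :=
  have := an_finiteDimensional N
  le_antisymm (an_finrank_le N) (helper80.an_finrank_ge N)

end Fermat.Agent.S24.helper77
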