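import Mathlib
import Fermat.Agent.S24.helper24_Interior
import Fermat.Agent.S24.helper77_Hermite
import Fermat.Agent.S24.helper83_CuspCount
import Fermat.Agent.S24.helper75_FFCore2

/-!
# S24 / task 25 (cusp): the fibre of `j` over `∞`

* `Jc`: the cusp function of `j` (meromorphic at `0`, `Jc (exp (2 π i τ)) = j τ`).
* `cuspChart N`: the chart at the cusp with parameter `q_N = exp (2 π i τ / N)`; the conjugates
  `j_d ∘ g⁻¹` are `Jc (ζ q_N ^ m)` by the Hermite form.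
* `an_count_infty_of`: the poles of `j` correspond to the `T`-orbits on `SL₂(ℤ)/Γ₀(N)`.
-/

set_option autoImplicit false

noncomputable section

open UpperHalfPlane ModularForm Filter Topology CongruenceSubgroup AlgebraicCurve
  IntermediateField WithZero
open scoped MatrixGroups Manifold

namespace Fermat.Agent.S24.helper24

open Fermat.Agent.S24 Fermat.Agent.S24.helper99

local notation "𝕢" => Function.Periodic.qParam

/-! ### The cusp function of `j` -/

/-- The cusp function of `q · j` (analytic at `0`, with value `1`). -/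
def Gc : ℂ → ℂ := cuspFunction 1 (fun τ : ℍ => 𝕢 1 τ ^ 1 * jfun τ)

theorem analyticAt_Gc : AnalyticAt ℂ Gc 0 := helper17.isNice_qParam_mul_jfun.analyticAt

theorem Gc_qParam (τ : ℍ) : Gc (𝕢 1 τ) = 𝕢 1 τ * jfun τ := by
  have := eq_cuspFunction (h := 1) (f := fun τ : ℍ => 𝕢 1 τ ^ 1 * jfun τ) τ one_ne_zero
    helper17.isNice_qParam_mul_jfun.periodic
  show cuspFunction 1 (fun τ : ℍ => 𝕢 1 τ ^ 1 * jfun τ) (𝕢 1 τ) = _
  rw [this, pow_one]

theorem Gc_zero : Gc 0 = 1 := by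
  have h1 := cuspFunction_apply_zero (h := 1) (f := fun τ : ℍ => 𝕢 1 τ ^ 1 * jfun τ) one_pos
    analyticAt_Gc helper17.isNice_qParam_mul_jfun.periodic
  have h2 : valueAtInfty (fun τ : ℍ => 𝕢 1 τ ^ 1 * jfun τ) = 1 := by
    apply Tendsto.limUnder_eq
    simpa using tendsto_qParam_mul_jfun
  exact h1.trans h2

/-- The cusp function of `j`: `Jc (exp (2 π i τ)) = j τ`. -/
def Jc (q : ℂ) : ℂ := Gc q / q

theorem Jc_qParam (τ : ℍ) : Jc (𝕢 1 τ) = jfun τ := by
  unfold Jc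
  rw [Gc_qParam]
  exact mul_div_cancel_left₀ _ (Function.Periodic.qParam_ne_zero _)

theorem meromorphicAt_Jc : MeromorphicAt Jc 0 :=
  analyticAt_Gc.meromorphicAt.div analyticAt_id.meromorphicAt

/-! ### Hermite form at the cusp -/

theorem qParam_one_eq (N : ℕ) [NeZero N] (α δ n' : ℕ) (β : ℤ) (hδ : 0 < δ) (hN : N = δ * n')
    (τ w : ℂ) (hw : w = ((α : ℂ) * τ + β) / δ) :
    𝕢 1 w = Complex.exp (2 * Real.pi * Complex.I * β / δ) * (𝕢 N τ) ^ (α * n') := by
  have hδ' : (δ : ℂ) ≠ 0 := by exact_mod_cast hδ.ne'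
  have hN0 : (N : ℂ) ≠ 0 := by exact_mod_cast NeZero.ne N
  have hn' : (n' : ℂ) ≠ 0 := by
    intro h
    apply hN0
    rw [hN]
    push_cast
    rw [h, mul_zero]
  unfold Function.Periodic.qParam
  rw [← Complex.exp_nat_mul, ← Complex.exp_add, hw]
  congr 1
  have : ((N : ℝ) : ℂ) = (δ : ℂ) * n' := by
    rw [hN]
    push_cast
    rfl
  rw [this]
  push_cast
  field_simp
  ring

/-- The conjugates of `j_d` in terms of the cusp function of `j`. -/
theorem exists_cusp_form (N d : ℕ) [NeZero N] [NeZero d] (hd : d ∣ N) (g : SL(2, ℤ)) :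
    ∃ (m : ℕ) (ζ : ℂ), 0 < m ∧ ∀ τ : ℍ, jfunD d (g • τ) = Jc (ζ * (𝕢 N τ) ^ m) := by
  obtain ⟨σ, α, δ, β, hα, hδ, hαδ, hτ⟩ := helper77.exists_hermite d g
  have hδN : δ ∣ N := (Dvd.intro_left α hαδ).trans hd
  obtain ⟨n', hn'⟩ := hδN
  have hn'0 : 0 < n' := by
    rcases Nat.eq_zero_or_pos n' with h | h
    · rw [h, mul_zero] at hn'
      exact absurd hn' (NeZero.ne N)
    · exact h
  refine ⟨α * n', Complex.exp (2 * Real.pi * Complex.I * β / δ), Nat.mul_pos hα hn'0, fun τ => ?_⟩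
  rw [← qParam_one_eq N α δ n' β hδ hn' τ _ (hτ τ), Jc_qParam, jfun_smul]
  rfl

theorem exists_cusp_form' (N : ℕ) [NeZero N] (g : SL(2, ℤ)) (d : N.divisors) :
    ∃ (m : ℕ) (ζ : ℂ), 0 < m ∧ ∀ τ : ℍ, jfunDT d.1 (g⁻¹ • τ) = Jc (ζ * (𝕢 N τ) ^ m) := by
  obtain ⟨d, hd⟩ := d
  have hd' := Nat.mem_divisors.mp hd
  have : NeZero d := ⟨fun h0 => hd'.2 (by rw [h0] at hd'; exact Nat.eq_zero_of_zero_dvd hd'.1)⟩
  obtain ⟨m, ζ, hm, h⟩ := exists_cusp_form N d hd'.1 g⁻¹
  exact ⟨m, ζ, hm, fun τ => by rw [jfunDT_of_ne_zero]; exact h τ⟩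

/-- The exponent in the cusp expansion of `j_d ∘ g⁻¹`. -/
def cuspM (N : ℕ) [NeZero N] (g : SL(2, ℤ)) (d : N.divisors) : ℕ :=
  (exists_cusp_form' N g d).choose

/-- The root of unity in the cusp expansion of `j_d ∘ g⁻¹`. -/
def cuspZ (N : ℕ) [NeZero N] (g : SL(2, ℤ)) (d : N.divisors) : ℂ :=
  (exists_cusp_form' N g d).choose_spec.choose

theorem cuspM_pos (N : ℕ) [NeZero N] (g : SL(2, ℤ)) (d : N.divisors) : 0 < cuspM N g d :=
  (exists_cusp_form' N g d).choose_spec.choose_spec.1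

theorem cusp_spec (N : ℕ) [NeZero N] (g : SL(2, ℤ)) (d : N.divisors) (τ : ℍ) :
    Jc (cuspZ N g d * (𝕢 N τ) ^ cuspM N g d) = jfunDT d.1 (g⁻¹ • τ) :=
  ((exists_cusp_form' N g d).choose_spec.choose_spec.2 τ).symm

/-- The chart at the cusp `∞`, with local parameter `q_N = exp (2 π i τ / N)`. -/
@[reducible] def cuspChart (N : ℕ) [NeZero N] : Chart N where
  z₀ := 0
  u := fun τ => 𝕢 N τ
  u_cont := Function.Periodic.continuous_qParam.comp UpperHalfPlane.continuous_coe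
  cover := by
    have hN : (0 : ℝ) < (N : ℝ) := by exact_mod_cast Nat.pos_of_ne_zero (NeZero.ne N)
    have : Metric.ball (0 : ℂ) 1 ∈ 𝓝 (0 : ℂ) := Metric.ball_mem_nhds _ one_pos
    filter_upwards [mem_nhdsWithin_of_mem_nhds this, self_mem_nhdsWithin] with q hq hq0
    have hq1 : ‖q‖ < 1 := by simpa using hq
    exact ⟨⟨Function.Periodic.invQParam N q,
      Function.Periodic.im_invQParam_pos_of_norm_lt_one hN hq1 hq0⟩,
      Function.Periodic.qParam_right_inv hN.ne' hq0⟩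
  H := fun g d q => Jc (cuspZ N g d * q ^ cuspM N g d)
  H_mero := fun g d => by
    have han : AnalyticAt ℂ (fun q : ℂ => cuspZ N g d * q ^ cuspM N g d) 0 :=
      analyticAt_const.mul (analyticAt_id.pow _)
    have h0 : (fun q : ℂ => cuspZ N g d * q ^ cuspM N g d) 0 = 0 := by
      simp [(cuspM_pos N g d).ne']
    have hJ : MeromorphicAt Jc ((fun q : ℂ => cuspZ N g d * q ^ cuspM N g d) 0) := by
      rw [h0]
      exact meromorphicAt_Jc
    exact MeromorphicAt.comp_analyticAt (f := Jc)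
      (g := fun q : ℂ => cuspZ N g d * q ^ cuspM N g d) hJ han
  H_spec := fun g d τ => cusp_spec N g d τ

/-! ### The value on `j` -/

theorem qParam_pow_eq (N : ℕ) [NeZero N] (z : ℂ) : (𝕢 N z) ^ N = 𝕢 1 z := by
  have hN0 : (N : ℂ) ≠ 0 := by exact_mod_cast NeZero.ne N
  unfold Function.Periodic.qParam
  rw [← Complex.exp_nat_mul]
  congr 1
  push_cast
  field_simp

theorem analyticAt_Gc_pow (N : ℕ) [NeZero N] : AnalyticAt ℂ (fun q : ℂ => Gc (q ^ N)) 0 := by
  have h0 : (fun q : ℂ => q ^ N) 0 = 0 := by simp [NeZero.ne N]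
  have hG : AnalyticAt ℂ Gc ((fun q : ℂ => q ^ N) 0) := by
    rw [h0]
    exact analyticAt_Gc
  exact AnalyticAt.comp (g := Gc) (f := fun q : ℂ => q ^ N) hG (analyticAt_id.pow N)

theorem meromorphicAt_Jc_pow (N : ℕ) [NeZero N] : MeromorphicAt (fun q : ℂ => Jc (q ^ N)) 0 :=
  (analyticAt_Gc_pow N).meromorphicAt.div (analyticAt_id.pow N).meromorphicAt

theorem meromorphicOrderAt_Jc_pow (N : ℕ) [NeZero N] :
    meromorphicOrderAt (fun q : ℂ => Jc (q ^ N)) 0 = ((-(N : ℤ) : ℤ) : WithTop ℤ) := by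
  rw [meromorphicOrderAt_eq_int_iff (meromorphicAt_Jc_pow N)]
  refine ⟨fun q => Gc (q ^ N), analyticAt_Gc_pow N, ?_, Eventually.of_forall fun q => ?_⟩
  · simp [NeZero.ne N, Gc_zero]
  · simp only [Jc, sub_zero, smul_eq_mul, zpow_neg, zpow_natCast]
    rw [div_eq_inv_mul]

variable (N : ℕ) [NeZero N]

theorem sigma_cusp_xJ (g : SL(2, ℤ)) :
    (cuspChart N).sigma (bridgeHyp N) g (xJ N)
      = MeroGerm.mk (fun q : ℂ => Jc (q ^ N)) (meromorphicAt_Jc_pow N) := by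
  have h1 : (1 : ℕ) ∈ N.divisors := Nat.mem_divisors.mpr ⟨one_dvd N, NeZero.ne N⟩
  have hx : ((xJ N : FN N) : LaurentSeries Kbar) = genJ N ⟨1, h1⟩ := by
    rw [genJ_apply]
    rfl
  rw [(cuspChart N).sigma_gen (bridgeHyp N) g (xJ N) ⟨1, h1⟩ hx]
  rw [(cuspChart N).mk_eq_mk_iff_forall _ _ (f := jfun) (g := jfun) mdiff_jfun mdiff_jfun]
  · intro τ
    rfl
  · intro τ
    show Jc (cuspZ N g ⟨1, h1⟩ * (𝕢 N τ) ^ cuspM N g ⟨1, h1⟩) = jfun τ
    rw [cusp_spec]
    exact jfunDT_one_smul g⁻¹ τ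
  · intro τ
    show Jc ((𝕢 N τ) ^ N) = jfun τ
    rw [qParam_pow_eq, Jc_qParam]

theorem V_sigma_cusp_inv (g : SL(2, ℤ)) :
    MeroGerm.V 0 ((cuspChart N).sigma (bridgeHyp N) g (xJ N)⁻¹) = exp (-(N : ℤ)) := by
  rw [map_inv₀, map_inv₀, sigma_cusp_xJ,
    MeroGerm.V_mk_of_order_eq _ (meromorphicOrderAt_Jc_pow N), neg_neg, exp_neg]

/-! ### Rotation at the cusp -/

/-- The rotation factor for `T ^ j`. -/
def rotC (N j : ℕ) : ℂ := Complex.exp (-(2 * Real.pi * Complex.I * j / N))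

theorem deriv_rot (c z : ℂ) : deriv (fun q : ℂ => c * q) z = c := by
  simp

theorem isRot_cusp (j : ℕ) :
    (cuspChart N).IsRot (ModularGroup.T ^ j) (fun q => rotC N j * q) where
  an := analyticAt_const.mul analyticAt_id
  fix := mul_zero _
  deriv_ne := by
    rw [deriv_rot]
    exact Complex.exp_ne_zero _
  spec := fun τ => by
    show 𝕢 N (((ModularGroup.T ^ j)⁻¹ • τ : ℍ) : ℂ) = rotC N j * 𝕢 N (τ : ℂ)
    have h1 : (ModularGroup.T ^ j)⁻¹ = ModularGroup.T ^ (-(j : ℤ)) := by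
      rw [zpow_neg, zpow_natCast]
    rw [h1, ModularGroup.coe_T_zpow_smul_eq]
    unfold Function.Periodic.qParam rotC
    rw [← Complex.exp_add]
    congr 1
    push_cast
    ring

theorem isPrimitiveRoot_rotC (k : ℕ) (hk : k ∣ N) (hk1 : 1 < k) :
    IsPrimitiveRoot (deriv (fun q : ℂ => rotC N (N / k) * q) 0) k := by
  rw [deriv_rot]
  have hk0 : k ≠ 0 := by omega
  have h := (Complex.isPrimitiveRoot_exp k hk0).inv
  have hN0 : (N : ℂ) ≠ 0 := by exact_mod_cast NeZero.ne N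
  have hkc : (k : ℂ) ≠ 0 := by exact_mod_cast hk0
  have e : rotC N (N / k) = (Complex.exp (2 * Real.pi * Complex.I / k))⁻¹ := by
    unfold rotC
    rw [← Complex.exp_neg]
    congr 1
    obtain ⟨m, hm⟩ := hk
    have hm0 : (m : ℂ) ≠ 0 := by
      intro h0
      apply hN0
      rw [hm]
      push_cast
      rw [h0, mul_zero]
    have : N / k = m := by
      rw [hm]
      exact Nat.mul_div_cancel_left m (by omega)
    rw [this, hm]
    push_cast
    field_simp
  rw [e]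
  exact h

/-- **AN-T3 at the cusp** (conditional on the degree): the poles of `j` correspond to the
`T`-orbits on the cosets. -/
theorem an_count_infty_of (hfd : FiniteDimensional Kbar⟮xJ N⟯ (FN N))
    (hfinrank : Module.finrank Kbar⟮xJ N⟯ (FN N) = Nat.card (SL(2, ℤ) ⧸ Gamma0 N)) :
    Nat.card {w : Place Kbar (FN N) // w.ord (xJ N) < 0}
      = Nat.card (MulAction.orbitRel.Quotient (Subgroup.zpowers ModularGroup.T)
          (SL(2, ℤ) ⧸ Gamma0 N)) := by
  have hadj : Kbar⟮(xJ N)⁻¹⟯ = Kbar⟮xJ N⟯ := helper55.adjoin_inv_eq (xJ N)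
  have hfd' : FiniteDimensional Kbar⟮(xJ N)⁻¹⟯ (FN N) := by
    rw [hadj]
    exact hfd
  have hcard : Nat.card (X0 N) = Module.finrank Kbar⟮(xJ N)⁻¹⟯ (FN N) := by
    rw [hadj]
    exact hfinrank.symm
  have hN : 0 < N := Nat.pos_of_ne_zero (NeZero.ne N)
  have key := (cuspChart N).count_of_chart (bridgeHyp N) (localCountHyp _ _ _ _)
    (xJ N)⁻¹ (helper55.transcendental_inv (helper77.an_transcendental N))
    hcard
    (fun g g' => by rw [map_inv₀, map_inv₀, sigma_cusp_xJ, sigma_cusp_xJ])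
    N hN (fun g => V_sigma_cusp_inv N g)
    ModularGroup.T (fun c => helper83.T_pow_N_smul N c)
    (fun k hk hk1 => ⟨_, isRot_cusp N (N / k), isPrimitiveRoot_rotC N k hk hk1⟩)
  have hset : {w : Place Kbar (FN N) | w.ord (xJ N) < 0}
      = {w : Place Kbar (FN N) | 0 < w.ord (xJ N)⁻¹} := helper75.poles_eq_zeros_inv (xJ N)
  have hcardset : Nat.card {w : Place Kbar (FN N) // w.ord (xJ N) < 0}
      = Nat.card {w : Place Kbar (FN N) // 0 < w.ord (xJ N)⁻¹} := by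
    apply Nat.card_congr
    exact Equiv.setCongr hset
  rw [hcardset]
  exact key.1

end Fermat.Agent.S24.helper24
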