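import Mathlib
import Fermat.Agent.S24.Defs
import Fermat.Agent.S24.helper43_LocalCount
import Fermat.Agent.S24.helper75_FFCore
import Fermat.Agent.S24.helper55_RH
import Fermat.Agent.S24.helper80_Assembly

/-!
# S24-LED: the generic consumer of `LocalEmbData` (helper80)

From a `LocalEmbData ι y X` (a family of `#X = [F : K(y)]` pairwise distinct embeddings of the
function field into `ℂ((s))`, permuted by the rotation `s ↦ ζ s`), we get

* the number of zeros of `y` equals the number of orbits of the rotation permutation `π` on `X`,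
* if `E = 1`, all zeros of `y` are simple.

This is `helper43.local_count_of` applied to `L = ℂ((s))` with its `s`-adic valuation.
-/

set_option autoImplicit false

namespace Fermat.Agent.S24.helper80

open AlgebraicCurve IntermediateField WithZero

/-! ## The `s`-adic valuation of `ℂ((s))` in terms of the order -/

section Valuation

variable {k : Type*} [Field k]

/-- The valuation of a nonzero Laurent series is `exp (- order)`. -/
theorem laurent_valuation_eq_exp_neg_order {f : LaurentSeries k} (hf : f ≠ 0) :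
    (Valued.v f : ℤᵐ⁰) = exp (-f.order) := by
  have hv0 : (Valued.v f : ℤᵐ⁰) ≠ 0 := (Valuation.ne_zero_iff _).mpr hf
  have hle : (Valued.v f : ℤᵐ⁰) ≤ exp (-f.order) := by
    rw [LaurentSeries.valuation_le_iff_coeff_lt_eq_zero]
    intro n hn
    exact HahnSeries.coeff_eq_zero_of_lt_order hn
  have hnle : ¬ (Valued.v f : ℤᵐ⁰) ≤ exp (-(f.order + 1)) := by
    rw [LaurentSeries.valuation_le_iff_coeff_lt_eq_zero]
    intro h
    exact (mt HahnSeries.coeff_order_eq_zero.mp hf) (h f.order (by omega))
  obtain ⟨m, hm⟩ : ∃ m : ℤ, (Valued.v f : ℤᵐ⁰) = exp m := ⟨log (Valued.v f), (exp_log hv0).symm⟩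
  rw [hm] at hle hnle ⊢
  rw [exp_le_exp] at hle
  rw [exp_le_exp] at hnle
  congr 1
  omega

theorem laurent_valuation_C {a : k} (ha : a ≠ 0) :
    (Valued.v (HahnSeries.C a : LaurentSeries k) : ℤᵐ⁰) = 1 := by
  have hC : (HahnSeries.C a : LaurentSeries k) ≠ 0 := by
    intro h
    apply ha
    have := congrArg (fun f : LaurentSeries k => f.coeff 0) h
    simpa using this
  rw [laurent_valuation_eq_exp_neg_order hC, HahnSeries.order_C, neg_zero, exp_zero]

end Valuation

/-! ## The rotation `rotL` -/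

section Rot

theorem rotL_one (f : LaurentSeries ℂ) : rotL 1 f = f := by
  ext n
  simp

theorem rotL_rotL (ζ ξ : ℂ) (f : LaurentSeries ℂ) : rotL ζ (rotL ξ f) = rotL (ζ * ξ) f := by
  ext n
  simp only [rotL_coeff, mul_zpow]
  ring

theorem rotL_eq_zero_iff {ζ : ℂ} (hζ : ζ ≠ 0) (f : LaurentSeries ℂ) : rotL ζ f = 0 ↔ f = 0 := by
  constructor
  · intro h
    ext n
    have := congrArg (fun g : LaurentSeries ℂ => g.coeff n) h
    simp only [rotL_coeff, HahnSeries.coeff_zero, mul_eq_zero] at this
    rcases this with h1 | h1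
    · exact absurd h1 (zpow_ne_zero n hζ)
    · simpa using h1
  · rintro rfl
    ext n
    simp

theorem rotL_coeff_ne_zero_iff {ζ : ℂ} (hζ : ζ ≠ 0) (f : LaurentSeries ℂ) (n : ℤ) :
    (rotL ζ f).coeff n ≠ 0 ↔ f.coeff n ≠ 0 := by
  rw [rotL_coeff]
  constructor
  · intro h h0
    exact h (by rw [h0, mul_zero])
  · intro h
    exact mul_ne_zero (zpow_ne_zero n hζ) h

theorem order_rotL {ζ : ℂ} (hζ : ζ ≠ 0) (f : LaurentSeries ℂ) : (rotL ζ f).order = f.order := by
  by_cases hf : f = 0
  · subst hf
    have : rotL ζ (0 : LaurentSeries ℂ) = 0 := (rotL_eq_zero_iff hζ 0).mpr rfl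
    rw [this]
  · have hrf : rotL ζ f ≠ 0 := fun h => hf ((rotL_eq_zero_iff hζ f).mp h)
    apply le_antisymm
    · exact HahnSeries.order_le_of_coeff_ne_zero
        ((rotL_coeff_ne_zero_iff hζ f _).mpr ((mt HahnSeries.coeff_order_eq_zero.mp hf)))
    · exact HahnSeries.order_le_of_coeff_ne_zero
        ((rotL_coeff_ne_zero_iff hζ f _).mp ((mt HahnSeries.coeff_order_eq_zero.mp hrf)))

theorem valuation_rotL {ζ : ℂ} (hζ : ζ ≠ 0) (f : LaurentSeries ℂ) :
    (Valued.v (rotL ζ f) : ℤᵐ⁰) = Valued.v f := by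
  by_cases hf : f = 0
  · subst hf
    have : rotL ζ (0 : LaurentSeries ℂ) = 0 := (rotL_eq_zero_iff hζ 0).mpr rfl
    rw [this]
  · have hrf : rotL ζ f ≠ 0 := fun h => hf ((rotL_eq_zero_iff hζ f).mp h)
    rw [laurent_valuation_eq_exp_neg_order hf, laurent_valuation_eq_exp_neg_order hrf,
      order_rotL hζ]

/-- A nonzero Laurent series invariant under the rotation by a primitive `k`-th root of unity has
order divisible by `k`. -/
theorem dvd_order_of_rotL_eq {ζ : ℂ} {k : ℕ} (hζ : IsPrimitiveRoot ζ k) {f : LaurentSeries ℂ}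
    (hf : f ≠ 0) (h : rotL ζ f = f) : (k : ℤ) ∣ f.order := by
  have hc := congrArg (fun g : LaurentSeries ℂ => g.coeff f.order) h
  simp only [rotL_coeff] at hc
  have hne : f.coeff f.order ≠ 0 := (mt HahnSeries.coeff_order_eq_zero.mp hf)
  have h1 : ζ ^ f.order = 1 := by
    have h2 : (ζ ^ f.order - 1) * f.coeff f.order = 0 := by
      rw [sub_mul, one_mul, hc, sub_self]
    rcases mul_eq_zero.mp h2 with h3 | h3
    · exact sub_eq_zero.mp h3
    · exact absurd h3 hne
  exact (hζ.zpow_eq_one_iff_dvd f.order).mp h1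

end Rot

/-! ## The generic lemma -/

section Generic

variable {K F : Type*} [Field K] [Field F] [Algebra K F]

theorem led_zeta_ne_zero {ι : K →+* ℂ} {y : F} {X : Type*} (D : LocalEmbData ι y X) :
    D.ζ ≠ 0 :=
  D.hζ.ne_zero (Nat.pos_iff_ne_zero.mp D.E_pos)

theorem led_emb_pow {ι : K →+* ℂ} {y : F} {X : Type*} (D : LocalEmbData ι y X)
    (n : ℕ) (c : X) (f : F) : D.emb ((D.π ^ n) c) f = rotL (D.ζ ^ n) (D.emb c f) := by
  induction n generalizing c with
  | zero => simp [rotL_one]
  | succ n ih =>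
    rw [pow_succ', Equiv.Perm.mul_apply, D.rot, ih, rotL_rotL, pow_succ']

variable [IsAlgClosed K] [CharZero K]

/-- **Counting places from local embedding data.** -/
theorem led_card_places {ι : K →+* ℂ} (y : F) (hy : Transcendental K y)
    [FiniteDimensional K⟮y⟯ F] {X : Type*} [Finite X] (D : LocalEmbData ι y X)
    (hcard : Nat.card X = Module.finrank K⟮y⟯ F)
    (hsep : ∀ (w : Place K F) (s : Finset (Place K F)), w ∉ s →
      ∃ f : F, 0 < w.ord f ∧ ∀ v ∈ s, v.ord f = 0) :
    Nat.card {w : Place K F // 0 < w.ord y}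
        = Nat.card (MulAction.orbitRel.Quotient (Subgroup.zpowers D.π) X)
      ∧ (D.E = 1 → ∀ w : Place K F, 0 < w.ord y → w.ord y = 1) := by
  classical
  letI : Fintype X := Fintype.ofFinite X
  have hy0 : y ≠ 0 := by
    rintro rfl
    exact hy (isAlgebraic_zero)
  have hζ0 := led_zeta_ne_zero D
  have hemb0 : ∀ (c : X) (f : F), f ≠ 0 → D.emb c f ≠ 0 := fun c f hf =>
    (map_ne_zero (D.emb c)).mpr hf
  refine helper43.local_count_of (L := LaurentSeries ℂ) y
    (helper75.ff_finite_zeros y hy) (helper75.ff_sum_ord_zeros y hy) hsep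
    (Valued.v : Valuation (LaurentSeries ℂ) ℤᵐ⁰) D.emb D.emb_injective
    (by rw [← hcard, Nat.card_eq_fintype_card]) ?_ ?_ D.emb_y D.E D.E_pos ?_ D.π ?_ ?_ ?_
  · -- constants have valuation one
    intro i c hc
    rw [D.emb_algebraMap]
    exact laurent_valuation_C ((map_ne_zero ι).mpr hc)
  · intro i j c
    rw [D.emb_algebraMap, D.emb_algebraMap]
  · intro i
    rw [laurent_valuation_eq_exp_neg_order (hemb0 i y hy0), D.order_y]
  · -- `π ^ E = 1`
    ext c
    apply D.emb_injective
    ext1 f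
    rw [led_emb_pow, D.hζ.pow_eq_one, rotL_one]
    rfl
  · intro i f
    rw [D.rot]
    exact valuation_rotL hζ0 _
  · intro i k hk hfix f hf
    have hk0 : k ≠ 0 := by
      rintro rfl
      have := Nat.eq_zero_of_zero_dvd hk
      exact absurd this (Nat.pos_iff_ne_zero.mp D.E_pos)
    have hprim : IsPrimitiveRoot (D.ζ ^ (D.E / k)) k :=
      D.hζ.pow D.E_pos (Nat.div_mul_cancel hk).symm
    have hinv : rotL (D.ζ ^ (D.E / k)) (D.emb i f) = D.emb i f := by
      rw [← led_emb_pow, hfix]
    obtain ⟨m, hm⟩ := dvd_order_of_rotL_eq hprim (hemb0 i f hf) hinv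
    refine ⟨-m, ?_⟩
    rw [laurent_valuation_eq_exp_neg_order (hemb0 i f hf), hm]
    congr 1
    ring

/-- Zeros of `x - a` from local embedding data. -/
theorem led_card_zeros_sub {ι : K →+* ℂ} (x : F) (hx : Transcendental K x)
    [FiniteDimensional K⟮x⟯ F] (a : K) {X : Type*} [Finite X]
    (D : LocalEmbData ι (x - algebraMap K F a) X)
    (hcard : Nat.card X = Module.finrank K⟮x⟯ F)
    (hsep : ∀ (w : Place K F) (s : Finset (Place K F)), w ∉ s →
      ∃ f : F, 0 < w.ord f ∧ ∀ v ∈ s, v.ord f = 0) :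
    Nat.card {w : Place K F // 0 < w.ord (x - algebraMap K F a)}
        = Nat.card (MulAction.orbitRel.Quotient (Subgroup.zpowers D.π) X)
      ∧ (D.E = 1 → ∀ w : Place K F, 0 < w.ord (x - algebraMap K F a) →
          w.ord (x - algebraMap K F a) = 1) := by
  have hfd : FiniteDimensional K⟮x - algebraMap K F a⟯ F := by
    rw [helper55.adjoin_sub_algebraMap_eq]; infer_instance
  have hcard' : Nat.card X = Module.finrank K⟮x - algebraMap K F a⟯ F := by
    rw [hcard, helper55.adjoin_sub_algebraMap_eq]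
  exact led_card_places (x - algebraMap K F a) (helper55.transcendental_sub_algebraMap hx a) D
    hcard' hsep

/-- Poles of `x` from local embedding data for `x⁻¹`. -/
theorem led_card_poles {ι : K →+* ℂ} (x : F) (hx : Transcendental K x)
    [FiniteDimensional K⟮x⟯ F] {X : Type*} [Finite X]
    (D : LocalEmbData ι x⁻¹ X)
    (hcard : Nat.card X = Module.finrank K⟮x⟯ F)
    (hsep : ∀ (w : Place K F) (s : Finset (Place K F)), w ∉ s →
      ∃ f : F, 0 < w.ord f ∧ ∀ v ∈ s, v.ord f = 0) :
    Nat.card {w : Place K F // w.ord x < 0}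
        = Nat.card (MulAction.orbitRel.Quotient (Subgroup.zpowers D.π) X) := by
  have hfd : FiniteDimensional K⟮x⁻¹⟯ F := by
    rw [helper55.adjoin_inv_eq]; infer_instance
  have hcard' : Nat.card X = Module.finrank K⟮x⁻¹⟯ F := by
    rw [hcard, helper55.adjoin_inv_eq]
  have h := (led_card_places x⁻¹ (helper55.transcendental_inv hx) D hcard' hsep).1
  rw [← h]
  refine Nat.card_congr (Equiv.subtypeEquivRight fun w => ?_)
  rw [Place.ord_inv]
  omega

end Generic

/-! ## Orbits of `toPerm g` and of its inverse -/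

section Perm

variable {G X : Type*} [Group G] [MulAction G X]

/-- If a permutation of a `G`-set is induced by `g` or by `g⁻¹`, its cycles are the orbits of
the cyclic group generated by `g`. -/
theorem card_orbits_of_eq_toPerm (π : Equiv.Perm X) (g : G)
    (hπ : π = MulAction.toPerm g ∨ π = (MulAction.toPerm g : Equiv.Perm X)⁻¹) :
    Nat.card (MulAction.orbitRel.Quotient (Subgroup.zpowers π) X)
      = Nat.card (MulAction.orbitRel.Quotient (Subgroup.zpowers g) X) := by
  rcases hπ with rfl | rfl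
  · exact card_orbits_zpowers_toPerm g
  · rw [Subgroup.zpowers_inv]
    exact card_orbits_zpowers_toPerm g

end Perm

end Fermat.Agent.S24.helper80
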