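import Mathlib
import Fermat.Prelude.Def_ModularCurve_CanonicalDivisor

/-!
# S24, module FF-deriv: order of exact differentials at a place

`w.ordDifferential (D y) = w.ord (y - a) - 1` at a zero of `y - a`, and
`w.ordDifferential (D y) = w.ord y - 1` at a pole of `y`.
-/

set_option autoImplicit false

namespace Fermat.Agent.S24.helper88

open AlgebraicCurve KaehlerDifferential

section Nakayama

variable {K A : Type*} [Field K] [CommRing A] [IsLocalRing A] [Algebra K A]

/-- If `A` is a local `K`-algebra essentially of finite type in which every element is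
congruent modulo `t` to a constant, then `Ω[A⁄K]` is generated by `D t`. -/
theorem span_D_eq_top_of_essFiniteType [Algebra.EssFiniteType K A] (t : A)
    (ht : t ∈ IsLocalRing.maximalIdeal A)
    (hres : ∀ u : A, ∃ (c : K) (z : A), u = algebraMap K A c + t * z) :
    Submodule.span A {D K A t} = ⊤ := by
  rw [eq_top_iff]
  refine Submodule.le_of_le_smul_of_le_jacobson_bot (I := IsLocalRing.maximalIdeal A)
    (Module.Finite.fg_top) (IsLocalRing.maximalIdeal_le_jacobson _) ?_
  rw [← KaehlerDifferential.span_range_derivation K A, Submodule.span_le]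
  rintro _ ⟨u, rfl⟩
  obtain ⟨c, z, rfl⟩ := hres u
  have h1 : D K A (algebraMap K A c + t * z) = t • D K A z + z • D K A t := by
    rw [map_add, Derivation.map_algebraMap, zero_add, Derivation.leibniz]
  rw [h1]
  refine Submodule.add_mem _ (Submodule.mem_sup_right ?_) (Submodule.mem_sup_left ?_)
  · rw [KaehlerDifferential.span_range_derivation]
    exact Submodule.smul_mem_smul ht Submodule.mem_top
  · exact Submodule.smul_mem _ _ (Submodule.mem_span_singleton_self _)

end Nakayama


section Place

variable {K F : Type*} [Field K] [Field F] [Algebra K F] (w : Place K F)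

/-- The chosen uniformizer of the place `w` (the one used by `Place.dCoord`), as an element of
the valuation ring. -/
noncomputable def unif : w.toValuationSubring :=
  (IsDiscreteValuationRing.exists_irreducible w.toValuationSubring).choose

theorem unif_irreducible : Irreducible (unif w) :=
  (IsDiscreteValuationRing.exists_irreducible w.toValuationSubring).choose_spec

theorem dCoord_eq : w.dCoord = D K F ((unif w : w.toValuationSubring) : F) := rfl

theorem unif_ne_zero : ((unif w : w.toValuationSubring) : F) ≠ 0 := by
  have h := (unif_irreducible w).ne_zero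
  simpa [ne_eq, ZeroMemClass.coe_eq_zero] using h

theorem ord_unif : w.ord ((unif w : w.toValuationSubring) : F) = 1 :=
  w.ord_coe_irreducible (unif_irreducible w)

theorem mem_of_ord_nonneg {f : F} (hf : 0 ≤ w.ord f) : f ∈ w.toValuationSubring := by
  rcases eq_or_ne f 0 with rfl | hf0
  · exact zero_mem _
  obtain ⟨u, hu⟩ := w.exists_unit_mul_zpow hf0 (unif_irreducible w)
  rw [hu]
  obtain ⟨n, hn⟩ := Int.eq_ofNat_of_zero_le hf
  rw [hn, zpow_natCast]
  exact mul_mem (u : w.toValuationSubring).2 (pow_mem (unif w).2 n)

theorem exists_eq_unif_mul_of_ord_pos {f : F} (hf : 0 < w.ord f) :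
    ∃ z : w.toValuationSubring, f = ((unif w : w.toValuationSubring) : F) * (z : F) := by
  have hf0 : f ≠ 0 := by
    rintro rfl
    simp at hf
  obtain ⟨u, hu⟩ := w.exists_unit_mul_zpow hf0 (unif_irreducible w)
  obtain ⟨n, hn⟩ := Int.eq_ofNat_of_zero_le hf.le
  have hn1 : 1 ≤ n := by omega
  obtain ⟨m, rfl⟩ : ∃ m, n = m + 1 := ⟨n - 1, by omega⟩
  refine ⟨(u : w.toValuationSubring) * unif w ^ m, ?_⟩
  rw [hu, hn, zpow_natCast]
  push_cast
  ring

/-- **Key lemma.** If the valuation ring is essentially of finite type over `K` and has residue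
field `K`, then `d/dt` preserves the valuation ring, where `t` is the uniformizer. -/
theorem exists_D_eq_smul [Algebra.EssFiniteType K w.toValuationSubring]
    (hres : ∀ f : F, 0 ≤ w.ord f →
      ∃ a : K, f = algebraMap K F a ∨ 0 < w.ord (f - algebraMap K F a))
    (u : w.toValuationSubring) :
    ∃ h : w.toValuationSubring, D K F (u : F) = (h : F) • w.dCoord := by
  have hres' : ∀ u : w.toValuationSubring, ∃ (c : K) (z : w.toValuationSubring),
      u = algebraMap K w.toValuationSubring c + unif w * z := by
    intro u
    have hu : 0 ≤ w.ord (u : F) := by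
      rcases eq_or_ne (u : F) 0 with h0 | h0
      · rw [h0]; simp
      · obtain ⟨n, v, hv⟩ := IsDiscreteValuationRing.eq_unit_mul_pow_irreducible
          (show u ≠ 0 from fun h => h0 (by rw [h]; rfl)) (unif_irreducible w)
        have : (u : F) = ((v : w.toValuationSubring) : F) *
            (((unif w : w.toValuationSubring) : F) ^ (n : ℤ)) := by
          rw [hv, zpow_natCast]; rfl
        rw [this, w.ord_unit_smul_zpow v (unif_irreducible w)]
        exact Int.natCast_nonneg n
    obtain ⟨a, ha | ha⟩ := hres (u : F) hu
    · exact ⟨a, 0, Subtype.ext (by simpa using ha)⟩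
    · obtain ⟨z, hz⟩ := exists_eq_unif_mul_of_ord_pos w ha
      refine ⟨a, z, Subtype.ext ?_⟩
      have : (u : F) = algebraMap K F a + ((unif w : w.toValuationSubring) : F) * (z : F) := by
        rw [← hz]; ring
      simpa using this
  have ht : unif w ∈ IsLocalRing.maximalIdeal w.toValuationSubring :=
    (unif_irreducible w).not_isUnit
  have hspan := span_D_eq_top_of_essFiniteType (K := K) (unif w) ht hres'
  have hmem : D K w.toValuationSubring u ∈
      Submodule.span w.toValuationSubring {D K w.toValuationSubring (unif w)} := by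
    rw [hspan]; trivial
  obtain ⟨h, hh⟩ := Submodule.mem_span_singleton.mp hmem
  refine ⟨h, ?_⟩
  have h2 := congrArg (KaehlerDifferential.map K K w.toValuationSubring F) hh
  rw [map_smul, KaehlerDifferential.map_D, KaehlerDifferential.map_D] at h2
  rw [dCoord_eq]
  exact h2.symm


/-- Core computation: if `f` has nonzero order `m` at `w` then `D f` has order `m - 1`. -/
theorem ordDifferential_D_of_ord_ne_zero [CharZero K]
    [Algebra.EssFiniteType K w.toValuationSubring] [w.DCoordGenerates] [Nontrivial Ω[F⁄K]]
    (hres : ∀ f : F, 0 ≤ w.ord f →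
      ∃ a : K, f = algebraMap K F a ∨ 0 < w.ord (f - algebraMap K F a))
    (f : F) (hf : w.ord f ≠ 0) :
    w.ordDifferential (D K F f) = w.ord f - 1 := by
  have hf0 : f ≠ 0 := by
    rintro rfl
    simp at hf
  set t : F := ((unif w : w.toValuationSubring) : F) with ht
  have ht0 : t ≠ 0 := unif_ne_zero w
  obtain ⟨u, hu⟩ := w.exists_unit_mul_zpow hf0 (unif_irreducible w)
  set m : ℤ := w.ord f with hm
  obtain ⟨h, hh⟩ := exists_D_eq_smul w hres (u : w.toValuationSubring)
  -- the coefficient
  set g : F := t ^ (m - 1) * (t * (h : F) + (m : F) * ((u : w.toValuationSubring) : F)) with hg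
  have hDf : D K F f = g • w.dCoord := by
    have h1 : D K F f = ((u : w.toValuationSubring) : F) • D K F (t ^ m)
        + (t ^ m) • D K F ((u : w.toValuationSubring) : F) := by
      conv_lhs => rw [hu]
      exact Derivation.leibniz _ _ _
    have h3 : t ^ m = t ^ (m - 1) * t := by
      rw [← zpow_add_one₀ ht0, sub_add_cancel]
    rw [h1, Derivation.leibniz_zpow, hh, dCoord_eq, ← ht, hg, ← Int.cast_smul_eq_zsmul F m,
      smul_smul, smul_smul, smul_smul, ← add_smul]
    congr 1
    rw [h3]
    ring
  rw [Place.ordDifferential, w.differentialCoeff_unique hDf]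
  -- now compute the order of g
  have hmF : (m : F) ≠ 0 := by
    have hmK : (m : K) ≠ 0 := Int.cast_ne_zero.mpr hf
    have : (m : F) = algebraMap K F (m : K) := by simp
    rw [this]
    exact (map_ne_zero (algebraMap K F)).mpr hmK
  -- the second factor is a unit of the valuation ring
  have hunit : IsUnit (unif w * h + algebraMap K w.toValuationSubring (m : K) * u) := by
    have h1 : IsUnit (algebraMap K w.toValuationSubring (m : K) * u) :=
      (IsUnit.map (algebraMap K w.toValuationSubring)
        (isUnit_iff_ne_zero.mpr (Int.cast_ne_zero.mpr hf))).mul u.isUnit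
    have h2 : unif w * h ∈ IsLocalRing.maximalIdeal w.toValuationSubring :=
      Ideal.mul_mem_right _ _ (unif_irreducible w).not_isUnit
    by_contra hcon
    have h3 : unif w * h + algebraMap K w.toValuationSubring (m : K) * u ∈
        IsLocalRing.maximalIdeal w.toValuationSubring := hcon
    have h4 := (Ideal.add_mem_iff_right _ h2).mp h3
    exact h4 h1
  have hcoe : ((hunit.unit : w.toValuationSubring) : F)
      = t * (h : F) + (m : F) * ((u : w.toValuationSubring) : F) := by
    rw [IsUnit.unit_spec]
    push_cast
    simp [ht]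
  have hord2 : w.ord (t * (h : F) + (m : F) * ((u : w.toValuationSubring) : F)) = 0 := by
    rw [← hcoe]
    exact w.ord_coe_unit _
  have hne2 : t * (h : F) + (m : F) * ((u : w.toValuationSubring) : F) ≠ 0 := by
    rw [← hcoe]
    intro h0
    exact hunit.ne_zero (Subtype.ext (by rw [IsUnit.unit_spec] at h0; exact h0))
  rw [hg, w.ord_mul (zpow_ne_zero _ ht0) hne2, hord2, w.ord_zpow, ht, ord_unif]
  ring

/-- Order of an exact differential at a zero of `y - a`. -/
theorem ordDifferential_D_of_zero_aux [CharZero K]
    [Algebra.EssFiniteType K w.toValuationSubring] [w.DCoordGenerates] [Nontrivial Ω[F⁄K]]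
    (hres : ∀ f : F, 0 ≤ w.ord f →
      ∃ a : K, f = algebraMap K F a ∨ 0 < w.ord (f - algebraMap K F a))
    (y : F) (a : K) (h : 0 < w.ord (y - algebraMap K F a)) :
    w.ordDifferential (D K F y) = w.ord (y - algebraMap K F a) - 1 := by
  have h1 : D K F y = D K F (y - algebraMap K F a) := by
    rw [map_sub, Derivation.map_algebraMap, sub_zero]
  rw [h1]
  exact ordDifferential_D_of_ord_ne_zero w hres _ h.ne'

/-- Order of an exact differential at a pole of `y`. -/
theorem ordDifferential_D_of_pole_aux [CharZero K]
    [Algebra.EssFiniteType K w.toValuationSubring] [w.DCoordGenerates] [Nontrivial Ω[F⁄K]]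
    (hres : ∀ f : F, 0 ≤ w.ord f →
      ∃ a : K, f = algebraMap K F a ∨ 0 < w.ord (f - algebraMap K F a))
    (y : F) (h : w.ord y < 0) :
    w.ordDifferential (D K F y) = w.ord y - 1 :=
  ordDifferential_D_of_ord_ne_zero w hres _ h.ne

end Place

end Fermat.Agent.S24.helper88
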