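import Mathlib
import Fermat.Agent.S24.helper88_Deriv

/-!
# S24, module FF-deriv (part 2): the valuation ring of a place is essentially of finite type

For a function field `F / K` of one variable (`F` finite separable over `K(s)`), the valuation
ring of every place is the localization of the integral closure of `K[s]` (or `K[1/s]`) at a
maximal ideal; in particular it is essentially of finite type over `K`.
-/

set_option autoImplicit false

namespace Fermat.Agent.S24.helper88

open AlgebraicCurve IntermediateField
open scoped IntermediateField.algebraAdjoinAdjoin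

variable {K F : Type*} [Field K] [Field F] [Algebra K F]

section Basics

variable (s : F)

/-- The polynomial ring `K[s]` is a principal ideal ring when `s` is transcendental. -/
theorem isPrincipalIdealRing_adjoin (hs : Transcendental K s) :
    IsPrincipalIdealRing (Algebra.adjoin K {s}) :=
  IsPrincipalIdealRing.of_surjective
    (Polynomial.algEquivOfTranscendental K s hs).toRingEquiv.toRingHom
    (Polynomial.algEquivOfTranscendental K s hs).surjective

variable (w : Place K F)

theorem adjoin_le_valuationSubring (hsO : s ∈ w.toValuationSubring) {a : F}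
    (ha : a ∈ Algebra.adjoin K {s}) : a ∈ w.toValuationSubring := by
  refine Algebra.adjoin_induction (p := fun a _ => a ∈ w.toValuationSubring) ?_ ?_ ?_ ?_ ha
  · intro x hx
    rw [Set.mem_singleton_iff] at hx
    rw [hx]
    exact hsO
  · intro c
    exact w.algebraMap_mem' c
  · intro x y _ _ hx hy
    exact add_mem hx hy
  · intro x y _ _ hx hy
    exact mul_mem hx hy

/-- Elements of `F` integral over `K[s]` lie in the valuation ring of `w` as soon as `s` does. -/
theorem mem_of_mem_integralClosure (hsO : s ∈ w.toValuationSubring) {b : F}
    (hb : b ∈ integralClosure (Algebra.adjoin K {s}) F) : b ∈ w.toValuationSubring := by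
  have hint : IsIntegral (Algebra.adjoin K {s}) b := hb
  obtain ⟨p, hp, hpb⟩ := hint
  -- map the polynomial to the valuation ring
  let φ : Algebra.adjoin K {s} →+* w.toValuationSubring :=
    { toFun := fun a => ⟨a.1, adjoin_le_valuationSubring s w hsO a.2⟩
      map_one' := rfl
      map_mul' := fun _ _ => rfl
      map_zero' := rfl
      map_add' := fun _ _ => rfl }
  have hφ : (algebraMap w.toValuationSubring F).comp φ = algebraMap (Algebra.adjoin K {s}) F :=
    rfl
  have hint' : IsIntegral w.toValuationSubring b := by
    refine ⟨p.map φ, hp.map φ, ?_⟩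
    rw [Polynomial.eval₂_map, hφ]
    exact hpb
  obtain ⟨y, hy⟩ := IsIntegrallyClosed.isIntegral_iff.mp hint'
  rw [← hy]
  exact y.2


/-- If `s ∈ O_w` is transcendental over `K` and `F` is finite over `K(s)`, then the valuation
ring `O_w` is essentially of finite type over `K`. -/
theorem essFiniteType_of_mem [CharZero K] (hs : Transcendental K s) [FiniteDimensional K⟮s⟯ F]
    (hsO : s ∈ w.toValuationSubring) : Algebra.EssFiniteType K w.toValuationSubring := by
  have := isPrincipalIdealRing_adjoin s hs
  have : CharZero F := charZero_of_injective_algebraMap (algebraMap K F).injective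
  have hB1 : IsDedekindDomain (integralClosure (Algebra.adjoin K {s}) F) :=
    integralClosure.isDedekindDomain (Algebra.adjoin K {s}) K⟮s⟯ F
  have hB2 : IsFractionRing (integralClosure (Algebra.adjoin K {s}) F) F :=
    integralClosure.isFractionRing_of_finite_extension K⟮s⟯ F
  have hB3 : Module.Finite (Algebra.adjoin K {s}) (integralClosure (Algebra.adjoin K {s}) F) :=
    IsIntegralClosure.finite (Algebra.adjoin K {s}) K⟮s⟯ F _
  -- the inclusion `g : B →ₐ[K] O_w`
  let g : integralClosure (Algebra.adjoin K {s}) F →ₐ[K] w.toValuationSubring :=
    { toFun := fun b => ⟨b.1, mem_of_mem_integralClosure s w hsO b.2⟩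
      map_one' := rfl
      map_mul' := fun _ _ => rfl
      map_zero' := rfl
      map_add' := fun _ _ => rfl
      commutes' := fun _ => rfl }
  have hg : ∀ b, ((g b : w.toValuationSubring) : F) = (b : F) := fun _ => rfl
  -- finite type
  have hA : Algebra.FiniteType K (Algebra.adjoin K {s}) :=
    Algebra.FiniteType.equiv inferInstance (Polynomial.algEquivOfTranscendental K s hs)
  have hBft : Algebra.FiniteType K (integralClosure (Algebra.adjoin K {s}) F) :=
    Algebra.FiniteType.trans hA inferInstance
  have hfg : g.range.FG := by
    have h1 := hBft.out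
    have h2 := h1.map g
    rwa [Algebra.map_top] at h2
  obtain ⟨σ, hσ⟩ := hfg
  rw [Algebra.essFiniteType_iff]
  refine ⟨σ, fun z => ?_⟩
  rw [hσ]
  -- the prime `𝔭`
  have h𝔭 : ((IsLocalRing.maximalIdeal w.toValuationSubring).comap g.toRingHom).IsPrime :=
    Ideal.comap_isPrime _ _
  have h𝔭0 : (IsLocalRing.maximalIdeal w.toValuationSubring).comap g.toRingHom ≠ ⊥ := by
    obtain ⟨n, d, hd, hnd⟩ := IsFractionRing.div_surjective
      (A := integralClosure (Algebra.adjoin K {s}) F) ((unif w : w.toValuationSubring) : F)
    have hd0 : (algebraMap (integralClosure (Algebra.adjoin K {s}) F) F d) ≠ 0 := by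
      intro h0
      exact (nonZeroDivisors.ne_zero hd)
        ((IsFractionRing.injective (integralClosure (Algebra.adjoin K {s}) F) F)
          (by rw [h0, map_zero]))
    have hn : (n : F) = ((unif w : w.toValuationSubring) : F) * (d : F) := by
      have : algebraMap (integralClosure (Algebra.adjoin K {s}) F) F n =
          ((unif w : w.toValuationSubring) : F) *
            algebraMap (integralClosure (Algebra.adjoin K {s}) F) F d := by
        rw [← hnd]
        field_simp
      exact this
    have hn0 : n ≠ 0 := by
      intro h0
      rw [h0] at hn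
      have h1 : ((unif w : w.toValuationSubring) : F) * (d : F) = 0 := by
        rw [← hn]; rfl
      rcases mul_eq_zero.mp h1 with h2 | h2
      · exact unif_ne_zero w h2
      · exact hd0 h2
    intro hbot
    have hmem : n ∈ (IsLocalRing.maximalIdeal w.toValuationSubring).comap g.toRingHom := by
      rw [Ideal.mem_comap]
      have : g.toRingHom n = unif w * g d := Subtype.ext (by
        show ((g n : w.toValuationSubring) : F) = _
        rw [hg, hn]; rfl)
      rw [this]
      exact Ideal.mul_mem_right _ _ (unif_irreducible w).not_isUnit
    rw [hbot] at hmem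
    exact hn0 hmem
  let v : IsDedekindDomain.HeightOneSpectrum (integralClosure (Algebra.adjoin K {s}) F) :=
    ⟨_, h𝔭, h𝔭0⟩
  have hunit : ∀ d : integralClosure (Algebra.adjoin K {s}) F,
      d ∈ v.asIdeal.primeCompl → IsUnit (g d) := by
    intro d hd
    by_contra hcon
    exact hd hcon
  obtain ⟨n, d, h | h⟩ := v.exists_primeCompl_mul_eq_or_mul_eq (K := F) (z : F)
  · refine ⟨g d, ⟨d, rfl⟩, hunit d d.2, ⟨n, Subtype.ext ?_⟩⟩
    show ((g n : w.toValuationSubring) : F) = (z : F) * ((g d : w.toValuationSubring) : F)
    rw [hg, hg]
    exact h.symm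
  · have hzn : z * g n = g d := Subtype.ext (by
      show (z : F) * ((g n : w.toValuationSubring) : F) = ((g d : w.toValuationSubring) : F)
      rw [hg, hg]
      exact h)
    have hun : IsUnit (g n) := by
      have h1 : IsUnit (z * g n) := by rw [hzn]; exact hunit d d.2
      exact isUnit_of_mul_isUnit_right h1
    exact ⟨g n, ⟨n, rfl⟩, hun, ⟨d, hzn.symm⟩⟩


end Basics

section Main

theorem finiteDimensional_of_eq {E₁ E₂ : IntermediateField K F} (h : E₁ = E₂)
    [FiniteDimensional E₁ F] : FiniteDimensional E₂ F := by
  subst h
  infer_instance

theorem adjoin_inv_eq' (x : F) : K⟮x⁻¹⟯ = K⟮x⟯ := by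
  apply le_antisymm
  · rw [IntermediateField.adjoin_simple_le_iff]
    exact inv_mem (IntermediateField.mem_adjoin_simple_self K x)
  · rw [IntermediateField.adjoin_simple_le_iff]
    have h := inv_mem (IntermediateField.mem_adjoin_simple_self K x⁻¹)
    rwa [inv_inv] at h

theorem transcendental_inv' {x : F} (hx : Transcendental K x) : Transcendental K x⁻¹ := by
  intro h
  apply hx
  have := h.inv
  rwa [inv_inv] at this

/-- **The valuation ring of a place of a function field of one variable is essentially of finite
type over the constant field.** -/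
theorem essFiniteType_valuationSubring [CharZero K] (x : F) (hx : Transcendental K x)
    [FiniteDimensional K⟮x⟯ F] (w : Place K F) :
    Algebra.EssFiniteType K w.toValuationSubring := by
  rcases w.toValuationSubring.mem_or_inv_mem x with h | h
  · exact essFiniteType_of_mem x w hx h
  · have : FiniteDimensional K⟮x⁻¹⟯ F := finiteDimensional_of_eq (adjoin_inv_eq' x).symm
    exact essFiniteType_of_mem x⁻¹ w (transcendental_inv' hx) h

variable [CharZero K] (x : F) (hx : Transcendental K x) [FiniteDimensional K⟮x⟯ F]

include hx in
/-- FF-deriv, zero case, assuming only the FF-basic inputs. -/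
theorem ordDifferential_D_of_zero_of_basic (w : Place K F) [w.DCoordGenerates]
    [Nontrivial Ω[F⁄K]]
    (hres : ∀ f : F, 0 ≤ w.ord f →
      ∃ a : K, f = algebraMap K F a ∨ 0 < w.ord (f - algebraMap K F a))
    (y : F) (a : K) (h : 0 < w.ord (y - algebraMap K F a)) :
    w.ordDifferential (KaehlerDifferential.D K F y) = w.ord (y - algebraMap K F a) - 1 := by
  have := essFiniteType_valuationSubring x hx w
  exact ordDifferential_D_of_zero_aux w hres y a h

include hx in
/-- FF-deriv, pole case, assuming only the FF-basic inputs. -/
theorem ordDifferential_D_of_pole_of_basic (w : Place K F) [w.DCoordGenerates]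
    [Nontrivial Ω[F⁄K]]
    (hres : ∀ f : F, 0 ≤ w.ord f →
      ∃ a : K, f = algebraMap K F a ∨ 0 < w.ord (f - algebraMap K F a))
    (y : F) (h : w.ord y < 0) :
    w.ordDifferential (KaehlerDifferential.D K F y) = w.ord y - 1 := by
  have := essFiniteType_valuationSubring x hx w
  exact ordDifferential_D_of_pole_aux w hres y h

end Main

end Fermat.Agent.S24.helper88
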