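import Mathlib
import Fermat.Agent.S24.helper88_EssFinite
import Fermat.Agent.S24.helper82_FFBasic

/-!
# FF-deriv: order of an exact differential at a place (unconditional form)

Final wiring of the two "FF-deriv" interface statements for a function field of one variable
`F / K` (`K` algebraically closed of characteristic zero, `F` finite over `K(x)` with `x`
transcendental):

* `ff_ordDifferential_D_of_zero` : if `y - a` vanishes at `w`, then
  `ord_w (dy) = ord_w (y - a) - 1`;
* `ff_ordDifferential_D_of_pole` : if `y` has a pole at `w`, then `ord_w (dy) = ord_w y - 1`.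
-/

namespace Fermat.Agent.S24.helper88

open AlgebraicCurve IntermediateField

variable {K F : Type*} [Field K] [Field F] [Algebra K F] [IsAlgClosed K] [CharZero K]

/-- The module of differentials of a function field of one variable is nontrivial. -/
theorem ff_nontrivial_kaehler (x : F) (hx : Transcendental K x) [FiniteDimensional K⟮x⟯ F] :
    Nontrivial Ω[F⁄K] := by
  have hnot : x ∉ Set.range (algebraMap K F) := by
    rintro ⟨a, rfl⟩
    exact hx (isAlgebraic_algebraMap a)
  exact ⟨⟨KaehlerDifferential.D K F x, 0, helper82.ff_D_ne_zero x hx x hnot⟩⟩

/-- **FF-deriv, zero case.** -/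
theorem ff_ordDifferential_D_of_zero (x : F) (hx : Transcendental K x) [FiniteDimensional K⟮x⟯ F]
    (y : F) (a : K) (w : Place K F) (h : 0 < w.ord (y - algebraMap K F a)) :
    w.ordDifferential (KaehlerDifferential.D K F y) = w.ord (y - algebraMap K F a) - 1 := by
  have := helper82.ff_dCoordGenerates x hx w
  have := ff_nontrivial_kaehler x hx
  exact ordDifferential_D_of_zero_of_basic x hx w
    (fun f hf => helper82.ff_exists_residue x hx w f hf) y a h

/-- **FF-deriv, pole case.** -/
theorem ff_ordDifferential_D_of_pole (x : F) (hx : Transcendental K x) [FiniteDimensional K⟮x⟯ F]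
    (y : F) (w : Place K F) (h : w.ord y < 0) :
    w.ordDifferential (KaehlerDifferential.D K F y) = w.ord y - 1 := by
  have := helper82.ff_dCoordGenerates x hx w
  have := ff_nontrivial_kaehler x hx
  exact ordDifferential_D_of_pole_of_basic x hx w
    (fun f hf => helper82.ff_exists_residue x hx w f hf) y h

end Fermat.Agent.S24.helper88
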