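import Mathlib

set_option autoImplicit false

namespace Fermat.Agent.S24.helper18

open MulAction

section Invariants

variable {X : Type*}

/-- The space of `π`-invariant rational functions on `X`. -/
def invFun (π : Equiv.Perm X) : Submodule ℚ (X → ℚ) where
  carrier := {f | ∀ a, f (π a) = f a}
  add_mem' := by
    intro f g hf hg a
    have hf' : f (π a) = f a := hf a
    have hg' : g (π a) = g a := hg a
    simp [hf', hg']
  zero_mem' := by intro a; rfl
  smul_mem' := by
    intro c f hf a
    have hf' : f (π a) = f a := hf a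
    simp [hf']

theorem mem_invFun {π : Equiv.Perm X} {f : X → ℚ} : f ∈ invFun π ↔ ∀ a, f (π a) = f a :=
  Iff.rfl

theorem invFun_inv_apply {π : Equiv.Perm X} {f : X → ℚ} (hf : f ∈ invFun π) (a : X) :
    f (π⁻¹ a) = f a := by
  have h := hf (π⁻¹ a)
  simpa using h.symm

theorem invFun_zpow_apply {π : Equiv.Perm X} {f : X → ℚ} (hf : f ∈ invFun π) (k : ℤ) (a : X) :
    f ((π ^ k) a) = f a := by
  induction k using Int.induction_on generalizing a with
  | zero => simp
  | succ n ih => rw [zpow_add_one, Equiv.Perm.mul_apply, ih, hf]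
  | pred n ih => rw [zpow_sub_one, Equiv.Perm.mul_apply, ih, invFun_inv_apply hf]

/-- The number of orbits of `⟨π⟩` is the dimension of the space of invariant functions. -/
theorem finrank_invFun [Finite X] (π : Equiv.Perm X) :
    Module.finrank ℚ (invFun π) = Nat.card (orbitRel.Quotient (Subgroup.zpowers π) X) := by
  classical
  let Ω := orbitRel.Quotient (Subgroup.zpowers π) X
  let mk : X → Ω := fun a => Quotient.mk'' a
  have hmk : Function.Surjective mk := Quotient.mk''_surjective
  let Φ : (Ω → ℚ) →ₗ[ℚ] (X → ℚ) := LinearMap.funLeft ℚ ℚ mk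
  have hΦinj : Function.Injective Φ := LinearMap.funLeft_injective_of_surjective ℚ ℚ mk hmk
  have hrange : LinearMap.range Φ = invFun π := by
    apply le_antisymm
    · rintro _ ⟨g, rfl⟩
      intro a
      show g (mk (π a)) = g (mk a)
      have : mk (π a) = mk a := by
        have h := orbitRel.Quotient.quotient_smul_eq (G := Subgroup.zpowers π) (α := X)
          (g := ⟨π, Subgroup.mem_zpowers π⟩) (a := a)
        exact h
      rw [this]
    · intro f hf
      have hresp : ∀ a b : X, (orbitRel (Subgroup.zpowers π) X) a b → f a = f b := by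
        intro a b hab
        rw [orbitRel_apply, mem_orbit_iff] at hab
        obtain ⟨⟨g, hg⟩, rfl⟩ := hab
        obtain ⟨k, rfl⟩ := Subgroup.mem_zpowers_iff.mp hg
        exact invFun_zpow_apply hf k b
      refine ⟨Quotient.lift f hresp, ?_⟩
      funext a
      rfl
  let _ : Fintype Ω := Fintype.ofFinite Ω
  rw [← hrange, LinearMap.finrank_range_of_inj hΦinj, Module.finrank_fintype_fun_eq_card,
    Nat.card_eq_fintype_card]

end Invariants

section Scott

variable {X : Type*}

/-- The permutation action on functions: `(act π f) a = f (π⁻¹ a)`. -/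
def act (π : Equiv.Perm X) : (X → ℚ) →ₗ[ℚ] (X → ℚ) :=
  LinearMap.funLeft ℚ ℚ (π⁻¹ : Equiv.Perm X)

@[simp]
theorem act_apply (π : Equiv.Perm X) (f : X → ℚ) (a : X) : act π f a = f (π⁻¹ a) := rfl

theorem act_mul (σ τ : Equiv.Perm X) : act (σ * τ) = act σ ∘ₗ act τ := by
  ext f a
  simp [mul_inv_rev, Equiv.Perm.mul_apply]

theorem act_injective (π : Equiv.Perm X) : Function.Injective (act π) := by
  intro f g h
  funext a
  have := congrFun h (π a)
  simpa using this

theorem act_single [DecidableEq X] (π : Equiv.Perm X) (b : X) :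
    act π (Pi.single b (1 : ℚ)) = Pi.single (π b) (1 : ℚ) := by
  funext a
  simp only [act_apply, Pi.single_apply]
  by_cases h : a = π b
  · subst h
    simp
  · rw [if_neg h, if_neg]
    intro h'
    apply h
    rw [← h']
    simp

theorem ker_id_sub_act (π : Equiv.Perm X) :
    LinearMap.ker (LinearMap.id - act π) = invFun π := by
  ext f
  rw [LinearMap.mem_ker, mem_invFun]
  constructor
  · intro h a
    have := congrFun h (π a)
    simp only [LinearMap.sub_apply, LinearMap.id_coe, id_eq, Pi.sub_apply, act_apply,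
      Equiv.Perm.coe_inv, Equiv.symm_apply_apply, Pi.zero_apply] at this
    linarith
  · intro h
    funext a
    simp only [LinearMap.sub_apply, LinearMap.id_coe, id_eq, Pi.sub_apply, act_apply,
      Pi.zero_apply]
    have := h (π⁻¹ a)
    simp only [Equiv.Perm.coe_inv, Equiv.apply_symm_apply] at this
    simp only [Equiv.Perm.coe_inv]
    linarith

theorem invFun_closure_apply {σ τ : Equiv.Perm X} {f : X → ℚ} (hσ : f ∈ invFun σ)
    (hτ : f ∈ invFun τ) {g : Equiv.Perm X} (hg : g ∈ Subgroup.closure {σ, τ}) (b : X) :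
    f (g b) = f b := by
  induction hg using Subgroup.closure_induction generalizing b with
  | mem x hx =>
    rcases hx with rfl | rfl
    · exact hσ b
    · exact hτ b
  | one => rfl
  | mul x y _ _ hx hy => rw [Equiv.Perm.mul_apply, hx, hy]
  | inv x _ hx =>
    have := hx (x⁻¹ b)
    simp only [Equiv.Perm.coe_inv, Equiv.apply_symm_apply] at this
    simpa using this.symm

theorem finrank_invFun_inf_le_one [Finite X] (σ τ : Equiv.Perm X)
    (htrans : MulAction.IsPretransitive (Subgroup.closure {σ, τ}) X) :
    Module.finrank ℚ ↥(invFun σ ⊓ invFun τ) ≤ 1 := by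
  classical
  rcases isEmpty_or_nonempty X with hX | ⟨⟨a₀⟩⟩
  · have : Subsingleton (X → ℚ) := inferInstance
    have h0 : Module.finrank ℚ ↥(invFun σ ⊓ invFun τ) = 0 := by
      have : Subsingleton ↥(invFun σ ⊓ invFun τ) := inferInstance
      exact Module.finrank_zero_of_subsingleton
    omega
  · have hle : invFun σ ⊓ invFun τ ≤ Submodule.span ℚ {(fun _ => 1 : X → ℚ)} := by
      intro f hf
      rw [Submodule.mem_inf] at hf
      rw [Submodule.mem_span_singleton]
      refine ⟨f a₀, ?_⟩
      funext b
      obtain ⟨g, hg⟩ := htrans.exists_smul_eq a₀ b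
      have h1 := invFun_closure_apply hf.1 hf.2 g.2 a₀
      have h2 : (g : Equiv.Perm X) a₀ = b := hg
      rw [h2] at h1
      simp [h1]
    have h1 : (fun _ => 1 : X → ℚ) ≠ 0 := by
      intro h
      have := congrFun h a₀
      simp at this
    calc Module.finrank ℚ ↥(invFun σ ⊓ invFun τ)
        ≤ Module.finrank ℚ ↥(Submodule.span ℚ {(fun _ => 1 : X → ℚ)}) :=
          Submodule.finrank_mono hle
      _ = 1 := finrank_span_singleton h1

theorem single_sub_single_mem [DecidableEq X] (σ τ : Equiv.Perm X) {g : Equiv.Perm X}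
    (hg : g ∈ Subgroup.closure {σ, τ}) (b : X) :
    (Pi.single (g b) (1 : ℚ) - Pi.single b 1 : X → ℚ) ∈
      LinearMap.range (LinearMap.id - act σ) ⊔ LinearMap.range (LinearMap.id - act τ) := by
  induction hg using Subgroup.closure_induction generalizing b with
  | mem x hx =>
    rcases hx with rfl | rfl
    · refine Submodule.mem_sup_left ⟨-(Pi.single b 1), ?_⟩
      simp only [LinearMap.sub_apply, LinearMap.id_coe, id_eq, map_neg, act_single]
      abel
    · refine Submodule.mem_sup_right ⟨-(Pi.single b 1), ?_⟩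
      simp only [LinearMap.sub_apply, LinearMap.id_coe, id_eq, map_neg, act_single]
      abel
  | one => simp
  | mul x y _ _ hx hy =>
    have h1 := hx (y b)
    have h2 := hy b
    have := Submodule.add_mem _ h1 h2
    rw [Equiv.Perm.mul_apply]
    convert this using 1
    abel
  | inv x _ hx =>
    have h1 := hx (x⁻¹ b)
    simp only [Equiv.Perm.coe_inv, Equiv.apply_symm_apply] at h1
    have := Submodule.neg_mem _ h1
    simp only [Equiv.Perm.coe_inv]
    convert this using 1
    abel

theorem card_le_finrank_sup_add_one [Fintype X] [DecidableEq X] [Nonempty X]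
    (σ τ : Equiv.Perm X)
    (htrans : MulAction.IsPretransitive (Subgroup.closure {σ, τ}) X) :
    Fintype.card X ≤
      Module.finrank ℚ ↥(LinearMap.range (LinearMap.id - act σ) ⊔
        LinearMap.range (LinearMap.id - act τ)) + 1 := by
  obtain ⟨a₀⟩ := ‹Nonempty X›
  set W : Submodule ℚ (X → ℚ) :=
    LinearMap.range (LinearMap.id - act σ) ⊔ LinearMap.range (LinearMap.id - act τ) with hW
  have htop : (⊤ : Submodule ℚ (X → ℚ)) ≤ W ⊔ Submodule.span ℚ {(Pi.single a₀ 1 : X → ℚ)} := by
    rw [← (Pi.basisFun ℚ X).span_eq, Submodule.span_le]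
    rintro _ ⟨b, rfl⟩
    obtain ⟨g, hg⟩ := htrans.exists_smul_eq a₀ b
    have h2 : (g : Equiv.Perm X) a₀ = b := hg
    have h1 := single_sub_single_mem σ τ g.2 a₀
    rw [h2] at h1
    have h3 : (Pi.single a₀ 1 : X → ℚ) ∈ Submodule.span ℚ {(Pi.single a₀ 1 : X → ℚ)} :=
      Submodule.subset_span rfl
    have := Submodule.add_mem _ (Submodule.mem_sup_left (T := Submodule.span ℚ
      {(Pi.single a₀ 1 : X → ℚ)}) h1) (Submodule.mem_sup_right (S := W) h3)
    simpa using this
  have hfin : Module.finrank ℚ (X → ℚ) = Fintype.card X := Module.finrank_fintype_fun_eq_card ℚ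
  have h1 : Module.finrank ℚ (X → ℚ) ≤
      Module.finrank ℚ ↥(W ⊔ Submodule.span ℚ {(Pi.single a₀ 1 : X → ℚ)}) := by
    rw [← finrank_top ℚ (X → ℚ)]
    exact Submodule.finrank_mono htop
  have h2 := Submodule.finrank_add_le_finrank_add_finrank W
    (Submodule.span ℚ {(Pi.single a₀ 1 : X → ℚ)})
  have h3 : Module.finrank ℚ ↥(Submodule.span ℚ {(Pi.single a₀ 1 : X → ℚ)}) ≤ 1 := by
    have := finrank_span_le_card (R := ℚ) ({(Pi.single a₀ 1 : X → ℚ)} : Set (X → ℚ))
    simpa using this
  omega

theorem mem_invFun_right_of_mul {σ τ : Equiv.Perm X} {f : X → ℚ} (hσ : f ∈ invFun σ)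
    (hστ : f ∈ invFun (σ * τ)) : f ∈ invFun τ := by
  intro a
  have h1 := hστ a
  rw [Equiv.Perm.mul_apply, hσ (τ a)] at h1
  exact h1

/-- Scott's lemma for a transitive pair of permutations, in terms of invariant functions. -/
theorem scott_bound [Fintype X] [DecidableEq X] (σ τ : Equiv.Perm X)
    (htrans : MulAction.IsPretransitive (Subgroup.closure {σ, τ}) X) :
    Module.finrank ℚ ↥(invFun σ) + Module.finrank ℚ ↥(invFun τ) +
      Module.finrank ℚ ↥(invFun (σ * τ)) ≤ Fintype.card X + 2 := by
  classical
  rcases isEmpty_or_nonempty X with hX | hX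
  · have h0 : ∀ p : Submodule ℚ (X → ℚ), Module.finrank ℚ ↥p = 0 := by
      intro p
      have : Subsingleton ↥p := inferInstance
      exact Module.finrank_zero_of_subsingleton
    rw [h0, h0, h0]
    omega
  · have hn : Module.finrank ℚ (X → ℚ) = Fintype.card X :=
      Module.finrank_fintype_fun_eq_card ℚ
    set R₁ : Submodule ℚ (X → ℚ) := LinearMap.range (LinearMap.id - act σ) with hR₁
    set R₂ : Submodule ℚ (X → ℚ) :=
      LinearMap.range (act σ ∘ₗ (LinearMap.id - act τ)) with hR₂
    -- (1) rank-nullity for `1 - A`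
    have e1 : Module.finrank ℚ ↥R₁ + Module.finrank ℚ ↥(invFun σ) = Fintype.card X := by
      have := LinearMap.finrank_range_add_finrank_ker (LinearMap.id - act σ)
      rw [ker_id_sub_act, hn] at this
      exact this
    -- (2) rank-nullity for `A (1 - B)`
    have hker2 : LinearMap.ker (act σ ∘ₗ (LinearMap.id - act τ)) = invFun τ := by
      rw [LinearMap.ker_comp, LinearMap.ker_eq_bot.mpr (act_injective σ), Submodule.comap_bot,
        ker_id_sub_act]
    have e2 : Module.finrank ℚ ↥R₂ + Module.finrank ℚ ↥(invFun τ) = Fintype.card X := by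
      have := LinearMap.finrank_range_add_finrank_ker (act σ ∘ₗ (LinearMap.id - act τ))
      rw [hker2, hn] at this
      exact this
    -- (3) the restriction of `1 - A` to the invariants of `σ τ`
    set L : ↥(invFun (σ * τ)) →ₗ[ℚ] (X → ℚ) :=
      (LinearMap.id - act σ).domRestrict (invFun (σ * τ)) with hL
    have hAB : ∀ v ∈ invFun (σ * τ), act σ (act τ v) = v := by
      intro v hv
      have h1 : v ∈ LinearMap.ker (LinearMap.id - act (σ * τ)) := by
        rw [ker_id_sub_act]; exact hv
      rw [LinearMap.mem_ker, LinearMap.sub_apply, LinearMap.id_apply, sub_eq_zero, act_mul] at h1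
      exact h1.symm
    have hL_range : LinearMap.range L ≤ R₁ ⊓ R₂ := by
      rintro _ ⟨v, rfl⟩
      refine Submodule.mem_inf.mpr ⟨⟨(v : X → ℚ), rfl⟩, ⟨-(v : X → ℚ), ?_⟩⟩
      have h := hAB v v.2
      simp only [LinearMap.coe_comp, Function.comp_apply, LinearMap.sub_apply, LinearMap.id_coe,
        id_eq, map_neg, map_sub, hL, LinearMap.domRestrict_apply, h]
      abel
    have hL_ker : Module.finrank ℚ ↥(LinearMap.ker L) ≤ 1 := by
      have hmem : ∀ x : ↥(LinearMap.ker L),
          (((x : ↥(invFun (σ * τ))) : X → ℚ)) ∈ invFun σ ⊓ invFun τ := by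
        intro x
        have hx : L (x : ↥(invFun (σ * τ))) = 0 := x.2
        have h1 : ((x : ↥(invFun (σ * τ))) : X → ℚ) ∈ invFun σ := by
          rw [← ker_id_sub_act, LinearMap.mem_ker]
          exact hx
        exact Submodule.mem_inf.mpr ⟨h1, mem_invFun_right_of_mul h1 (x : ↥(invFun (σ * τ))).2⟩
      let ι : ↥(LinearMap.ker L) →ₗ[ℚ] ↥(invFun σ ⊓ invFun τ) :=
        LinearMap.codRestrict (invFun σ ⊓ invFun τ)
          ((invFun (σ * τ)).subtype ∘ₗ (LinearMap.ker L).subtype) hmem
      have hι : Function.Injective ι := by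
        intro x y hxy
        have h := congrArg (fun z : ↥(invFun σ ⊓ invFun τ) => (z : X → ℚ)) hxy
        exact Subtype.ext (Subtype.ext h)
      exact (LinearMap.finrank_le_finrank_of_injective hι).trans
        (finrank_invFun_inf_le_one σ τ htrans)
    have e3 := LinearMap.finrank_range_add_finrank_ker L
    -- (4) the sum `R₁ + R₂` is large
    have hW : LinearMap.range (LinearMap.id - act σ) ⊔ LinearMap.range (LinearMap.id - act τ) ≤
        R₁ ⊔ R₂ := by
      refine sup_le le_sup_left ?_
      rintro _ ⟨v, rfl⟩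
      have h1 : ((LinearMap.id : (X → ℚ) →ₗ[ℚ] (X → ℚ)) - act σ)
          (((LinearMap.id : (X → ℚ) →ₗ[ℚ] (X → ℚ)) - act τ) v) ∈ R₁ := ⟨_, rfl⟩
      have h2 : (act σ ∘ₗ ((LinearMap.id : (X → ℚ) →ₗ[ℚ] (X → ℚ)) - act τ)) v ∈ R₂ := ⟨_, rfl⟩
      have := Submodule.add_mem _ (Submodule.mem_sup_left (T := R₂) h1)
        (Submodule.mem_sup_right (S := R₁) h2)
      convert this using 1
      simp only [LinearMap.sub_apply, LinearMap.id_coe, id_eq, LinearMap.coe_comp,
        Function.comp_apply, map_sub]
      abel
    have e4 := card_le_finrank_sup_add_one σ τ htrans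
    have e5 := Submodule.finrank_sup_add_finrank_inf_eq R₁ R₂
    have e6 : Module.finrank ℚ ↥(LinearMap.range L) ≤ Module.finrank ℚ ↥(R₁ ⊓ R₂) :=
      Submodule.finrank_mono hL_range
    have e7 := Submodule.finrank_mono hW
    omega

end Scott

section Parity

variable {X : Type*} [Fintype X] [DecidableEq X]

/-- A label attached to a point which determines exactly the `π`-cycle through it. -/
def cycLabel (π : Equiv.Perm X) (a : X) : Equiv.Perm X × Option X :=
  (π.cycleOf a, if π a = a then some a else none)

theorem cycLabel_eq_iff (π : Equiv.Perm X) (a b : X) :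
    cycLabel π a = cycLabel π b ↔ π.SameCycle a b := by
  constructor
  · intro h
    have h1 : π.cycleOf a = π.cycleOf b := congrArg Prod.fst h
    have h2 : (if π a = a then some a else none) = (if π b = b then some b else none) :=
      congrArg Prod.snd h
    by_cases ha : π a = a
    · rw [if_pos ha] at h2
      by_cases hb : π b = b
      · rw [if_pos hb] at h2
        have : a = b := Option.some.inj h2
        subst this
        exact Equiv.Perm.SameCycle.refl _ _
      · rw [if_neg hb] at h2
        exact absurd h2 (by simp)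
    · rw [if_neg ha] at h2
      by_cases hb : π b = b
      · rw [if_pos hb] at h2
        exact absurd h2 (by simp)
      · exact (Equiv.Perm.sameCycle_iff_cycleOf_eq_of_mem_support
          (Equiv.Perm.mem_support.mpr ha) (Equiv.Perm.mem_support.mpr hb)).mpr h1
  · intro h
    have h1 : π.cycleOf a = π.cycleOf b := h.cycleOf_eq
    by_cases ha : π a = a
    · have : a = b := h.eq_of_left ha
      subst this
      rfl
    · have hb : π b ≠ b := by
        intro hb
        have : b = a := h.symm.eq_of_left hb
        subst this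
        exact ha hb
      unfold cycLabel
      rw [h1, if_neg ha, if_neg hb]

theorem orbitRel_zpowers_eq_ker (π : Equiv.Perm X) :
    orbitRel (Subgroup.zpowers π) X = Setoid.ker (cycLabel π) := by
  ext a b
  rw [orbitRel_apply, Setoid.ker_def, cycLabel_eq_iff, mem_orbit_iff]
  constructor
  · rintro ⟨⟨g, hg⟩, rfl⟩
    obtain ⟨k, rfl⟩ := Subgroup.mem_zpowers_iff.mp hg
    have hs : π.SameCycle b ((π ^ k) b) := ⟨k, rfl⟩
    exact hs.symm
  · intro h
    obtain ⟨k, hk⟩ := h.symm
    exact ⟨⟨π ^ k, Subgroup.mem_zpowers_iff.mpr ⟨k, rfl⟩⟩, hk⟩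

theorem image_cycLabel_support (π : Equiv.Perm X) :
    Finset.image (cycLabel π) π.support =
      Finset.image (fun c : Equiv.Perm X => (c, (none : Option X))) π.cycleFactorsFinset := by
  ext ⟨c, o⟩
  simp only [Finset.mem_image, Prod.mk.injEq]
  constructor
  · rintro ⟨a, ha, h⟩
    have ha' : π a ≠ a := Equiv.Perm.mem_support.mp ha
    unfold cycLabel at h
    rw [if_neg ha', Prod.mk.injEq] at h
    exact ⟨π.cycleOf a, Equiv.Perm.cycleOf_mem_cycleFactorsFinset_iff.mpr ha, h.1, h.2⟩
  · rintro ⟨c', hc', rfl, rfl⟩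
    obtain ⟨a, ha⟩ := (Equiv.Perm.mem_cycleFactorsFinset_iff.mp hc').1.nonempty_support
    have hca : c' = π.cycleOf a := Equiv.Perm.cycle_is_cycleOf ha hc'
    have ha2 : a ∈ π.support := by
      rw [← Equiv.Perm.cycleOf_mem_cycleFactorsFinset_iff, ← hca]
      exact hc'
    refine ⟨a, ha2, ?_⟩
    unfold cycLabel
    rw [if_neg (Equiv.Perm.mem_support.mp ha2), ← hca]

theorem card_orbits_eq (π : Equiv.Perm X) :
    Nat.card (orbitRel.Quotient (Subgroup.zpowers π) X) =
      π.cycleFactorsFinset.card + (Fintype.card X - π.support.card) := by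
  classical
  have h1 : Nat.card (orbitRel.Quotient (Subgroup.zpowers π) X) =
      Nat.card (Quotient (Setoid.ker (cycLabel π))) := by
    unfold orbitRel.Quotient
    rw [orbitRel_zpowers_eq_ker]
  rw [h1, Nat.card_congr (Setoid.quotientKerEquivRange (cycLabel π)),
    Nat.card_eq_fintype_card, ← Set.toFinset_card, Set.toFinset_range]
  have huniv : (Finset.univ : Finset X) = π.support ∪ π.supportᶜ := by
    rw [Finset.union_compl]
  rw [huniv, Finset.image_union, Finset.card_union_of_disjoint, image_cycLabel_support,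
    Finset.card_image_of_injOn, Finset.card_image_of_injOn, Finset.card_compl]
  · intro a ha b hb h
    have ha' : π a = a := by
      have : a ∉ π.support := by simpa using ha
      simpa [Equiv.Perm.mem_support] using this
    have hb' : π b = b := by
      have : b ∉ π.support := by simpa using hb
      simpa [Equiv.Perm.mem_support] using this
    have h2 := congrArg Prod.snd h
    simp only [cycLabel, if_pos ha', if_pos hb'] at h2
    exact Option.some.inj h2
  · intro c _ c' _ h
    exact congrArg Prod.fst h
  · rw [Finset.disjoint_left]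
    intro x hx hx'
    simp only [Finset.mem_image] at hx hx'
    obtain ⟨a, ha, rfl⟩ := hx
    obtain ⟨b, hb, h⟩ := hx'
    have ha' : π a ≠ a := Equiv.Perm.mem_support.mp ha
    have hb' : π b = b := by
      have : b ∉ π.support := by simpa using hb
      simpa [Equiv.Perm.mem_support] using this
    have h2 := congrArg Prod.snd h
    simp only [cycLabel, if_neg ha', if_pos hb'] at h2
    exact absurd h2 (by simp)

theorem sign_eq_neg_one_pow (π : Equiv.Perm X) :
    Equiv.Perm.sign π = (-1 : ℤˣ) ^ (π.support.card + π.cycleFactorsFinset.card) := by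
  rw [Equiv.Perm.sign_of_cycleType, Equiv.Perm.sum_cycleType, Equiv.Perm.cycleType_def,
    Multiset.card_map, Finset.card_val]

theorem even_support_add_cycles (σ τ : Equiv.Perm X) :
    Even ((σ.support.card + σ.cycleFactorsFinset.card) +
      (τ.support.card + τ.cycleFactorsFinset.card) +
      ((σ * τ).support.card + (σ * τ).cycleFactorsFinset.card)) := by
  have hne : (-1 : ℤˣ) ≠ 1 := by decide
  rw [← neg_one_pow_eq_one_iff_even hne, pow_add, pow_add, ← sign_eq_neg_one_pow,
    ← sign_eq_neg_one_pow, ← sign_eq_neg_one_pow, ← Equiv.Perm.sign_mul]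
  exact Int.units_mul_self _

/-- **Euler characteristic bound** (genus `≥ 0` and parity) for a transitive pair of
permutations: with `c(π)` the number of cycles of `π` (fixed points included),
`c(σ) + c(τ) + c(σ τ) ≤ |X| + 2` and `c(σ) + c(τ) + c(σ τ) ≡ |X| mod 2`. -/
theorem euler_char_bound {X : Type*} [Fintype X] [DecidableEq X] (σ τ : Equiv.Perm X)
    (htrans : MulAction.IsPretransitive (Subgroup.closure {σ, τ}) X) :
    Nat.card (MulAction.orbitRel.Quotient (Subgroup.zpowers σ) X) +
        Nat.card (MulAction.orbitRel.Quotient (Subgroup.zpowers τ) X) +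
        Nat.card (MulAction.orbitRel.Quotient (Subgroup.zpowers (σ * τ)) X) ≤
      Fintype.card X + 2 ∧
    (Nat.card (MulAction.orbitRel.Quotient (Subgroup.zpowers σ) X) +
        Nat.card (MulAction.orbitRel.Quotient (Subgroup.zpowers τ) X) +
        Nat.card (MulAction.orbitRel.Quotient (Subgroup.zpowers (σ * τ)) X)) % 2 =
      Fintype.card X % 2 := by
  constructor
  · have h := scott_bound σ τ htrans
    rw [finrank_invFun, finrank_invFun, finrank_invFun] at h
    exact h
  · have h := even_support_add_cycles σ τ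
    rw [Nat.even_iff] at h
    rw [card_orbits_eq σ, card_orbits_eq τ, card_orbits_eq (σ * τ)]
    have h1 : σ.support.card ≤ Fintype.card X := Finset.card_le_univ _
    have h2 : τ.support.card ≤ Fintype.card X := Finset.card_le_univ _
    have h3 : (σ * τ).support.card ≤ Fintype.card X := Finset.card_le_univ _
    omega

end Parity

end Fermat.Agent.S24.helper18
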