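import Mathlib
import Fermat.Statements.S24
import Fermat.Agent.S24.Defs
import Fermat.Agent.S24.helper80_Assembly
import Fermat.Agent.S24.helper55_RH
import Fermat.Agent.S24.helper82_FFBasic
import Fermat.Agent.S24.helper82_PrincipalDiv
import Fermat.Agent.S24.helper88_FFDeriv
import Fermat.Agent.S24.helper77_Transc
import Fermat.Agent.S24.helper37_IndexGamma0
import Fermat.Agent.S24.helper27_FixedPoints
import Fermat.Agent.S24.helper83_CuspCount
import Fermat.Agent.S24.helper18_EulerBound

/-!
# S24 final assembly (helper80), second stage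

`genus_eq_genusFormula_of_an` is the S24 statement with every landed module of the S24 cluster
already plugged in (function-field basics, order of exact differentials, principal divisors,
abstract Riemann-Hurwitz, coset combinatorics, Euler-characteristic bound, transcendence of `j`).
The remaining hypotheses are exactly the pieces that are not yet available as theorems:

* the zero count of the function field (`h_fin`, `h_sum`: FF-core),
* the degree `[F : Kbar(j)] = #(SL(2,Z) / Gamma0(N))` (AN-degree),
* unramifiedness away from `0, 1728` and the three place counts (AN-embed).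
-/

set_option autoImplicit false

namespace Fermat.Agent.S24.helper80

open AlgebraicCurve KaehlerDifferential IntermediateField
open scoped MatrixGroups
open CongruenceSubgroup

/-- The S24 statement, from the function-field zero count and the analytic inputs for
`j = xJ N`. -/
theorem genus_eq_genusFormula_of_an (N : ℕ) [NeZero N]
    [AlgebraicCurve.HasCanonicalDivisor (K := AlgebraicClosure ℚ)
      (F := ↥(ModularCurve.modularFunctionFieldBar N))]
    -- AN-degree
    (hfd : FiniteDimensional (AlgebraicClosure ℚ)⟮xJ N⟯ (FN N))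
    (hfinrank : Module.finrank (AlgebraicClosure ℚ)⟮xJ N⟯ (FN N)
      = Nat.card (SL(2, ℤ) ⧸ Gamma0 N))
    -- FF-core
    (h_fin : ∀ (y : FN N) (_ : Transcendental (AlgebraicClosure ℚ) y)
      [FiniteDimensional (AlgebraicClosure ℚ)⟮y⟯ (FN N)],
      {w : Place (AlgebraicClosure ℚ) (FN N) | 0 < w.ord y}.Finite)
    (h_sum : ∀ (y : FN N) (hy : Transcendental (AlgebraicClosure ℚ) y)
      [FiniteDimensional (AlgebraicClosure ℚ)⟮y⟯ (FN N)],
      ∑ w ∈ (h_fin y hy).toFinset, w.ord y
        = (Module.finrank (AlgebraicClosure ℚ)⟮y⟯ (FN N) : ℤ))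
    -- AN-embed
    (hunr : ∀ (a : AlgebraicClosure ℚ), a ≠ 0 → a ≠ 1728 →
      ∀ (w : Place (AlgebraicClosure ℚ) (FN N)),
      0 < w.ord (xJ N - algebraMap (AlgebraicClosure ℚ) (FN N) a) →
      w.ord (xJ N - algebraMap (AlgebraicClosure ℚ) (FN N) a) = 1)
    (hcount1728 : Nat.card {w : Place (AlgebraicClosure ℚ) (FN N) //
        0 < w.ord (xJ N - algebraMap (AlgebraicClosure ℚ) (FN N) 1728)}
      = Nat.card (MulAction.orbitRel.Quotient (Subgroup.zpowers ModularGroup.S)
          (SL(2, ℤ) ⧸ Gamma0 N)))
    (hcount0 : Nat.card {w : Place (AlgebraicClosure ℚ) (FN N) //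
        0 < w.ord (xJ N - algebraMap (AlgebraicClosure ℚ) (FN N) 0)}
      = Nat.card (MulAction.orbitRel.Quotient
          (Subgroup.zpowers (ModularGroup.S * ModularGroup.T)) (SL(2, ℤ) ⧸ Gamma0 N)))
    (hcountinf : Nat.card {w : Place (AlgebraicClosure ℚ) (FN N) // w.ord (xJ N) < 0}
      = Nat.card (MulAction.orbitRel.Quotient (Subgroup.zpowers ModularGroup.T)
          (SL(2, ℤ) ⧸ Gamma0 N))) :
    (AlgebraicCurve.genus (AlgebraicClosure ℚ) ↥(ModularCurve.modularFunctionFieldBar N) : ℚ)
      = ModularCurve.genusFormula N := by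
  have hj : Transcendental (AlgebraicClosure ℚ) (xJ N) := helper77.an_transcendental N
  have hjnot : xJ N ∉ Set.range (algebraMap (AlgebraicClosure ℚ) (FN N)) :=
    helper55.not_mem_range_of_transcendental hj
  have hpd : HasPrincipalDivisors (AlgebraicClosure ℚ) (FN N) :=
    helper82.hasPrincipalDivisors_of_zeros (xJ N) hj h_fin h_sum
  refine genus_eq_genusFormula_of_interface (K := AlgebraicClosure ℚ) (F := FN N) N (xJ N)
    (helper82.ff_D_ne_zero (xJ N) hj (xJ N) hjnot)
    (fun B hB ω hω Dv hD =>
      helper55.riemann_hurwitz_of_ff (xJ N) hj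
        (fun v => helper82.ff_deg_eq_one (xJ N) hj v)
        (fun v f hf => helper82.ff_exists_residue (xJ N) hj v f hf)
        (fun t ht => helper82.ff_span_D_eq_top (xJ N) hj t ht)
        (fun t ht => helper82.ff_D_ne_zero (xJ N) hj t ht)
        (fun v => helper82.ff_dCoordGenerates (xJ N) hj v)
        hpd h_fin h_sum
        (fun y a w h => helper88.ff_ordDifferential_D_of_zero (xJ N) hj y a w h)
        (fun y w h => helper88.ff_ordDifferential_D_of_pole (xJ N) hj y w h)
        B hB ω hω Dv hD)
    hfinrank hunr hcount1728 hcount0 hcountinf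
    (helper37.card_quotient_Gamma0 N)
    (helper27.two_mul_card_orbits_S N)
    (helper27.three_mul_card_orbits_ST N)
    (helper83.card_orbits_T N)
    (fun σ τ h => helper18.euler_char_bound σ τ h)

end Fermat.Agent.S24.helper80
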