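import Mathlib
import Fermat.Statements.S24
import Fermat.Agent.S24.helper80_Final
import Fermat.Agent.S24.helper75_FFCore

/-!
# S24 final assembly (helper80), third stage

`genus_eq_genusFormula_of_analytic`: the S24 statement with every function-field input
discharged.  The remaining hypotheses are the analytic inputs for `j = xJ N`: the degree of
`F / Kbar(j)` and the description of the fibres of `j` over `0`, `1728`, `∞` and over the other
points.
-/

set_option autoImplicit false

namespace Fermat.Agent.S24.helper80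

open AlgebraicCurve KaehlerDifferential IntermediateField
open scoped MatrixGroups
open CongruenceSubgroup

/-- The S24 statement from the analytic inputs only. -/
theorem genus_eq_genusFormula_of_analytic (N : ℕ) [NeZero N]
    [AlgebraicCurve.HasCanonicalDivisor (K := AlgebraicClosure ℚ)
      (F := ↥(ModularCurve.modularFunctionFieldBar N))]
    -- AN-degree
    (hfd : FiniteDimensional (AlgebraicClosure ℚ)⟮xJ N⟯ (FN N))
    (hfinrank : Module.finrank (AlgebraicClosure ℚ)⟮xJ N⟯ (FN N)
      = Nat.card (SL(2, ℤ) ⧸ Gamma0 N))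
    -- AN-embed
    (hunr : ∀ (a : AlgebraicClosure ℚ), a ≠ 0 → a ≠ 1728 →
      ∀ (w : Place (AlgebraicClosure ℚ) (FN N)),
      0 < w.ord (xJ N - algebraMap (AlgebraicClosure ℚ) (FN N) a) →
      w.ord (xJ N - algebraMap (AlgebraicClosure ℚ) (FN N) a) = 1)
    (hcount1728 : Nat.card {w : Place (AlgebraicClosure ℚ) (FN N) //
        0 < w.ord (xJ N - algebraMap (AlgebraicClosure ℚ) (FN N) 1728)}
      = Nat.card (MulAction.orbitRel.Quotient (Subgroup.zpowers ModularGroup.S)
          (SL(2, ℤ) ⧸ Gamma0 N)))
    (hcount0 : Nat.card {w : Place (AlgebraicClosure ℚ) (FN N) //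
        0 < w.ord (xJ N - algebraMap (AlgebraicClosure ℚ) (FN N) 0)}
      = Nat.card (MulAction.orbitRel.Quotient
          (Subgroup.zpowers (ModularGroup.S * ModularGroup.T)) (SL(2, ℤ) ⧸ Gamma0 N)))
    (hcountinf : Nat.card {w : Place (AlgebraicClosure ℚ) (FN N) // w.ord (xJ N) < 0}
      = Nat.card (MulAction.orbitRel.Quotient (Subgroup.zpowers ModularGroup.T)
          (SL(2, ℤ) ⧸ Gamma0 N))) :
    (AlgebraicCurve.genus (AlgebraicClosure ℚ) ↥(ModularCurve.modularFunctionFieldBar N) : ℚ)
      = ModularCurve.genusFormula N :=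
  genus_eq_genusFormula_of_an N hfd hfinrank
    (fun y hy _ => helper75.ff_finite_zeros y hy)
    (fun y hy _ => helper75.ff_sum_ord_zeros y hy)
    hunr hcount1728 hcount0 hcountinf

end Fermat.Agent.S24.helper80
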