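import Mathlib

/-!
# S24 / AN-degree: from degree bounds on a generating algebra to the degree of the field

Generic field theory.  `F = K(s_i)` is a finitely generated field over `K` (characteristic `0`),
`x ∈ R = K[s_i]`, and every element of `R` is a root of a nonzero polynomial of degree `≤ n`
over `K(x)`.  Then `F / K(x)` is finite of degree `≤ n`.
-/

set_option autoImplicit false

open Polynomial IntermediateField

namespace Fermat.Agent.S24.helper17

section

variable {K F : Type*} [Field K] [Field F] [Algebra K F]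

/-- polynomial expressions in `x` lie in every subalgebra containing `x`. -/
theorem aeval_mem_of_mem (R : Subalgebra K F) {x : F} (hx : x ∈ R) (q : K[X]) :
    aeval x q ∈ R := by
  have h : Algebra.adjoin K {x} ≤ R := Algebra.adjoin_le (by simpa using hx)
  exact h (Polynomial.aeval_mem_adjoin_singleton K x)

/-- Every element of the `K(x)`-algebra generated by `s` becomes an element of `R = K[s]` after
multiplication by a nonzero polynomial in `x`. -/
theorem exists_denominator (x : F) (S : Set F) (hx : x ∈ Algebra.adjoin K S) (α : F)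
    (hα : α ∈ Algebra.adjoin K⟮x⟯ S) :
    ∃ q : K[X], aeval x q ≠ 0 ∧ aeval x q * α ∈ Algebra.adjoin K S := by
  induction hα using Algebra.adjoin_induction with
  | mem y hy =>
    exact ⟨1, by simp, by simpa using Algebra.subset_adjoin hy⟩
  | algebraMap c =>
    obtain ⟨r, q, hc⟩ := (IntermediateField.mem_adjoin_simple_iff K (c : F)).mp c.2
    by_cases hq : aeval x q = 0
    · refine ⟨1, by simp, ?_⟩
      have : algebraMap K⟮x⟯ F c = 0 := by
        change (c : F) = 0
        rw [hc, hq, div_zero]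
      rw [this, mul_zero]
      exact zero_mem _
    · refine ⟨q, hq, ?_⟩
      have : aeval x q * algebraMap K⟮x⟯ F c = aeval x r := by
        change aeval x q * (c : F) = aeval x r
        rw [hc]
        field_simp
      rw [this]
      exact aeval_mem_of_mem _ hx r
  | add y z _ _ hy hz =>
    obtain ⟨q₁, h₁, m₁⟩ := hy
    obtain ⟨q₂, h₂, m₂⟩ := hz
    refine ⟨q₁ * q₂, by simp [h₁, h₂], ?_⟩
    have : aeval x (q₁ * q₂) * (y + z)
        = aeval x q₂ * (aeval x q₁ * y) + aeval x q₁ * (aeval x q₂ * z) := by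
      rw [map_mul]
      ring
    rw [this]
    exact add_mem (mul_mem (aeval_mem_of_mem _ hx q₂) m₁) (mul_mem (aeval_mem_of_mem _ hx q₁) m₂)
  | mul y z _ _ hy hz =>
    obtain ⟨q₁, h₁, m₁⟩ := hy
    obtain ⟨q₂, h₂, m₂⟩ := hz
    refine ⟨q₁ * q₂, by simp [h₁, h₂], ?_⟩
    have : aeval x (q₁ * q₂) * (y * z) = (aeval x q₁ * y) * (aeval x q₂ * z) := by
      rw [map_mul]
      ring
    rw [this]
    exact mul_mem m₁ m₂

/-- **Degree bound.**  If `F = K(s)` with `s` finite, `x ∈ K[s]` and every element of `K[s]` is a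
root of a nonzero polynomial of degree `≤ n` over `K(x)`, then `[F : K(x)] ≤ n`. -/
theorem finrank_le_of_forall_degree_le [CharZero K] (x : F) {ι : Type*} [Finite ι] (s : ι → F)
    (hgen : IntermediateField.adjoin K (Set.range s) = ⊤)
    (hx : x ∈ Algebra.adjoin K (Set.range s)) (n : ℕ)
    (hdeg : ∀ r ∈ Algebra.adjoin K (Set.range s),
      ∃ Φ : Polynomial K⟮x⟯, Φ ≠ 0 ∧ Φ.natDegree ≤ n ∧ Polynomial.aeval r Φ = 0) :
    FiniteDimensional K⟮x⟯ F ∧ Module.finrank K⟮x⟯ F ≤ n := by
  classical
  have halg : ∀ y ∈ Set.range s, IsAlgebraic K⟮x⟯ y := by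
    intro y hy
    obtain ⟨Φ, h0, -, h⟩ := hdeg y (Algebra.subset_adjoin hy)
    exact ⟨Φ, h0, h⟩
  -- `F` is generated by `s` over `K(x)`
  have htop : IntermediateField.adjoin K⟮x⟯ (Set.range s) = ⊤ := by
    rw [eq_top_iff]
    intro y _
    have h1 : IntermediateField.adjoin K (Set.range s) ≤
        (IntermediateField.adjoin K⟮x⟯ (Set.range s)).restrictScalars K := by
      rw [IntermediateField.adjoin_le_iff]
      intro z hz
      exact IntermediateField.subset_adjoin K⟮x⟯ _ hz
    have h2 : y ∈ IntermediateField.adjoin K (Set.range s) := by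
      rw [hgen]
      exact IntermediateField.mem_top
    exact h1 h2
  -- finiteness
  have : Finite (Set.range s) := Set.finite_range s
  have hfd0 : FiniteDimensional K⟮x⟯ (IntermediateField.adjoin K⟮x⟯ (Set.range s)) :=
    IntermediateField.finiteDimensional_adjoin fun y hy => (halg y hy).isIntegral
  have hfd : FiniteDimensional K⟮x⟯ F := by
    rw [htop] at hfd0
    exact Module.Finite.equiv (IntermediateField.topEquiv (F := K⟮x⟯) (E := F)).toLinearEquiv
  refine ⟨hfd, ?_⟩
  -- the algebra generated over `K(x)` is everything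
  have hA : Algebra.adjoin K⟮x⟯ (Set.range s) = ⊤ := by
    rw [← IntermediateField.adjoin_toSubalgebra_of_isAlgebraic halg, htop]
    rfl
  -- primitive element
  have : CharZero F := charZero_of_injective_algebraMap (algebraMap K F).injective
  have : CharZero K⟮x⟯ := charZero_of_injective_algebraMap (algebraMap K K⟮x⟯).injective
  obtain ⟨α, hα⟩ := Field.exists_primitive_element K⟮x⟯ F
  obtain ⟨q, hq0, hqα⟩ := exists_denominator x (Set.range s) hx α (by rw [hA]; trivial)
  obtain ⟨Φ, hΦ0, hΦn, hΦ⟩ := hdeg _ hqα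
  set r : F := aeval x q * α with hr
  -- `r` is also a primitive element
  have hbmem : aeval x q ∈ K⟮x⟯ := by
    rw [IntermediateField.mem_adjoin_simple_iff]
    exact ⟨q, 1, by simp⟩
  have hαr : α ∈ K⟮x⟯⟮r⟯ := by
    have h1 : r ∈ K⟮x⟯⟮r⟯ := IntermediateField.mem_adjoin_simple_self _ r
    have h2 : (aeval x q)⁻¹ ∈ K⟮x⟯⟮r⟯ := by
      have : (aeval x q)⁻¹ = algebraMap K⟮x⟯ F (⟨aeval x q, hbmem⟩⁻¹) := by
        rw [map_inv₀]
        rfl
      rw [this]
      exact IntermediateField.algebraMap_mem _ _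
    have h3 : α = (aeval x q)⁻¹ * r := by
      rw [hr]
      field_simp
    rw [h3]
    exact mul_mem h2 h1
  have hr_top : K⟮x⟯⟮r⟯ = ⊤ := by
    rw [eq_top_iff, ← hα, IntermediateField.adjoin_simple_le_iff]
    exact hαr
  have hralg : IsAlgebraic K⟮x⟯ r := ⟨Φ, hΦ0, hΦ⟩
  have hrint : IsIntegral K⟮x⟯ r := hralg.isIntegral
  calc Module.finrank K⟮x⟯ F
      = Module.finrank K⟮x⟯ (⊤ : IntermediateField K⟮x⟯ F) := IntermediateField.finrank_top'.symm
    _ = Module.finrank K⟮x⟯ K⟮x⟯⟮r⟯ := by rw [hr_top]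
    _ = (minpoly K⟮x⟯ r).natDegree := IntermediateField.adjoin.finrank hrint
    _ ≤ Φ.natDegree := Polynomial.natDegree_le_natDegree (minpoly.degree_le_of_ne_zero _ _ hΦ0 hΦ)
    _ ≤ n := hΦn

end

end Fermat.Agent.S24.helper17
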