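import Mathlib
import Fermat.Agent.S24.helper37_Cusp
import Fermat.Agent.S24.helper37_IndexGamma0
import Fermat.Agent.S24.helper75_FFCore2
import Fermat.Agent.S24.helper77_Transc
import Fermat.Agent.S24.helper80_LocalEmb

/-!
# S24 / AN-cusp: the number of places over `j = ∞` (`an_count_infty`), modulo AN-degree
-/

set_option autoImplicit false

namespace Fermat.Agent.S24.helper37

open AlgebraicCurve IntermediateField CongruenceSubgroup
open scoped MatrixGroups
open Fermat.Agent.S24

/-- `Dinf` hypothesis of `helper80.genus_eq_genusFormula_of_led`. -/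
theorem exists_cuspData (N : ℕ) [NeZero N] :
    ∃ D : LocalEmbData (iotaC : Kbar →+* ℂ) (xJ N)⁻¹ (X0 N),
      D.π = MulAction.toPerm ModularGroup.T
        ∨ D.π = (MulAction.toPerm ModularGroup.T : Equiv.Perm (X0 N))⁻¹ :=
  ⟨cuspData N, Or.inl rfl⟩

/-- **AN-cusp**: the places of `F_N` over `j = ∞` are in bijection with the `T`-orbits on
`SL(2,ℤ)/Γ₀(N)` (given the degree `[F_N : ℚ̄(j)] = [SL(2,ℤ) : Γ₀(N)]`). -/
theorem an_count_infty_of (N : ℕ) [NeZero N]
    (hfd : FiniteDimensional Kbar⟮xJ N⟯ (FN N))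
    (hfinrank : Module.finrank Kbar⟮xJ N⟯ (FN N) = Nat.card (SL(2, ℤ) ⧸ Gamma0 N)) :
    Nat.card {w : Place Kbar (FN N) // w.ord (xJ N) < 0}
      = Nat.card (MulAction.orbitRel.Quotient (Subgroup.zpowers ModularGroup.T)
          (SL(2, ℤ) ⧸ Gamma0 N)) := by
  have hj : Transcendental Kbar (xJ N) := helper77.an_transcendental N
  have : Finite (X0 N) := finite_quotient_Gamma0 N
  have hsep := fun (w : Place Kbar (FN N)) (s : Finset (Place Kbar (FN N))) (hw : w ∉ s) =>
    helper75.ff_exists_separating (xJ N) hj w s hw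
  rw [helper80.led_card_poles (xJ N) hj (cuspData N) hfinrank.symm hsep]
  exact helper80.card_orbits_of_eq_toPerm _ ModularGroup.T (Or.inl rfl)

end Fermat.Agent.S24.helper37
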