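import Mathlib
import Fermat.Statements.S24
import Fermat.Agent.S24.helper80_Final2
import Fermat.Agent.S24.helper80_LocalEmb

/-!
# S24 final assembly (helper80), fourth stage: from local embedding data

`genus_eq_genusFormula_of_led`: the S24 statement from

* the degree `[F : Kbar(j)] = #(SL(2,Z) / Gamma0(N))` (AN-degree),
* separation of places (FF-SEP),
* local embedding data (`LocalEmbData`, see `Defs.lean`) for the fibres of `j = xJ N`:
  over every `a ≠ 0, 1728` with `E = 1`, over `1728` with rotation permutation induced by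
  `S^{±1}`, over `0` with rotation permutation induced by `(S*T)^{±1}`, and at the cusps
  (`y = j⁻¹`) with rotation permutation induced by `T^{±1}`.
-/

set_option autoImplicit false

namespace Fermat.Agent.S24.helper80

open AlgebraicCurve KaehlerDifferential IntermediateField
open scoped MatrixGroups
open CongruenceSubgroup

/-- The S24 statement from the degree, separation of places and local embedding data. -/
theorem genus_eq_genusFormula_of_led (N : ℕ) [NeZero N]
    [AlgebraicCurve.HasCanonicalDivisor (K := AlgebraicClosure ℚ)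
      (F := ↥(ModularCurve.modularFunctionFieldBar N))]
    -- AN-degree
    (hfd : FiniteDimensional (AlgebraicClosure ℚ)⟮xJ N⟯ (FN N))
    (hfinrank : Module.finrank (AlgebraicClosure ℚ)⟮xJ N⟯ (FN N)
      = Nat.card (SL(2, ℤ) ⧸ Gamma0 N))
    -- FF-SEP
    (hsep : ∀ (w : Place (AlgebraicClosure ℚ) (FN N))
      (s : Finset (Place (AlgebraicClosure ℚ) (FN N))), w ∉ s →
      ∃ f : FN N, 0 < w.ord f ∧ ∀ v ∈ s, v.ord f = 0)
    -- AN-embed: local embedding data
    (Dgen : ∀ a : AlgebraicClosure ℚ, a ≠ 0 → a ≠ 1728 →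
      ∃ D : LocalEmbData (iotaC : Kbar →+* ℂ)
        (xJ N - algebraMap (AlgebraicClosure ℚ) (FN N) a) (X0 N), D.E = 1)
    (D1728 : ∃ D : LocalEmbData (iotaC : Kbar →+* ℂ)
        (xJ N - algebraMap (AlgebraicClosure ℚ) (FN N) 1728) (X0 N),
      D.π = MulAction.toPerm ModularGroup.S
        ∨ D.π = (MulAction.toPerm ModularGroup.S : Equiv.Perm (X0 N))⁻¹)
    (D0 : ∃ D : LocalEmbData (iotaC : Kbar →+* ℂ)
        (xJ N - algebraMap (AlgebraicClosure ℚ) (FN N) 0) (X0 N),
      D.π = MulAction.toPerm (ModularGroup.S * ModularGroup.T)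
        ∨ D.π = (MulAction.toPerm (ModularGroup.S * ModularGroup.T) : Equiv.Perm (X0 N))⁻¹)
    (Dinf : ∃ D : LocalEmbData (iotaC : Kbar →+* ℂ) (xJ N)⁻¹ (X0 N),
      D.π = MulAction.toPerm ModularGroup.T
        ∨ D.π = (MulAction.toPerm ModularGroup.T : Equiv.Perm (X0 N))⁻¹) :
    (AlgebraicCurve.genus (AlgebraicClosure ℚ) ↥(ModularCurve.modularFunctionFieldBar N) : ℚ)
      = ModularCurve.genusFormula N := by
  have hj : Transcendental (AlgebraicClosure ℚ) (xJ N) := helper77.an_transcendental N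
  haveI : Finite (X0 N) := helper37.finite_quotient_Gamma0 N
  have hcard : Nat.card (X0 N) = Module.finrank (AlgebraicClosure ℚ)⟮xJ N⟯ (FN N) :=
    hfinrank.symm
  refine genus_eq_genusFormula_of_analytic N hfd hfinrank ?_ ?_ ?_ ?_
  · intro a h0 h1 w hw
    obtain ⟨D, hE⟩ := Dgen a h0 h1
    exact (led_card_zeros_sub (xJ N) hj a D hcard hsep).2 hE w hw
  · obtain ⟨D, hπ⟩ := D1728
    rw [(led_card_zeros_sub (xJ N) hj 1728 D hcard hsep).1]
    exact card_orbits_of_eq_toPerm D.π ModularGroup.S hπ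
  · obtain ⟨D, hπ⟩ := D0
    rw [(led_card_zeros_sub (xJ N) hj 0 D hcard hsep).1]
    exact card_orbits_of_eq_toPerm D.π (ModularGroup.S * ModularGroup.T) hπ
  · obtain ⟨D, hπ⟩ := Dinf
    rw [led_card_poles (xJ N) hj D hcard hsep]
    exact card_orbits_of_eq_toPerm D.π ModularGroup.T hπ

end Fermat.Agent.S24.helper80
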