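import Mathlib
import Fermat.Statements.S24
import Fermat.Agent.S24.helper80_Final2
import Fermat.Agent.S24.helper80_LocalEmb
import Fermat.Agent.S24.helper82_Separating
import Fermat.Agent.S24.helper37_Cusp

/-!
# S24 final assembly (helper80), fifth stage: the cusps are done

`genus_eq_genusFormula_of_interior`: the S24 statement from the degree `[F : Kbar(j)]` and the
description of the fibres of `j = xJ N` over the interior points (`a ≠ 0, 1728`, `a = 1728`,
`a = 0`).  The fibre over `∞` is computed here from the landed cusp data `helper37.cuspData`.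
-/

set_option autoImplicit false

namespace Fermat.Agent.S24.helper80

open AlgebraicCurve KaehlerDifferential IntermediateField
open scoped MatrixGroups
open CongruenceSubgroup

/-- The number of poles of `j` (cusps), given the degree of `F / Kbar(j)`. -/
theorem card_poles_xJ (N : ℕ) [NeZero N]
    (hfd : FiniteDimensional (AlgebraicClosure ℚ)⟮xJ N⟯ (FN N))
    (hfinrank : Module.finrank (AlgebraicClosure ℚ)⟮xJ N⟯ (FN N)
      = Nat.card (SL(2, ℤ) ⧸ Gamma0 N)) :
    Nat.card {w : Place (AlgebraicClosure ℚ) (FN N) // w.ord (xJ N) < 0}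
      = Nat.card (MulAction.orbitRel.Quotient (Subgroup.zpowers ModularGroup.T)
          (SL(2, ℤ) ⧸ Gamma0 N)) := by
  have hj : Transcendental (AlgebraicClosure ℚ) (xJ N) := helper77.an_transcendental N
  haveI : Finite (X0 N) := helper37.finite_quotient_Gamma0 N
  have hcard : Nat.card (X0 N) = Module.finrank (AlgebraicClosure ℚ)⟮xJ N⟯ (FN N) :=
    hfinrank.symm
  rw [led_card_poles (xJ N) hj (helper37.cuspData N) hcard
    (fun w s hw => helper82.ff_exists_separating (xJ N) hj w s hw)]
  exact card_orbits_of_eq_toPerm _ ModularGroup.T (Or.inl rfl)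

/-- The S24 statement from the degree and the interior fibres. -/
theorem genus_eq_genusFormula_of_interior (N : ℕ) [NeZero N]
    [AlgebraicCurve.HasCanonicalDivisor (K := AlgebraicClosure ℚ)
      (F := ↥(ModularCurve.modularFunctionFieldBar N))]
    -- AN-degree
    (hfd : FiniteDimensional (AlgebraicClosure ℚ)⟮xJ N⟯ (FN N))
    (hfinrank : Module.finrank (AlgebraicClosure ℚ)⟮xJ N⟯ (FN N)
      = Nat.card (SL(2, ℤ) ⧸ Gamma0 N))
    -- AN-embed, interior points
    (hunr : ∀ (a : AlgebraicClosure ℚ), a ≠ 0 → a ≠ 1728 →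
      ∀ (w : Place (AlgebraicClosure ℚ) (FN N)),
      0 < w.ord (xJ N - algebraMap (AlgebraicClosure ℚ) (FN N) a) →
      w.ord (xJ N - algebraMap (AlgebraicClosure ℚ) (FN N) a) = 1)
    (hcount1728 : Nat.card {w : Place (AlgebraicClosure ℚ) (FN N) //
        0 < w.ord (xJ N - algebraMap (AlgebraicClosure ℚ) (FN N) 1728)}
      = Nat.card (MulAction.orbitRel.Quotient (Subgroup.zpowers ModularGroup.S)
          (SL(2, ℤ) ⧸ Gamma0 N)))
    (hcount0 : Nat.card {w : Place (AlgebraicClosure ℚ) (FN N) //
        0 < w.ord (xJ N - algebraMap (AlgebraicClosure ℚ) (FN N) 0)}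
      = Nat.card (MulAction.orbitRel.Quotient
          (Subgroup.zpowers (ModularGroup.S * ModularGroup.T)) (SL(2, ℤ) ⧸ Gamma0 N))) :
    (AlgebraicCurve.genus (AlgebraicClosure ℚ) ↥(ModularCurve.modularFunctionFieldBar N) : ℚ)
      = ModularCurve.genusFormula N :=
  genus_eq_genusFormula_of_analytic N hfd hfinrank hunr hcount1728 hcount0
    (card_poles_xJ N hfd hfinrank)

end Fermat.Agent.S24.helper80
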