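import Mathlib
import Fermat.Agent.S24.helper88_EssFinite
import Fermat.Agent.S24.helper82_FFBasic
import Fermat.Agent.S24.helper43_LocalCount

/-!
# S24, FF-core (zero count): places over `x = 0` and the fundamental identity

For a function field `F / K` of one variable (`K` algebraically closed of characteristic zero,
`x ∈ F` transcendental, `F` finite over `K(x)`):

* `ff_finite_zeros` : the set of zeros of `x` is finite;
* `ff_sum_ord_zeros` : `∑_{w zero of x} ord_w x = [F : K(x)]`.

Route: `B` = integral closure of `K[x]` in `F` is a Dedekind domain, finite over `K[x]`; places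
with `x ∈ 𝔪_w` correspond bijectively to the primes of `B` over `(x)`; `ord_w x` is the
ramification index and the inertia degree is `1`; conclude by `Ideal.sum_ramification_inertia`.
-/

set_option autoImplicit false
set_option linter.deprecated false

namespace Fermat.Agent.S24.helper88

open AlgebraicCurve IntermediateField IsDedekindDomain WithZero
open scoped IntermediateField.algebraAdjoinAdjoin

section Dedekind

variable {K F : Type*} [Field K] [Field F] [Algebra K F]
variable {B : Type*} [CommRing B] [IsDedekindDomain B] [Algebra K B] [Algebra B F]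
  [IsScalarTower K B F] [IsFractionRing B F]

theorem valuation_algebraMap_eq_one (v : HeightOneSpectrum B) {c : K} (hc : c ≠ 0) :
    v.valuation F (algebraMap K F c) = 1 := by
  rw [IsScalarTower.algebraMap_apply K B F, HeightOneSpectrum.valuation_of_algebraMap,
    HeightOneSpectrum.intValuation_eq_one_iff]
  intro hmem
  have hu : IsUnit (algebraMap K B c) := (IsUnit.mk0 c hc).map _
  exact v.isPrime.ne_top (Ideal.eq_top_of_isUnit_mem _ hmem hu)

theorem valuation_nontrivial' (v : HeightOneSpectrum B) :
    ∃ x : F, v.valuation F x ≠ 0 ∧ v.valuation F x ≠ 1 := by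
  obtain ⟨π, hπ⟩ := v.valuation_exists_uniformizer F
  refine ⟨π, ?_, ?_⟩
  · rw [hπ]; exact exp_ne_zero
  · rw [hπ, ← exp_zero]
    intro h
    have := exp_injective h
    omega

/-- The place of `F / K` attached to a nonzero prime of a Dedekind domain `B ⊆ F` containing
`K` with fraction field `F`. -/
noncomputable def placeOfPrime (v : HeightOneSpectrum B) : Place K F :=
  helper43.placeOf (v.valuation F) (fun _ hc => valuation_algebraMap_eq_one v hc)
    (valuation_nontrivial' v)

theorem placeOfPrime_toValuationSubring (v : HeightOneSpectrum B) :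
    (placeOfPrime (K := K) (F := F) v).toValuationSubring = (v.valuation F).valuationSubring :=
  rfl

/-- The order function of `placeOfPrime v` is the (additive) `v`-adic valuation. -/
theorem placeOfPrime_ord (v : HeightOneSpectrum B) (f : F) :
    (placeOfPrime (K := K) (F := F) v).ord f = -log (v.valuation F f) := by
  rcases eq_or_ne f 0 with rfl | hf
  · simp
  obtain ⟨d, hd, -, hall⟩ := helper43.exists_val_eq_exp_ord (K := K) (v.valuation F)
    (fun _ hc => valuation_algebraMap_eq_one v hc) (valuation_nontrivial' v)
  obtain ⟨π, hπ⟩ := v.valuation_exists_uniformizer F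
  have hπ0 : π ≠ 0 := by
    rintro rfl
    rw [map_zero] at hπ
    exact exp_ne_zero hπ.symm
  have h1 := hall π hπ0
  rw [hπ, exp_inj] at h1
  have hd1 : d = 1 := by
    have h2 : d * (helper43.placeOf (K := K) (v.valuation F)
        (fun _ hc => valuation_algebraMap_eq_one v hc) (valuation_nontrivial' v)).ord π = 1 := by
      linarith
    have h3 : d ∣ 1 := Dvd.intro _ h2
    have h4 := Int.eq_one_or_neg_one_of_mul_eq_one h2
    omega
  have h5 := hall f hf
  rw [hd1, one_mul] at h5
  change (helper43.placeOf (K := K) (v.valuation F)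
        (fun _ hc => valuation_algebraMap_eq_one v hc) (valuation_nontrivial' v)).ord f = _
  rw [h5, log_exp, neg_neg]

theorem placeOfPrime_injective :
    Function.Injective (placeOfPrime (K := K) (F := F) (B := B)) := by
  intro v v' h
  have h1 : (v.valuation F).valuationSubring = (v'.valuation F).valuationSubring := by
    rw [← placeOfPrime_toValuationSubring (K := K), ← placeOfPrime_toValuationSubring (K := K), h]
  exact HeightOneSpectrum.eq_of_valuation_isEquiv_valuation
    ((Valuation.isEquiv_iff_valuationSubring _ _).mpr h1)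

/-- membership in the prime is detected by the order at the attached place. -/
theorem placeOfPrime_ord_pos_iff (v : HeightOneSpectrum B) (b : B) :
    0 < (placeOfPrime (K := K) (F := F) v).ord (algebraMap B F b) ↔ b ∈ v.asIdeal ∧ b ≠ 0 := by
  rw [placeOfPrime_ord, ← v.valuation_lt_one_iff_mem (K := F)]
  constructor
  · intro h
    have hb : b ≠ 0 := by
      rintro rfl
      simp at h
    have hv0 : v.valuation F (algebraMap B F b) ≠ 0 :=
      (Valuation.ne_zero_iff _).mpr (by
        intro h0
        exact hb ((IsFractionRing.injective B F) (by rw [h0, map_zero])))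
    refine ⟨?_, hb⟩
    rw [← exp_zero, ← log_lt_iff_lt_exp hv0]
    omega
  · rintro ⟨h, hb⟩
    have hv0 : v.valuation F (algebraMap B F b) ≠ 0 :=
      (Valuation.ne_zero_iff _).mpr (by
        intro h0
        exact hb ((IsFractionRing.injective B F) (by rw [h0, map_zero])))
    rw [← exp_zero, ← log_lt_iff_lt_exp hv0] at h
    omega

theorem placeOfPrime_ord_nonneg (v : HeightOneSpectrum B) (b : B) :
    0 ≤ (placeOfPrime (K := K) (F := F) v).ord (algebraMap B F b) := by
  rw [placeOfPrime_ord]
  rcases eq_or_ne b 0 with rfl | hb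
  · simp
  have hv0 : v.valuation F (algebraMap B F b) ≠ 0 :=
    (Valuation.ne_zero_iff _).mpr (by
      intro h0
      exact hb ((IsFractionRing.injective B F) (by rw [h0, map_zero])))
  have h1 : v.valuation F (algebraMap B F b) ≤ 1 := v.valuation_le_one b
  rw [← exp_zero, ← log_le_iff_le_exp hv0] at h1
  omega

/-- `ord` at the place of a prime `w` over `v = (a)` of the generator `a` is the ramification
index. -/
theorem placeOfPrime_ord_eq_ramificationIdx {A : Type*} [CommRing A] [IsDedekindDomain A]
    [Algebra A B] [Module.IsTorsionFree A B]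
    (v : HeightOneSpectrum A) (w : HeightOneSpectrum B) [w.asIdeal.LiesOver v.asIdeal]
    (a : A) (ha : a ≠ 0) (hv : v.asIdeal = Ideal.span {a}) :
    (placeOfPrime (K := K) (F := F) w).ord (algebraMap B F (algebraMap A B a)) =
      (v.asIdeal.ramificationIdx' w.asIdeal : ℤ) := by
  rw [placeOfPrime_ord, HeightOneSpectrum.valuation_of_algebraMap,
    ← HeightOneSpectrum.intValuation_liesOver v w a, v.intValuation_singleton ha hv,
    ← exp_nsmul, log_exp]
  simp

end Dedekind

section Inertia

theorem inertiaDeg'_eq_one_of_forall {R S : Type*} [CommRing R] [CommRing S] [Algebra R S]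
    (p : Ideal R) [hp : p.IsMaximal] (P : Ideal S) [hP : P.IsPrime] [P.LiesOver p]
    (h : ∀ s : S, ∃ r : R, s - algebraMap R S r ∈ P) : Ideal.inertiaDeg' p P = 1 := by
  rw [Ideal.inertiaDeg'_algebraMap]
  let := Ideal.Quotient.field p
  have hnt : Nontrivial (S ⧸ P) := Ideal.Quotient.nontrivial_iff.mpr hP.ne_top
  rw [finrank_eq_one_iff_of_nonzero' (1 : S ⧸ P) one_ne_zero]
  intro w
  obtain ⟨s, rfl⟩ := Ideal.Quotient.mk_surjective w
  obtain ⟨r, hr⟩ := h s
  refine ⟨Ideal.Quotient.mk p r, ?_⟩
  rw [Algebra.smul_def, mul_one, Ideal.Quotient.algebraMap_mk_of_liesOver]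
  exact (Ideal.Quotient.eq.mpr hr).symm

end Inertia

section Main

variable {K F : Type*} [Field K] [Field F] [Algebra K F]

/-- `(x)` is a maximal ideal of `K[x]`. -/
theorem span_gen_isMaximal (x : F) (hx : Transcendental K x) :
    (Ideal.span {(⟨x, Algebra.self_mem_adjoin_singleton K x⟩ : Algebra.adjoin K {x})}).IsMaximal := by
  have := isPrincipalIdealRing_adjoin x hx
  apply PrincipalIdealRing.isMaximal_of_irreducible
  have h1 : Irreducible (Polynomial.X : Polynomial K) := Polynomial.irreducible_X
  have h2 : (Polynomial.algEquivOfTranscendental K x hx) Polynomial.X =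
      (⟨x, Algebra.self_mem_adjoin_singleton K x⟩ : Algebra.adjoin K {x}) := by
    simp [Polynomial.algEquivOfTranscendental]
  rw [← h2]
  exact (MulEquiv.irreducible_iff (Polynomial.algEquivOfTranscendental K x hx)).mpr h1

theorem exists_zero_finset [IsAlgClosed K] [CharZero K] (x : F) (hx : Transcendental K x)
    [FiniteDimensional K⟮x⟯ F] :
    ∃ S : Finset (Place K F), (∀ w, w ∈ S ↔ 0 < w.ord x) ∧
      ∑ w ∈ S, w.ord x = (Module.finrank K⟮x⟯ F : ℤ) := by
  classical
  have hPIR := isPrincipalIdealRing_adjoin x hx
  have : CharZero F := charZero_of_injective_algebraMap (algebraMap K F).injective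
  have hB1 : IsDedekindDomain (integralClosure (Algebra.adjoin K {x}) F) :=
    integralClosure.isDedekindDomain (Algebra.adjoin K {x}) K⟮x⟯ F
  have hB2 : IsFractionRing (integralClosure (Algebra.adjoin K {x}) F) F :=
    integralClosure.isFractionRing_of_finite_extension K⟮x⟯ F
  have hB3 : Module.Finite (Algebra.adjoin K {x}) (integralClosure (Algebra.adjoin K {x}) F) :=
    IsIntegralClosure.finite (Algebra.adjoin K {x}) K⟮x⟯ F _
  have hx0 : x ≠ 0 := by
    rintro rfl
    exact hx isAlgebraic_zero
  have hpmax := span_gen_isMaximal x hx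
  set xA : Algebra.adjoin K {x} := ⟨x, Algebra.self_mem_adjoin_singleton K x⟩ with hxA
  have hxA0 : xA ≠ 0 := by
    intro h
    exact hx0 (congrArg Subtype.val h)
  set p : Ideal (Algebra.adjoin K {x}) := Ideal.span {xA} with hp
  have hp0 : p ≠ ⊥ := by
    rw [hp, Ne, Ideal.span_singleton_eq_bot]
    exact hxA0
  have hsum := Ideal.sum_ramification_inertia (R := Algebra.adjoin K {x})
    (integralClosure (Algebra.adjoin K {x}) F) K⟮x⟯ F hp0
  set T := IsDedekindDomain.primesOverFinset p (integralClosure (Algebra.adjoin K {x}) F) with hTdef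
  have hT : ∀ P ∈ T, P.IsPrime ∧ P.LiesOver p := fun P hP =>
    (IsDedekindDomain.mem_primesOverFinset_iff hp0 _).mp hP
  have hT0 : ∀ P ∈ T, P ≠ ⊥ := fun P hP => by
    have := (hT P hP).2
    exact Ideal.ne_bot_of_liesOver_of_ne_bot hp0 P
  -- the height one prime of `K[x]`
  let vA : HeightOneSpectrum (Algebra.adjoin K {x}) := ⟨p, hpmax.isPrime, hp0⟩
  -- the map from primes to places
  let Φ : {P // P ∈ T} → Place K F := fun P =>
    placeOfPrime (B := integralClosure (Algebra.adjoin K {x}) F)
      ⟨P.1, (hT P.1 P.2).1, hT0 P.1 P.2⟩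
  have hΦinj : Function.Injective Φ := by
    intro P Q h
    have := placeOfPrime_injective h
    exact Subtype.ext (congrArg HeightOneSpectrum.asIdeal this)
  have hΦord : ∀ P : {P // P ∈ T}, (Φ P).ord x = (p.ramificationIdx' P.1 : ℤ) := by
    intro P
    have : P.1.LiesOver p := (hT P.1 P.2).2
    exact placeOfPrime_ord_eq_ramificationIdx (K := K) (F := F) vA
      ⟨P.1, (hT P.1 P.2).1, hT0 P.1 P.2⟩ xA hxA0 rfl
  have hΦf : ∀ P : {P // P ∈ T}, p.inertiaDeg' P.1 = 1 := by
    intro P
    have : P.1.LiesOver p := (hT P.1 P.2).2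
    have : P.1.IsPrime := (hT P.1 P.2).1
    apply inertiaDeg'_eq_one_of_forall
    intro b
    obtain ⟨a, ha⟩ := helper82.ff_exists_residue x hx (Φ P) (b : F)
      (placeOfPrime_ord_nonneg _ b)
    refine ⟨algebraMap K (Algebra.adjoin K {x}) a, ?_⟩
    rcases ha with ha | ha
    · have h0 : b - algebraMap (Algebra.adjoin K {x}) (integralClosure (Algebra.adjoin K {x}) F)
          (algebraMap K (Algebra.adjoin K {x}) a) = 0 := by
        apply Subtype.ext
        show (b : F) - algebraMap K F a = 0
        exact sub_eq_zero.mpr ha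
      rw [h0]
      exact zero_mem _
    · exact ((placeOfPrime_ord_pos_iff (K := K) (F := F)
        (⟨P.1, (hT P.1 P.2).1, hT0 P.1 P.2⟩ :
          HeightOneSpectrum (integralClosure (Algebra.adjoin K {x}) F))
        (b - algebraMap (Algebra.adjoin K {x}) (integralClosure (Algebra.adjoin K {x}) F)
          (algebraMap K (Algebra.adjoin K {x}) a))).mp ha).1
  have hΦpos : ∀ P : {P // P ∈ T}, 0 < (Φ P).ord x := by
    intro P
    have : P.1.LiesOver p := (hT P.1 P.2).2
    rw [hΦord]
    have := Ideal.IsDedekindDomain.ramificationIdx'_ne_zero_of_liesOver P.1 hp0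
    exact_mod_cast Nat.pos_of_ne_zero this
  have hΦsurj : ∀ w : Place K F, 0 < w.ord x → ∃ P, Φ P = w := by
    intro w hw
    have hxO : x ∈ w.toValuationSubring := helper82.mem_of_ord_nonneg w hw.le
    -- the inclusion `g : B → O_w`
    let g : integralClosure (Algebra.adjoin K {x}) F →+* w.toValuationSubring :=
      { toFun := fun b => ⟨b.1, mem_of_mem_integralClosure x w hxO b.2⟩
        map_one' := rfl
        map_mul' := fun _ _ => rfl
        map_zero' := rfl
        map_add' := fun _ _ => rfl }
    have hg : ∀ b, ((g b : w.toValuationSubring) : F) = (b : F) := fun _ => rfl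
    set P : Ideal (integralClosure (Algebra.adjoin K {x}) F) :=
      (IsLocalRing.maximalIdeal w.toValuationSubring).comap g with hPdef
    have hPprime : P.IsPrime := Ideal.comap_isPrime _ _
    have hxP : algebraMap (Algebra.adjoin K {x}) (integralClosure (Algebra.adjoin K {x}) F) xA
        ∈ P := by
      rw [hPdef, Ideal.mem_comap]
      obtain ⟨y, hy, hym⟩ := helper82.mem_maximalIdeal_of_ord_pos w hw
      have : g (algebraMap (Algebra.adjoin K {x}) (integralClosure (Algebra.adjoin K {x}) F) xA)
          = y := Subtype.ext (by rw [hy]; rfl)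
      rw [this]
      exact hym
    have hPover : P.LiesOver p := by
      refine ⟨?_⟩
      have hle : p ≤ P.under (Algebra.adjoin K {x}) := by
        rw [hp, Ideal.span_le, Set.singleton_subset_iff]
        exact hxP
      have hne : P.under (Algebra.adjoin K {x}) ≠ ⊤ := by
        intro htop
        have h1 : (1 : Algebra.adjoin K {x}) ∈ P.under (Algebra.adjoin K {x}) := by
          rw [htop]; trivial
        rw [Ideal.under_def, Ideal.mem_comap, map_one] at h1
        exact hPprime.ne_top ((Ideal.eq_top_iff_one _).mpr h1)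
      exact hpmax.eq_of_le hne hle
    have hPT : P ∈ T := (IsDedekindDomain.mem_primesOverFinset_iff hp0 _).mpr ⟨hPprime, hPover⟩
    refine ⟨⟨P, hPT⟩, ?_⟩
    apply Place.ext
    have hdim : Ring.KrullDimLE 1 (Φ ⟨P, hPT⟩).toValuationSubring := inferInstance
    refine ValuationSubring.eq_of_le_of_ne_top (A := (Φ ⟨P, hPT⟩).toValuationSubring) ?_
      w.ne_top'
    intro z hz
    have hz' : (⟨P, (hT P hPT).1, hT0 P hPT⟩ :
        HeightOneSpectrum (integralClosure (Algebra.adjoin K {x}) F)).valuation F z ≤ 1 :=
      (Valuation.mem_valuationSubring_iff _ _).mp hz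
    obtain ⟨n, d, hnd⟩ := HeightOneSpectrum.exists_primeCompl_mul_eq_of_integer _ z hz'
    have hd : IsUnit (g d) := by
      by_contra h
      exact d.2 h
    have hzeq : z = ((g n * (hd.unit⁻¹ : (w.toValuationSubring)ˣ) : w.toValuationSubring) : F) := by
      have h1 : ((g d : w.toValuationSubring) : F) *
          (((hd.unit⁻¹ : (w.toValuationSubring)ˣ) : w.toValuationSubring) : F) = 1 := by
        have := congrArg Subtype.val (hd.mul_val_inv)
        exact this
      have h2 : algebraMap (integralClosure (Algebra.adjoin K {x}) F) F d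
          = ((g d : w.toValuationSubring) : F) := rfl
      have h3 : algebraMap (integralClosure (Algebra.adjoin K {x}) F) F n
          = ((g n : w.toValuationSubring) : F) := rfl
      rw [h2, h3] at hnd
      push_cast
      rw [← hnd, mul_assoc, h1, mul_one]
    rw [hzeq]
    exact (g n * (hd.unit⁻¹ : (w.toValuationSubring)ˣ) : w.toValuationSubring).2
  refine ⟨Finset.univ.image Φ, ?_, ?_⟩
  · intro w
    simp only [Finset.mem_image, Finset.mem_univ, true_and]
    constructor
    · rintro ⟨P, rfl⟩
      exact hΦpos P
    · exact hΦsurj w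
  · rw [Finset.sum_image (fun a _ b _ h => hΦinj h)]
    rw [← hsum, Nat.cast_sum, ← Finset.sum_attach T]
    rw [Finset.univ_eq_attach]
    refine Finset.sum_congr rfl fun P _ => ?_
    rw [hΦord, hΦf, mul_one]

/-- **FF-d (finiteness)**: a transcendental element has only finitely many zeros. -/
theorem ff_finite_zeros [IsAlgClosed K] [CharZero K] (x : F) (hx : Transcendental K x)
    [FiniteDimensional K⟮x⟯ F] : {w : Place K F | 0 < w.ord x}.Finite := by
  obtain ⟨S, hS, -⟩ := exists_zero_finset x hx
  exact S.finite_toSet.subset (fun w hw => (hS w).mpr hw)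

/-- **FF-d (zero count)**: the zeros of `x`, counted with multiplicity, are `[F : K(x)]` in
number. -/
theorem ff_sum_ord_zeros [IsAlgClosed K] [CharZero K] (x : F) (hx : Transcendental K x)
    [FiniteDimensional K⟮x⟯ F] :
    ∑ w ∈ (ff_finite_zeros x hx).toFinset, w.ord x = (Module.finrank K⟮x⟯ F : ℤ) := by
  obtain ⟨S, hS, hsum⟩ := exists_zero_finset x hx
  have : (ff_finite_zeros x hx).toFinset = S := by
    ext w
    rw [Set.Finite.mem_toFinset]
    exact (hS w).symm
  rw [this, hsum]

end Main

end Fermat.Agent.S24.helper88
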